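/-
S27 project, block (HENS), cell H5 NONSPECIAL (helper21).  Prefix `s27h_`, namespace `Fermat.Agent.S27`.

`Fb / k` a function field with a separating generator `x` over an algebraically closed field `k`
(ANY characteristic), `g` its Riemann genus (`hg`, `hg0` = helper13's `s27g_IsRGenus k Fb g` unfolded =
the `g` of `rt_exists_genus`).  Only Riemann's theorem (JT3/Riemann) is used: no differentials.

* `s27h_infinite_places`   : `Fb / k` has infinitely many places;
* `s27h_riemann_eq`        : `l(D) = deg D + 1 - g` for `deg D ≥ deg A₀ + g`;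
* `s27h_h1_antitone`       : `A ≤ B → l(B) - deg B ≤ l(A) - deg A`;
* `s27h_finite_jump`       : `l(D) = 1`, `deg D < g` ⟹ `l(D + P) = 1` for all but finitely many `P`;
* `s27h_listDiv`           : the divisor `P₁ + … + P_r` of a list of places;
* `s27h_nonspecial`        : **a reduced non-special effective divisor of degree `g` avoiding prescribed
                             finite sets**: `l = [P₁, …, P_g]`, pairwise distinct, `P_{j+1} ∉ bad {P₁..P_j}`,
                             `l(E) = 1` for `E = Σ P_i`, and `l(m E) = (m-1) g + 1` for `m ≥ 1`.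
-/
import Mathlib
import Fermat.Agent.JT3.Riemann.Main

set_option autoImplicit false
set_option linter.unusedSectionVars false
set_option linter.unusedVariables false
set_option linter.style.haveILetI false

namespace Fermat.Agent.S27

open AlgebraicCurve IntermediateField Polynomial Fermat.Agent.JT3 Fermat.Agent.S24

universe u v
variable {k : Type u} {Fb : Type v} [Field k] [Field Fb] [Algebra k Fb]

section main

variable [IsAlgClosed k] {x : Fb} (hx : rt_IsSepGen k x)

include hx

/-! ### infinitely many places -/

/-- every `x - c` has a zero. -/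
theorem s27h_exists_zero (c : k) : ∃ v : Place k Fb, 0 < v.ord (x - algebraMap k Fb c) := by
  classical
  have hz : Transcendental k (x - algebraMap k Fb c) := (hx.sub_const c).1
  have hdeg := rt_degree_zeroDiv hx hz
  haveI : FiniteDimensional k⟮x - algebraMap k Fb c⟯ Fb := (hx.sub_const c).2.1
  have hpos : 0 < Module.finrank k⟮x - algebraMap k Fb c⟯ Fb := Module.finrank_pos
  by_contra hcon
  push Not at hcon
  have h0 : rt_zeroDiv hx (x - algebraMap k Fb c) = 0 := by
    ext v
    rw [rt_zeroDiv_apply, Finsupp.zero_apply]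
    exact max_eq_right (hcon v)
  rw [h0, map_zero] at hdeg
  have : (0 : ℤ) < (Module.finrank k⟮x - algebraMap k Fb c⟯ Fb : ℤ) := by exact_mod_cast hpos
  omega

/-- **`Fb / k` has infinitely many places.** -/
theorem s27h_infinite_places : Infinite (Place k Fb) := by
  classical
  haveI : Infinite k := IsAlgClosed.instInfinite
  choose z hz using s27h_exists_zero hx
  refine Infinite.of_injective z fun c c' h => ?_
  by_contra hne
  have h1 := hz c
  have h2 := hz c'
  rw [h] at h1
  have hd : algebraMap k Fb (c - c') ≠ 0 := by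
    rw [Ne, map_eq_zero, sub_eq_zero]
    exact hne
  have e : algebraMap k Fb (c - c') = (x - algebraMap k Fb c') + -(x - algebraMap k Fb c) := by
    rw [map_sub]; ring
  have ha : x - algebraMap k Fb c' ≠ 0 := fun h0 => by rw [h0, Place.ord_zero] at h2; omega
  have hb : -(x - algebraMap k Fb c) ≠ 0 := by
    rw [neg_ne_zero]
    intro h0
    rw [h0, Place.ord_zero] at h1
    omega
  have h3 := hw_ord_add_ge (z c') ha hb (by rw [← e]; exact hd)
  rw [← e, hw_ord_algebraMap, hw_ord_neg] at h3
  rcases min_le_iff.1 h3 with h4 | h4 <;> omega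

end main

/-! ### the divisor of a finite set / of a list of places -/

/-- `Σ_{P ∈ S} P`. -/
noncomputable def s27h_finDiv (S : Finset (Place k Fb)) : Divisor k Fb :=
  ∑ P ∈ S, Finsupp.single P (1 : ℤ)

/-- `P₁ + … + P_r`. -/
noncomputable def s27h_listDiv (l : List (Place k Fb)) : Divisor k Fb :=
  (l.map fun P => Finsupp.single P (1 : ℤ)).sum

@[simp] theorem s27h_listDiv_nil : s27h_listDiv ([] : List (Place k Fb)) = 0 := rfl

theorem s27h_listDiv_append (l l' : List (Place k Fb)) :
    s27h_listDiv (l ++ l') = s27h_listDiv l + s27h_listDiv l' := by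
  unfold s27h_listDiv
  rw [List.map_append, List.sum_append]

theorem s27h_listDiv_singleton (P : Place k Fb) :
    s27h_listDiv [P] = Finsupp.single P (1 : ℤ) := by
  unfold s27h_listDiv
  simp

theorem s27h_single_nonneg (P : Place k Fb) : (0 : Divisor k Fb) ≤ Finsupp.single P (1 : ℤ) := by
  rw [Finsupp.le_def]
  intro v
  rw [Finsupp.zero_apply]
  by_cases h : P = v
  · subst h; rw [Finsupp.single_eq_same]; exact zero_le_one
  · rw [Finsupp.single_eq_of_ne' h]

theorem s27h_listDiv_nonneg (l : List (Place k Fb)) : 0 ≤ s27h_listDiv l := by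
  induction l with
  | nil => exact le_rfl
  | cons P l ih =>
    have e : s27h_listDiv (P :: l) = Finsupp.single P (1 : ℤ) + s27h_listDiv l := by
      unfold s27h_listDiv
      simp
    rw [e]
    refine add_nonneg ?_ ih
    rw [Finsupp.le_def]
    intro v
    rw [Finsupp.zero_apply]
    by_cases h : P = v
    · subst h; rw [Finsupp.single_eq_same]; exact zero_le_one
    · rw [Finsupp.single_eq_of_ne' h]

theorem s27h_finDiv_empty : s27h_finDiv (∅ : Finset (Place k Fb)) = 0 := by
  unfold s27h_finDiv
  simp

theorem s27h_finDiv_insert [DecidableEq (Place k Fb)] {S : Finset (Place k Fb)} {P : Place k Fb}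
    (hP : P ∉ S) :
    s27h_finDiv (insert P S) = Finsupp.single P (1 : ℤ) + s27h_finDiv S := by
  unfold s27h_finDiv
  rw [Finset.sum_insert hP]

theorem s27h_finDiv_apply_of_notMem {S : Finset (Place k Fb)} {P : Place k Fb} (hP : P ∉ S) :
    s27h_finDiv S P = 0 := by
  unfold s27h_finDiv
  rw [Finsupp.finsetSum_apply]
  refine Finset.sum_eq_zero fun Q hQ => ?_
  rw [Finsupp.single_eq_of_ne']
  rintro rfl
  exact hP hQ

theorem s27h_finDiv_nonneg (S : Finset (Place k Fb)) : 0 ≤ s27h_finDiv S := by
  unfold s27h_finDiv
  refine Finset.sum_nonneg fun P _ => ?_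
  rw [Finsupp.le_def]
  intro v
  rw [Finsupp.zero_apply]
  by_cases h : P = v
  · subst h; rw [Finsupp.single_eq_same]; exact zero_le_one
  · rw [Finsupp.single_eq_of_ne' h]

section genus

variable [IsAlgClosed k] {x : Fb} (hx : rt_IsSepGen k x) {g : ℕ}
  (hg : ∀ A : Divisor k Fb,
    Divisor.degree A + 1 - g ≤ (Module.finrank k ↥(riemannRochSpace A) : ℤ))

include hx

theorem s27h_degree_finDiv (S : Finset (Place k Fb)) :
    Divisor.degree (s27h_finDiv S) = S.card := by
  unfold s27h_finDiv
  rw [map_sum]
  simp only [rt_degree_single hx]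
  simp

theorem s27h_degree_listDiv (l : List (Place k Fb)) :
    Divisor.degree (s27h_listDiv l) = l.length := by
  induction l with
  | nil => simp
  | cons P l ih =>
    have e : s27h_listDiv (P :: l) = Finsupp.single P (1 : ℤ) + s27h_listDiv l := by
      unfold s27h_listDiv
      simp
    rw [e, map_add, rt_degree_single hx, ih]
    simp
    ring

/-- `h¹` is antitone: `A ≤ B → l(B) - deg B ≤ l(A) - deg A`. -/
theorem s27h_h1_antitone {A B : Divisor k Fb} (hAB : A ≤ B) :
    (Module.finrank k ↥(riemannRochSpace B) : ℤ) - Divisor.degree B ≤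
      (Module.finrank k ↥(riemannRochSpace A) : ℤ) - Divisor.degree A := by
  have := rt_l_le_of_le hx hAB
  linarith

include hg

/-- **Riemann's theorem** with the given genus: `l(D) = deg D + 1 - g` for `deg D ≥ deg A₀ + g`. -/
theorem s27h_riemann_eq {A₀ : Divisor k Fb}
    (hA₀ : Divisor.degree A₀ + 1 - g = (Module.finrank k ↥(riemannRochSpace A₀) : ℤ))
    {D : Divisor k Fb} (hD : Divisor.degree A₀ + g ≤ Divisor.degree D) :
    (Module.finrank k ↥(riemannRochSpace D) : ℤ) = Divisor.degree D + 1 - g := by
  apply le_antisymm _ (hg D)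
  have h1 := hg (D - A₀)
  rw [map_sub] at h1
  have hpos : 0 < Module.finrank k ↥(riemannRochSpace (D - A₀)) := by
    have : (0 : ℤ) < (Module.finrank k ↥(riemannRochSpace (D - A₀)) : ℤ) := by linarith
    exact_mod_cast this
  have hfinL := rt_L_finite hx (D - A₀)
  obtain ⟨⟨z, hzmem⟩, hz0'⟩ := Module.finrank_pos_iff_exists_ne_zero.mp hpos
  have hz0 : z ≠ 0 := fun h => hz0' (Subtype.ext h)
  set D' : Divisor k Fb := D + rt_div hx z with hD'
  have hle : A₀ ≤ D' := by
    rw [Finsupp.le_def]
    intro v
    have := (rt_mem_L_iff hz0).mp hzmem v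
    rw [Finsupp.sub_apply] at this
    rw [hD', Finsupp.add_apply, rt_div_apply]
    omega
  have hdegD' : Divisor.degree D' = Divisor.degree D := by
    rw [hD', map_add, rt_degree_div, add_zero]
  have hlD' : Module.finrank k ↥(riemannRochSpace D') =
      Module.finrank k ↥(riemannRochSpace D) := rt_finrank_L_add_div hx D hz0
  have h2 := rt_l_le_of_le hx hle
  rw [hlD', hdegD'] at h2
  linarith

omit hg in
/-- `N` jump points give `N` more dimensions. -/
theorem s27h_card_add_le (D : Divisor k Fb) (S : Finset (Place k Fb))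
    (hS : ∀ P ∈ S, riemannRochSpace (D + Finsupp.single P 1) ≠ riemannRochSpace D) :
    Module.finrank k ↥(riemannRochSpace D) + S.card ≤
      Module.finrank k ↥(riemannRochSpace (D + s27h_finDiv S)) := by
  classical
  induction S using Finset.induction_on with
  | empty => rw [s27h_finDiv_empty, add_zero, Finset.card_empty, add_zero]
  | insert P S hP ih =>
    have ih' := ih fun Q hQ => hS Q (Finset.mem_insert_of_mem hQ)
    have hne := hS P (Finset.mem_insert_self P S)
    have hlt : riemannRochSpace D < riemannRochSpace (D + Finsupp.single P 1) := by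
      refine lt_of_le_of_ne (rt_L_mono (le_add_of_nonneg_right ?_)) hne.symm
      rw [Finsupp.le_def]
      intro v
      rw [Finsupp.zero_apply]
      by_cases h : P = v
      · subst h; rw [Finsupp.single_eq_same]; exact zero_le_one
      · rw [Finsupp.single_eq_of_ne' h]
    obtain ⟨f, hf1, hf2⟩ := SetLike.exists_of_lt hlt
    have hf0 : f ≠ 0 := fun h => hf2 (h ▸ zero_mem _)
    rw [rt_mem_L_iff hf0] at hf1 hf2
    -- the order of `f` at `P` is exactly `-(D P) - 1`
    have hfP : P.ord f = -D P - 1 := by
      push Not at hf2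
      obtain ⟨w, hw⟩ := hf2
      have h1 := hf1 w
      by_cases hwv : w = P
      · subst hwv
        rw [Finsupp.add_apply, Finsupp.single_eq_same] at h1
        omega
      · rw [Finsupp.add_apply, Finsupp.single_eq_of_ne hwv, add_zero] at h1
        omega
    have hle : D + s27h_finDiv S ≤ D + s27h_finDiv (insert P S) := by
      rw [s27h_finDiv_insert hP]
      exact add_le_add_right (le_add_of_nonneg_left (s27h_single_nonneg P)) D
    have hmem : f ∈ riemannRochSpace (D + s27h_finDiv (insert P S)) := by
      refine rt_L_mono ?_ ((rt_mem_L_iff hf0).mpr hf1)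
      rw [s27h_finDiv_insert hP, ← add_assoc]
      exact le_add_of_nonneg_right (s27h_finDiv_nonneg S)
    have hnmem : f ∉ riemannRochSpace (D + s27h_finDiv S) := by
      rw [rt_mem_L_iff hf0]
      push Not
      refine ⟨P, ?_⟩
      rw [Finsupp.add_apply, s27h_finDiv_apply_of_notMem hP, add_zero, hfP]
      omega
    have hlt2 : riemannRochSpace (D + s27h_finDiv S) <
        riemannRochSpace (D + s27h_finDiv (insert P S)) :=
      lt_of_le_of_ne (rt_L_mono hle) fun h => hnmem (h ▸ hmem)
    haveI := rt_L_finite hx (D + s27h_finDiv (insert P S))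
    have := Submodule.finrank_lt_finrank_of_lt hlt2
    rw [Finset.card_insert_of_notMem hP]
    omega

/-- **the jump set of a special divisor is finite**: if `l(D) > deg D + 1 - g` then
`L(D + P) = L(D)` for all but finitely many places `P`. -/
theorem s27h_finite_jump {A₀ : Divisor k Fb}
    (hA₀ : Divisor.degree A₀ + 1 - g = (Module.finrank k ↥(riemannRochSpace A₀) : ℤ))
    {D : Divisor k Fb}
    (hD : Divisor.degree D + 1 - g < (Module.finrank k ↥(riemannRochSpace D) : ℤ)) :
    {P : Place k Fb | riemannRochSpace (D + Finsupp.single P 1) ≠ riemannRochSpace D}.Finite := by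
  classical
  by_contra hinf
  have hinf' : {P : Place k Fb |
      riemannRochSpace (D + Finsupp.single P 1) ≠ riemannRochSpace D}.Infinite := hinf
  obtain ⟨S, hSsub, hScard⟩ :=
    hinf'.exists_subset_card_eq (Divisor.degree A₀ + g - Divisor.degree D).toNat
  have h1 := s27h_card_add_le hx D S (fun P hP => hSsub hP)
  have hdeg : Divisor.degree (D + s27h_finDiv S) = Divisor.degree D + S.card := by
    rw [map_add, s27h_degree_finDiv hx]
  have h2 := s27h_riemann_eq hx hg hA₀ (D := D + s27h_finDiv S) (by
    rw [hdeg, hScard]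
    have := Int.self_le_toNat (Divisor.degree A₀ + g - Divisor.degree D)
    omega)
  rw [hdeg] at h2
  have h3 : ((Module.finrank k ↥(riemannRochSpace D) + S.card : ℕ) : ℤ) ≤
      (Module.finrank k ↥(riemannRochSpace (D + s27h_finDiv S)) : ℤ) := by exact_mod_cast h1
  push_cast at h3
  omega

/-- the inductive construction: `j ≤ g` points in general position. -/
theorem s27h_nonspecial_aux {A₀ : Divisor k Fb}
    (hA₀ : Divisor.degree A₀ + 1 - g = (Module.finrank k ↥(riemannRochSpace A₀) : ℤ))
    [DecidableEq (Place k Fb)]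
    (bad : Finset (Place k Fb) → Finset (Place k Fb)) :
    ∀ j : ℕ, j ≤ g → ∃ l : List (Place k Fb), l.length = j ∧ l.Nodup ∧
      (∀ (i : ℕ) (hi : i < l.length), l[i] ∉ bad (l.take i).toFinset) ∧
      Module.finrank k ↥(riemannRochSpace (s27h_listDiv l)) = 1 := by
  intro j
  induction j with
  | zero =>
    intro _
    refine ⟨[], rfl, List.nodup_nil, fun i hi => absurd hi (by simp), ?_⟩
    rw [s27h_listDiv_nil]
    exact rt_finrank_L_zero hx
  | succ j ih =>
    intro hj
    obtain ⟨l, hlen, hnd, hbad, hl1⟩ := ih (by omega)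
    have hdeg : Divisor.degree (s27h_listDiv l) = j := by
      rw [s27h_degree_listDiv hx, hlen]
    have hfin := s27h_finite_jump hx hg hA₀ (D := s27h_listDiv l) (by
      rw [hdeg, hl1]
      push_cast
      omega)
    haveI := s27h_infinite_places hx
    obtain ⟨P, hP⟩ := Infinite.exists_notMem_finset
      (hfin.toFinset ∪ bad l.toFinset ∪ l.toFinset)
    rw [Finset.mem_union, Finset.mem_union, not_or, not_or, Set.Finite.mem_toFinset,
      Set.mem_ofPred_eq, not_not, List.mem_toFinset] at hP
    obtain ⟨⟨hP1, hP2⟩, hP3⟩ := hP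
    refine ⟨l ++ [P], by rw [List.length_append, hlen]; rfl, ?_, ?_, ?_⟩
    · rw [List.nodup_append]
      refine ⟨hnd, List.nodup_singleton P, fun a ha b hb => ?_⟩
      rw [List.mem_singleton] at hb
      subst hb
      rintro rfl
      exact hP3 ha
    · intro i hi
      rw [List.length_append, List.length_singleton] at hi
      by_cases hij : i < l.length
      · rw [List.getElem_append_left hij, List.take_append_of_le_length (by omega)]
        exact hbad i hij
      · have hil : i = l.length := by omega
        subst hil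
        rw [List.getElem_append_right (le_refl _), List.take_left']
        · simpa using hP2
        · rfl
    · rw [s27h_listDiv_append, s27h_listDiv_singleton, hP1]
      exact hl1

/-- **a reduced non-special effective divisor of degree `g` avoiding prescribed finite sets.** -/
theorem s27h_nonspecial
    (hg0 : ∃ A₀ : Divisor k Fb,
      Divisor.degree A₀ + 1 - g = (Module.finrank k ↥(riemannRochSpace A₀) : ℤ))
    [DecidableEq (Place k Fb)]
    (bad : Finset (Place k Fb) → Finset (Place k Fb)) :
    ∃ l : List (Place k Fb), l.length = g ∧ l.Nodup ∧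
      (∀ (i : ℕ) (hi : i < l.length), l[i] ∉ bad (l.take i).toFinset) ∧
      Module.finrank k ↥(riemannRochSpace (s27h_listDiv l)) = 1 ∧
      ∀ m : ℕ, 1 ≤ m →
        Module.finrank k ↥(riemannRochSpace (m • s27h_listDiv l)) = (m - 1) * g + 1 := by
  obtain ⟨A₀, hA₀⟩ := hg0
  obtain ⟨l, hlen, hnd, hbad, hl1⟩ := s27h_nonspecial_aux hx hg hA₀ bad g le_rfl
  refine ⟨l, hlen, hnd, hbad, hl1, fun m hm => ?_⟩
  obtain ⟨m', rfl⟩ : ∃ m' : ℕ, m = m' + 1 := ⟨m - 1, by omega⟩
  have hE0 := s27h_listDiv_nonneg l
  have hdeg : Divisor.degree (s27h_listDiv l) = g := by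
    rw [s27h_degree_listDiv hx, hlen]
  have hle : s27h_listDiv l ≤ (m' + 1) • s27h_listDiv l := by
    rw [succ_nsmul]
    exact le_add_of_nonneg_left (nsmul_nonneg hE0 m')
  have h1 := s27h_h1_antitone hx hle
  have h2 := hg ((m' + 1) • s27h_listDiv l)
  rw [map_nsmul, hdeg, hl1] at h1
  rw [map_nsmul, hdeg] at h2
  rw [nsmul_eq_mul] at h1 h2
  have h3 : (Module.finrank k ↥(riemannRochSpace ((m' + 1) • s27h_listDiv l)) : ℤ) =
      (m' : ℤ) * g + 1 := by
    push_cast at h1 h2
    linarith
  rw [Nat.add_sub_cancel]
  exact_mod_cast h3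

end genus

end Fermat.Agent.S27
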