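/-
S27 / (HENS), cell H4 DISCS (helper24; prefix `s27hd_`): Step 1 (1b)+(1c)+(1d) of helper18's plan,
derived from the STATEMENT of the reduction theorem `s27r_red` (property (R) enters as `hdiv`), on
top of helper5's `Red/Cor.lean`.

* `s27hd_noCancel`      : (1b) NO CANCELLATION: if `z ∈ V`, `r z` is transcendental and
  `[F : K(z)] = [Fb : k(r z)]`, then `red_* (z)_∞ = (r z)_∞` and `red_* (z)_0 = (r z)_0`;
* `s27hd_noCancel_sub`  : the same for `z = x - ξ`, `ξ ∈ O`;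
* `s27hd_regular`, `s27hd_value` : (1c) if `r x` is regular at `red Q`, then `x` is regular at `Q`,
  its value `ξ = x(Q)` lies in `O`, and `r0 ξ = (r x)(red Q)`;
* `s27hd_disc`          : (1d) RESIDUE DISCS: if `r x - r0 ξ` has a simple zero at `Pb`, there is exactly
  one point `Q` with `red Q = Pb` and `x(Q) = ξ`, and `x - ξ` has a simple zero there.
-/
import Mathlib
import Fermat.Agent.S27.Red.Defs
import Fermat.Agent.S27.Red.Cor

set_option autoImplicit false
set_option linter.unusedSectionVars false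
set_option linter.unusedVariables false

noncomputable section

namespace Fermat.Agent.S27

open AlgebraicCurve IntermediateField Polynomial Fermat.Agent.JT3 Fermat.Agent.S24

universe u v u' v'
variable {K : Type u} {F : Type v} [Field K] [Field F] [Algebra K F]
variable {k : Type u'} {Fb : Type v'} [Field k] [Field Fb] [Algebra k Fb]

/-! ### order lemmas on divisors -/

/-- `A - B = C - D` with all four effective and `C`, `D` of disjoint supports: `C ≤ A`, `D ≤ B`. -/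
theorem s27hd_le_of_sub_eq {α : Type*} {A B C D : α →₀ ℤ} (hA : 0 ≤ A) (hB : 0 ≤ B)
    (hC : 0 ≤ C) (hD : 0 ≤ D) (hdisj : ∀ v, C v = 0 ∨ D v = 0) (heq : A - B = C - D) :
    C ≤ A ∧ D ≤ B := by
  have key : ∀ v, C v ≤ A v ∧ D v ≤ B v := by
    intro v
    have e := DFunLike.congr_fun heq v
    rw [Finsupp.sub_apply, Finsupp.sub_apply] at e
    have a := Finsupp.le_def.mp hA v
    have b := Finsupp.le_def.mp hB v
    have c := Finsupp.le_def.mp hC v
    have d := Finsupp.le_def.mp hD v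
    rw [Finsupp.zero_apply] at a b c d
    rcases hdisj v with h0 | h0 <;> constructor <;> omega
  exact ⟨Finsupp.le_def.mpr fun v => (key v).1, Finsupp.le_def.mpr fun v => (key v).2⟩

/-- an effective divisor is pointwise below its push-forward. -/
theorem s27hd_le_mapDomain_apply (red : Place K F → Place k Fb) {D : Divisor K F} (hD : 0 ≤ D)
    (Q : Place K F) : D Q ≤ Finsupp.mapDomain red D (red Q) := by
  classical
  rw [s27r6_mapDomain_apply]
  by_cases hQ : Q ∈ D.support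
  · have := Finset.single_le_sum (f := fun P => if red P = red Q then D P else 0)
      (s := D.support) (fun P _ => by
        show 0 ≤ (if red P = red Q then D P else 0)
        split_ifs
        · exact Finsupp.le_def.mp hD P
        · exact le_rfl) hQ
    simpa using this
  · rw [Finsupp.notMem_support_iff.mp hQ]
    refine Finset.sum_nonneg fun P _ => ?_
    split_ifs
    · exact Finsupp.le_def.mp hD P
    · exact le_rfl

/-- an element of `V` with transcendental reduction is transcendental. -/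
theorem s27hd_transcendental [IsAlgClosed K] (R : s27r_Red K F k Fb) {z : F} (hz : z ∈ R.V)
    (hzb : Transcendental k (R.r ⟨z, hz⟩)) : Transcendental K z := by
  intro halg
  have hint : IsIntegral K z := halg.isIntegral
  have hdeg : (minpoly K z).degree = 1 :=
    IsAlgClosed.degree_eq_one_of_irreducible K (minpoly.irreducible hint)
  obtain ⟨c, hc⟩ := minpoly.mem_range_of_degree_eq_one K z hdeg
  have hcO : c ∈ R.O := (R.mem_iff c).1 (hc ▸ hz)
  apply hzb
  have e : R.r ⟨z, hz⟩ = algebraMap k Fb (R.r0 ⟨c, hcO⟩) := by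
    rw [← R.comp c hcO]
    congr 1
    exact Subtype.ext hc.symm
  rw [e]
  exact isAlgebraic_algebraMap _

/-! ### (1b) no cancellation -/

section noCancel

variable [IsAlgClosed K] [IsAlgClosed k] (R : s27r_Red K F k Fb) {x : F} (h : s27r_Good R x)
  (red : Place K F → Place k Fb)
  (hdiv : ∀ (f : F) (hf : f ∈ R.V), R.r ⟨f, hf⟩ ≠ 0 →
      Finsupp.mapDomain red (rt_div h.sepK f) = rt_div h.sepk (R.r ⟨f, hf⟩))

/-- two comparable divisors of the same degree are equal. -/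
theorem s27hd_eq_of_le_of_degree_eq {x : F} (hx : rt_IsSepGen K x) {A B : Divisor K F}
    (hle : A ≤ B) (hdeg : Divisor.degree A = Divisor.degree B) : A = B := by
  by_contra hne
  have := rt_degree_lt_of_lt hx hle hne
  omega

include hdiv in
/-- **(1b) NO CANCELLATION.** -/
theorem s27hd_noCancel {z : F} (hz : z ∈ R.V) (hzb : Transcendental k (R.r ⟨z, hz⟩))
    (hdeg : Module.finrank K⟮z⟯ F = Module.finrank k⟮R.r ⟨z, hz⟩⟯ Fb) :
    Finsupp.mapDomain red (rt_poleDiv h.sepK z) = rt_poleDiv h.sepk (R.r ⟨z, hz⟩) ∧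
      Finsupp.mapDomain red (rt_zeroDiv h.sepK z) = rt_zeroDiv h.sepk (R.r ⟨z, hz⟩) := by
  have hzb0 : R.r ⟨z, hz⟩ ≠ 0 := by
    intro h0
    apply hzb
    rw [h0]
    exact isAlgebraic_zero
  have hzK : Transcendental K z := s27hd_transcendental R hz hzb
  have e := hdiv z hz hzb0
  rw [rt_div_eq_sub, rt_div_eq_sub, s27r6_mapDomain_sub] at e
  have hdisj : ∀ v : Place k Fb, rt_zeroDiv h.sepk (R.r ⟨z, hz⟩) v = 0 ∨
      rt_poleDiv h.sepk (R.r ⟨z, hz⟩) v = 0 := by
    intro v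
    rw [rt_zeroDiv_apply, rt_poleDiv_apply]
    rcases le_total (v.ord (R.r ⟨z, hz⟩)) 0 with h0 | h0
    · left
      exact max_eq_right h0
    · right
      exact max_eq_right (by omega)
  obtain ⟨hZ, hP⟩ := s27hd_le_of_sub_eq
    (s27r6_mapDomain_nonneg red (rt_zeroDiv_nonneg h.sepK z))
    (s27r6_mapDomain_nonneg red (rt_poleDiv_nonneg h.sepK z))
    (rt_zeroDiv_nonneg h.sepk _) (rt_poleDiv_nonneg h.sepk _) hdisj e
  have dP : Divisor.degree (rt_poleDiv h.sepk (R.r ⟨z, hz⟩)) =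
      Divisor.degree (Finsupp.mapDomain red (rt_poleDiv h.sepK z)) := by
    rw [s27r6_degree_mapDomain red h.sepK h.sepk, rt_degree_poleDiv h.sepK hzK,
      rt_degree_poleDiv h.sepk hzb, hdeg]
  have dZ : Divisor.degree (rt_zeroDiv h.sepk (R.r ⟨z, hz⟩)) =
      Divisor.degree (Finsupp.mapDomain red (rt_zeroDiv h.sepK z)) := by
    rw [s27r6_degree_mapDomain red h.sepK h.sepk, rt_degree_zeroDiv h.sepK hzK,
      rt_degree_zeroDiv h.sepk hzb, hdeg]
  exact ⟨(s27hd_eq_of_le_of_degree_eq h.sepk hP dP).symm,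
    (s27hd_eq_of_le_of_degree_eq h.sepk hZ dZ).symm⟩

include h in
/-- `x - ξ ∈ V` for `ξ ∈ O`. -/
theorem s27hd_sub_mem {ξ : K} (hξ : ξ ∈ R.O) : x - algebraMap K F ξ ∈ R.V :=
  sub_mem h.x_mem (R.algebraMap_mem hξ)

/-- the reduction of `x - ξ`. -/
theorem s27hd_r_sub {ξ : K} (hξ : ξ ∈ R.O) :
    R.r ⟨x - algebraMap K F ξ, s27hd_sub_mem R h hξ⟩ =
      R.r ⟨x, h.x_mem⟩ - algebraMap k Fb (R.r0 ⟨ξ, hξ⟩) := by
  have e : (⟨x - algebraMap K F ξ, s27hd_sub_mem R h hξ⟩ : R.V) =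
      ⟨x, h.x_mem⟩ - ⟨algebraMap K F ξ, R.algebraMap_mem hξ⟩ := rfl
  rw [e, map_sub, R.comp ξ hξ]

include hdiv in
/-- **(1b) for `z = x - ξ`, `ξ ∈ O`.** -/
theorem s27hd_noCancel_sub {ξ : K} (hξ : ξ ∈ R.O) :
    Finsupp.mapDomain red (rt_poleDiv h.sepK (x - algebraMap K F ξ)) =
        rt_poleDiv h.sepk (R.r ⟨x, h.x_mem⟩ - algebraMap k Fb (R.r0 ⟨ξ, hξ⟩)) ∧
      Finsupp.mapDomain red (rt_zeroDiv h.sepK (x - algebraMap K F ξ)) =
        rt_zeroDiv h.sepk (R.r ⟨x, h.x_mem⟩ - algebraMap k Fb (R.r0 ⟨ξ, hξ⟩)) := by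
  have hr := s27hd_r_sub R h hξ
  have hzb : Transcendental k (R.r ⟨x - algebraMap K F ξ, s27hd_sub_mem R h hξ⟩) := by
    rw [hr]
    exact (h.sepk.sub_const _).1
  have hdeg : Module.finrank K⟮x - algebraMap K F ξ⟯ F =
      Module.finrank k⟮R.r ⟨x - algebraMap K F ξ, s27hd_sub_mem R h hξ⟩⟯ Fb := by
    rw [hr, rt_adjoin_sub_const, rt_adjoin_sub_const]
    exact h.deg_eq
  have := s27hd_noCancel R h red hdiv (s27hd_sub_mem R h hξ) hzb hdeg
  rw [hr] at this
  exact this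

include hdiv in
/-- **(1b) for `z = x`.** -/
theorem s27hd_noCancel_x :
    Finsupp.mapDomain red (rt_poleDiv h.sepK x) = rt_poleDiv h.sepk (R.r ⟨x, h.x_mem⟩) ∧
      Finsupp.mapDomain red (rt_zeroDiv h.sepK x) = rt_zeroDiv h.sepk (R.r ⟨x, h.x_mem⟩) :=
  s27hd_noCancel R h red hdiv h.x_mem h.sepk.1 h.deg_eq

/-! ### (1c) regularity and values -/

include hdiv in
/-- **(1c), regularity**: if `r x` is regular at `red Q`, then `x` is regular at `Q`. -/
theorem s27hd_regular (Q : Place K F) (hQ : 0 ≤ (red Q).ord (R.r ⟨x, h.x_mem⟩)) :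
    0 ≤ Q.ord x := by
  have h1 := s27hd_le_mapDomain_apply red (rt_poleDiv_nonneg h.sepK x) Q
  rw [(s27hd_noCancel_x R h red hdiv).1, rt_poleDiv_apply, rt_poleDiv_apply,
    max_eq_right (by omega : -(red Q).ord (R.r ⟨x, h.x_mem⟩) ≤ 0)] at h1
  have h2 := le_max_left (-Q.ord x) 0
  omega

include hdiv in
/-- **(1c), values**: if `r x` is regular at `red Q`, then `x(Q) =: ξ ∈ O` and
`(r x)(red Q) = r0 ξ`. -/
theorem s27hd_value (Q : Place K F) (hQ : 0 ≤ (red Q).ord (R.r ⟨x, h.x_mem⟩)) :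
    ∃ ξ : K, ∃ hξ : ξ ∈ R.O, 0 < Q.ord (x - algebraMap K F ξ) ∧
      0 < (red Q).ord (R.r ⟨x, h.x_mem⟩ - algebraMap k Fb (R.r0 ⟨ξ, hξ⟩)) := by
  have hx0 : x ≠ 0 := by
    rintro rfl
    exact h.sepK.1 isAlgebraic_zero
  have hreg : ∀ P' : Place K F, red P' = red Q → x ∈ P'.toValuationSubring := by
    intro P' hP'
    rw [hw_mem_iff_ord_nonneg P' hx0]
    exact s27hd_regular R h red hdiv P' (hP' ▸ hQ)
  have := h.sepK.isAlgebraic
  obtain ⟨ξ, hξ | hξ⟩ := hw_exists_const x Q (hreg Q rfl)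
  · exfalso
    apply h.sepK.1
    rw [hξ]
    exact isAlgebraic_algebraMap _
  obtain ⟨hξO, hval | hval⟩ := s27r6_eval R h red hdiv h.x_mem Q hreg hξ
  · exfalso
    apply h.sepk.1
    rw [hval]
    exact isAlgebraic_algebraMap _
  · exact ⟨ξ, hξO, hξ, hval⟩

/-- the value of `x` at a point is unique. -/
theorem s27hd_value_unique (Q : Place K F) {ξ ξ' : K} (hξ : 0 < Q.ord (x - algebraMap K F ξ))
    (hξ' : 0 < Q.ord (x - algebraMap K F ξ')) : ξ = ξ' := by
  by_contra hne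
  have h1 := rt_mem_of_ord_pos Q hξ
  have h2 := rt_mem_of_ord_pos Q hξ'
  have e : algebraMap K F (ξ' - ξ) = (x - algebraMap K F ξ) - (x - algebraMap K F ξ') := by
    rw [map_sub]
    ring
  have hne' : algebraMap K F (ξ' - ξ) ≠ 0 := by
    rw [Ne, map_eq_zero, sub_eq_zero]
    exact fun h0 => hne h0.symm
  -- the difference lies in the maximal ideal, but is a nonzero constant
  have h0 : Q.ord (algebraMap K F (ξ' - ξ)) = 0 := hw_ord_algebraMap Q _
  have hx1 : x - algebraMap K F ξ ≠ 0 := by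
    rintro h0
    rw [h0, Place.ord_zero] at hξ
    exact lt_irrefl _ hξ
  have hx2 : x - algebraMap K F ξ' ≠ 0 := by
    rintro h0
    rw [h0, Place.ord_zero] at hξ'
    exact lt_irrefl _ hξ'
  have hx2' : -(x - algebraMap K F ξ') ≠ 0 := neg_ne_zero.mpr hx2
  have hsum : (x - algebraMap K F ξ) + -(x - algebraMap K F ξ') ≠ 0 := by
    rw [← sub_eq_add_neg, ← e]
    exact hne'
  have := hw_ord_add_ge Q hx1 hx2' hsum
  rw [← sub_eq_add_neg, ← e, h0, hw_ord_neg] at this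
  omega

/-! ### (1d) residue discs -/

include hdiv in
/-- **(1d) RESIDUE DISCS**, full form: if `r x - r0 ξ` has a simple zero at `Pb`, there is a point `Q`
over `Pb` where `x - ξ` has a simple zero, and it is the only zero of `x - ξ` over `Pb`. -/
theorem s27hd_disc_aux (Pb : Place k Fb) {ξ : K} (hξ : ξ ∈ R.O)
    (hPb : Pb.ord (R.r ⟨x, h.x_mem⟩ - algebraMap k Fb (R.r0 ⟨ξ, hξ⟩)) = 1) :
    ∃ Q : Place K F, red Q = Pb ∧ Q.ord (x - algebraMap K F ξ) = 1 ∧
      ∀ Q' : Place K F, red Q' = Pb → 0 < Q'.ord (x - algebraMap K F ξ) → Q' = Q := by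
  classical
  set Z := rt_zeroDiv h.sepK (x - algebraMap K F ξ) with hZdef
  have hZ0 : 0 ≤ Z := rt_zeroDiv_nonneg h.sepK _
  have e := DFunLike.congr_fun (s27hd_noCancel_sub R h red hdiv hξ).2 Pb
  rw [rt_zeroDiv_apply, hPb, s27r6_mapDomain_apply, ← Finset.sum_filter] at e
  set S := Z.support.filter (fun P => red P = Pb) with hSdef
  have hmem : ∀ P, P ∈ S ↔ red P = Pb ∧ 0 < P.ord (x - algebraMap K F ξ) := by
    intro P
    rw [hSdef, Finset.mem_filter, Finsupp.mem_support_iff, hZdef, rt_zeroDiv_apply]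
    constructor
    · rintro ⟨h1, h2⟩
      refine ⟨h2, ?_⟩
      by_contra h3
      exact h1 (max_eq_right (not_lt.mp h3))
    · rintro ⟨h1, h2⟩
      refine ⟨?_, h1⟩
      rw [max_eq_left h2.le]
      omega
  have hge : ∀ P ∈ S, (1 : ℤ) ≤ Z P := by
    intro P hP
    have := ((hmem P).mp hP).2
    rw [hZdef, rt_zeroDiv_apply, max_eq_left this.le]
    omega
  have hcard : (S.card : ℤ) ≤ 1 := by
    have : ∑ _P ∈ S, (1 : ℤ) ≤ ∑ P ∈ S, Z P := Finset.sum_le_sum hge
    rw [Finset.sum_const, nsmul_eq_mul, mul_one] at this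
    have e' : (∑ P ∈ S, Z P) = 1 := by
      rw [e]
      exact max_eq_left (by norm_num)
    omega
  have hne : S.Nonempty := by
    by_contra hem
    rw [Finset.not_nonempty_iff_eq_empty] at hem
    rw [hem, Finset.sum_empty] at e
    have : max (1 : ℤ) 0 = 1 := max_eq_left (by norm_num)
    omega
  have hcard1 : S.card = 1 := by
    have := Finset.card_pos.mpr hne
    omega
  obtain ⟨Q, hSQ⟩ := Finset.card_eq_one.mp hcard1
  have hQS : Q ∈ S := by
    rw [hSQ]
    exact Finset.mem_singleton_self Q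
  obtain ⟨hQ1, hQ2⟩ := (hmem Q).mp hQS
  refine ⟨Q, hQ1, ?_, fun Q' h1 h2 => ?_⟩
  · rw [hSQ, Finset.sum_singleton] at e
    have e2 : Z Q = Q.ord (x - algebraMap K F ξ) := by
      rw [hZdef, rt_zeroDiv_apply, max_eq_left hQ2.le]
    rw [← e2, e]
    exact max_eq_left (by norm_num)
  · have : Q' ∈ S := (hmem Q').mpr ⟨h1, h2⟩
    rw [hSQ] at this
    exact Finset.mem_singleton.mp this

include hdiv in
/-- **(1d) RESIDUE DISCS**: if `r x - r0 ξ` has a simple zero at `Pb`, there is exactly one point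
`Q` with `red Q = Pb` and `x(Q) = ξ`. -/
theorem s27hd_disc (Pb : Place k Fb) {ξ : K} (hξ : ξ ∈ R.O)
    (hPb : Pb.ord (R.r ⟨x, h.x_mem⟩ - algebraMap k Fb (R.r0 ⟨ξ, hξ⟩)) = 1) :
    ∃! Q : Place K F, red Q = Pb ∧ 0 < Q.ord (x - algebraMap K F ξ) := by
  obtain ⟨Q, h1, h2, h3⟩ := s27hd_disc_aux R h red hdiv Pb hξ hPb
  refine ⟨Q, ⟨h1, by omega⟩, fun Q' hQ' => h3 Q' hQ'.1 hQ'.2⟩

include hdiv in
/-- the zero of `x - ξ` in the disc is simple. -/
theorem s27hd_disc_ord (Pb : Place k Fb) {ξ : K} (hξ : ξ ∈ R.O)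
    (hPb : Pb.ord (R.r ⟨x, h.x_mem⟩ - algebraMap k Fb (R.r0 ⟨ξ, hξ⟩)) = 1) {Q : Place K F}
    (hQ : red Q = Pb) (hQξ : 0 < Q.ord (x - algebraMap K F ξ)) :
    Q.ord (x - algebraMap K F ξ) = 1 := by
  obtain ⟨Q₀, h1, h2, h3⟩ := s27hd_disc_aux R h red hdiv Pb hξ hPb
  rw [h3 Q hQ hQξ]
  exact h2

include hdiv in
/-- **(1d), the other direction**: every point `Q` of the disc of `Pb` (`r x - a` has a simple zero
at `Pb`) has a value `ξ = x(Q) ∈ O` with `r0 ξ = a`. -/
theorem s27hd_disc_value (Pb : Place k Fb) (a : k)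
    (hPb : 0 < Pb.ord (R.r ⟨x, h.x_mem⟩ - algebraMap k Fb a)) {Q : Place K F} (hQ : red Q = Pb) :
    ∃ ξ : K, ∃ hξ : ξ ∈ R.O, R.r0 ⟨ξ, hξ⟩ = a ∧ 0 < Q.ord (x - algebraMap K F ξ) := by
  have hreg : 0 ≤ (red Q).ord (R.r ⟨x, h.x_mem⟩) := by
    rw [hQ]
    have hx0 : R.r ⟨x, h.x_mem⟩ ≠ 0 := by
      intro h0
      apply h.sepk.1
      rw [h0]
      exact isAlgebraic_zero
    rw [← hw_mem_iff_ord_nonneg Pb hx0]
    have h1 := rt_mem_of_ord_pos Pb hPb
    have := add_mem h1 (Pb.algebraMap_mem' a)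
    rwa [sub_add_cancel] at this
  obtain ⟨ξ, hξ, h1, h2⟩ := s27hd_value R h red hdiv Q hreg
  refine ⟨ξ, hξ, ?_, h1⟩
  rw [hQ] at h2
  exact (s27hd_value_unique (K := k) (F := Fb) Pb h2 hPb)

end noCancel

end Fermat.Agent.S27
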