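/-
S27 / (HENS), Step 2 = BASE (helper12; prefix `s27hb_`): the choice of the base divisor.

Setting: a constant reduction `R` with (GOOD) hypotheses `h`, the reduction map `red` on places with
property (R) (`hdiv`), `g` the Riemann genus of the residue function field `Fb / k`, and the
finiteness of `Bad := {poles of x̄} ∪ {ramification points of x̄}` (`hfin`, = helper24's FINRAM).

* `s27hb_val`           : the value `x(P)` of `x` at a place (`0` at a pole);
* `s27hb_exists_resBase`: RESIDUE SIDE: `g` places `P̄_i` outside `Bad` with pairwise distinct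
  values `a_i`, `x̄ - a_i` a uniformiser at `P̄_i`, `l(Σ P̄_i) = 1`, `l(m Σ P̄_i) = (m - 1) g + 1`;
* `s27hb_exists_base`   : the same with lifts `ξ_i ∈ O` of the `a_i` and `P_i` of the `P̄_i`
  (`red P_i = P̄_i`, `x - ξ_i` a uniformiser at `P_i`), `E₀ := Σ P_i`, `red_* E₀ = Ē₀ := Σ P̄_i`.
-/
import Mathlib
import Fermat.Agent.S27.Hens.NonSpecial
import Fermat.Agent.S27.Hens.Discs
import Fermat.Agent.JT3.Places.CharFree

set_option autoImplicit false
set_option linter.unusedSectionVars false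
set_option linter.unusedVariables false
set_option linter.style.haveILetI false

noncomputable section

namespace Fermat.Agent.S27

open AlgebraicCurve IntermediateField Polynomial Fermat.Agent.JT3 Fermat.Agent.S24

universe u v u' v'
variable {K : Type u} {F : Type v} [Field K] [Field F] [Algebra K F]
variable {k : Type u'} {Fb : Type v'} [Field k] [Field Fb] [Algebra k Fb]

/-! ### the value of a function at a place -/

open Classical in
/-- the value `x(P)` of `x` at the place `P` (and `0` when `x` has a pole at `P`). -/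
def s27hb_val (x : Fb) (P : Place k Fb) : k :=
  if h : ∃ c : k, 0 < P.ord (x - algebraMap k Fb c) then h.choose else 0

theorem s27hb_val_eq {x : Fb} {P : Place k Fb} {c : k}
    (hc : 0 < P.ord (x - algebraMap k Fb c)) : s27hb_val x P = c := by
  have hex : ∃ c : k, 0 < P.ord (x - algebraMap k Fb c) := ⟨c, hc⟩
  rw [s27hb_val, dif_pos hex]
  exact pcf_const_unique P hex.choose_spec hc

/-! ### sums over lists and over `Fin` -/

theorem s27hb_listDiv_eq_sum (l : List (Place k Fb)) :
    s27h_listDiv l = ∑ i : Fin l.length, Finsupp.single l[i] (1 : ℤ) := by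
  unfold s27h_listDiv
  exact (Fin.sum_univ_fun_getElem l _).symm

theorem s27hb_sum_single_nonneg {ι : Type*} (s : Finset ι) (P : ι → Place K F) :
    (0 : Divisor K F) ≤ ∑ i ∈ s, Finsupp.single (P i) (1 : ℤ) := by
  refine Finset.sum_nonneg fun i _ => ?_
  rw [Finsupp.le_def]
  intro v
  rw [Finsupp.zero_apply]
  by_cases h : P i = v
  · rw [h, Finsupp.single_eq_same]; exact zero_le_one
  · rw [Finsupp.single_eq_of_ne' h]

/-! ### the residue side -/

section res

variable [IsAlgClosed k] {xb : Fb} (hxb : rt_IsSepGen k xb) {g : ℕ}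

include hxb in
/-- **Step 2, residue side**: `g` places outside `Bad`, with pairwise distinct `x̄`-values, in
general position. -/
theorem s27hb_exists_resBase (hgk : s27r_IsGenus k Fb g)
    (hfin : {P : Place k Fb | P.ord xb < 0 ∨
      ∃ a : k, 2 ≤ P.ord (xb - algebraMap k Fb a)}.Finite) :
    ∃ (Pb : Fin g → Place k Fb) (a : Fin g → k), Function.Injective a ∧
      (∀ i, (Pb i).ord (xb - algebraMap k Fb (a i)) = 1) ∧
      Module.finrank k ↥(riemannRochSpace (∑ i, Finsupp.single (Pb i) (1 : ℤ))) = 1 ∧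
      ∀ m : ℕ, 1 ≤ m → Module.finrank k
        ↥(riemannRochSpace (m • ∑ i, Finsupp.single (Pb i) (1 : ℤ))) = (m - 1) * g + 1 := by
  classical
  haveI : Algebra.IsAlgebraic k⟮xb⟯ Fb := hxb.isAlgebraic
  -- the forbidden sets
  let bad : Finset (Place k Fb) → Finset (Place k Fb) := fun S =>
    hfin.toFinset ∪ S.biUnion fun Q =>
      (rt_finite_zeros hxb (xb - algebraMap k Fb (s27hb_val xb Q))).toFinset
  obtain ⟨l, hlen, hnd, hbad, hl1, hlm⟩ := s27h_nonspecial hxb hgk.1 hgk.2 bad
  -- the places and their values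
  let Pb : Fin g → Place k Fb := fun i => l[(i : ℕ)]'(by rw [hlen]; exact i.2)
  have hval : ∀ i : Fin g, (Pb i).ord (xb - algebraMap k Fb (s27hb_val xb (Pb i))) = 1 := by
    intro i
    have h1 := hbad (i : ℕ) (by rw [hlen]; exact i.2)
    have h2 : Pb i ∉ hfin.toFinset := fun hmem =>
      h1 (Finset.mem_union_left _ hmem)
    rw [Set.Finite.mem_toFinset, Set.mem_ofPred_eq, not_or] at h2
    obtain ⟨h3, h4⟩ := h2
    rcases pcf_pole_or_exists_const hxb.1 (Pb i) with h5 | ⟨c, hc⟩
    · exact absurd h5 h3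
    · rw [s27hb_val_eq hc]
      have h6 : ¬ 2 ≤ (Pb i).ord (xb - algebraMap k Fb c) := fun h7 => h4 ⟨c, h7⟩
      omega
  have hinj : Function.Injective fun i : Fin g => s27hb_val xb (Pb i) := by
    -- it suffices to treat `i < j`
    have key : ∀ i j : Fin g, (i : ℕ) < (j : ℕ) →
        s27hb_val xb (Pb i) ≠ s27hb_val xb (Pb j) := by
      intro i j hij heq
      have h1 := hbad (j : ℕ) (by rw [hlen]; exact j.2)
      apply h1
      refine Finset.mem_union_right _ ?_
      rw [Finset.mem_biUnion]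
      refine ⟨Pb i, ?_, ?_⟩
      · rw [List.mem_toFinset, List.mem_take_iff_getElem]
        refine ⟨(i : ℕ), ?_, rfl⟩
        rw [hlen]
        have := j.2
        omega
      · rw [Set.Finite.mem_toFinset, Set.mem_ofPred_eq, heq]
        have := hval j
        show 0 < (Pb j).ord (xb - algebraMap k Fb (s27hb_val xb (Pb j)))
        omega
    intro i j hij
    by_contra hne
    have hne' : (i : ℕ) ≠ (j : ℕ) := fun h => hne (Fin.ext h)
    rcases lt_or_gt_of_ne hne' with hlt | hlt
    · exact key i j hlt hij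
    · exact key j i hlt hij.symm
  -- the divisor
  have hsum : s27h_listDiv l = ∑ i : Fin g, Finsupp.single (Pb i) (1 : ℤ) := by
    rw [s27hb_listDiv_eq_sum]
    refine Fintype.sum_equiv (finCongr hlen) _ _ fun i => ?_
    rfl
  refine ⟨Pb, fun i => s27hb_val xb (Pb i), hinj, hval, ?_, ?_⟩
  · rw [← hsum]; exact hl1
  · intro m hm
    rw [← hsum]
    exact hlm m hm

end res

/-! ### lifting to the generic fibre -/

section lift

variable [IsAlgClosed K] [IsAlgClosed k] (R : s27r_Red K F k Fb) {x : F} (h : s27r_Good R x)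
  (red : Place K F → Place k Fb)
  (hdiv : ∀ (f : F) (hf : f ∈ R.V), R.r ⟨f, hf⟩ ≠ 0 →
      Finsupp.mapDomain red (rt_div h.sepK f) = rt_div h.sepk (R.r ⟨f, hf⟩))

include hdiv in
/-- **Step 2 = BASE**: the base divisor `Ē₀ = Σ P̄_i` (non-special, outside `Bad`, pairwise
distinct `x̄`-values `a_i`) with lifts `ξ_i ∈ O` of the values and `P_i` of the points. -/
theorem s27hb_exists_base {g : ℕ} (hgk : s27r_IsGenus k Fb g)
    (hfin : {P : Place k Fb | P.ord (R.r ⟨x, h.x_mem⟩) < 0 ∨
      ∃ a : k, 2 ≤ P.ord (R.r ⟨x, h.x_mem⟩ - algebraMap k Fb a)}.Finite) :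
    ∃ (Pb : Fin g → Place k Fb) (a : Fin g → k) (ξ : Fin g → K) (hξ : ∀ i, ξ i ∈ R.O)
      (P : Fin g → Place K F),
      Function.Injective a ∧
      (∀ i, (Pb i).ord (R.r ⟨x, h.x_mem⟩ - algebraMap k Fb (a i)) = 1) ∧
      (∀ i, R.r0 ⟨ξ i, hξ i⟩ = a i) ∧
      (∀ i, red (P i) = Pb i) ∧
      (∀ i, (P i).ord (x - algebraMap K F (ξ i)) = 1) ∧
      (∀ i (Q : Place K F), red Q = Pb i → 0 < Q.ord (x - algebraMap K F (ξ i)) → Q = P i) ∧
      Module.finrank k ↥(riemannRochSpace (∑ i, Finsupp.single (Pb i) (1 : ℤ))) = 1 ∧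
      (∀ m : ℕ, 1 ≤ m → Module.finrank k
        ↥(riemannRochSpace (m • ∑ i, Finsupp.single (Pb i) (1 : ℤ))) = (m - 1) * g + 1) ∧
      Finsupp.mapDomain red (∑ i, Finsupp.single (P i) (1 : ℤ)) =
        ∑ i, Finsupp.single (Pb i) (1 : ℤ) ∧
      (0 : Divisor K F) ≤ ∑ i, Finsupp.single (P i) (1 : ℤ) ∧
      Divisor.degree (∑ i, Finsupp.single (P i) (1 : ℤ)) = g ∧
      (0 : Divisor k Fb) ≤ ∑ i, Finsupp.single (Pb i) (1 : ℤ) ∧
      Divisor.degree (∑ i, Finsupp.single (Pb i) (1 : ℤ)) = g := by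
  classical
  obtain ⟨Pb, a, hinj, hPb, hl1, hlm⟩ := s27hb_exists_resBase h.sepk hgk hfin
  -- lifts of the values
  have hlift : ∀ i, ∃ c : R.O, R.r0 c = a i := fun i => R.r0_surj (a i)
  choose c hc using hlift
  have hPb' : ∀ i, (Pb i).ord (R.r ⟨x, h.x_mem⟩ -
      algebraMap k Fb (R.r0 ⟨(c i : K), (c i).2⟩)) = 1 := by
    intro i
    have : (⟨(c i : K), (c i).2⟩ : R.O) = c i := rfl
    rw [this, hc i]
    exact hPb i
  -- lifts of the points
  have hpt : ∀ i, ∃ Q : Place K F, red Q = Pb i ∧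
      Q.ord (x - algebraMap K F (c i : K)) = 1 ∧
      ∀ Q' : Place K F, red Q' = Pb i → 0 < Q'.ord (x - algebraMap K F (c i : K)) → Q' = Q :=
    fun i => s27hd_disc_aux R h red hdiv (Pb i) (c i).2 (hPb' i)
  choose P hP1 hP2 hP3 using hpt
  refine ⟨Pb, a, fun i => (c i : K), fun i => (c i).2, P, hinj, hPb, fun i => hc i, hP1, hP2,
    hP3, hl1, hlm, ?_, s27hb_sum_single_nonneg _ _, ?_, s27hb_sum_single_nonneg _ _, ?_⟩
  · rw [Finsupp.mapDomain_finsetSum]
    refine Finset.sum_congr rfl fun i _ => ?_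
    rw [Finsupp.mapDomain_single, hP1]
  · rw [map_sum]
    simp only [rt_degree_single h.sepK]
    simp
  · rw [map_sum]
    simp only [rt_degree_single h.sepk]
    simp

end lift

end Fermat.Agent.S27
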