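/-
S27 lottery, cell (HENS) H2' NORMRED (helper5; prefix `s27h_`): REDUCTION OF NORMS AND TRACES ALONG AN
ORTHONORMAL BASIS.  Mathlib only, interface-free.

Setting: fields `K1 ⊆ F` (`K1 = K(x)`), `k1 ⊆ Fb` (`k1 = k(x̄)`), valuation subrings `V ⊆ F`,
`V1 = V ∩ K1 ⊆ K1`, compatible ring homomorphisms `r : V → Fb`, `r1 : V1 → k1` (the reductions), a
`K1`-basis `ω` of `F` inside `V` which is ORTHONORMAL (`∑ c_i ω_i ∈ V ↔ ∀ i, c_i ∈ V1`) and whose
reduction `ωb` is a `k1`-basis of `Fb`  (= the output of step (1) of (RED)).  Then for `f ∈ V`: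

* `s27h_mulMat` : the matrix of multiplication by `f` in `ω` has entries in `V1`
  (`s27h_mulMat_coe`), and reduces entrywise to the matrix of multiplication by `r f` in `ωb`
  (`s27h_mulMat_red`);
* `s27h_norm_mem`, `s27h_norm_red` : `N_{F/K1} f ∈ V1`, `r1 (N_{F/K1} f) = N_{Fb/k1} (r f)`;
* `s27h_trace_mem`, `s27h_trace_red` : the same for the trace;
* `s27h_charpoly_red` : the same for the characteristic polynomial of the multiplication matrix;
* `s27h_norm_poly` : DET-POLYNOMIALITY: for `w₀, w_1, …, w_M ∈ V` there is ONE polynomial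
  `P ∈ V1[c_1..c_M]` of total degree `≤ n` with `N_{F/K1}(w₀ + ∑ c_j w_j) = P(c)` for all `c ∈ K1^M` and
  `N_{Fb/k1}(r w₀ + ∑ c̄_j r w_j) = (r1 P)(c̄)` for all `c̄ ∈ k1^M`.
-/
import Mathlib

set_option autoImplicit false
set_option linter.unusedSectionVars false
set_option linter.unusedVariables false

noncomputable section

namespace Fermat.Agent.S27

open Module Matrix

section NormRed

variable {K1 F k1 Fb : Type*} [Field K1] [Field F] [Field k1] [Field Fb] [Algebra K1 F]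
  [Algebra k1 Fb]
  (V : ValuationSubring F) (V1 : ValuationSubring K1)
  (hV1 : ∀ a : K1, algebraMap K1 F a ∈ V ↔ a ∈ V1)
  (r : ↥V →+* Fb) (r1 : ↥V1 →+* k1)
  (hcomp : ∀ a : ↥V1, r ⟨algebraMap K1 F (a : K1), (hV1 a).2 a.2⟩ = algebraMap k1 Fb (r1 a))
  {n : ℕ} (ω : Basis (Fin n) K1 F) (hωV : ∀ i, ω i ∈ V)
  (hω : ∀ c : Fin n → K1, (∑ i, c i • ω i) ∈ V ↔ ∀ i, c i ∈ V1)
  (ωb : Basis (Fin n) k1 Fb) (hωb : ∀ i, ωb i = r ⟨ω i, hωV i⟩)

include hωV hω in
/-- the entries of the multiplication matrix of `f ∈ V` lie in `V1`. -/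
theorem s27h_mulMat_mem {f : F} (hf : f ∈ V) (i j : Fin n) :
    Algebra.leftMulMatrix ω f i j ∈ V1 := by
  rw [Algebra.leftMulMatrix_eq_repr_mul]
  have h1 : f * ω j ∈ V := V.mul_mem _ _ hf (hωV j)
  have h2 : (∑ i, (ω.repr (f * ω j) i) • ω i) = f * ω j := ω.sum_repr (f * ω j)
  rw [← h2] at h1
  exact (hω (fun i => ω.repr (f * ω j) i)).1 h1 i

/-- the multiplication matrix of `f ∈ V`, with entries in `V1`. -/
def s27h_mulMat {f : F} (hf : f ∈ V) : Matrix (Fin n) (Fin n) ↥V1 :=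
  fun i j => ⟨Algebra.leftMulMatrix ω f i j, s27h_mulMat_mem V V1 ω hωV hω hf i j⟩

theorem s27h_mulMat_coe {f : F} (hf : f ∈ V) :
    (s27h_mulMat V V1 ω hωV hω hf).map V1.subtype = Algebra.leftMulMatrix ω f := by
  ext i j
  rfl

include hV1 hcomp hωb in
/-- `r f * ωb j = ∑ i, r1 (M i j) • ωb i`. -/
theorem s27h_red_mul_basis {f : F} (hf : f ∈ V) (j : Fin n) :
    r ⟨f, hf⟩ * ωb j = ∑ i, r1 (s27h_mulMat V V1 ω hωV hω hf i j) • ωb i := by
  have h2 : (∑ i, (ω.repr (f * ω j) i) • ω i) = f * ω j := ω.sum_repr (f * ω j)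
  have e : (⟨f, hf⟩ * ⟨ω j, hωV j⟩ : ↥V) =
      ∑ i, (⟨algebraMap K1 F ((s27h_mulMat V V1 ω hωV hω hf i j : ↥V1) : K1),
        (hV1 _).2 (s27h_mulMat V V1 ω hωV hω hf i j).2⟩ : ↥V) * ⟨ω i, hωV i⟩ := by
    apply Subtype.ext
    have hs : ((∑ i, (⟨algebraMap K1 F ((s27h_mulMat V V1 ω hωV hω hf i j : ↥V1) : K1),
        (hV1 _).2 (s27h_mulMat V V1 ω hωV hω hf i j).2⟩ : ↥V) * ⟨ω i, hωV i⟩ : ↥V) : F) =
        ∑ i, algebraMap K1 F ((s27h_mulMat V V1 ω hωV hω hf i j : ↥V1) : K1) * ω i :=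
      map_sum V.subtype _ _
    rw [hs]
    change f * ω j = _
    rw [← h2]
    refine Finset.sum_congr rfl fun i _ => ?_
    rw [Algebra.smul_def]
    have : ((s27h_mulMat V V1 ω hωV hω hf i j : ↥V1) : K1) = ω.repr (f * ω j) i :=
      Algebra.leftMulMatrix_eq_repr_mul ω f i j
    rw [this]
  rw [hωb j, ← map_mul, e, map_sum]
  refine Finset.sum_congr rfl fun i _ => ?_
  rw [map_mul, hcomp, ← hωb i, Algebra.smul_def]

include hV1 hcomp hωb in
/-- the multiplication matrix reduces to the multiplication matrix of the reduction. -/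
theorem s27h_mulMat_red {f : F} (hf : f ∈ V) :
    (s27h_mulMat V V1 ω hωV hω hf).map r1 = Algebra.leftMulMatrix ωb (r ⟨f, hf⟩) := by
  ext i j
  rw [Algebra.leftMulMatrix_eq_repr_mul, s27h_red_mul_basis V V1 hV1 r r1 hcomp ω hωV hω ωb hωb hf j,
    Basis.repr_sum_self]
  rfl

/-! ### norm, trace, characteristic polynomial -/

theorem s27h_norm_eq {f : F} (hf : f ∈ V) :
    Algebra.norm K1 f = ((s27h_mulMat V V1 ω hωV hω hf).det : K1) := by
  rw [Algebra.norm_eq_matrix_det ω f, ← s27h_mulMat_coe V V1 ω hωV hω hf]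
  exact (RingHom.map_det V1.subtype (s27h_mulMat V V1 ω hωV hω hf)).symm

include hωV hω in
theorem s27h_norm_mem {f : F} (hf : f ∈ V) : Algebra.norm K1 f ∈ V1 := by
  rw [s27h_norm_eq V V1 ω hωV hω hf]
  exact (s27h_mulMat V V1 ω hωV hω hf).det.2

include hV1 hcomp hωb in
/-- **reduction of the norm**: `r1 (N_{F/K1} f) = N_{Fb/k1} (r f)`. -/
theorem s27h_norm_red {f : F} (hf : f ∈ V) :
    r1 ⟨Algebra.norm K1 f, s27h_norm_mem V V1 ω hωV hω hf⟩ = Algebra.norm k1 (r ⟨f, hf⟩) := by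
  have e : (⟨Algebra.norm K1 f, s27h_norm_mem V V1 ω hωV hω hf⟩ : ↥V1) =
      (s27h_mulMat V V1 ω hωV hω hf).det := Subtype.ext (s27h_norm_eq V V1 ω hωV hω hf)
  rw [e, Algebra.norm_eq_matrix_det ωb, ← s27h_mulMat_red V V1 hV1 r r1 hcomp ω hωV hω ωb hωb hf]
  exact RingHom.map_det r1 (s27h_mulMat V V1 ω hωV hω hf)

theorem s27h_trace_eq {f : F} (hf : f ∈ V) :
    Algebra.trace K1 F f = ((s27h_mulMat V V1 ω hωV hω hf).trace : K1) := by
  rw [Algebra.trace_eq_matrix_trace ω f, ← s27h_mulMat_coe V V1 ω hωV hω hf]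
  simp only [Matrix.trace, Matrix.diag_apply, Matrix.map_apply]
  rw [← V1.subtype_apply, map_sum]

include hωV hω in
theorem s27h_trace_mem {f : F} (hf : f ∈ V) : Algebra.trace K1 F f ∈ V1 := by
  rw [s27h_trace_eq V V1 ω hωV hω hf]
  exact (s27h_mulMat V V1 ω hωV hω hf).trace.2

include hV1 hcomp hωb in
/-- **reduction of the trace**. -/
theorem s27h_trace_red {f : F} (hf : f ∈ V) :
    r1 ⟨Algebra.trace K1 F f, s27h_trace_mem V V1 ω hωV hω hf⟩ =
      Algebra.trace k1 Fb (r ⟨f, hf⟩) := by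
  have e : (⟨Algebra.trace K1 F f, s27h_trace_mem V V1 ω hωV hω hf⟩ : ↥V1) =
      (s27h_mulMat V V1 ω hωV hω hf).trace := Subtype.ext (s27h_trace_eq V V1 ω hωV hω hf)
  rw [e, Algebra.trace_eq_matrix_trace ωb,
    ← s27h_mulMat_red V V1 hV1 r r1 hcomp ω hωV hω ωb hωb hf]
  simp only [Matrix.trace, Matrix.diag_apply, Matrix.map_apply]
  rw [map_sum]

include hV1 hcomp hωb in
/-- **reduction of the characteristic polynomial** of the multiplication matrix. -/
theorem s27h_charpoly_red {f : F} (hf : f ∈ V) :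
    ((s27h_mulMat V V1 ω hωV hω hf).charpoly.map V1.subtype =
        (Algebra.leftMulMatrix ω f).charpoly) ∧
      ((s27h_mulMat V V1 ω hωV hω hf).charpoly.map r1 =
        (Algebra.leftMulMatrix ωb (r ⟨f, hf⟩)).charpoly) := by
  refine ⟨?_, ?_⟩
  · rw [← Matrix.charpoly_map, s27h_mulMat_coe]
  · rw [← Matrix.charpoly_map, s27h_mulMat_red V V1 hV1 r r1 hcomp ω hωV hω ωb hωb hf]

/-! ### det-polynomiality of the norm on an affine family `w₀ + ∑ c_j w_j` -/

section NormPoly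

variable {ι : Type*} [Fintype ι]

/-- a determinant of a matrix of polynomials of total degree `≤ 1` has total degree `≤ n`. -/
theorem s27h_totalDegree_det_le {R : Type*} [CommRing R] {n : ℕ}
    (A : Matrix (Fin n) (Fin n) (MvPolynomial ι R)) (hA : ∀ i j, (A i j).totalDegree ≤ 1) :
    A.det.totalDegree ≤ n := by
  rw [Matrix.det_apply']
  refine MvPolynomial.totalDegree_finsetSum_le fun σ _ => ?_
  refine (MvPolynomial.totalDegree_mul _ _).trans ?_
  have h1 : ((Equiv.Perm.sign σ : ℤ) : MvPolynomial ι R).totalDegree = 0 := by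
    rw [← map_intCast (MvPolynomial.C : R →+* MvPolynomial ι R)]
    exact MvPolynomial.totalDegree_C _
  rw [h1, zero_add]
  refine (MvPolynomial.totalDegree_finsetProd _ _).trans ?_
  calc ∑ i : Fin n, (A (σ i) i).totalDegree ≤ ∑ i : Fin n, 1 :=
        Finset.sum_le_sum fun i _ => hA _ _
    _ = n := by simp

/-- the matrix (with entries of total degree `≤ 1` in `V1[c]`) of multiplication by the generic
member `w₀ + ∑ c_j w_j`. -/
def s27h_genMat {w₀ : F} (hw₀ : w₀ ∈ V) {w : ι → F} (hw : ∀ j, w j ∈ V) :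
    Matrix (Fin n) (Fin n) (MvPolynomial ι ↥V1) :=
  (s27h_mulMat V V1 ω hωV hω hw₀).map MvPolynomial.C +
    ∑ j, (MvPolynomial.X j : MvPolynomial ι ↥V1) •
      (s27h_mulMat V V1 ω hωV hω (hw j)).map MvPolynomial.C

/-- **the norm polynomial** `P ∈ V1[c_j : j ∈ ι]` of the affine family `w₀ + ∑ c_j w_j`. -/
def s27h_normPoly {w₀ : F} (hw₀ : w₀ ∈ V) {w : ι → F} (hw : ∀ j, w j ∈ V) :
    MvPolynomial ι ↥V1 :=
  (s27h_genMat V V1 ω hωV hω hw₀ hw).det

theorem s27h_genMat_apply {w₀ : F} (hw₀ : w₀ ∈ V) {w : ι → F} (hw : ∀ j, w j ∈ V)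
    (a b : Fin n) :
    s27h_genMat V V1 ω hωV hω hw₀ hw a b =
      MvPolynomial.C (s27h_mulMat V V1 ω hωV hω hw₀ a b) +
        ∑ j, MvPolynomial.X j * MvPolynomial.C (s27h_mulMat V V1 ω hωV hω (hw j) a b) := by
  simp [s27h_genMat, Matrix.add_apply, Matrix.sum_apply, Matrix.smul_apply]

theorem s27h_normPoly_totalDegree_le {w₀ : F} (hw₀ : w₀ ∈ V) {w : ι → F}
    (hw : ∀ j, w j ∈ V) :
    (s27h_normPoly V V1 ω hωV hω hw₀ hw).totalDegree ≤ n := by
  refine s27h_totalDegree_det_le _ fun a b => ?_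
  rw [s27h_genMat_apply]
  refine (MvPolynomial.totalDegree_add _ _).trans (max_le ?_ ?_)
  · rw [MvPolynomial.totalDegree_C]; exact Nat.zero_le _
  · refine MvPolynomial.totalDegree_finsetSum_le fun j _ => ?_
    refine (MvPolynomial.totalDegree_mul _ _).trans ?_
    rw [MvPolynomial.totalDegree_C, add_zero]
    exact (MvPolynomial.totalDegree_X j).le

/-- evaluating the generic matrix through any ring homomorphism `φ : V1 → S` at `c : ι → S`. -/
theorem s27h_genMat_eval₂ {S : Type*} [CommRing S] (φ : ↥V1 →+* S) (c : ι → S)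
    {w₀ : F} (hw₀ : w₀ ∈ V) {w : ι → F} (hw : ∀ j, w j ∈ V) :
    (s27h_genMat V V1 ω hωV hω hw₀ hw).map (MvPolynomial.eval₂Hom φ c) =
      (s27h_mulMat V V1 ω hωV hω hw₀).map φ +
        ∑ j, c j • (s27h_mulMat V V1 ω hωV hω (hw j)).map φ := by
  ext a b
  rw [Matrix.map_apply, s27h_genMat_apply]
  simp [Matrix.add_apply, Matrix.sum_apply, Matrix.smul_apply]

theorem s27h_normPoly_eval₂ {S : Type*} [CommRing S] (φ : ↥V1 →+* S) (c : ι → S)
    {w₀ : F} (hw₀ : w₀ ∈ V) {w : ι → F} (hw : ∀ j, w j ∈ V) :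
    MvPolynomial.eval₂ φ c (s27h_normPoly V V1 ω hωV hω hw₀ hw) =
      ((s27h_mulMat V V1 ω hωV hω hw₀).map φ +
        ∑ j, c j • (s27h_mulMat V V1 ω hωV hω (hw j)).map φ).det := by
  rw [← s27h_genMat_eval₂]
  exact RingHom.map_det (MvPolynomial.eval₂Hom φ c) (s27h_genMat V V1 ω hωV hω hw₀ hw)

/-- **det-polynomiality, generic fibre**: `N_{F/K1}(w₀ + ∑ c_j w_j) = P(c)` for all `c ∈ K1^ι`. -/
theorem s27h_norm_poly {w₀ : F} (hw₀ : w₀ ∈ V) {w : ι → F} (hw : ∀ j, w j ∈ V)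
    (c : ι → K1) :
    Algebra.norm K1 (w₀ + ∑ j, c j • w j) =
      MvPolynomial.eval₂ V1.subtype c (s27h_normPoly V V1 ω hωV hω hw₀ hw) := by
  rw [s27h_normPoly_eval₂, Algebra.norm_eq_matrix_det ω, map_add, map_sum]
  congr 1
  rw [s27h_mulMat_coe]
  congr 1
  refine Finset.sum_congr rfl fun j _ => ?_
  rw [s27h_mulMat_coe, map_smul]

include hV1 hcomp hωb in
/-- **det-polynomiality, special fibre**: `N_{Fb/k1}(r w₀ + ∑ c̄_j r w_j) = (r1 P)(c̄)` for all
`c̄ ∈ k1^ι`, with THE SAME polynomial `P`. -/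
theorem s27h_norm_poly_red {w₀ : F} (hw₀ : w₀ ∈ V) {w : ι → F} (hw : ∀ j, w j ∈ V)
    (cb : ι → k1) :
    Algebra.norm k1 (r ⟨w₀, hw₀⟩ + ∑ j, cb j • r ⟨w j, hw j⟩) =
      MvPolynomial.eval₂ r1 cb (s27h_normPoly V V1 ω hωV hω hw₀ hw) := by
  rw [s27h_normPoly_eval₂, Algebra.norm_eq_matrix_det ωb, map_add, map_sum]
  congr 1
  rw [s27h_mulMat_red V V1 hV1 r r1 hcomp ω hωV hω ωb hωb hw₀]
  congr 1
  refine Finset.sum_congr rfl fun j _ => ?_
  rw [s27h_mulMat_red V V1 hV1 r r1 hcomp ω hωV hω ωb hωb (hw j), map_smul]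

/-! #### the constant and the linear coefficients of the norm polynomial -/

/-- the coefficient of `c_j` of `p`, read off after the substitution `c_j ↦ X`, `c_i ↦ 0`. -/
theorem s27h_coeff_single_eq {R : Type*} [CommRing R] [DecidableEq ι] (j : ι)
    (p : MvPolynomial ι R) :
    (MvPolynomial.eval₂ Polynomial.C (fun i => if i = j then Polynomial.X else 0) p).coeff 1 =
      p.coeff (Finsupp.single j 1) := by
  classical
  induction p using MvPolynomial.induction_on' with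
  | monomial m a =>
    rw [MvPolynomial.eval₂_monomial, Polynomial.coeff_C_mul, MvPolynomial.coeff_monomial]
    by_cases h : ∃ i ∈ m.support, i ≠ j
    · obtain ⟨i, hi, hij⟩ := h
      have h0 : (m.prod fun i e => (if i = j then (Polynomial.X : Polynomial R) else 0) ^ e) = 0 := by
        refine Finset.prod_eq_zero hi ?_
        show (if i = j then (Polynomial.X : Polynomial R) else 0) ^ (m i) = 0
        rw [if_neg hij, zero_pow (Finsupp.mem_support_iff.1 hi)]
      have hm : m ≠ Finsupp.single j 1 := by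
        intro e
        rw [e] at hi
        have := Finsupp.support_single_subset hi
        exact hij (Finset.mem_singleton.1 this)
      rw [h0, if_neg hm]
      simp
    · have h : ∀ i ∈ m.support, i = j := by
        intro i hi
        by_contra hij
        exact h ⟨i, hi, hij⟩
      have hm : m = Finsupp.single j (m j) := by
        ext i
        by_cases hij : i = j
        · subst hij; simp
        · rw [Finsupp.single_apply, if_neg (Ne.symm hij)]
          by_contra hne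
          exact hij (h i (Finsupp.mem_support_iff.2 hne))
      rw [hm, Finsupp.prod_single_index (by simp), if_pos rfl, Polynomial.coeff_X_pow]
      by_cases h1 : m j = 1
      · rw [h1]; simp
      · have : Finsupp.single j (m j) ≠ Finsupp.single j 1 := by
          intro e
          apply h1
          have := DFunLike.congr_fun e j
          simpa using this
        rw [if_neg this, if_neg (Ne.symm h1)]
        simp
  | add p q hp hq =>
    rw [MvPolynomial.eval₂_add, Polynomial.coeff_add, hp, hq, MvPolynomial.coeff_add]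

theorem s27h_mulMat_one : s27h_mulMat V V1 ω hωV hω V.one_mem = 1 := by
  ext a b
  show Algebra.leftMulMatrix ω 1 a b = ((1 : Matrix (Fin n) (Fin n) ↥V1) a b : K1)
  rw [map_one]
  by_cases h : a = b
  · subst h; simp
  · simp [h]

/-- the constant coefficient of the norm polynomial is `det [w₀]` (`= N(w₀)`). -/
theorem s27h_normPoly_coeff_zero {w₀ : F} (hw₀ : w₀ ∈ V) {w : ι → F} (hw : ∀ j, w j ∈ V) :
    MvPolynomial.coeff 0 (s27h_normPoly V V1 ω hωV hω hw₀ hw) =
      (s27h_mulMat V V1 ω hωV hω hw₀).det := by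
  have h := s27h_normPoly_eval₂ V V1 ω hωV hω (RingHom.id ↥V1) (0 : ι → ↥V1) hw₀ hw
  have h2 : MvPolynomial.eval₂ (RingHom.id ↥V1) (0 : ι → ↥V1)
      (s27h_normPoly V V1 ω hωV hω hw₀ hw) =
      MvPolynomial.coeff 0 (s27h_normPoly V V1 ω hωV hω hw₀ hw) := by
    have := congrFun (congrArg DFunLike.coe (MvPolynomial.eval_zero (σ := ι) (R := ↥V1)))
      (s27h_normPoly V V1 ω hωV hω hw₀ hw)
    rw [MvPolynomial.constantCoeff_eq] at this
    exact this
  rw [← h2, h]
  congr 1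
  simp

/-- if `[w₀] = 1` (e.g. `w₀ = 1`), the coefficient of `c_j` of the norm polynomial is the trace of
`[w_j]`  (`det(1 + tA) = 1 + t tr A + …`). -/
theorem s27h_normPoly_coeff_single [DecidableEq ι] {w₀ : F} (hw₀ : w₀ ∈ V) {w : ι → F}
    (hw : ∀ j, w j ∈ V) (h1 : s27h_mulMat V V1 ω hωV hω hw₀ = 1) (j : ι) :
    MvPolynomial.coeff (Finsupp.single j 1) (s27h_normPoly V V1 ω hωV hω hw₀ hw) =
      (s27h_mulMat V V1 ω hωV hω (hw j)).trace := by
  rw [← s27h_coeff_single_eq, s27h_normPoly_eval₂, h1]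
  have hs : (∑ i, (if i = j then (Polynomial.X : Polynomial ↥V1) else 0) •
      (s27h_mulMat V V1 ω hωV hω (hw i)).map Polynomial.C) =
      (Polynomial.X : Polynomial ↥V1) • (s27h_mulMat V V1 ω hωV hω (hw j)).map Polynomial.C := by
    rw [Finset.sum_eq_single j]
    · rw [if_pos rfl]
    · intro i _ hij; rw [if_neg hij, zero_smul]
    · intro h; exact absurd (Finset.mem_univ j) h
  rw [hs, Matrix.map_one _ (map_zero _) (map_one _)]
  exact Matrix.coeff_det_one_add_X_smul_one _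

include hV1 hcomp hωb in
/-- the trace of the multiplication matrix reduces to the trace of the reduction. -/
theorem s27h_mulMat_trace_red {f : F} (hf : f ∈ V) :
    r1 (s27h_mulMat V V1 ω hωV hω hf).trace = Algebra.trace k1 Fb (r ⟨f, hf⟩) := by
  rw [← s27h_trace_red V V1 hV1 r r1 hcomp ω hωV hω ωb hωb hf]
  congr 1
  exact Subtype.ext (s27h_trace_eq V V1 ω hωV hω hf).symm

include hV1 hcomp hωb in
/-- the determinant of the multiplication matrix reduces to the norm of the reduction. -/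
theorem s27h_mulMat_det_red {f : F} (hf : f ∈ V) :
    r1 (s27h_mulMat V V1 ω hωV hω hf).det = Algebra.norm k1 (r ⟨f, hf⟩) := by
  rw [← s27h_norm_red V V1 hV1 r r1 hcomp ω hωV hω ωb hωb hf]
  congr 1
  exact Subtype.ext (s27h_norm_eq V V1 ω hωV hω hf).symm

include hV1 hcomp hωb in
/-- **the linear coefficients of the reduced norm polynomial are the residue traces**:
`r1 (coeff_{c_j} P) = Tr_{Fb/k1} (r w_j)`  (when `[w₀] = 1`). -/
theorem s27h_normPoly_coeff_single_red [DecidableEq ι] {w₀ : F} (hw₀ : w₀ ∈ V) {w : ι → F}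
    (hw : ∀ j, w j ∈ V) (h1 : s27h_mulMat V V1 ω hωV hω hw₀ = 1) (j : ι) :
    r1 (MvPolynomial.coeff (Finsupp.single j 1) (s27h_normPoly V V1 ω hωV hω hw₀ hw)) =
      Algebra.trace k1 Fb (r ⟨w j, hw j⟩) := by
  rw [s27h_normPoly_coeff_single V V1 ω hωV hω hw₀ hw h1 j,
    s27h_mulMat_trace_red V V1 hV1 r r1 hcomp ω hωV hω ωb hωb (hw j)]

end NormPoly

end NormRed

end Fermat.Agent.S27

end
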