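/-
S27 / (HENS) cell H6 (helper26) = Step 3 of helper18's proof: "A₁ = U".  Prefix `s27h6_`.

Setting: a constant reduction `R` with (GOOD) hypotheses `h`, the reduction map `red` on places
with property (R) (`hdiv`), the induced homomorphism `φ` on `Pic⁰`.  Base data (`s27h6_Base`):
`g` with Riemann's inequality on `F / K`, a NON-SPECIAL effective divisor `Ē₀` of degree `g` on the
residue function field (`l(Ē₀) = 1`) and an effective lift `E₀` (`red_* E₀ = Ē₀`).

* (3a) every divisor `D` of degree `g` with `red_* D = Ē₀` has `l(D) = 1`, and the unique effective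
  divisor `E ∼ D` satisfies `red_* E = Ē₀`;
* (3b) `U := {E ≥ 0 : red_* E = Ē₀} → ker φ`, `E ↦ [E - E₀]`, is a bijection;
* hence `[l]` is bijective on `ker φ` as soon as (INJ) and (SURJ) hold in divisor language
  (`s27h6_bijective_of`).
-/
import Mathlib
import Fermat.Agent.S27.Red.Final

set_option autoImplicit false
set_option linter.unusedSectionVars false
set_option linter.unusedVariables false

noncomputable section

namespace Fermat.Agent.S27

open AlgebraicCurve IntermediateField Polynomial Fermat.Agent.JT3 Fermat.Agent.S24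

universe u v u' v'
variable {K : Type u} {F : Type v} [Field K] [Field F] [Algebra K F]
variable {k : Type u'} {Fb : Type v'} [Field k] [Field Fb] [Algebra k Fb]

/-! ### generalities on `Pic0.mk` -/

theorem s27h6_mk_eq_mk_iff (D D' : Divisor.degZero (K := K) (F := F)) :
    Pic0.mk D = Pic0.mk D' ↔ Divisor.IsPrincipal ((D : Divisor K F) - (D' : Divisor K F)) := by
  rw [Pic0.mk, Pic0.mk, QuotientAddGroup.eq, AddSubgroup.mem_addSubgroupOf,
    ← Divisor.mem_principal]
  have : ((-D + D' : Divisor.degZero (K := K) (F := F)) : Divisor K F) =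
      -((D : Divisor K F) - (D' : Divisor K F)) := by
    show -(D : Divisor K F) + (D' : Divisor K F) = -((D : Divisor K F) - (D' : Divisor K F))
    abel
  rw [this, neg_mem_iff]

theorem s27h6_mk_eq_zero_iff (D : Divisor.degZero (K := K) (F := F)) :
    Pic0.mk D = 0 ↔ Divisor.IsPrincipal (D : Divisor K F) := by
  rw [← Pic0.mk_zero, s27h6_mk_eq_mk_iff]
  show Divisor.IsPrincipal ((D : Divisor K F) - 0) ↔ _
  rw [sub_zero]

theorem s27h6_nsmul_mk (l : ℕ) (D : Divisor.degZero (K := K) (F := F)) :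
    l • Pic0.mk D = Pic0.mk (l • D) :=
  (map_nsmul (QuotientAddGroup.mk' ((Divisor.principal (K := K) (F := F)).addSubgroupOf
    (Divisor.degZero (K := K) (F := F)))) l D).symm

variable [IsAlgClosed K] [IsAlgClosed k] (R : s27r_Red K F k Fb) {x : F} (h : s27r_Good R x)
  (red : Place K F → Place k Fb)

/-- the base data of Step 2: a non-special effective divisor `Ē₀` of degree `g` downstairs with an
effective lift `E₀`. -/
structure s27h6_Base (g : ℕ) (Eb0 : Divisor k Fb) (E0 : Divisor K F) : Prop where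
  /-- Riemann's inequality on `F / K` -/
  riemann : ∀ A : Divisor K F,
    Divisor.degree A + 1 - g ≤ (Module.finrank K ↥(riemannRochSpace A) : ℤ)
  eb0_nonneg : 0 ≤ Eb0
  eb0_deg : Divisor.degree Eb0 = g
  eb0_l : Module.finrank k ↥(riemannRochSpace Eb0) = 1
  e0_nonneg : 0 ≤ E0
  e0_red : Finsupp.mapDomain red E0 = Eb0

variable (hdiv : ∀ (f : F) (hf : f ∈ R.V), R.r ⟨f, hf⟩ ≠ 0 →
      Finsupp.mapDomain red (rt_div h.sepK f) = rt_div h.sepk (R.r ⟨f, hf⟩))
  {g : ℕ} {Eb0 : Divisor k Fb} {E0 : Divisor K F} (B : s27h6_Base red g Eb0 E0)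

include h in
omit [IsAlgClosed K] in
/-- `L(Ē₀)` consists of constants. -/
theorem s27h6_const_of_mem (B : s27h6_Base red g Eb0 E0) {z : Fb}
    (hz : z ∈ riemannRochSpace Eb0) : ∃ b : k, z = algebraMap k Fb b := by
  have h1 : (1 : Fb) ∈ riemannRochSpace Eb0 := by
    have := rt_algebraMap_mem_L (K := k) (F := Fb) B.eb0_nonneg (1 : k)
    rwa [map_one] at this
  have hne : (⟨1, h1⟩ : ↥(riemannRochSpace Eb0)) ≠ 0 := by
    intro h0
    exact one_ne_zero (congrArg Subtype.val h0)
  obtain ⟨b, hb⟩ := (finrank_eq_one_iff_of_nonzero' (⟨1, h1⟩ : ↥(riemannRochSpace Eb0)) hne).1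
    B.eb0_l ⟨z, hz⟩
  refine ⟨b, ?_⟩
  have := congrArg Subtype.val hb
  simp only [Submodule.coe_smul] at this
  rw [← this, Algebra.smul_def, mul_one]

include hdiv B

/-- the degree of an element of `U`. -/
theorem s27h6_degree_of_red {E : Divisor K F} (hEr : Finsupp.mapDomain red E = Eb0) :
    Divisor.degree E = g := by
  rw [← s27r6_degree_mapDomain red h.sepK h.sepk E, hEr, B.eb0_deg]

/-- **(3a)** `l(D) = 1`. -/
theorem s27h6_finrank_eq_one (D : Divisor K F) (hdeg : Divisor.degree D = g)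
    (hDr : Finsupp.mapDomain red D = Eb0) :
    Module.finrank K ↥(riemannRochSpace D) = 1 := by
  have hfin := rt_L_finite h.sepK D
  have h1 : (1 : ℤ) ≤ (Module.finrank K ↥(riemannRochSpace D) : ℤ) := by
    have := B.riemann D
    rw [hdeg] at this
    linarith
  have h2 := (s27l_hdim R h _ hfin).2
  have h3 := s27r6_finrank_redSub_le R h red hdiv D
  rw [hDr, B.eb0_l, h2] at h3
  omega

/-- **(3a)** a generator of `L(D)` which is a unit of `V` with constant reduction. -/
theorem s27h6_exists_gen (D : Divisor K F) (hdeg : Divisor.degree D = g)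
    (hDr : Finsupp.mapDomain red D = Eb0) :
    ∃ (u : F) (hu : u ∈ R.V), u ≠ 0 ∧ u ∈ riemannRochSpace D ∧
      ∃ b : k, b ≠ 0 ∧ R.r ⟨u, hu⟩ = algebraMap k Fb b := by
  have hfin := rt_L_finite h.sepK D
  have hone := s27h6_finrank_eq_one R h red hdiv B D hdeg hDr
  have hpos : 0 < Module.finrank K ↥(riemannRochSpace D) := by omega
  obtain ⟨⟨f, hfL⟩, hf0'⟩ := Module.finrank_pos_iff_exists_ne_zero.mp hpos
  have hf0 : f ≠ 0 := fun h0 => hf0' (Subtype.ext h0)
  obtain ⟨c, hc0, u, hu, hru, hfu⟩ := s27r_hcu R h f hf0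
  have hu0 : u ≠ 0 := by
    rintro rfl
    exact hru (map_zero R.r)
  have huL : u ∈ riemannRochSpace D := by
    have : u = c⁻¹ • f := by
      rw [hfu, Algebra.smul_def, ← mul_assoc, ← map_mul, inv_mul_cancel₀ hc0, map_one, one_mul]
    rw [this]
    exact Submodule.smul_mem _ _ hfL
  have hmem : R.r ⟨u, hu⟩ ∈ riemannRochSpace Eb0 := by
    rw [← hDr]
    exact s27r6_redSub_L_le R h red hdiv D ⟨u, hu, huL, rfl⟩
  obtain ⟨b, hb⟩ := s27h6_const_of_mem R h red B hmem
  refine ⟨u, hu, hu0, huL, b, ?_, hb⟩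
  rintro rfl
  rw [map_zero] at hb
  exact hru hb

/-- **(3a)** the unique effective divisor linearly equivalent to `D`; it lies in `U`. -/
theorem s27h6_exists_unique_eff (D : Divisor K F) (hdeg : Divisor.degree D = g)
    (hDr : Finsupp.mapDomain red D = Eb0) :
    ∃ E : Divisor K F, 0 ≤ E ∧ Divisor.IsPrincipal (E - D) ∧ Finsupp.mapDomain red E = Eb0 ∧
      ∀ E' : Divisor K F, 0 ≤ E' → Divisor.IsPrincipal (E' - D) → E' = E := by
  obtain ⟨u, hu, hu0, huL, b, hb0, hb⟩ := s27h6_exists_gen R h red hdiv B D hdeg hDr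
  have hone := s27h6_finrank_eq_one R h red hdiv B D hdeg hDr
  have hru : R.r ⟨u, hu⟩ ≠ 0 := by
    rw [hb, Ne, map_eq_zero]; exact hb0
  refine ⟨D + rt_div h.sepK u, ?_, ?_, ?_, ?_⟩
  · rw [Finsupp.le_def]
    intro v
    have := (rt_mem_L_iff hu0).mp huL v
    rw [Finsupp.zero_apply, Finsupp.add_apply, rt_div_apply]
    omega
  · rw [add_sub_cancel_left]
    exact rt_div_isPrincipal h.sepK hu0
  · rw [Finsupp.mapDomain_add, hDr, hdiv u hu hru, hb, rt_div_algebraMap, add_zero]
  · intro E' hE' hp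
    obtain ⟨f', hf'0, hf'⟩ := hp
    have hE'D : E' - D = rt_div h.sepK f' := rt_eq_div_of_forall h.sepK hf'
    have hf'L : f' ∈ riemannRochSpace D := by
      rw [rt_mem_L_iff hf'0]
      intro v
      have h1 := Finsupp.le_def.mp hE' v
      have h2 := hf' v
      rw [Finsupp.sub_apply] at h2
      rw [Finsupp.zero_apply] at h1
      omega
    have hne : (⟨u, huL⟩ : ↥(riemannRochSpace D)) ≠ 0 := fun h0 =>
      hu0 (congrArg Subtype.val h0)
    obtain ⟨a, ha⟩ := (finrank_eq_one_iff_of_nonzero' (⟨u, huL⟩ : ↥(riemannRochSpace D)) hne).1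
      hone ⟨f', hf'L⟩
    have ha' : f' = algebraMap K F a * u := by
      have := congrArg Subtype.val ha
      simp only [Submodule.coe_smul] at this
      rw [← this, Algebra.smul_def]
    have ha0 : algebraMap K F a ≠ 0 := by
      intro h0
      rw [ha', h0, zero_mul] at hf'0
      exact hf'0 rfl
    have : rt_div h.sepK f' = rt_div h.sepK u := by
      have ha00 : a ≠ 0 := by
        rintro rfl
        exact ha0 (map_zero _)
      rw [ha', rt_div_mul h.sepK ha0 hu0, rt_div_algebraMap, zero_add]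
    rw [← this, ← hE'D]
    abel

/-- two elements of `U` which are linearly equivalent are equal. -/
theorem s27h6_eq_of_isPrincipal {E E' : Divisor K F} (hE : 0 ≤ E)
    (hEr : Finsupp.mapDomain red E = Eb0) (hE' : 0 ≤ E')
    (hp : Divisor.IsPrincipal (E' - E)) : E' = E := by
  obtain ⟨E₁, _, _, _, huniq⟩ := s27h6_exists_unique_eff R h red hdiv B E
    (s27h6_degree_of_red R h red hdiv B hEr) hEr
  have h1 : E = E₁ := huniq E hE (by
    rw [sub_self]
    exact (Divisor.principal (K := K) (F := F)).zero_mem)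
  rw [h1]
  exact huniq E' hE' (h1 ▸ hp)

/-! ### (3b): the kernel of the reduction -/

variable (φ : Pic0 K F →+ Pic0 k Fb)
  (hφ : ∀ (D : Divisor K F) (hD : D ∈ Divisor.degZero (K := K) (F := F)),
    ∃ hD' : Finsupp.mapDomain red D ∈ Divisor.degZero (K := k) (F := Fb),
      φ (Pic0.mk ⟨D, hD⟩) = Pic0.mk ⟨Finsupp.mapDomain red D, hD'⟩)

omit B in
include hφ in
theorem s27h6_phi_eq : φ = s27r6_pic0Hom R h red hdiv (s27r_hcu R h) := by
  refine AddMonoidHom.ext fun c => ?_
  obtain ⟨D, rfl⟩ := Pic0.mk_surjective c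
  obtain ⟨hD', e⟩ := hφ D.1 D.2
  rw [s27r6_pic0Hom_mk]
  exact e

/-- `E - E₀` has degree zero for `E ∈ U`. -/
theorem s27h6_sub_mem_degZero {E : Divisor K F} (hEr : Finsupp.mapDomain red E = Eb0) :
    E - E0 ∈ Divisor.degZero (K := K) (F := F) := by
  rw [Divisor.mem_degZero, map_sub, s27h6_degree_of_red R h red hdiv B hEr,
    s27h6_degree_of_red R h red hdiv B B.e0_red, sub_self]

include hφ in
/-- the class `[E - E₀]`, `E ∈ U`, lies in the kernel of the reduction. -/
theorem s27h6_mk_mem_ker {E : Divisor K F} (hEr : Finsupp.mapDomain red E = Eb0) :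
    φ (Pic0.mk ⟨E - E0, s27h6_sub_mem_degZero R h red hdiv B hEr⟩) = 0 := by
  obtain ⟨hD', e⟩ := hφ (E - E0) (s27h6_sub_mem_degZero R h red hdiv B hEr)
  rw [e, s27h6_mk_eq_zero_iff]
  show Divisor.IsPrincipal (Finsupp.mapDomain red (E - E0))
  rw [s27r6_mapDomain_sub, hEr, B.e0_red, sub_self]
  exact (Divisor.principal (K := k) (F := Fb)).zero_mem

include hφ in
/-- **(3b), onto**: every class in the kernel of the reduction is `[E - E₀]` with `E ∈ U`. -/
theorem s27h6_ker_repr (c : Pic0 K F) (hc : φ c = 0) :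
    ∃ (E : Divisor K F) (hE : 0 ≤ E) (hEr : Finsupp.mapDomain red E = Eb0),
      c = Pic0.mk ⟨E - E0, s27h6_sub_mem_degZero R h red hdiv B hEr⟩ := by
  rw [s27h6_phi_eq R h red hdiv φ hφ] at hc
  obtain ⟨D0, hD0, rfl, hD0r⟩ := s27r6_ker_repr R h red hdiv (s27r_hcu R h) c hc
  have hdeg : Divisor.degree (D0 + E0) = g := by
    rw [map_add, Divisor.mem_degZero.1 hD0, zero_add,
      s27h6_degree_of_red R h red hdiv B B.e0_red]
  have hDr : Finsupp.mapDomain red (D0 + E0) = Eb0 := by
    rw [Finsupp.mapDomain_add, hD0r, zero_add, B.e0_red]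
  obtain ⟨E, hE, hp, hEr, -⟩ := s27h6_exists_unique_eff R h red hdiv B (D0 + E0) hdeg hDr
  refine ⟨E, hE, hEr, ?_⟩
  rw [s27h6_mk_eq_mk_iff]
  show Divisor.IsPrincipal (D0 - (E - E0))
  have : D0 - (E - E0) = -(E - (D0 + E0)) := by abel
  rw [this]
  exact (Divisor.principal (K := K) (F := F)).neg_mem hp

/-- **(3b), one-to-one**. -/
theorem s27h6_ker_unique {E E' : Divisor K F} (hE : 0 ≤ E)
    (hEr : Finsupp.mapDomain red E = Eb0) (hE' : 0 ≤ E')
    (hE'r : Finsupp.mapDomain red E' = Eb0)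
    (heq : Pic0.mk ⟨E' - E0, s27h6_sub_mem_degZero R h red hdiv B hE'r⟩ =
      Pic0.mk ⟨E - E0, s27h6_sub_mem_degZero R h red hdiv B hEr⟩) : E' = E := by
  rw [s27h6_mk_eq_mk_iff] at heq
  have heq' : Divisor.IsPrincipal ((E' - E0) - (E - E0)) := heq
  have : (E' - E0) - (E - E0) = E' - E := by abel
  rw [this] at heq'
  exact s27h6_eq_of_isPrincipal R h red hdiv B hE hEr hE' heq'

/-! ### (HENS) ⟸ (INJ) + (SURJ) -/

include hφ in
/-- **Step 3, conclusion**: multiplication by `l` is bijective on the kernel of the reduction as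
soon as (INJ) and (SURJ) hold on `U` in divisor language. -/
theorem s27h6_bijective_of (l : ℕ)
    (hinj : ∀ E : Divisor K F, 0 ≤ E → Finsupp.mapDomain red E = Eb0 →
      Divisor.IsPrincipal (l • (E - E0)) → E = E0)
    (hsurj : ∀ E' : Divisor K F, 0 ≤ E' → Finsupp.mapDomain red E' = Eb0 →
      ∃ E : Divisor K F, 0 ≤ E ∧ Finsupp.mapDomain red E = Eb0 ∧
        Divisor.IsPrincipal (l • (E - E0) - (E' - E0))) :
    Function.Bijective (fun c : φ.ker => l • c) := by
  -- the kernel of `[l]` on `ker φ` is trivial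
  have hker : ∀ c : Pic0 K F, φ c = 0 → l • c = 0 → c = 0 := by
    intro c hc hlc
    obtain ⟨E, hE, hEr, rfl⟩ := s27h6_ker_repr R h red hdiv B φ hφ c hc
    rw [s27h6_nsmul_mk, s27h6_mk_eq_zero_iff] at hlc
    have hlc' : Divisor.IsPrincipal (l • (E - E0)) := hlc
    have hEE0 := hinj E hE hEr hlc'
    rw [s27h6_mk_eq_zero_iff]
    show Divisor.IsPrincipal (E - E0)
    rw [hEE0, sub_self]
    exact (Divisor.principal (K := K) (F := F)).zero_mem
  constructor
  · intro a b hab
    have hab' : l • (a - b) = 0 := by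
      rw [nsmul_sub]
      exact sub_eq_zero.2 hab
    have h1 : l • ((a - b : φ.ker) : Pic0 K F) = 0 := by
      have := congrArg (Subtype.val : φ.ker → Pic0 K F) hab'
      simpa using this
    have h2 := hker _ ((AddMonoidHom.mem_ker).1 (a - b).2) h1
    have h3 : a - b = 0 := Subtype.ext h2
    exact sub_eq_zero.1 h3
  · intro c'
    obtain ⟨E', hE', hE'r, hc'⟩ := s27h6_ker_repr R h red hdiv B φ hφ c'.1
      ((AddMonoidHom.mem_ker).1 c'.2)
    obtain ⟨E, hE, hEr, hp⟩ := hsurj E' hE' hE'r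
    refine ⟨⟨Pic0.mk ⟨E - E0, s27h6_sub_mem_degZero R h red hdiv B hEr⟩,
      (AddMonoidHom.mem_ker).2 (s27h6_mk_mem_ker R h red hdiv B φ hφ hEr)⟩, ?_⟩
    apply Subtype.ext
    show l • Pic0.mk ⟨E - E0, _⟩ = c'.1
    rw [hc', s27h6_nsmul_mk, s27h6_mk_eq_mk_iff]
    exact hp

end Fermat.Agent.S27
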