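/-
S27 / (HENS), Step 2 = BASE, corollaries (helper12; prefix `s27hb_`): the base data in the shape
consumed by Step 3 (`s27h6_Base` of `Hens/KerU.lean`).

* `s27hb_riemann_K` : Riemann's inequality on `F / K` with the genus `g` of the RESIDUE function
  field (`g_K ≤ g_k` is the `genus_le` field of `s27r_Good`);
* `s27hb_base`      : `s27h6_Base red g Ē₀ E₀` for the data of `s27hb_exists_base`.
-/
import Mathlib
import Fermat.Agent.S27.Hens.Base
import Fermat.Agent.S27.Hens.KerU

set_option autoImplicit false
set_option linter.unusedSectionVars false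
set_option linter.unusedVariables false

noncomputable section

namespace Fermat.Agent.S27

open AlgebraicCurve IntermediateField Polynomial Fermat.Agent.JT3 Fermat.Agent.S24

universe u v u' v'
variable {K : Type u} {F : Type v} [Field K] [Field F] [Algebra K F]
variable {k : Type u'} {Fb : Type v'} [Field k] [Field Fb] [Algebra k Fb]
variable [IsAlgClosed K] [IsAlgClosed k] (R : s27r_Red K F k Fb) {x : F} (h : s27r_Good R x)
  (red : Place K F → Place k Fb)

include h in
/-- Riemann's inequality on `F / K` with the genus of the residue function field. -/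
theorem s27hb_riemann_K {g : ℕ} (hgk : s27r_IsGenus k Fb g) (A : Divisor K F) :
    Divisor.degree A + 1 - g ≤ (Module.finrank K ↥(riemannRochSpace A) : ℤ) := by
  obtain ⟨gK, hgK⟩ := s27r_exists_isGenus h.sepK
  have hle : gK ≤ g := h.genus_le gK g hgK hgk
  have := hgK.1 A
  have hle' : (gK : ℤ) ≤ g := by exact_mod_cast hle
  omega

include h in
/-- the base data of Step 2 in the shape of Step 3. -/
theorem s27hb_base {g : ℕ} (hgk : s27r_IsGenus k Fb g) {Pb : Fin g → Place k Fb}
    {P : Fin g → Place K F} (hP : ∀ i, red (P i) = Pb i)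
    (hl : Module.finrank k ↥(riemannRochSpace (∑ i, Finsupp.single (Pb i) (1 : ℤ))) = 1) :
    s27h6_Base red g (∑ i, Finsupp.single (Pb i) (1 : ℤ))
      (∑ i, Finsupp.single (P i) (1 : ℤ)) where
  riemann := s27hb_riemann_K R h hgk
  eb0_nonneg := s27hb_sum_single_nonneg _ _
  eb0_deg := by
    rw [map_sum]
    simp only [rt_degree_single h.sepk]
    simp
  eb0_l := hl
  e0_nonneg := s27hb_sum_single_nonneg _ _
  e0_red := by
    rw [Finsupp.mapDomain_finsetSum]
    refine Finset.sum_congr rfl fun i _ => ?_
    rw [Finsupp.mapDomain_single, hP]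

end Fermat.Agent.S27
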