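/-
S27 / (HENS) leaf H4' FINRAM, backup route via Mathlib's different ideal (helper26).
Prefix `s27hfd_`.

`E / k` a function field with separating generator `x` over an algebraically closed field `k`
(ANY characteristic).  Then `x` is ramified at only finitely many places:
`{P | ∃ a, 2 ≤ ord_P (x - a)}` is finite.

Route: `A := k[x]`, `B :=` the integral closure of `A` in `E` (Dedekind).  A prime `Q` of `B` with
`Q² ∣ 𝔭 B` (`𝔭` a maximal ideal of `A`) divides the different ideal of `B / A`
(Mathlib `pow_sub_one_dvd_differentIdeal_aux`), which is nonzero because `E / k(x)` is separable;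
a nonzero ideal of a Dedekind domain has finitely many prime factors.
-/
import Mathlib
import Fermat.Agent.JT3.Riemann.Main

set_option autoImplicit false
set_option linter.unusedSectionVars false
set_option linter.overlappingInstances false

namespace Fermat.Agent.S27

open nonZeroDivisors IsDedekindDomain

/-! ### The abstract statement (AKLB) -/

section abstract

variable (A K : Type*) {L : Type*} {B : Type*} [CommRing A] [Field K] [CommRing B] [Field L]
variable [Algebra A K] [Algebra B L] [Algebra A B] [Algebra K L] [Algebra A L]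
variable [IsScalarTower A K L] [IsScalarTower A B L]
variable [IsDedekindDomain A] [IsFractionRing A K] [FiniteDimensional K L]
  [Algebra.IsSeparable K L]
variable [IsIntegralClosure B A L] [IsDedekindDomain B] [Module.IsTorsionFree A B]
variable [IsFractionRing B L] [Module.Finite A B]

include K L in
theorem s27hfd_differentIdeal_ne_bot : differentIdeal A B ≠ ⊥ := by
  rw [ne_eq, ← FractionalIdeal.coeIdeal_inj (K := L), coeIdeal_differentIdeal A K L B]
  simp

include K L in
theorem s27hfd_dvd_different (P : Ideal B) {p : Ideal A} [p.IsMaximal] (hp : p ≠ ⊥)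
    (hP : P ^ 2 ∣ p.map (algebraMap A B)) : P ∣ differentIdeal A B := by
  have := pow_sub_one_dvd_differentIdeal_aux A K L P (e := 2) (by norm_num) hp hP
  simpa using this

include K L in
/-- finitely many primes of `B` are ramified over `A`. -/
theorem s27hfd_finite_ramified_primes :
    {Q : HeightOneSpectrum B | ∃ p : Ideal A, p.IsMaximal ∧ p ≠ ⊥ ∧
      Q.asIdeal ^ 2 ∣ p.map (algebraMap A B)}.Finite := by
  refine (Ideal.finite_factors (s27hfd_differentIdeal_ne_bot A K (L := L) (B := B))).subset ?_
  rintro Q ⟨p, hpm, hp, hQ⟩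
  exact s27hfd_dvd_different A K (L := L) Q.asIdeal hp hQ

end abstract

/-! ### Function fields -/

open AlgebraicCurve IntermediateField Polynomial WithZero Fermat.Agent.JT3 Fermat.Agent.S24
open scoped IntermediateField.algebraAdjoinAdjoin

universe u v
variable {k : Type u} {E : Type v} [Field k] [Field E] [Algebra k E]

/-- **FINRAM**: a separating generator is ramified at only finitely many places. -/
theorem s27hfd_finite_ramified [IsAlgClosed k] {x : E} (hx : rt_IsSepGen k x) :
    {P : Place k E | ∃ a : k, 2 ≤ P.ord (x - algebraMap k E a)}.Finite := by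
  classical
  obtain ⟨hxt, hfd, hsep⟩ := hx
  have hPID := hw_isPrincipalIdealRing_adjoin hxt
  have hDedA : IsDedekindDomain (Algebra.adjoin k ({x} : Set E)) := inferInstance
  have hDed := integralClosure.isDedekindDomain (Algebra.adjoin k ({x} : Set E)) k⟮x⟯ E
  have hfin : Module.Finite (Algebra.adjoin k ({x} : Set E))
      (integralClosure (Algebra.adjoin k ({x} : Set E)) E) :=
    IsIntegralClosure.finite (Algebra.adjoin k ({x} : Set E)) k⟮x⟯ E _
  have hfrac : IsFractionRing (integralClosure (Algebra.adjoin k ({x} : Set E)) E) E :=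
    integralClosure.isFractionRing_of_finite_extension k⟮x⟯ E
  have hfaith : FaithfulSMul (Algebra.adjoin k ({x} : Set E))
      (integralClosure (Algebra.adjoin k ({x} : Set E)) E) :=
    (faithfulSMul_iff_algebraMap_injective _ _).mpr (fun a b h => by
      have := congrArg (algebraMap (integralClosure (Algebra.adjoin k ({x} : Set E)) E) E) h
      exact Subtype.ext this)
  have htf : Module.IsTorsionFree (Algebra.adjoin k ({x} : Set E))
      (integralClosure (Algebra.adjoin k ({x} : Set E)) E) := inferInstance
  have hfinite := s27hfd_finite_ramified_primes (Algebra.adjoin k ({x} : Set E)) k⟮x⟯ (L := E)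
    (B := integralClosure (Algebra.adjoin k ({x} : Set E)) E)
  refine (hfinite.image (hw_placeOfPrime (K := k) (F := E)
    (integralClosure (Algebra.adjoin k ({x} : Set E)) E))).subset ?_
  rintro P ⟨a, hPa⟩
  have hne : x - algebraMap k E a ≠ 0 := by
    intro h; rw [h] at hPa; simp at hPa
  have h1 : x - algebraMap k E a ∈ P.toValuationSubring :=
    (hw_mem_iff_ord_nonneg P hne).mpr (by omega)
  have hxP : x ∈ P.toValuationSubring := by
    have := P.toValuationSubring.add_mem _ _ h1 (P.algebraMap_mem' a)
    simpa using this
  have hB : ∀ b : integralClosure (Algebra.adjoin k ({x} : Set E)) E,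
      algebraMap (integralClosure (Algebra.adjoin k ({x} : Set E)) E) E b ∈
        P.toValuationSubring := fun b => hw_coe_mem_of_mem_integralClosure x P hxP b
  set Q := hw_primeOfPlace P hB with hQ
  have hPQ : hw_placeOfPrime (integralClosure (Algebra.adjoin k ({x} : Set E)) E) Q = P :=
    hw_placeOfPrime_primeOfPlace P hB
  refine ⟨Q, ?_, hPQ⟩
  -- the maximal ideal `(x - a)` of `k[x]`
  let xR : Algebra.adjoin k ({x} : Set E) := ⟨x, Algebra.self_mem_adjoin_singleton k x⟩
  let t : Algebra.adjoin k ({x} : Set E) := xR - algebraMap k _ a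
  have ht_coe : algebraMap (integralClosure (Algebra.adjoin k ({x} : Set E)) E) E
      (algebraMap (Algebra.adjoin k ({x} : Set E)) _ t) = x - algebraMap k E a := rfl
  have htpoly : t = hw_polyEquiv hxt (X - C a) := by
    apply Subtype.ext
    rw [hw_polyEquiv_coe]
    simp [t, xR]
  have hirr : Irreducible t := by
    rw [htpoly]
    exact (MulEquiv.irreducible_iff (hw_polyEquiv hxt)).mpr (irreducible_X_sub_C a)
  have ht : t ≠ 0 := hirr.ne_zero
  have hmax : (Ideal.span {t}).IsMaximal := PrincipalIdealRing.isMaximal_of_irreducible hirr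
  refine ⟨Ideal.span {t}, hmax, ?_, ?_⟩
  · rw [Ne, Ideal.span_singleton_eq_bot]; exact ht
  · rw [Ideal.dvd_iff_le, Ideal.map_span, Set.image_singleton, Ideal.span_singleton_le_iff_mem,
      ← HeightOneSpectrum.intValuation_le_pow_iff_mem,
      ← HeightOneSpectrum.valuation_of_algebraMap (K := E)]
    show (HeightOneSpectrum.valuation E Q) (x - algebraMap k E a) ≤ _
    rw [← hw_placeOfPrime_adicValuation (K := k), hPQ, hw_adicValuation_eq_exp P hne, exp_le_exp]
    push_cast
    omega

/-- the bad set of Step 2: poles and ramification points of `x`. -/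
theorem s27hfd_finite_bad [IsAlgClosed k] {x : E} (hx : rt_IsSepGen k x) :
    {P : Place k E | P.ord x < 0 ∨ ∃ a : k, 2 ≤ P.ord (x - algebraMap k E a)}.Finite :=
  (rt_finite_poles hx x).union (s27hfd_finite_ramified hx)

/-- outside the bad set, `x` is an unramified local coordinate up to a constant. -/
theorem s27hfd_unram_of_not_bad [IsAlgClosed k] {x : E} (hx : rt_IsSepGen k x) {P : Place k E}
    (hP : P ∉ {P : Place k E | P.ord x < 0 ∨ ∃ a : k, 2 ≤ P.ord (x - algebraMap k E a)}) :
    ∃ a : k, P.ord (x - algebraMap k E a) = 1 := by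
  have := hx.isAlgebraic
  have hP' : ¬ (P.ord x < 0 ∨ ∃ a : k, 2 ≤ P.ord (x - algebraMap k E a)) := hP
  rw [not_or, not_exists] at hP'
  obtain ⟨h1, h2⟩ := hP'
  have hxP : x ∈ P.toValuationSubring := by
    have hx0 : x ≠ 0 := by
      rintro rfl
      exact hx.1 isAlgebraic_zero
    exact (hw_mem_iff_ord_nonneg P hx0).mpr (by omega)
  obtain ⟨c, hc | hc⟩ := hw_exists_const x P hxP
  · exact absurd (hc ▸ isAlgebraic_algebraMap (R := k) (A := E) c) hx.1
  · refine ⟨c, ?_⟩
    have := h2 c
    omega

end Fermat.Agent.S27
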