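/-
S27 / (HENS), leaf (L-B) INJ-NORM of ruling #4472 (helper23).  Prefix `s27hi_`.

If `div f = ℓ ∑ Q_i - ℓ ∑ P_i` with `x(P_i) = ξ0_i`, `x(Q_i) = ξ_i`, then
`e0(x)^ℓ · N_{F/K(x)} f = lam · e(x)^ℓ`, `e0 = ∏ (X - ξ0_i)`, `e = ∏ (X - ξ_i)`, `lam ∈ Kˣ`:
write `N f = R(x) / T(x)`; the norm formula over every `b ∈ K` (`s27hl_sum_ord_norm_at`) shows that
`R · e0^ℓ` and `T · e^ℓ` have the same roots with multiplicities, hence are proportional
(`K` algebraically closed).
-/
import Mathlib
import Fermat.Agent.S27.Hens.Line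

set_option autoImplicit false
set_option linter.unusedSectionVars false
set_option linter.unusedVariables false
set_option linter.style.haveILetI false

noncomputable section

namespace Fermat.Agent.S27

open AlgebraicCurve Fermat.Agent.JT3 Fermat.Agent.S24 Polynomial IntermediateField

universe u v
variable {K : Type u} {F : Type v} [Field K] [Field F] [Algebra K F]

/-- a place lies over at most one point of the `x`-line -/
theorem s27hi_value_unique {x : F} (w : Place K F) {b c : K}
    (hb : 0 < w.ord (x - algebraMap K F b)) (hc : 0 < w.ord (x - algebraMap K F c)) : b = c := by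
  by_contra hne
  have hb0 : x - algebraMap K F b ≠ 0 := by
    intro h; rw [h] at hb; simp at hb
  have hc0 : -(x - algebraMap K F c) ≠ 0 := by
    intro h; rw [neg_eq_zero] at h; rw [h] at hc; simp at hc
  have h1 : (x - algebraMap K F b) + -(x - algebraMap K F c) = algebraMap K F (c - b) := by
    rw [map_sub]; ring
  have hcb : algebraMap K F (c - b) ≠ 0 := by
    rw [Ne, map_eq_zero, sub_eq_zero]
    exact fun h => hne h.symm
  have h2 := hw_ord_add_ge w hb0 hc0 (by rw [h1]; exact hcb)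
  rw [h1, hw_ord_algebraMap, hw_ord_neg] at h2
  have := le_min hb.le hc.le
  rcases min_le_iff.mp h2 with h | h <;> omega

/-- two nonzero polynomials over an algebraically closed field with the same roots (with
multiplicities) are proportional -/
theorem s27hi_eq_C_mul_of_roots_eq [IsAlgClosed K] {p q : K[X]} (hp : p ≠ 0) (hq : q ≠ 0)
    (h : p.roots = q.roots) : ∃ μ : K, μ ≠ 0 ∧ p = C μ * q := by
  have h1 := (IsAlgClosed.splits p).eq_prod_roots
  have h2 := (IsAlgClosed.splits q).eq_prod_roots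
  have hq' : q.leadingCoeff ≠ 0 := leadingCoeff_ne_zero.mpr hq
  have hp' : p.leadingCoeff ≠ 0 := leadingCoeff_ne_zero.mpr hp
  refine ⟨p.leadingCoeff / q.leadingCoeff, div_ne_zero hp' hq', ?_⟩
  calc p = C p.leadingCoeff * (p.roots.map (X - C ·)).prod := h1
    _ = C p.leadingCoeff * (q.roots.map (X - C ·)).prod := by rw [h]
    _ = C (p.leadingCoeff / q.leadingCoeff) *
          (C q.leadingCoeff * (q.roots.map (X - C ·)).prod) := by
        rw [← mul_assoc, ← C_mul, div_mul_cancel₀ _ hq']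
    _ = C (p.leadingCoeff / q.leadingCoeff) * q := by rw [← h2]

/-- the roots of `∏ (X - ξ_i)` -/
theorem s27hi_roots_prod {g : ℕ} (ξ : Fin g → K) :
    (∏ i, (X - C (ξ i))).roots = (Finset.univ : Finset (Fin g)).val.map ξ := by
  have : (∏ i, (X - C (ξ i))) = (((Finset.univ : Finset (Fin g)).val.map ξ).map
      fun a => X - C a).prod := by
    rw [Finset.prod_eq_multiset_prod, Multiset.map_map]
    rfl
  rw [this, roots_multiset_prod_X_sub_C]

open scoped Classical in
theorem s27hi_count_roots_prod {g : ℕ} (ξ : Fin g → K) (b : K) :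
    ((∏ i, (X - C (ξ i))).roots.count b : ℤ) = ∑ i, (if ξ i = b then (1 : ℤ) else 0) := by
  classical
  rw [s27hi_roots_prod, Multiset.count_map, Finset.sum_boole]
  have h1 : Multiset.filter (fun a => b = ξ a) (Finset.univ : Finset (Fin g)).val =
      (Finset.univ.filter fun i => ξ i = b).val := by
    rw [← Finset.filter_val]
    congr 1
    ext i
    simp [eq_comm]
  rw [h1, Finset.card_val]

section Main

variable [IsAlgClosed K] {x : F} (hx : rt_IsSepGen K x)

include hx in
open scoped Classical in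
/-- the number (with `ℓ`) of the `Q_i` over `b` -/
theorem s27hi_sum_single {g : ℕ} (Q : Fin g → Place K F) (ξ : Fin g → K)
    (hQ : ∀ i, 0 < (Q i).ord (x - algebraMap K F (ξ i))) (b : K) :
    ∑ w ∈ (rt_zeroDiv hx (x - algebraMap K F b)).support,
        (∑ i, Finsupp.single (Q i) (1 : ℤ)) w = ∑ i, (if ξ i = b then (1 : ℤ) else 0) := by
  classical
  simp only [Finsupp.finsetSum_apply, Finsupp.single_apply]
  rw [Finset.sum_comm]
  refine Finset.sum_congr rfl fun i _ => ?_
  rw [Finset.sum_ite_eq]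
  by_cases hb : ξ i = b
  · rw [if_pos hb, if_pos]
    rw [s27hl_mem_support_zeroDiv, ← hb]
    exact hQ i
  · rw [if_neg hb, if_neg]
    rw [s27hl_mem_support_zeroDiv]
    intro h
    exact hb (s27hi_value_unique (Q i) (hQ i) h)

include hx in
/-- **(L-B) INJ-NORM.** -/
theorem s27hi_injNorm {g ℓ : ℕ} (P Q : Fin g → Place K F) (ξ0 ξ : Fin g → K)
    (hP : ∀ i, 0 < (P i).ord (x - algebraMap K F (ξ0 i)))
    (hQ : ∀ i, 0 < (Q i).ord (x - algebraMap K F (ξ i)))
    {f : F} (hf : f ≠ 0)
    (hd : rt_div hx f = ℓ • ∑ i, Finsupp.single (Q i) (1 : ℤ)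
      - ℓ • ∑ i, Finsupp.single (P i) (1 : ℤ)) :
    ∃ lam : K, lam ≠ 0 ∧
      aeval x ((∏ i, (X - C (ξ0 i))) ^ ℓ) * algebraMap K⟮x⟯ F (Algebra.norm K⟮x⟯ f) =
        algebraMap K F lam * aeval x ((∏ i, (X - C (ξ i))) ^ ℓ) := by
  classical
  haveI : FiniteDimensional ↥K⟮x⟯ F := hx.2.1
  set N := Algebra.norm ↥K⟮x⟯ f with hN
  have hN0 : N ≠ 0 := Algebra.norm_ne_zero_iff.mpr hf
  have hN0' : (N : F) ≠ 0 := fun h => hN0 (Subtype.ext h)
  obtain ⟨R, T, hRT⟩ := (IntermediateField.mem_adjoin_simple_iff K _).1 N.2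
  have hTx : aeval x T ≠ 0 := by
    intro h0
    rw [h0, div_zero] at hRT
    exact hN0' hRT
  have hT : T ≠ 0 := by
    rintro rfl
    exact hTx (map_zero _)
  have hNT : algebraMap ↥K⟮x⟯ F N * aeval x T = aeval x R := by
    show (N : F) * aeval x T = aeval x R
    rw [hRT, div_mul_cancel₀ _ hTx]
  have hR : R ≠ 0 := by
    rintro rfl
    rw [map_zero] at hNT
    exact mul_ne_zero hN0' hTx hNT
  set e0 : K[X] := ∏ i, (X - C (ξ0 i)) with he0
  set e : K[X] := ∏ i, (X - C (ξ i)) with he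
  have he0m : e0.Monic := monic_prod_of_monic _ _ fun i _ => monic_X_sub_C _
  have hem : e.Monic := monic_prod_of_monic _ _ fun i _ => monic_X_sub_C _
  have h1 : R * e0 ^ ℓ ≠ 0 := mul_ne_zero hR (pow_ne_zero _ he0m.ne_zero)
  have h2 : T * e ^ ℓ ≠ 0 := mul_ne_zero hT (pow_ne_zero _ hem.ne_zero)
  -- the norm formula at every `b`
  have hcount : ∀ b : K, (R * e0 ^ ℓ).roots.count b = (T * e ^ ℓ).roots.count b := by
    intro b
    have hsum := s27hl_sum_ord_norm_at' hx b hf hT hNT
    have hord : ∀ w : Place K F, w.ord f = (ℓ : ℤ) * (∑ i, Finsupp.single (Q i) (1 : ℤ)) w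
        - (ℓ : ℤ) * (∑ i, Finsupp.single (P i) (1 : ℤ)) w := by
      intro w
      rw [← rt_div_apply hx f w, hd, Finsupp.sub_apply, Finsupp.smul_apply, Finsupp.smul_apply,
        nsmul_eq_mul, nsmul_eq_mul]
    simp only [hord, Finset.sum_sub_distrib, ← Finset.mul_sum] at hsum
    rw [s27hi_sum_single hx Q ξ hQ b, s27hi_sum_single hx P ξ0 hP b,
      ← s27hi_count_roots_prod, ← s27hi_count_roots_prod, ← count_roots, ← count_roots] at hsum
    rw [roots_mul h1, roots_mul h2, roots_pow, roots_pow, Multiset.count_add, Multiset.count_add,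
      Multiset.count_nsmul, Multiset.count_nsmul]
    have : ((R.roots.count b : ℤ) + ℓ * (e0.roots.count b : ℤ)) =
        (T.roots.count b : ℤ) + ℓ * (e.roots.count b : ℤ) := by linarith
    exact_mod_cast this
  obtain ⟨μ, hμ, hprop⟩ := s27hi_eq_C_mul_of_roots_eq h1 h2 (Multiset.ext.mpr hcount)
  refine ⟨μ, hμ, ?_⟩
  have h3 := congrArg (aeval x) hprop
  rw [map_mul, map_mul, map_mul, aeval_C] at h3
  -- cancel `T(x)`
  have key : aeval x (e0 ^ ℓ) * algebraMap ↥K⟮x⟯ F N * aeval x T =
      algebraMap K F μ * aeval x (e ^ ℓ) * aeval x T := by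
    calc aeval x (e0 ^ ℓ) * algebraMap ↥K⟮x⟯ F N * aeval x T
        = aeval x R * aeval x (e0 ^ ℓ) := by rw [← hNT]; ring
      _ = algebraMap K F μ * (aeval x T * aeval x (e ^ ℓ)) := h3
      _ = algebraMap K F μ * aeval x (e ^ ℓ) * aeval x T := by ring
  exact mul_right_cancel₀ hTx key

end Main

end Fermat.Agent.S27
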