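/-
(HENS) leaf H10-a ROOTS (Mathlib only).

A monic polynomial `e` over the valuation ring `O` of an algebraically closed field splits over `O`
(`O` is integrally closed); if its reduction along a ring homomorphism `r0 : O →+* k` into a field
is `∏ i, (X - a i)`, the roots of `e` can be numbered `ξ i` with `r0 (ξ i) = a i`.
-/
import Mathlib

namespace Fermat.Agent.S27

open Polynomial

/-- Numbering a multiset along a numbering of its image. -/
theorem s27hq_exists_ofFn {α β : Type*} (f : α → β) :
    ∀ (g : ℕ) (a : Fin g → β) (s : Multiset α), s.map f = (List.ofFn a : Multiset β) →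
      ∃ ξ : Fin g → α, (List.ofFn ξ : Multiset α) = s ∧ ∀ i, f (ξ i) = a i := by
  classical
  intro g
  induction g with
  | zero =>
    intro a s hs
    refine ⟨Fin.elim0, ?_, fun i => i.elim0⟩
    rw [List.ofFn_zero] at hs ⊢
    exact (Multiset.map_eq_zero.1 hs).symm
  | succ g ih =>
    intro a s hs
    rw [List.ofFn_succ] at hs
    have hmem : a 0 ∈ s.map f := by
      rw [hs]
      exact Multiset.mem_coe.2 (List.mem_cons_self)
    obtain ⟨y, hy, hfy⟩ := Multiset.mem_map.1 hmem
    have hsy : s = y ::ₘ s.erase y := (Multiset.cons_erase hy).symm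
    have hs' : (s.erase y).map f = (List.ofFn fun i : Fin g => a i.succ : Multiset β) := by
      have h1 : (y ::ₘ s.erase y).map f = (a 0 :: List.ofFn fun i : Fin g => a i.succ : List β) := by
        rw [← hsy]
        exact hs
      rw [Multiset.map_cons, hfy, ← Multiset.cons_coe] at h1
      exact (Multiset.cons_inj_right _).1 h1
    obtain ⟨ξ', hξ', hfξ'⟩ := ih (fun i => a i.succ) (s.erase y) hs'
    refine ⟨Fin.cons y ξ', ?_, ?_⟩
    · rw [List.ofFn_succ]
      simp only [Fin.cons_zero, Fin.cons_succ]
      rw [← Multiset.cons_coe, hξ']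
      exact hsy.symm
    · intro i
      refine Fin.cases ?_ (fun j => ?_) i
      · rw [Fin.cons_zero]
        exact hfy
      · rw [Fin.cons_succ]
        exact hfξ' j

/-- A monic polynomial over the valuation ring of an algebraically closed field splits. -/
theorem s27hq_splits {K : Type*} [Field K] [IsAlgClosed K] (O : ValuationSubring K)
    (e : Polynomial ↥O) (he : e.Monic) : e.Splits := by
  refine Splits.of_splits_map_of_injective (i := algebraMap ↥O K)
    (FaithfulSMul.algebraMap_injective ↥O K) (IsAlgClosed.splits _) ?_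
  intro z hz
  have hz0 : (e.map (algebraMap ↥O K)).eval z = 0 := by
    have := (mem_roots (he.map (algebraMap ↥O K)).ne_zero).1 hz
    exact this
  have hint : IsIntegral ↥O z := by
    refine ⟨e, he, ?_⟩
    rw [← eval_map]
    exact hz0
  obtain ⟨y, hy⟩ := IsIntegrallyClosed.isIntegral_iff.1 hint
  exact ⟨y, hy⟩

/-- The product form of a split monic polynomial along a numbering of its roots. -/
theorem s27hq_prod_ofFn {A : Type*} [CommRing A] {g : ℕ} (ξ : Fin g → A) :
    (((List.ofFn ξ : Multiset A)).map fun c => X - C c).prod = ∏ i, (X - C (ξ i)) := by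
  rw [Multiset.map_coe, Multiset.prod_coe, List.map_ofFn, List.prod_ofFn]
  rfl

/-- **H10-a ROOTS.** -/
theorem s27hq_roots {K : Type*} [Field K] [IsAlgClosed K] (O : ValuationSubring K)
    {k : Type*} [Field k] (r0 : ↥O →+* k) {g : ℕ} (e : Polynomial ↥O) (he : e.Monic)
    (a : Fin g → k) (hred : e.map r0 = ∏ i, (X - C (a i))) :
    ∃ ξ : Fin g → ↥O, e = ∏ i, (X - C (ξ i)) ∧ ∀ i, r0 (ξ i) = a i := by
  have hsp := s27hq_splits O e he
  have he1 : e = (e.roots.map (X - C ·)).prod := hsp.eq_prod_roots_of_monic he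
  have hmap : e.map r0 = ((e.roots.map r0).map fun c => X - C c).prod := by
    conv_lhs => rw [he1]
    rw [Polynomial.map_multiset_prod, Multiset.map_map, Multiset.map_map]
    congr 1
    apply Multiset.map_congr rfl
    intro y _
    simp
  have hroots : e.roots.map r0 = (List.ofFn a : Multiset k) := by
    have h1 : (e.map r0).roots = e.roots.map r0 := by
      rw [hmap, roots_multiset_prod_X_sub_C]
    have h2 : (e.map r0).roots = (List.ofFn a : Multiset k) := by
      rw [hred, ← s27hq_prod_ofFn a, roots_multiset_prod_X_sub_C]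
    rw [← h1, h2]
  obtain ⟨ξ, hξ, hξa⟩ := s27hq_exists_ofFn r0 g a e.roots hroots
  refine ⟨ξ, ?_, hξa⟩
  rw [← s27hq_prod_ofFn ξ, hξ]
  exact he1

/-- Uniqueness: for pairwise distinct `a i`, a root of `e` reducing to `a i` is `ξ i`. -/
theorem s27hq_root_unique {A : Type*} [CommRing A] [IsDomain A] {k : Type*} [Field k]
    (r0 : A →+* k) {g : ℕ} {e : Polynomial A} {ξ : Fin g → A} (he : e = ∏ i, (X - C (ξ i)))
    {a : Fin g → k} (ha : Function.Injective a) (hξ : ∀ i, r0 (ξ i) = a i) {y : A}
    (hy : e.eval y = 0) {i : Fin g} (hyi : r0 y = a i) : y = ξ i := by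
  rw [he, eval_prod] at hy
  obtain ⟨j, -, hj⟩ := Finset.prod_eq_zero_iff.1 hy
  rw [eval_sub, eval_X, eval_C, sub_eq_zero] at hj
  have : a j = a i := by rw [← hξ j, ← hj, hyi]
  rw [hj, ha this]

/-- The numbering of the roots is unique when the `a i` are pairwise distinct. -/
theorem s27hq_roots_unique {A : Type*} [CommRing A] [IsDomain A] {k : Type*} [Field k]
    (r0 : A →+* k) {g : ℕ} {ξ ξ' : Fin g → A}
    (he : ∏ i, (X - C (ξ i)) = ∏ i, (X - C (ξ' i)))
    {a : Fin g → k} (ha : Function.Injective a) (hξ : ∀ i, r0 (ξ i) = a i)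
    (hξ' : ∀ i, r0 (ξ' i) = a i) : ξ = ξ' := by
  funext i
  have hy : (∏ j, (X - C (ξ' j)) : Polynomial A).eval (ξ i) = 0 := by
    rw [← he, eval_prod]
    exact Finset.prod_eq_zero (Finset.mem_univ i) (by simp)
  exact s27hq_root_unique r0 rfl ha hξ' hy (hξ i)

end Fermat.Agent.S27
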