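/-
S27 / (HENS), cell H10-c INTERP (helper10; prefix `s27h10_`): the interpretation half of Step 6 of
helper18's plan.  From a solution `(f, e)` of the polynomial system (`f ∈ L(D) ∩ V`, `r f = 1`,
`S · N(f) = λ e^ℓ`, read through the norm formula as the statement `hsum` on the fibres of `x`) to the
divisor identity `div f + D = ℓ • ∑ Q_i`, `Q_i` the point of the residue disc of `Pb_i` with
`x(Q_i) = ξ_i` (`ξ_i` the roots of `e`).

* `s27h10_interp_core` : the statement with the roots `ξ_i ∈ O` given;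
* `s27h10_interp`      : the statement with `e : O[X]` monic, `ē = ∏ (X - a_i)` (roots by helper14);
* `s27h10_surj`        : the corollary in the shape of `hsurj` of helper26's `s27h6_bijective_of`.
-/
import Mathlib
import Fermat.Agent.S27.Hens.Discs
import Fermat.Agent.S27.Hens.Roots

set_option autoImplicit false
set_option linter.unusedSectionVars false
set_option linter.unusedVariables false

noncomputable section

namespace Fermat.Agent.S27

open AlgebraicCurve IntermediateField Polynomial Fermat.Agent.JT3 Fermat.Agent.S24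

universe u v u' v'
variable {K : Type u} {F : Type v} [Field K] [Field F] [Algebra K F]
variable {k : Type u'} {Fb : Type v'} [Field k] [Field Fb] [Algebra k Fb]

/-! ### sums of points -/

theorem s27h10_sum_single_apply {α : Type*} [DecidableEq α] {g : ℕ} (Q : Fin g → α) (w : α) :
    (∑ i, Finsupp.single (Q i) (1 : ℤ)) w = ((Finset.univ.filter fun i => Q i = w).card : ℤ) := by
  rw [Finsupp.finsetSum_apply]
  simp only [Finsupp.single_apply]
  rw [Finset.sum_boole]

theorem s27h10_sum_single_apply_self {α : Type*} [DecidableEq α] {g : ℕ} {Q : Fin g → α}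
    (hQ : Function.Injective Q) (i : Fin g) :
    (∑ j, Finsupp.single (Q j) (1 : ℤ)) (Q i) = 1 := by
  rw [s27h10_sum_single_apply]
  have : (Finset.univ.filter fun j => Q j = Q i) = {i} := by
    ext j
    simp only [Finset.mem_filter, Finset.mem_univ, true_and, Finset.mem_singleton]
    exact ⟨fun hj => hQ hj, fun hj => by rw [hj]⟩
  rw [this, Finset.card_singleton, Nat.cast_one]

theorem s27h10_sum_single_apply_of_ne {α : Type*} [DecidableEq α] {g : ℕ} {Q : Fin g → α}
    {w : α} (hw : ∀ i, Q i ≠ w) : (∑ j, Finsupp.single (Q j) (1 : ℤ)) w = 0 := by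
  rw [s27h10_sum_single_apply]
  have : (Finset.univ.filter fun j => Q j = w) = ∅ := by
    ext j
    simp only [Finset.mem_filter, Finset.mem_univ, true_and, Finset.notMem_empty, iff_false]
    exact hw j
  rw [this, Finset.card_empty, Nat.cast_zero]

theorem s27h10_sum_single_pos {α : Type*} [DecidableEq α] {g : ℕ} {Q : Fin g → α} {w : α}
    (hw : 0 < (∑ j, Finsupp.single (Q j) (1 : ℤ)) w) : ∃ i, Q i = w := by
  by_contra hcon
  push Not at hcon
  rw [s27h10_sum_single_apply_of_ne hcon] at hw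
  exact lt_irrefl _ hw

theorem s27h10_sum_single_nonneg {α : Type*} {g : ℕ} (Q : Fin g → α) :
    0 ≤ ∑ j, Finsupp.single (Q j) (1 : ℤ) := by
  classical
  refine Finset.sum_nonneg fun i _ => ?_
  rw [Finsupp.le_def]
  intro w
  rw [Finsupp.zero_apply, Finsupp.single_apply]
  split_ifs <;> norm_num

/-! ### the interpretation -/

section interp

variable [IsAlgClosed K] [IsAlgClosed k] (R : s27r_Red K F k Fb) {x : F} (h : s27r_Good R x)
  (red : Place K F → Place k Fb)
  (hdiv : ∀ (f : F) (hf : f ∈ R.V), R.r ⟨f, hf⟩ ≠ 0 →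
      Finsupp.mapDomain red (rt_div h.sepK f) = rt_div h.sepk (R.r ⟨f, hf⟩))

include hdiv in
/-- **H10-c INTERP, core form** (the roots `ξ_i` of `e` given). -/
theorem s27h10_interp_core [DecidableEq K] {g : ℕ} (Pb : Fin g → Place k Fb) (a : Fin g → k)
    (ha : Function.Injective a)
    (hPb : ∀ i, (Pb i).ord (R.r ⟨x, h.x_mem⟩ - algebraMap k Fb (a i)) = 1)
    (l : ℕ) (hl : 0 < l) (D : Divisor K F)
    (hDred : Finsupp.mapDomain red D = l • ∑ i, Finsupp.single (Pb i) (1 : ℤ))
    (f : F) (hfV : f ∈ R.V) (hf1 : R.r ⟨f, hfV⟩ = 1) (hfL : f ∈ riemannRochSpace D)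
    (ξ : Fin g → K) (hξO : ∀ i, ξ i ∈ R.O) (hξa : ∀ i, R.r0 ⟨ξ i, hξO i⟩ = a i)
    (hsum : ∀ (b : K) (s : Finset (Place K F)),
      (∀ w, w ∈ s ↔ 0 < w.ord (x - algebraMap K F b)) →
      ∑ w ∈ s, (w.ord f + D w) = (l : ℤ) * ((Finset.univ.filter fun i => ξ i = b).card : ℤ)) :
    ∃ Q : Fin g → Place K F, Function.Injective Q ∧ (∀ i, red (Q i) = Pb i) ∧
      (∀ i, 0 < (Q i).ord (x - algebraMap K F (ξ i))) ∧
      rt_div h.sepK f + D = l • ∑ i, Finsupp.single (Q i) (1 : ℤ) := by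
  classical
  -- basic facts
  have hf0 : f ≠ 0 := by
    rintro rfl
    have : R.r ⟨0, hfV⟩ = 0 := map_zero R.r
    rw [this] at hf1
    exact zero_ne_one hf1
  have hr1 : R.r ⟨f, hfV⟩ ≠ 0 := by rw [hf1]; exact one_ne_zero
  set Z : Divisor K F := rt_div h.sepK f + D with hZ
  have hZapp : ∀ w, Z w = w.ord f + D w := fun w => by
    rw [hZ, Finsupp.add_apply, rt_div_apply]
  have hZ0 : 0 ≤ Z := by
    rw [Finsupp.le_def]
    intro w
    rw [Finsupp.zero_apply, hZapp]
    have := (rt_mem_L_iff hf0).1 hfL w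
    omega
  have hZred : Finsupp.mapDomain red Z = l • ∑ i, Finsupp.single (Pb i) (1 : ℤ) := by
    rw [hZ, Finsupp.mapDomain_add, hdiv f hfV hr1, hDred, hf1]
    have : rt_div h.sepk (1 : Fb) = 0 := by
      have := rt_div_algebraMap h.sepk (1 : k)
      rwa [map_one] at this
    rw [this, zero_add]
  -- injectivity of `Pb` and of `ξ`
  have hPbinj : Function.Injective Pb := by
    intro i j hij
    apply ha
    have h1 : 0 < (Pb i).ord (R.r ⟨x, h.x_mem⟩ - algebraMap k Fb (a i)) := by rw [hPb i]; norm_num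
    have h2 : 0 < (Pb i).ord (R.r ⟨x, h.x_mem⟩ - algebraMap k Fb (a j)) := by
      rw [hij, hPb j]; norm_num
    exact s27hd_value_unique (K := k) (F := Fb) (Pb i) h1 h2
  have hξinj : Function.Injective ξ := by
    intro i j hij
    apply ha
    rw [← hξa i, ← hξa j]
    congr 1
    exact Subtype.ext hij
  -- the points `Q i`
  have hPb' : ∀ i, (Pb i).ord (R.r ⟨x, h.x_mem⟩ - algebraMap k Fb (R.r0 ⟨ξ i, hξO i⟩)) = 1 :=
    fun i => by rw [hξa i]; exact hPb i
  have hex : ∀ i, ∃ Q : Place K F, (red Q = Pb i ∧ 0 < Q.ord (x - algebraMap K F (ξ i))) ∧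
      ∀ Q', (red Q' = Pb i ∧ 0 < Q'.ord (x - algebraMap K F (ξ i))) → Q' = Q := fun i => by
    obtain ⟨Q, hQ, hQu⟩ := s27hd_disc R h red hdiv (Pb i) (hξO i) (hPb' i)
    exact ⟨Q, hQ, hQu⟩
  choose Q hQ hQu using hex
  have hQinj : Function.Injective Q := by
    intro i j hij
    apply hPbinj
    rw [← (hQ i).1, ← (hQ j).1, hij]
  -- the fibres of `x`
  set fib : K → Finset (Place K F) := fun b =>
    (rt_finite_zeros h.sepK (x - algebraMap K F b)).toFinset with hfib
  have hfibmem : ∀ b w, w ∈ fib b ↔ 0 < w.ord (x - algebraMap K F b) := fun b w => by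
    rw [hfib, Set.Finite.mem_toFinset]
    rfl
  have hsumZ : ∀ b, ∑ w ∈ fib b, Z w =
      (l : ℤ) * ((Finset.univ.filter fun i => ξ i = b).card : ℤ) := fun b => by
    rw [← hsum b (fib b) (hfibmem b)]
    exact Finset.sum_congr rfl fun w _ => hZapp w
  -- Claim A: the support of `Z` consists of the `Q i`
  have hA : ∀ w, Z w ≠ 0 → ∃ i, w = Q i := by
    intro w hw
    have hwpos : 0 < Z w := lt_of_le_of_ne (Finsupp.le_def.mp hZ0 w) (Ne.symm hw)
    have h1 := s27hd_le_mapDomain_apply red hZ0 w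
    rw [hZred, Finsupp.smul_apply, nsmul_eq_mul] at h1
    have h2 : 0 < (∑ i, Finsupp.single (Pb i) (1 : ℤ)) (red w) := by
      by_contra hcon
      push Not at hcon
      have hl' : (0 : ℤ) ≤ (l : ℤ) := Int.natCast_nonneg l
      have := mul_nonpos_of_nonneg_of_nonpos hl' hcon
      omega
    obtain ⟨i, hi⟩ := s27h10_sum_single_pos h2
    have hPbpos : 0 < (Pb i).ord (R.r ⟨x, h.x_mem⟩ - algebraMap k Fb (a i)) := by
      rw [hPb i]; norm_num
    obtain ⟨ξw, hξw, hξwa, hξwpos⟩ := s27hd_disc_value R h red hdiv (Pb i) (a i) hPbpos hi.symm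
    -- `ξw` is one of the `ξ j`
    have h3 := hsumZ ξw
    have hwfib : w ∈ fib ξw := (hfibmem ξw w).2 hξwpos
    have h4 : Z w ≤ ∑ w' ∈ fib ξw, Z w' :=
      Finset.single_le_sum (f := fun w' => Z w') (fun w' _ => Finsupp.le_def.mp hZ0 w') hwfib
    have h5 : 0 < ((Finset.univ.filter fun j => ξ j = ξw).card : ℤ) := by
      by_contra hcon
      push Not at hcon
      have hl' : (0 : ℤ) ≤ (l : ℤ) := Int.natCast_nonneg l
      have := mul_nonpos_of_nonneg_of_nonpos hl' hcon
      omega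
    have h6 : (Finset.univ.filter fun j => ξ j = ξw).Nonempty := by
      rw [← Finset.card_pos]
      exact_mod_cast h5
    obtain ⟨j, hj⟩ := h6
    have hj' : ξ j = ξw := (Finset.mem_filter.1 hj).2
    have hji : j = i := by
      apply ha
      rw [← hξa j, ← hξwa]
      congr 1
      exact Subtype.ext hj'
    subst hji
    exact ⟨j, hQu j w ⟨hi.symm, by rw [hj']; exact hξwpos⟩⟩
  -- Claim B: the multiplicity of `Q i` is `l`
  have hB : ∀ i, Z (Q i) = l := by
    intro i
    have h3 := hsumZ (ξ i)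
    have hcard : (Finset.univ.filter fun j => ξ j = ξ i) = {i} := by
      ext j
      simp only [Finset.mem_filter, Finset.mem_univ, true_and, Finset.mem_singleton]
      exact ⟨fun hj => hξinj hj, fun hj => by rw [hj]⟩
    rw [hcard, Finset.card_singleton, Nat.cast_one, mul_one] at h3
    rw [← h3]
    symm
    apply Finset.sum_eq_single (Q i)
    · intro w hw hne
      by_contra hZw
      obtain ⟨j, hj⟩ := hA w hZw
      have hwpos := (hfibmem (ξ i) w).1 hw
      rw [hj] at hwpos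
      have := s27hd_value_unique (K := K) (F := F) (Q j) (hQ j).2 hwpos
      have hji : j = i := hξinj this
      rw [hji] at hj
      exact hne hj
    · intro hnot
      exact absurd ((hfibmem (ξ i) (Q i)).2 (hQ i).2) hnot
  refine ⟨Q, hQinj, fun i => (hQ i).1, fun i => (hQ i).2, ?_⟩
  ext w
  rw [Finsupp.smul_apply, nsmul_eq_mul]
  by_cases hw : ∃ i, w = Q i
  · obtain ⟨i, rfl⟩ := hw
    rw [hB i, s27h10_sum_single_apply_self hQinj, mul_one]
  · push Not at hw
    have h1 : Z w = 0 := by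
      by_contra hne
      obtain ⟨i, hi⟩ := hA w hne
      exact hw i hi
    rw [h1, s27h10_sum_single_apply_of_ne (fun i => (hw i).symm), mul_zero]

end interp

/-! ### root multiplicities of a product of linear factors -/

theorem s27h10_rootMultiplicity_prod {A : Type*} [CommRing A] [IsDomain A] [DecidableEq A] {g : ℕ}
    (c : Fin g → A) (b : A) :
    (∏ i, (X - C (c i))).rootMultiplicity b = (Finset.univ.filter fun i => c i = b).card := by
  have h1 : (∏ i, (X - C (c i))) = ((Finset.univ.val.map c).map fun a => X - C a).prod := by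
    rw [Multiset.map_map]
    rfl
  rw [← count_roots, h1, roots_multiset_prod_X_sub_C, Multiset.count_map, Finset.card_def,
    Finset.filter_val]
  congr 1
  refine Multiset.filter_congr fun i _ => ?_
  exact eq_comm

section interp2

variable [IsAlgClosed K] [IsAlgClosed k] (R : s27r_Red K F k Fb) {x : F} (h : s27r_Good R x)
  (red : Place K F → Place k Fb)
  (hdiv : ∀ (f : F) (hf : f ∈ R.V), R.r ⟨f, hf⟩ ≠ 0 →
      Finsupp.mapDomain red (rt_div h.sepK f) = rt_div h.sepk (R.r ⟨f, hf⟩))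

include hdiv in
/-- **H10-c INTERP** (`e : O[X]` monic with `ē = ∏ (X - a_i)`; `hsum` = the norm formula read on
the fibres of `x`, with `S · N(f) = λ e^ℓ`). -/
theorem s27h10_interp {g : ℕ} (Pb : Fin g → Place k Fb) (a : Fin g → k)
    (ha : Function.Injective a)
    (hPb : ∀ i, (Pb i).ord (R.r ⟨x, h.x_mem⟩ - algebraMap k Fb (a i)) = 1)
    (l : ℕ) (hl : 0 < l) (D : Divisor K F)
    (hDred : Finsupp.mapDomain red D = l • ∑ i, Finsupp.single (Pb i) (1 : ℤ))
    (f : F) (hfV : f ∈ R.V) (hf1 : R.r ⟨f, hfV⟩ = 1) (hfL : f ∈ riemannRochSpace D)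
    (e : Polynomial ↥R.O) (he : e.Monic) (hered : e.map R.r0 = ∏ i, (X - C (a i)))
    (hsum : ∀ (b : K) (s : Finset (Place K F)),
      (∀ w, w ∈ s ↔ 0 < w.ord (x - algebraMap K F b)) →
      ∑ w ∈ s, (w.ord f + D w) = (l : ℤ) * ((e.map R.O.subtype).rootMultiplicity b : ℤ)) :
    ∃ (ξ : Fin g → ↥R.O) (Q : Fin g → Place K F), e = ∏ i, (X - C (ξ i)) ∧
      (∀ i, R.r0 (ξ i) = a i) ∧ Function.Injective Q ∧ (∀ i, red (Q i) = Pb i) ∧
      (∀ i, 0 < (Q i).ord (x - algebraMap K F (ξ i : K))) ∧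
      rt_div h.sepK f + D = l • ∑ i, Finsupp.single (Q i) (1 : ℤ) := by
  classical
  obtain ⟨ξ, hξe, hξa⟩ := s27hq_roots R.O R.r0 e he a hered
  have heK : e.map R.O.subtype = ∏ i, (X - C ((ξ i : K))) := by
    rw [hξe, Polynomial.map_prod]
    refine Finset.prod_congr rfl fun i _ => ?_
    rw [Polynomial.map_sub, Polynomial.map_X, Polynomial.map_C]
    rfl
  obtain ⟨Q, hQinj, hQred, hQpos, hQdiv⟩ := s27h10_interp_core R h red hdiv Pb a ha hPb l hl D
    hDred f hfV hf1 hfL (fun i => (ξ i : K)) (fun i => (ξ i).2) (fun i => hξa i)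
    (fun b s hs => by
      rw [hsum b s hs, heK, s27h10_rootMultiplicity_prod])
  exact ⟨ξ, Q, hξe, hξa, hQinj, hQred, hQpos, hQdiv⟩

include hdiv in
/-- **(SURJ) from a solution of the system**, in the shape of `hsurj` of `s27h6_bijective_of`:
`D = E' + (ℓ - 1) E0`. -/
theorem s27h10_surj {g : ℕ} (Pb : Fin g → Place k Fb) (a : Fin g → k)
    (ha : Function.Injective a)
    (hPb : ∀ i, (Pb i).ord (R.r ⟨x, h.x_mem⟩ - algebraMap k Fb (a i)) = 1)
    (l : ℕ) (hl : 0 < l) (E0 E' : Divisor K F)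
    (hE0 : Finsupp.mapDomain red E0 = ∑ i, Finsupp.single (Pb i) (1 : ℤ))
    (hE' : Finsupp.mapDomain red E' = ∑ i, Finsupp.single (Pb i) (1 : ℤ))
    (f : F) (hfV : f ∈ R.V) (hf1 : R.r ⟨f, hfV⟩ = 1)
    (hfL : f ∈ riemannRochSpace (E' + (l - 1) • E0))
    (e : Polynomial ↥R.O) (he : e.Monic) (hered : e.map R.r0 = ∏ i, (X - C (a i)))
    (hsum : ∀ (b : K) (s : Finset (Place K F)),
      (∀ w, w ∈ s ↔ 0 < w.ord (x - algebraMap K F b)) →
      ∑ w ∈ s, (w.ord f + (E' + (l - 1) • E0) w) =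
        (l : ℤ) * ((e.map R.O.subtype).rootMultiplicity b : ℤ)) :
    ∃ E : Divisor K F, 0 ≤ E ∧
      Finsupp.mapDomain red E = ∑ i, Finsupp.single (Pb i) (1 : ℤ) ∧
      Divisor.IsPrincipal (l • (E - E0) - (E' - E0)) := by
  classical
  have hDred : Finsupp.mapDomain red (E' + (l - 1) • E0) =
      l • ∑ i, Finsupp.single (Pb i) (1 : ℤ) := by
    rw [Finsupp.mapDomain_add, hE']
    have : Finsupp.mapDomain red ((l - 1) • E0) = (l - 1) • Finsupp.mapDomain red E0 :=
      map_nsmul (Finsupp.mapDomain.addMonoidHom red) _ _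
    rw [this, hE0, ← succ_nsmul', Nat.sub_add_cancel hl]
  obtain ⟨ξ, Q, -, -, hQinj, hQred, -, hQdiv⟩ := s27h10_interp R h red hdiv Pb a ha hPb l hl _
    hDred f hfV hf1 hfL e he hered hsum
  have hf0 : f ≠ 0 := by
    rintro rfl
    have : R.r ⟨0, hfV⟩ = 0 := map_zero R.r
    rw [this] at hf1
    exact zero_ne_one hf1
  refine ⟨∑ i, Finsupp.single (Q i) (1 : ℤ), s27h10_sum_single_nonneg Q, ?_, ?_⟩
  · have : Finsupp.mapDomain red (∑ i, Finsupp.single (Q i) (1 : ℤ)) =
        ∑ i, Finsupp.mapDomain red (Finsupp.single (Q i) (1 : ℤ)) :=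
      map_sum (Finsupp.mapDomain.addMonoidHom red) _ _
    rw [this]
    refine Finset.sum_congr rfl fun i _ => ?_
    rw [Finsupp.mapDomain_single, hQred]
  · have key : l • (∑ i, Finsupp.single (Q i) (1 : ℤ) - E0) - (E' - E0) = rt_div h.sepK f := by
      rw [smul_sub, ← hQdiv]
      have h1 : l • E0 = (l - 1) • E0 + E0 := by
        conv_lhs => rw [← Nat.sub_add_cancel hl, succ_nsmul]
      rw [h1]
      abel
    rw [key]
    exact rt_div_isPrincipal h.sepK hf0

end interp2

/-! ### (INJ): decomposition of the divisors of `U`, the polynomial identity, the conclusion -/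

theorem s27h10_unique_of_sum_eq_one {α : Type*} [DecidableEq α] (S : Finset α) (t : α → ℤ)
    (h0 : ∀ P ∈ S, 0 ≤ t P) (h1 : ∑ P ∈ S, t P = 1) :
    ∃ P ∈ S, t P = 1 ∧ ∀ P' ∈ S, P' ≠ P → t P' = 0 := by
  have hex : ∃ P ∈ S, t P ≠ 0 := by
    by_contra hcon
    push Not at hcon
    rw [Finset.sum_eq_zero hcon] at h1
    exact zero_ne_one h1
  obtain ⟨P, hP, hPne⟩ := hex
  have hsplit : t P + ∑ P' ∈ S.erase P, t P' = 1 := by
    rw [Finset.add_sum_erase S t hP, h1]
  have hrest : 0 ≤ ∑ P' ∈ S.erase P, t P' :=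
    Finset.sum_nonneg fun P' hP' => h0 P' (Finset.mem_of_mem_erase hP')
  have hP0 := h0 P hP
  have hP1 : t P = 1 := by omega
  have hrest0 : ∑ P' ∈ S.erase P, t P' = 0 := by omega
  refine ⟨P, hP, hP1, fun P' hP' hne => ?_⟩
  exact (Finset.sum_eq_zero_iff_of_nonneg
    (fun Q hQ => h0 Q (Finset.mem_of_mem_erase hQ))).1 hrest0 P' (Finset.mem_erase.2 ⟨hne, hP'⟩)

section inj

variable [IsAlgClosed K] [IsAlgClosed k] (R : s27r_Red K F k Fb) {x : F} (h : s27r_Good R x)
  (red : Place K F → Place k Fb)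
  (hdiv : ∀ (f : F) (hf : f ∈ R.V), R.r ⟨f, hf⟩ ≠ 0 →
      Finsupp.mapDomain red (rt_div h.sepK f) = rt_div h.sepk (R.r ⟨f, hf⟩))

include hdiv in
/-- **(I1)** every effective `E` with `red_* E = ∑ Pb_i` is `∑ Q_i`, `Q_i` in the disc of `Pb_i`, with
`x`-value `ξ_i ∈ O`, `ξ̄_i = a_i`. -/
theorem s27h10_decomp {g : ℕ} (Pb : Fin g → Place k Fb) (a : Fin g → k)
    (ha : Function.Injective a)
    (hPb : ∀ i, (Pb i).ord (R.r ⟨x, h.x_mem⟩ - algebraMap k Fb (a i)) = 1)
    (E : Divisor K F) (hE : 0 ≤ E)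
    (hEred : Finsupp.mapDomain red E = ∑ i, Finsupp.single (Pb i) (1 : ℤ)) :
    ∃ (Q : Fin g → Place K F) (ξ : Fin g → ↥R.O), Function.Injective Q ∧
      (∀ i, red (Q i) = Pb i) ∧ (∀ i, R.r0 (ξ i) = a i) ∧
      (∀ i, 0 < (Q i).ord (x - algebraMap K F (ξ i : K))) ∧
      E = ∑ i, Finsupp.single (Q i) (1 : ℤ) := by
  classical
  have hPbinj : Function.Injective Pb := by
    intro i j hij
    apply ha
    have h1 : 0 < (Pb i).ord (R.r ⟨x, h.x_mem⟩ - algebraMap k Fb (a i)) := by rw [hPb i]; norm_num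
    have h2 : 0 < (Pb i).ord (R.r ⟨x, h.x_mem⟩ - algebraMap k Fb (a j)) := by
      rw [hij, hPb j]; norm_num
    exact s27hd_value_unique (K := k) (F := Fb) (Pb i) h1 h2
  have hex : ∀ i, ∃ P : Place K F, (red P = Pb i ∧ E P = 1) ∧
      ∀ P' : Place K F, E P' ≠ 0 → red P' = Pb i → P' = P := by
    intro i
    have e := DFunLike.congr_fun hEred (Pb i)
    rw [s27h10_sum_single_apply_self hPbinj, s27r6_mapDomain_apply] at e
    obtain ⟨P, hP, hP1, hPu⟩ := s27h10_unique_of_sum_eq_one E.support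
      (fun P => if red P = Pb i then E P else 0) (fun P _ => by
        show 0 ≤ (if red P = Pb i then E P else 0)
        split_ifs
        · exact Finsupp.le_def.mp hE P
        · exact le_rfl) e
    have hP1' : (if red P = Pb i then E P else 0) = 1 := hP1
    have hredP : red P = Pb i := by
      by_contra hne
      rw [if_neg hne] at hP1'
      exact zero_ne_one hP1'
    rw [if_pos hredP] at hP1'
    refine ⟨P, ⟨hredP, hP1'⟩, fun P' hP' hredP' => ?_⟩
    by_contra hne
    have := hPu P' (Finsupp.mem_support_iff.2 hP') hne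
    have this' : (if red P' = Pb i then E P' else 0) = 0 := this
    rw [if_pos hredP'] at this'
    exact hP' this'
  choose Q hQ hQu using hex
  have hQinj : Function.Injective Q := by
    intro i j hij
    apply hPbinj
    rw [← (hQ i).1, ← (hQ j).1, hij]
  have hval : ∀ i, ∃ ξ : ↥R.O, R.r0 ξ = a i ∧ 0 < (Q i).ord (x - algebraMap K F (ξ : K)) := by
    intro i
    have hPbpos : 0 < (Pb i).ord (R.r ⟨x, h.x_mem⟩ - algebraMap k Fb (a i)) := by
      rw [hPb i]; norm_num
    obtain ⟨ξ, hξ, h1, h2⟩ := s27hd_disc_value R h red hdiv (Pb i) (a i) hPbpos (hQ i).1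
    exact ⟨⟨ξ, hξ⟩, h1, h2⟩
  choose ξ hξa hξpos using hval
  refine ⟨Q, ξ, hQinj, fun i => (hQ i).1, hξa, hξpos, ?_⟩
  ext w
  by_cases hw : ∃ i, w = Q i
  · obtain ⟨i, rfl⟩ := hw
    rw [(hQ i).2, s27h10_sum_single_apply_self hQinj]
  · push Not at hw
    rw [s27h10_sum_single_apply_of_ne (fun i => (hw i).symm)]
    by_contra hne
    have hwpos : 0 < E w := lt_of_le_of_ne (Finsupp.le_def.mp hE w) (Ne.symm hne)
    have h1 := s27hd_le_mapDomain_apply red hE w
    rw [hEred] at h1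
    obtain ⟨i, hi⟩ := s27h10_sum_single_pos (lt_of_lt_of_le hwpos h1)
    exact hw i (hQu i w hne hi.symm)

include hdiv in
/-- **(I3)** two divisors of `U` whose `x`-values have the same polynomial are equal. -/
theorem s27h10_eq_of_prod_eq {g : ℕ} (Pb : Fin g → Place k Fb) (a : Fin g → k)
    (ha : Function.Injective a)
    (hPb : ∀ i, (Pb i).ord (R.r ⟨x, h.x_mem⟩ - algebraMap k Fb (a i)) = 1)
    (Q P : Fin g → Place K F) (ξ ξ0 : Fin g → ↥R.O)
    (hQred : ∀ i, red (Q i) = Pb i) (hPred : ∀ i, red (P i) = Pb i)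
    (hξa : ∀ i, R.r0 (ξ i) = a i) (hξ0a : ∀ i, R.r0 (ξ0 i) = a i)
    (hQpos : ∀ i, 0 < (Q i).ord (x - algebraMap K F (ξ i : K)))
    (hPpos : ∀ i, 0 < (P i).ord (x - algebraMap K F (ξ0 i : K)))
    (hprod : (∏ i, (X - C (ξ i)) : Polynomial ↥R.O) = ∏ i, (X - C (ξ0 i))) :
    Q = P := by
  have hξ : ξ = ξ0 := s27hq_roots_unique R.r0 hprod ha hξa hξ0a
  subst hξ
  funext i
  have hPb' : (Pb i).ord (R.r ⟨x, h.x_mem⟩ - algebraMap k Fb (R.r0 ⟨(ξ i : K), (ξ i).2⟩)) = 1 := by
    have : (⟨(ξ i : K), (ξ i).2⟩ : ↥R.O) = ξ i := rfl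
    rw [this, hξa i]
    exact hPb i
  obtain ⟨Q0, -, hQ0u⟩ := s27hd_disc R h red hdiv (Pb i) (ξ i).2 hPb'
  rw [hQ0u (Q i) ⟨hQred i, hQpos i⟩, hQ0u (P i) ⟨hPred i, hPpos i⟩]

end inj

/-! ### (I2) the polynomial identity from the fibre sums (no reduction involved) -/

section poly

variable [IsAlgClosed K] {x : F} (hx : rt_IsSepGen K x)

/-- a polynomial over an algebraically closed field is determined, up to its leading coefficient,
by its root multiplicities. -/
theorem s27h10_eq_of_rootMultiplicity {Rp e : K[X]} (hRp : Rp ≠ 0) (he : e.Monic)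
    (hmult : ∀ b, Rp.rootMultiplicity b = e.rootMultiplicity b) :
    Rp = C Rp.leadingCoeff * e := by
  classical
  have hroots : Rp.roots = e.roots := by
    ext b
    rw [count_roots, count_roots, hmult]
  have h1 := (IsAlgClosed.splits Rp).eq_prod_roots
  have h2 := (IsAlgClosed.splits e).eq_prod_roots
  rw [he.leadingCoeff, C_1, one_mul] at h2
  rw [hroots, ← h2] at h1
  exact h1

include hx in
/-- **(I2)** if `div f = ℓ (∑ Q_i - ∑ P_i)` and `N(f) · T(x) = Rp(x)` is read on the fibres of `x`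
as `hsum` (`T = (∏ (X - ξ0_i))^ℓ`), then `Rp = λ (∏ (X - ξ_i))^ℓ`. -/
theorem s27h10_inj_poly [DecidableEq K] {g : ℕ} (Q P : Fin g → Place K F) (ξ ξ0 : Fin g → K)
    (hQinj : Function.Injective Q) (hPinj : Function.Injective P)
    (hQ : ∀ i, 0 < (Q i).ord (x - algebraMap K F (ξ i)))
    (hP : ∀ i, 0 < (P i).ord (x - algebraMap K F (ξ0 i)))
    (l : ℕ) (f : F)
    (hfdiv : rt_div hx f = l • (∑ i, Finsupp.single (Q i) (1 : ℤ)
      - ∑ i, Finsupp.single (P i) (1 : ℤ)))
    (Rp : K[X]) (hRp : Rp ≠ 0)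
    (hsum : ∀ (b : K) (s : Finset (Place K F)),
      (∀ w, w ∈ s ↔ 0 < w.ord (x - algebraMap K F b)) →
      ∑ w ∈ s, w.ord f = (Rp.rootMultiplicity b : ℤ)
        - (l : ℤ) * ((Finset.univ.filter fun i => ξ0 i = b).card : ℤ)) :
    Rp = C Rp.leadingCoeff * (∏ i, (X - C (ξ i))) ^ l := by
  classical
  refine s27h10_eq_of_rootMultiplicity hRp ((monic_prod_of_monic _ _
    (fun i _ => monic_X_sub_C (ξ i))).pow l) fun b => ?_
  rw [← count_roots ((∏ i, (X - C (ξ i)) : K[X]) ^ l), roots_pow, Multiset.count_nsmul, count_roots,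
    s27h10_rootMultiplicity_prod]
  -- the fibre over `b`
  set s : Finset (Place K F) := (rt_finite_zeros hx (x - algebraMap K F b)).toFinset with hs
  have hsmem : ∀ w, w ∈ s ↔ 0 < w.ord (x - algebraMap K F b) := fun w => by
    rw [hs, Set.Finite.mem_toFinset]
    rfl
  have h1 := hsum b s hsmem
  -- count of the points `Q i`, `P i` in the fibre
  have hcount : ∀ (Q' : Fin g → Place K F) (ξ' : Fin g → K), Function.Injective Q' →
      (∀ i, 0 < (Q' i).ord (x - algebraMap K F (ξ' i))) →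
      ∑ w ∈ s, (∑ i, Finsupp.single (Q' i) (1 : ℤ)) w =
        ((Finset.univ.filter fun i => ξ' i = b).card : ℤ) := by
    intro Q' ξ' hQ'inj hQ'
    have h2 : ∀ w ∈ s, (∑ i, Finsupp.single (Q' i) (1 : ℤ)) w =
        ∑ i, if Q' i = w then (1 : ℤ) else 0 := fun w _ => by
      rw [Finsupp.finsetSum_apply]
      simp only [Finsupp.single_apply]
    rw [Finset.sum_congr rfl h2, Finset.sum_comm]
    have h3 : ∀ i ∈ (Finset.univ : Finset (Fin g)),
        (∑ w ∈ s, if Q' i = w then (1 : ℤ) else 0) = if ξ' i = b then 1 else 0 := by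
      intro i _
      rw [Finset.sum_ite_eq s (Q' i)]
      by_cases hi : ξ' i = b
      · rw [if_pos hi, if_pos]
        rw [hsmem, ← hi]
        exact hQ' i
      · rw [if_neg hi, if_neg]
        intro hmem
        exact hi (s27hd_value_unique (K := K) (F := F) (Q' i) (hQ' i) ((hsmem _).1 hmem))
    rw [Finset.sum_congr rfl h3, Finset.sum_boole]
  have h4 : ∑ w ∈ s, w.ord f = (l : ℤ) * ((Finset.univ.filter fun i => ξ i = b).card : ℤ)
      - (l : ℤ) * ((Finset.univ.filter fun i => ξ0 i = b).card : ℤ) := by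
    rw [← hcount Q ξ hQinj hQ, ← hcount P ξ0 hPinj hP, Finset.mul_sum, Finset.mul_sum,
      ← Finset.sum_sub_distrib]
    refine Finset.sum_congr rfl fun w _ => ?_
    have := DFunLike.congr_fun hfdiv w
    rw [rt_div_apply, Finsupp.smul_apply, Finsupp.sub_apply, nsmul_eq_mul] at this
    rw [this]
    ring
  rw [h4] at h1
  have h5 : (Rp.rootMultiplicity b : ℤ) =
      (l : ℤ) * ((Finset.univ.filter fun i => ξ i = b).card : ℤ) := by omega
  exact_mod_cast h5

end poly

end Fermat.Agent.S27
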