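import Mathlib
import Fermat.Agent.JT3.Places.TowerNorm
import Fermat.Agent.JT3.Riemann.Degree

/-!
# S27 / (HENS), cell H7: the pole order of a trace

Setting of `JT3/Places/Tower*.lean`: `K` algebraically closed (any characteristic), `F ⊆ F'`
function fields over `K`, `F'/F` finite separable, `v` a place of `F`, `S` the integral closure of
`O_v` in `F'`.  If `w | v` is unramified, `u ∈ S` is a unit at `w` and vanishes at every other
`w' | v` to order at least `e(w'|v)`, then `Tr_{F'/F} u` is a unit at `v`
(`s27h_trace_ord_eq_zero_S`): modulo a uniformizer `ϖ` of `v`, multiplication by `u` on `S/ϖS` has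
image the line spanned by `u` and acts on it by the nonzero scalar `u(w)`.

Consequence `s27h_trace_pole`: if `f ∈ F'` is regular at every `w' | v`, `w' ≠ w`, and has a pole of
order `j ≥ 1` at the unramified place `w`, then `Tr_{F'/F} f` has a pole of order exactly `j` at `v`.
-/

set_option autoImplicit false
set_option linter.unusedSectionVars false
set_option linter.style.haveILetI false

namespace Fermat.Agent.S27

open AlgebraicCurve IntermediateField Polynomial WithZero IsDedekindDomain IsLocalRing
open Fermat.Agent.S24 Fermat.Agent.JT3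
open scoped nonZeroDivisors

universe u v w

section Abstract

variable {K : Type u} {F : Type v} {F' : Type w} [Field K] [Field F] [Field F']
  [Algebra K F] [Algebra K F'] [Algebra F F'] [IsScalarTower K F F']
variable [IsAlgClosed K]
variable (v : Place K F)
variable [Algebra v.toValuationSubring F'] [IsScalarTower v.toValuationSubring F F']
variable (S : Type*) [CommRing S] [IsDedekindDomain S] [Algebra K S]
  [Algebra v.toValuationSubring S] [Algebra S F']
  [IsScalarTower v.toValuationSubring S F'] [IsScalarTower K S F'] [IsFractionRing S F']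
  [IsScalarTower K v.toValuationSubring S]
  [Module.Finite v.toValuationSubring S] [FaithfulSMul v.toValuationSubring S]
variable [FiniteDimensional F F'] [HasPrincipalDivisors K F']

/-- An element of `S` whose order at every `w' | v` is at least that of the uniformizer `ϖ`
lies in `ϖ S = m_v S`. -/
theorem s27h_mem_map_of_ord {ϖ : v.toValuationSubring} (hϖ : Irreducible ϖ) {z : S}
    (hz : ∀ w' ∈ v.fiber F', z = 0 ∨
      w'.ord (algebraMap F F' (ϖ : F)) ≤ w'.ord (algebraMap S F' z)) :
    z ∈ Ideal.map (algebraMap v.toValuationSubring S) (maximalIdeal v.toValuationSubring) := by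
  by_cases hz0 : z = 0
  · rw [hz0]; exact zero_mem _
  rw [hϖ.maximalIdeal_eq, Ideal.map_span, Set.image_singleton, Ideal.mem_span_singleton']
  have hϖ0 : (ϖ : F) ≠ 0 := fun h => hϖ.ne_zero (Subtype.ext h)
  have hϖF' : algebraMap F F' (ϖ : F) ≠ 0 := by
    rwa [Ne, map_eq_zero_iff _ (algebraMap F F').injective]
  have hzF' : algebraMap S F' z ≠ 0 := ptw_algebraMap_ne_zero S hz0
  set f : F' := algebraMap S F' z / algebraMap F F' (ϖ : F) with hf
  have hf0 : f ≠ 0 := div_ne_zero hzF' hϖF'
  have hval : ∀ Q : HeightOneSpectrum S, Q.valuation F' f ≤ 1 := by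
    intro Q
    have hmemfib := ptw_placeOfPrime_mem_fiber (F' := F') v S Q
    have h1 := (hz _ hmemfib).resolve_left hz0
    have h2 : 0 ≤ (hw_placeOfPrime (K := K) (F := F') S Q).ord f := by
      rw [hf, div_eq_mul_inv, Place.ord_mul _ hzF' (inv_ne_zero hϖF'), Place.ord_inv]
      omega
    have h3 := (hw_mem_iff_ord_nonneg _ hf0).mpr h2
    rw [hw_placeOfPrime_toValuationSubring] at h3
    exact (Valuation.mem_valuationSubring_iff _ _).mp h3
  obtain ⟨s', hs'⟩ := HeightOneSpectrum.mem_integers_of_valuation_le_one F' f hval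
  refine ⟨s', ?_⟩
  apply IsFractionRing.injective S F'
  rw [map_mul, hs', ptw_algebraMap_R, hf, div_mul_cancel₀ _ hϖF']

/-- An element of `F'` which is regular at every `w' | v` lies in `S`. -/
theorem s27h_mem_range_of_ord {f : F'}
    (hf : ∀ w' ∈ v.fiber F', f = 0 ∨ 0 ≤ w'.ord f) : f ∈ (algebraMap S F').range := by
  by_cases hf0 : f = 0
  · rw [hf0]; exact zero_mem _
  apply HeightOneSpectrum.mem_integers_of_valuation_le_one F' f
  intro Q
  have hmemfib := ptw_placeOfPrime_mem_fiber (F' := F') v S Q
  have h2 := (hf _ hmemfib).resolve_left hf0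
  have h3 := (hw_mem_iff_ord_nonneg _ hf0).mpr h2
  rw [hw_placeOfPrime_toValuationSubring] at h3
  exact (Valuation.mem_valuationSubring_iff _ _).mp h3

variable [IsLocalization (Algebra.algebraMapSubmonoid S (v.toValuationSubring)⁰) F']

attribute [local instance] Ideal.Quotient.field

/-- **Trace lemma, integral form.**  If `w | v` is unramified, `u ∈ S` is a unit at `w` and
vanishes to order `≥ e(w'|v)` at every other `w' | v`, then `Tr_{F'/F} u` is a unit at `v`. -/
theorem s27h_trace_ord_eq_zero_S (x : F) [Algebra.IsAlgebraic K⟮x⟯ F]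
    (x' : F') [Algebra.IsAlgebraic K⟮x'⟯ F'] {ϖ : v.toValuationSubring} (hϖ : Irreducible ϖ)
    {w : Place K F'} (hw : w ∈ v.fiber F') (hew : w.ord (algebraMap F F' (ϖ : F)) = 1)
    {u : S} (huw : w.ord (algebraMap S F' u) = 0) (hu0 : u ≠ 0)
    (hu : ∀ w' ∈ v.fiber F', w' ≠ w →
      w'.ord (algebraMap F F' (ϖ : F)) ≤ w'.ord (algebraMap S F' u)) :
    ∃ t : (v.toValuationSubring)ˣ,
      Algebra.trace F F' (algebraMap S F' u) = ((t : v.toValuationSubring) : F) := by
  classical
  haveI := ptw_free v S
  have h2 : Algebra.trace F F' (algebraMap S F' u) =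
      algebraMap v.toValuationSubring F (Algebra.trace v.toValuationSubring S u) :=
    Algebra.trace_localization v.toValuationSubring (v.toValuationSubring)⁰ (Rₘ := F) (Sₘ := F') u
  rw [h2]
  set t := Algebra.trace v.toValuationSubring S u with ht
  suffices hunit : IsUnit t by
    obtain ⟨uu, huu⟩ := hunit
    exact ⟨uu, by rw [huu]; rfl⟩
  by_contra hnu
  have htm : t ∈ maximalIdeal v.toValuationSubring := by rwa [mem_maximalIdeal, mem_nonunits_iff]
  have hq := Algebra.trace_quotient_mk (R := v.toValuationSubring) (S := S) u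
  rw [← ht, Ideal.Quotient.eq_zero_iff_mem.mpr htm] at hq
  -- notation
  set p : Ideal v.toValuationSubring := maximalIdeal v.toValuationSubring with hp
  set pS : Ideal S := Ideal.map (algebraMap v.toValuationSubring S) p with hpS
  have hϖF' : algebraMap F F' (ϖ : F) ≠ 0 := by
    have hϖ0 : (ϖ : F) ≠ 0 := fun h => hϖ.ne_zero (Subtype.ext h)
    rwa [Ne, map_eq_zero_iff _ (algebraMap F F').injective]
  have huF' : algebraMap S F' u ≠ 0 := ptw_algebraMap_ne_zero S hu0
  have hKS : ∀ c : K, algebraMap v.toValuationSubring S (algebraMap K v.toValuationSubring c) =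
      algebraMap K S c := fun c => (IsScalarTower.algebraMap_apply K v.toValuationSubring S c).symm
  have hKF' : ∀ c : K, algebraMap S F' (algebraMap K S c) = algebraMap K F' c :=
    fun c => (IsScalarTower.algebraMap_apply K S F' c).symm
  -- (i) `u s ≡ s(w) u` modulo `pS`
  have hkey : ∀ (s : S) (c : K), (algebraMap S F' s = algebraMap K F' c ∨
      0 < w.ord (algebraMap S F' s - algebraMap K F' c)) →
      u * s - algebraMap v.toValuationSubring S (algebraMap K v.toValuationSubring c) * u ∈ pS := by
    intro s c hc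
    have hrew : u * s - algebraMap v.toValuationSubring S (algebraMap K v.toValuationSubring c) * u =
        u * (s - algebraMap K S c) := by rw [hKS]; ring
    rw [hrew]
    apply s27h_mem_map_of_ord (F' := F') v S hϖ
    intro w' hw'
    by_cases hd : s - algebraMap K S c = 0
    · left; rw [hd, mul_zero]
    right
    have hdF' : algebraMap S F' (s - algebraMap K S c) ≠ 0 := ptw_algebraMap_ne_zero S hd
    rw [map_mul, Place.ord_mul _ huF' hdF']
    have hnn := ptw_ord_nonneg v S hw' hd
    by_cases hww : w' = w
    · subst hww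
      rw [hew, huw, zero_add]
      rcases hc with hc | hc
      · exfalso
        apply hd
        apply IsFractionRing.injective S F'
        rw [map_sub, hKF', hc, sub_self, map_zero]
      · rw [map_sub, hKF']
        omega
    · have := hu w' hw' hww
      omega
  -- the constant `c = u(w)`
  obtain ⟨c, hc⟩ := hw_exists_const x' w (ptw_mem_of_mem_fiber v S hw u)
  have hc0 : c ≠ 0 := by
    rintro rfl
    rcases hc with hc | hc
    · exact huF' (by rw [hc, map_zero])
    · rw [map_zero, sub_zero, huw] at hc
      exact lt_irrefl _ hc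
  set cR : v.toValuationSubring := algebraMap K v.toValuationSubring c with hcR
  have hcRunit : IsUnit cR := (isUnit_iff_ne_zero.mpr hc0).map (algebraMap K v.toValuationSubring)
  -- the quotient algebra
  let A := S ⧸ pS
  let kv := v.toValuationSubring ⧸ p
  set ub : A := Ideal.Quotient.mk pS u with hub
  have hsmul : ∀ (r : v.toValuationSubring) (s : S),
      (Ideal.Quotient.mk p r : kv) • (Ideal.Quotient.mk pS s : A) =
        Ideal.Quotient.mk pS (algebraMap v.toValuationSubring S r * s) := by
    intro r s
    rw [Algebra.smul_def, Ideal.Quotient.algebraMap_quotient_map_quotient, ← map_mul]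
  -- `ub ≠ 0`
  have hub0 : ub ≠ 0 := by
    intro h0
    rw [hub, Ideal.Quotient.eq_zero_iff_mem, hpS, hp, hϖ.maximalIdeal_eq, Ideal.map_span,
      Set.image_singleton, Ideal.mem_span_singleton'] at h0
    obtain ⟨s', hs'⟩ := h0
    have hs'0 : s' ≠ 0 := by
      rintro rfl
      exact hu0 (by rw [← hs', zero_mul])
    have h3 := congrArg (fun y => w.ord (algebraMap S F' y)) hs'
    simp only [map_mul] at h3
    rw [ptw_algebraMap_R, Place.ord_mul _ (ptw_algebraMap_ne_zero S hs'0) hϖF', hew, huw] at h3
    have := ptw_ord_nonneg v S hw hs'0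
    omega
  -- the endomorphism and its invariant line
  let T : A →ₗ[kv] A := Algebra.lmul kv A ub
  let P : Submodule kv A := Submodule.span kv {ub}
  have hTP : ∀ a : A, T a ∈ P := by
    intro a
    obtain ⟨s, rfl⟩ := Ideal.Quotient.mk_surjective a
    obtain ⟨cs, hcs⟩ := hw_exists_const x' w (ptw_mem_of_mem_fiber v S hw s)
    have h4 := hkey s cs hcs
    have h5 : T (Ideal.Quotient.mk pS s) =
        (Ideal.Quotient.mk p (algebraMap K v.toValuationSubring cs) : kv) • ub := by
      show ub * Ideal.Quotient.mk pS s = _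
      rw [hub, hsmul, ← map_mul]
      exact (Ideal.Quotient.mk_eq_mk_iff_sub_mem _ _).mpr h4
    rw [h5]
    exact Submodule.smul_mem _ _ (Submodule.mem_span_singleton_self ub)
  have hubub : ub * ub = (Ideal.Quotient.mk p cR : kv) • ub := by
    rw [hub, hsmul, ← map_mul]
    exact (Ideal.Quotient.mk_eq_mk_iff_sub_mem _ _).mpr (hkey u c hc)
  haveI : Module.Finite kv A :=
    Module.Finite.of_basis (basisQuotient (Module.Free.chooseBasis v.toValuationSubring S))
  have htr : LinearMap.trace kv P (T.restrict (fun a _ => hTP a)) = LinearMap.trace kv A T :=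
    LinearMap.trace_restrict_eq_of_forall_mem P T hTP
  have hrestr : T.restrict (fun a _ => hTP a) =
      (Ideal.Quotient.mk p cR : kv) • (LinearMap.id : P →ₗ[kv] P) := by
    apply LinearMap.ext
    rintro ⟨a, ha⟩
    apply Subtype.ext
    obtain ⟨k, rfl⟩ := Submodule.mem_span_singleton.mp ha
    show ub * (k • ub) = (Ideal.Quotient.mk p cR : kv) • (k • ub)
    rw [mul_smul_comm, hubub, smul_comm]
  have hfin : Module.finrank kv P = 1 := finrank_span_singleton hub0
  have htrace : Algebra.trace kv A ub = (Ideal.Quotient.mk p cR : kv) := by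
    rw [Algebra.trace_apply]
    show LinearMap.trace kv A T = _
    rw [← htr, hrestr, map_smul, LinearMap.trace_id, hfin, Nat.cast_one, smul_eq_mul, mul_one]
  rw [htrace, Ideal.Quotient.eq_zero_iff_mem, hp, mem_maximalIdeal, mem_nonunits_iff] at hq
  exact hq hcRunit

end Abstract

section Concrete

variable {K : Type u} {F : Type v} {F' : Type w} [Field K] [Field F] [Field F']
  [Algebra K F] [Algebra K F'] [Algebra F F'] [IsScalarTower K F F']
variable [IsAlgClosed K]
variable [FiniteDimensional F F'] [Algebra.IsSeparable F F'] [HasPrincipalDivisors K F']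

/-- **Trace lemma (H7).**  Let `w | v` be unramified, `f ∈ F'` regular at every other `w' | v`
with a pole of order `j ≥ 1` at `w`.  Then `Tr_{F'/F} f` has a pole of order exactly `j` at `v`
(in particular it is nonzero). -/
theorem s27h_trace_pole (x : F) [Algebra.IsAlgebraic K⟮x⟯ F]
    (x' : F') [Algebra.IsAlgebraic K⟮x'⟯ F'] (v : Place K F) {w : Place K F'}
    (hw : w ∈ v.fiber F') (hew : Place.ramificationIndex (F := F) w = 1)
    {f : F'} {j : ℕ} (hj : 0 < j) (hfw : w.ord f = -(j : ℤ))
    (hf : ∀ w' ∈ v.fiber F', w' ≠ w → 0 ≤ w'.ord f) :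
    Algebra.trace F F' f ≠ 0 ∧ v.ord (Algebra.trace F F' f) = -(j : ℤ) := by
  classical
  letI algRF' : Algebra v.toValuationSubring F' :=
    ((algebraMap F F').comp (algebraMap v.toValuationSubring F)).toAlgebra
  haveI : IsScalarTower v.toValuationSubring F F' := IsScalarTower.of_algebraMap_eq' rfl
  haveI : IsScalarTower K v.toValuationSubring F' := IsScalarTower.of_algebraMap_eq fun a => by
    rw [IsScalarTower.algebraMap_apply K F F']
    rfl
  let S := integralClosure v.toValuationSubring F'
  haveI hDed : IsDedekindDomain S := integralClosure.isDedekindDomain v.toValuationSubring F F'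
  haveI hfin : Module.Finite v.toValuationSubring S :=
    IsIntegralClosure.finite v.toValuationSubring F F' S
  haveI hfrac : IsFractionRing S F' := integralClosure.isFractionRing_of_finite_extension F F'
  haveI hfaith : FaithfulSMul v.toValuationSubring S :=
    (faithfulSMul_iff_algebraMap_injective _ _).mpr (fun a b h => by
      have h' := congrArg (algebraMap S F') h
      have h2 : algebraMap F F' (a : F) = algebraMap F F' (b : F) := h'
      exact Subtype.ext ((algebraMap F F').injective h2))
  haveI hloc : IsLocalization (Algebra.algebraMapSubmonoid S (v.toValuationSubring)⁰) F' :=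
    IsIntegralClosure.isLocalization v.toValuationSubring F F' S
  obtain ⟨ϖ, hϖ⟩ := IsDiscreteValuationRing.exists_irreducible v.toValuationSubring
  have hϖ0 : (ϖ : F) ≠ 0 := fun h => hϖ.ne_zero (Subtype.ext h)
  have hϖF' : algebraMap F F' (ϖ : F) ≠ 0 := by
    rwa [Ne, map_eq_zero_iff _ (algebraMap F F').injective]
  have hordϖ : ∀ w' ∈ v.fiber F', w'.ord (algebraMap F F' (ϖ : F)) =
      (Place.ramificationIndex (F := F) w' : ℤ) := by
    intro w' hw'
    rw [Place.ord_restrict, Place.mem_fiber.mp hw', v.ord_coe_irreducible hϖ, mul_one]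
  have hf0 : f ≠ 0 := by
    rintro rfl
    rw [Place.ord_zero] at hfw
    omega
  -- the integral element `u' = ϖ^j f`
  set u' : F' := algebraMap F F' (ϖ : F) ^ j * f with hu'
  have hu'0 : u' ≠ 0 := mul_ne_zero (pow_ne_zero _ hϖF') hf0
  have hordu' : ∀ w' : Place K F', w'.ord u' = j * w'.ord (algebraMap F F' (ϖ : F)) + w'.ord f := by
    intro w'
    rw [hu', Place.ord_mul _ (pow_ne_zero _ hϖF') hf0, rt_ord_pow]
  have hu'w : w.ord u' = 0 := by
    rw [hordu', hordϖ w hw, hew, hfw]
    push_cast
    ring
  have hu'other : ∀ w' ∈ v.fiber F', w' ≠ w →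
      w'.ord (algebraMap F F' (ϖ : F)) ≤ w'.ord u' := by
    intro w' hw' hne
    rw [hordu', hordϖ w' hw']
    have h1 := hf w' hw' hne
    have h2 : (1 : ℤ) ≤ (Place.ramificationIndex (F := F) w' : ℤ) := by
      have := w'.ramificationIndex_pos (F := F)
      omega
    nlinarith
  have hu'mem : u' ∈ (algebraMap S F').range := by
    apply s27h_mem_range_of_ord (F' := F') v S
    intro w' hw'
    right
    by_cases hne : w' = w
    · rw [hne, hu'w]
    · have h1 := hu'other w' hw' hne
      rw [hordϖ w' hw'] at h1
      omega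
  obtain ⟨u, hu⟩ := hu'mem
  have hu0 : u ≠ 0 := by
    rintro rfl
    exact hu'0 (by rw [← hu, map_zero])
  obtain ⟨t, ht⟩ := s27h_trace_ord_eq_zero_S v S x x' hϖ hw (by rw [hordϖ w hw, hew]; rfl)
    (u := u) (by rw [hu]; exact hu'w) hu0 (by rw [hu]; exact hu'other)
  rw [hu] at ht
  -- `Tr u' = ϖ^j Tr f`
  have htr : Algebra.trace F F' u' = (ϖ : F) ^ j * Algebra.trace F F' f := by
    rw [hu', ← map_pow, ← Algebra.smul_def, map_smul, smul_eq_mul]
  rw [htr] at ht
  have htF : ((t : v.toValuationSubring) : F) ≠ 0 := fun h => t.ne_zero (Subtype.ext h)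
  have hTr0 : Algebra.trace F F' f ≠ 0 := by
    intro h0
    rw [h0, mul_zero] at ht
    exact htF ht.symm
  refine ⟨hTr0, ?_⟩
  have h5 := congrArg v.ord ht
  rw [v.ord_mul (pow_ne_zero _ hϖ0) hTr0, rt_ord_pow, v.ord_coe_irreducible hϖ, v.ord_coe_unit] at h5
  omega

end Concrete

end Fermat.Agent.S27
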