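/-
S27 / (HENS), LINE ADAPTER (helper23).  Prefix `s27hl_`.

`F / K` a function field with separating generator `x`, `K` algebraically closed (any
characteristic).  The norm formula (`ptw_sum_ord_fiber`) and the trace-pole lemma
(`s27h_trace_pole`) for the tower `K ⊂ K(x) ⊂ F`, restated with places of `F` only and with root
multiplicities / degrees of polynomials: no place of `K(x)` occurs in the final statements.

A *spot* of the `x`-line is a class `C` of places of `F` (the places over a point `a ∈ K`, or the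
poles of `x`), a positive weight `π` on `C` (`ord_w (x - a)`, resp. `- ord_w x`) and an order
function `ν` on `K[X]` (`rootMultiplicity a`, resp. `- natDegree`) with
`ord_w R(x) = ν R · π w` on `C`.
-/
import Mathlib
import Fermat.Agent.JT3.Places.TowerNorm
import Fermat.Agent.JT3.Riemann.Main
import Fermat.Agent.S27.Hens.Trace

set_option autoImplicit false
set_option linter.unusedSectionVars false
set_option linter.unusedVariables false
set_option linter.style.haveILetI false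

noncomputable section

namespace Fermat.Agent.S27

open AlgebraicCurve Fermat.Agent.JT3 Fermat.Agent.S24 Polynomial IntermediateField

universe u v
variable {K : Type u} {F : Type v} [Field K] [Field F] [Algebra K F]

/-! ### orders of polynomials in `x` -/

section Ord

variable {x : F}

/-- the order of `R(x)` at a zero of `x - a` -/
theorem s27hl_ord_aeval_at (w : Place K F) (a : K) (hw : 0 < w.ord (x - algebraMap K F a))
    {R : K[X]} (hR : R ≠ 0) :
    aeval x R ≠ 0 ∧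
      w.ord (aeval x R) = (R.rootMultiplicity a : ℤ) * w.ord (x - algebraMap K F a) := by
  have hp : R.comp (X + C a) ≠ 0 := by
    intro h
    exact hR (Polynomial.comp_X_add_C_eq_zero_iff.mp h)
  have h1 : aeval (x - algebraMap K F a) (R.comp (X + C a)) = aeval x R := by
    rw [aeval_comp]
    congr 1
    simp
  have h2 := rt_ord_aeval w hw hp
  rw [h1, ← rootMultiplicity_eq_rootMultiplicity] at h2
  exact h2

/-- the order of `R(x)` at a pole of `x` -/
theorem s27hl_ord_aeval_inf (w : Place K F) (hw : w.ord x < 0) {R : K[X]} (hR : R ≠ 0) :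
    aeval x R ≠ 0 ∧ w.ord (aeval x R) = (R.natDegree : ℤ) * w.ord x := by
  have hx0 : x ≠ 0 := by
    rintro rfl
    simp at hw
  have hz : 0 < w.ord x⁻¹ := by rw [w.ord_inv]; omega
  have hrev : R.reverse ≠ 0 := by
    rwa [Ne, Polynomial.reverse_eq_zero]
  have h0 : R.reverse.rootMultiplicity 0 = 0 := by
    apply rootMultiplicity_eq_zero
    rw [IsRoot, ← coeff_zero_eq_eval_zero, coeff_zero_reverse]
    exact leadingCoeff_ne_zero.mpr hR
  obtain ⟨h1, h2⟩ := rt_ord_aeval w hz hrev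
  rw [h0, Nat.cast_zero, zero_mul] at h2
  have hdec : aeval x R = aeval x⁻¹ R.reverse * x ^ R.natDegree := by
    letI : Invertible x := invertibleOfNonzero hx0
    have := eval₂_reverse_mul_pow (algebraMap K F) x R
    rw [invOf_eq_inv] at this
    rw [aeval_def, aeval_def, this]
  have hpw : x ^ R.natDegree ≠ 0 := pow_ne_zero _ hx0
  refine ⟨by rw [hdec]; exact mul_ne_zero h1 hpw, ?_⟩
  rw [hdec, w.ord_mul h1 hpw, h2, zero_add, rt_ord_pow]

end Ord

/-! ### the generator of `K(x)` generates -/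

section Gen

theorem s27hl_adjoin_gen (x : F) : K⟮AdjoinSimple.gen K x⟯ = ⊤ := by
  apply IntermediateField.lift_injective
  rw [IntermediateField.lift_adjoin_simple, IntermediateField.lift_top, AdjoinSimple.coe_gen]

theorem s27hl_isAlgebraic_gen (x : F) :
    Algebra.IsAlgebraic ↥(K⟮AdjoinSimple.gen K x⟯) ↥K⟮x⟯ := by
  constructor
  intro u
  have hu : u ∈ K⟮AdjoinSimple.gen K x⟯ := by
    rw [s27hl_adjoin_gen]; exact IntermediateField.mem_top
  exact isAlgebraic_algebraMap (⟨u, hu⟩ : ↥(K⟮AdjoinSimple.gen K x⟯))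

end Gen

/-! ### spots of the `x`-line -/

/-- a **spot** of the `x`-line seen from `F`: a class `C` of places of `F`, a positive weight `π`
on `C`, an order function `ν` on `K[X]` with `ord_w R(x) = ν R · π w` on `C`; `C` is cut out by
one element of `K(x)` and `ν` takes the value `± 1`. -/
structure s27hl_Spot (x : F) (C : Place K F → Prop) (π : Place K F → ℤ) (ν : K[X] → ℤ) :
    Prop where
  pos : ∀ w, C w → 0 < π w
  ord_aeval : ∀ w, C w → ∀ R : K[X], R ≠ 0 → w.ord (aeval x R) = ν R * π w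
  unif : ∃ t : K[X], t ≠ 0 ∧ (ν t = 1 ∨ ν t = -1)
  char : ∃ u : ↥K⟮x⟯, ∀ w : Place K F, C w ↔ 0 < w.ord (u : F)

section Spot

variable [IsAlgClosed K] {x : F} (hx : rt_IsSepGen K x)
  {C : Place K F → Prop} {π : Place K F → ℤ} {ν : K[X] → ℤ} (H : s27hl_Spot x C π ν)

theorem s27hl_algebraMap_aeval_gen (x : F) (R : K[X]) :
    algebraMap ↥K⟮x⟯ F (aeval (AdjoinSimple.gen K x) R) = aeval x R := by
  rw [← aeval_algebraMap_apply, AdjoinSimple.algebraMap_gen]

include hx in
theorem s27hl_aeval_ne_zero {R : K[X]} (hR : R ≠ 0) : aeval x R ≠ 0 := by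
  intro h0
  exact hx.1 ⟨R, hR, h0⟩

include hx in
theorem s27hl_aeval_gen_ne_zero {R : K[X]} (hR : R ≠ 0) :
    aeval (AdjoinSimple.gen K x) R ≠ 0 := by
  intro h0
  apply s27hl_aeval_ne_zero hx hR
  rw [← s27hl_algebraMap_aeval_gen, h0, map_zero]

include hx H in
/-- the order of an element of `K(x)` at a place of the spot -/
theorem s27hl_spot_ord {w : Place K F} (hw : C w) {u : ↥K⟮x⟯} (hu : u ≠ 0) {r s : K[X]}
    (hs : aeval x s ≠ 0) (hrs : (u : F) = aeval x r / aeval x s) :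
    w.ord (u : F) = (ν r - ν s) * π w := by
  have hs0 : s ≠ 0 := by
    rintro rfl
    exact hs (map_zero _)
  have hu' : (u : F) ≠ 0 := fun h => hu (Subtype.ext h)
  have hr0 : r ≠ 0 := by
    rintro rfl
    rw [map_zero, zero_div] at hrs
    exact hu' hrs
  have hr : aeval x r ≠ 0 := s27hl_aeval_ne_zero hx hr0
  rw [hrs, div_eq_mul_inv, w.ord_mul hr (inv_ne_zero hs), w.ord_inv, H.ord_aeval w hw r hr0,
    H.ord_aeval w hw s hs0]
  ring

include hx H in
/-- the ramification index over `K(x)` of a place of the spot is its weight -/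
theorem s27hl_spot_ramificationIndex {w : Place K F} (hw : C w) :
    ((Place.ramificationIndex (F := ↥K⟮x⟯) w : ℕ) : ℤ) = π w := by
  haveI : FiniteDimensional ↥K⟮x⟯ F := hx.2.1
  haveI : Algebra.IsIntegral ↥K⟮x⟯ F := Algebra.IsIntegral.of_finite _ _
  have hπ := H.pos w hw
  have hepos : 0 < Place.ramificationIndex (F := ↥K⟮x⟯) w := w.ramificationIndex_pos
  apply Int.dvd_antisymm (by positivity) hπ.le
  · obtain ⟨t, ht0, htν⟩ := H.unif
    have h1 := w.ramificationIndex_dvd_ord (F := ↥K⟮x⟯) (s27hl_aeval_gen_ne_zero hx ht0)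
    rw [s27hl_algebraMap_aeval_gen, H.ord_aeval w hw t ht0] at h1
    rcases htν with h | h
    · rwa [h, one_mul] at h1
    · rw [h, neg_one_mul] at h1
      exact (dvd_neg).mp h1
  · obtain ⟨g, hg0, hg⟩ := w.exists_ord_eq_ramificationIndex (F := ↥K⟮x⟯)
    obtain ⟨r, s, hrs⟩ := (IntermediateField.mem_adjoin_simple_iff K _).1 g.2
    have hg' : (g : F) ≠ 0 := fun h => hg0 (Subtype.ext h)
    have hs : aeval x s ≠ 0 := by
      intro h0
      rw [h0, div_zero] at hrs
      exact hg' hrs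
    have h2 := s27hl_spot_ord hx H hw hg0 hs hrs
    have h3 : w.ord (algebraMap ↥K⟮x⟯ F g) = w.ord (g : F) := rfl
    rw [h3, h2] at hg
    exact ⟨ν r - ν s, by rw [← hg]; ring⟩

variable [Algebra.IsIntegral ↥K⟮x⟯ F]

include hx H in
/-- the order at the restricted place of an element of `K(x)` -/
theorem s27hl_spot_restrict_ord {w : Place K F} (hw : C w) {u : ↥K⟮x⟯} (hu : u ≠ 0) {r s : K[X]}
    (hs : aeval x s ≠ 0) (hrs : (u : F) = aeval x r / aeval x s) :
    (w.restrict ↥K⟮x⟯).ord u = ν r - ν s := by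
  have h1 := w.ord_restrict (F := ↥K⟮x⟯) u
  have h2 : w.ord (algebraMap ↥K⟮x⟯ F u) = w.ord (u : F) := rfl
  rw [h2, s27hl_spot_ord hx H hw hu hs hrs, s27hl_spot_ramificationIndex hx H hw, mul_comm] at h1
  exact (mul_left_cancel₀ (H.pos w hw).ne' h1).symm

include hx H in
theorem s27hl_spot_restrict_ord_aeval {w : Place K F} (hw : C w) {R : K[X]} (hR : R ≠ 0) :
    (w.restrict ↥K⟮x⟯).ord (aeval (AdjoinSimple.gen K x) R) = ν R := by
  have h1 := w.ord_restrict (F := ↥K⟮x⟯) (aeval (AdjoinSimple.gen K x) R)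
  rw [s27hl_algebraMap_aeval_gen, H.ord_aeval w hw R hR, s27hl_spot_ramificationIndex hx H hw,
    mul_comm] at h1
  exact (mul_left_cancel₀ (H.pos w hw).ne' h1).symm

include hx H in
/-- all places of the spot restrict to the same place of `K(x)` -/
theorem s27hl_spot_restrict_eq {w w' : Place K F} (hw : C w) (hw' : C w') :
    w.restrict ↥K⟮x⟯ = w'.restrict ↥K⟮x⟯ := by
  apply Place.ext
  ext u
  rcases eq_or_ne u 0 with rfl | hu
  · simp
  obtain ⟨r, s, hrs⟩ := (IntermediateField.mem_adjoin_simple_iff K _).1 u.2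
  have hu' : (u : F) ≠ 0 := fun h => hu (Subtype.ext h)
  have hs : aeval x s ≠ 0 := by
    intro h0
    rw [h0, div_zero] at hrs
    exact hu' hrs
  rw [hw_mem_iff_ord_nonneg _ hu, hw_mem_iff_ord_nonneg _ hu,
    s27hl_spot_restrict_ord hx H hw hu hs hrs, s27hl_spot_restrict_ord hx H hw' hu hs hrs]

include hx H in
/-- a place with the same restriction as a place of the spot lies in the spot -/
theorem s27hl_spot_of_restrict_eq {w w₀ : Place K F} (hw₀ : C w₀)
    (h : w.restrict ↥K⟮x⟯ = w₀.restrict ↥K⟮x⟯) : C w := by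
  obtain ⟨u, hu⟩ := H.char
  have h0 := (hu w₀).mp hw₀
  rw [hu w]
  have e0 : 0 < Place.ramificationIndex (F := ↥K⟮x⟯) w₀ := w₀.ramificationIndex_pos
  have e1 : 0 < Place.ramificationIndex (F := ↥K⟮x⟯) w := w.ramificationIndex_pos
  have h1 := w₀.ord_restrict (F := ↥K⟮x⟯) u
  have h2 := w.ord_restrict (F := ↥K⟮x⟯) u
  have h3 : w₀.ord (algebraMap ↥K⟮x⟯ F u) = w₀.ord (u : F) := rfl
  have h4 : w.ord (algebraMap ↥K⟮x⟯ F u) = w.ord (u : F) := rfl
  rw [h3] at h1
  rw [h4, h] at h2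
  rw [h1] at h0
  rw [h2]
  have h5 : 0 < (w₀.restrict ↥K⟮x⟯).ord u := by
    by_contra hneg
    rw [not_lt] at hneg
    have : ((Place.ramificationIndex (F := ↥K⟮x⟯) w₀ : ℕ) : ℤ) * (w₀.restrict ↥K⟮x⟯).ord u ≤ 0 :=
      mul_nonpos_of_nonneg_of_nonpos (by positivity) hneg
    omega
  positivity

include hx H in
theorem s27hl_spot_restrict_eq_iff {w w₀ : Place K F} (hw₀ : C w₀) :
    w.restrict ↥K⟮x⟯ = w₀.restrict ↥K⟮x⟯ ↔ C w :=
  ⟨s27hl_spot_of_restrict_eq hx H hw₀, fun hw => s27hl_spot_restrict_eq hx H hw hw₀⟩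

end Spot

/-! ### the norm formula and the trace lemma at a spot -/

section NormTrace

variable [IsAlgClosed K] {x : F} (hx : rt_IsSepGen K x)
  {C : Place K F → Prop} {π : Place K F → ℤ} {ν : K[X] → ℤ} (H : s27hl_Spot x C π ν)

include hx in
/-- an identity `u · T(x) = R(x)` in `F` with `u ∈ K(x)` is an identity in `K(x)` -/
theorem s27hl_descend {u : ↥K⟮x⟯} {R T : K[X]}
    (h : algebraMap ↥K⟮x⟯ F u * aeval x T = aeval x R) :
    u * aeval (AdjoinSimple.gen K x) T = aeval (AdjoinSimple.gen K x) R := by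
  apply (algebraMap ↥K⟮x⟯ F).injective
  rw [map_mul, s27hl_algebraMap_aeval_gen, s27hl_algebraMap_aeval_gen, h]

include hx H in
/-- the order at the restricted place of `u = R(x) / T(x)` -/
theorem s27hl_spot_restrict_ord_of_mul [Algebra.IsIntegral ↥K⟮x⟯ F] {w : Place K F} (hw : C w)
    {u : ↥K⟮x⟯} (hu : u ≠ 0) {R T : K[X]} (hT : T ≠ 0)
    (h : algebraMap ↥K⟮x⟯ F u * aeval x T = aeval x R) :
    R ≠ 0 ∧ (w.restrict ↥K⟮x⟯).ord u = ν R - ν T := by
  have h1 := s27hl_descend hx h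
  have hTg := s27hl_aeval_gen_ne_zero hx hT
  have hR : R ≠ 0 := by
    rintro rfl
    rw [map_zero] at h1
    exact mul_ne_zero hu hTg h1
  refine ⟨hR, ?_⟩
  have h2 := congrArg (w.restrict ↥K⟮x⟯).ord h1
  rw [(w.restrict ↥K⟮x⟯).ord_mul hu hTg, s27hl_spot_restrict_ord_aeval hx H hw hT,
    s27hl_spot_restrict_ord_aeval hx H hw hR] at h2
  omega

include hx H in
/-- **Norm formula at a spot**: if `N_{F/K(x)} f = R(x) / T(x)`, the orders of `f` at the places of
the spot sum up to `ν R - ν T`. -/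
theorem s27hl_spot_sum_ord_norm {w₀ : Place K F} (hw₀ : C w₀) {f : F} (hf : f ≠ 0) {R T : K[X]}
    (hT : T ≠ 0)
    (hN : algebraMap ↥K⟮x⟯ F (Algebra.norm ↥K⟮x⟯ f) * aeval x T = aeval x R)
    (s : Finset (Place K F)) (hs : ∀ w, w ∈ s ↔ C w) :
    ∑ w ∈ s, w.ord f = ν R - ν T := by
  classical
  haveI : FiniteDimensional ↥K⟮x⟯ F := hx.2.1
  haveI : Algebra.IsSeparable ↥K⟮x⟯ F := hx.2.2
  haveI : Algebra.IsIntegral ↥K⟮x⟯ F := Algebra.IsIntegral.of_finite _ _
  haveI : HasPrincipalDivisors K F := rt_hasPrincipalDivisors hx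
  haveI : Algebra.IsAlgebraic ↥(K⟮AdjoinSimple.gen K x⟯) ↥K⟮x⟯ := s27hl_isAlgebraic_gen x
  haveI : Algebra.IsAlgebraic ↥K⟮x⟯ F := Algebra.IsAlgebraic.of_finite _ _
  have hfib : (w₀.restrict ↥K⟮x⟯).fiber F = s := by
    ext w
    rw [Place.mem_fiber, hs, s27hl_spot_restrict_eq_iff hx H hw₀]
  have h1 := ptw_sum_ord_fiber (AdjoinSimple.gen K x) x (w₀.restrict ↥K⟮x⟯) hf
  rw [hfib] at h1
  rw [h1]
  exact (s27hl_spot_restrict_ord_of_mul hx H hw₀ (Algebra.norm_ne_zero_iff.mpr hf) hT hN).2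

include hx H in
/-- **Trace lemma at a spot**: `P` a place of the spot of weight one, `f` with a pole of order
`j ≥ 1` at `P` and regular at the other places of the spot; if `Tr_{F/K(x)} f = R(x) / T(x)` then
`R ≠ 0` and `ν T = ν R + j`. -/
theorem s27hl_spot_trace_pole {P : Place K F} (hP : C P) (hπ : π P = 1) {f : F} {j : ℕ}
    (hj : 0 < j) (hfP : P.ord f = -(j : ℤ)) (hreg : ∀ w, C w → w ≠ P → 0 ≤ w.ord f)
    {R T : K[X]} (hT : T ≠ 0)
    (hTr : algebraMap ↥K⟮x⟯ F (Algebra.trace ↥K⟮x⟯ F f) * aeval x T = aeval x R) :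
    R ≠ 0 ∧ ν T = ν R + j := by
  classical
  haveI : FiniteDimensional ↥K⟮x⟯ F := hx.2.1
  haveI : Algebra.IsSeparable ↥K⟮x⟯ F := hx.2.2
  haveI : Algebra.IsIntegral ↥K⟮x⟯ F := Algebra.IsIntegral.of_finite _ _
  haveI : HasPrincipalDivisors K F := rt_hasPrincipalDivisors hx
  haveI : Algebra.IsAlgebraic ↥(K⟮AdjoinSimple.gen K x⟯) ↥K⟮x⟯ := s27hl_isAlgebraic_gen x
  haveI : Algebra.IsAlgebraic ↥K⟮x⟯ F := Algebra.IsAlgebraic.of_finite _ _
  have hew : Place.ramificationIndex (F := ↥K⟮x⟯) P = 1 := by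
    have := s27hl_spot_ramificationIndex hx H hP
    rw [hπ] at this
    exact_mod_cast this
  obtain ⟨h1, h2⟩ := s27h_trace_pole (AdjoinSimple.gen K x) x (P.restrict ↥K⟮x⟯)
    (Place.restrict_mem_fiber P) hew hj hfP (fun w' hw' hne =>
      hreg w' (s27hl_spot_of_restrict_eq hx H hP (Place.mem_fiber.mp hw')) hne)
  obtain ⟨h3, h4⟩ := s27hl_spot_restrict_ord_of_mul hx H hP h1 hT hTr
  refine ⟨h3, ?_⟩
  rw [h2] at h4
  omega

end NormTrace

/-! ### the spots over `a ∈ K` and at infinity -/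

section Inst

variable {x : F}

/-- the spot over `a ∈ K`: the zeros of `x - a` -/
theorem s27hl_spot_at (x : F) (a : K) :
    s27hl_Spot x (fun w => 0 < w.ord (x - algebraMap K F a))
      (fun w => w.ord (x - algebraMap K F a)) (fun R => (R.rootMultiplicity a : ℤ)) where
  pos := fun w hw => hw
  ord_aeval := fun w hw R hR => (s27hl_ord_aeval_at w a hw hR).2
  unif := ⟨X - C a, X_sub_C_ne_zero a, Or.inl (by simp [rootMultiplicity_X_sub_C_self])⟩
  char := ⟨AdjoinSimple.gen K x - algebraMap K ↥K⟮x⟯ a, fun w => Iff.rfl⟩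

/-- the spot at infinity: the poles of `x` -/
theorem s27hl_spot_inf (x : F) :
    s27hl_Spot x (fun w : Place K F => w.ord x < 0) (fun w => - w.ord x)
      (fun R => -(R.natDegree : ℤ)) where
  pos := fun w hw => by omega
  ord_aeval := fun w hw R hR => by rw [(s27hl_ord_aeval_inf w hw hR).2]; ring
  unif := ⟨X, X_ne_zero, Or.inr (by simp)⟩
  char := ⟨(AdjoinSimple.gen K x)⁻¹, fun w => by
    show w.ord x < 0 ↔ 0 < w.ord x⁻¹
    rw [w.ord_inv]; omega⟩

variable [IsAlgClosed K]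

/-- a separating generator has a zero -/
theorem s27hl_exists_zero {z : F} (hz : rt_IsSepGen K z) : ∃ w : Place K F, 0 < w.ord z := by
  by_contra hne
  rw [not_exists] at hne
  have h0 : rt_zeroDiv hz z = 0 := by
    ext v
    rw [rt_zeroDiv_apply, Finsupp.zero_apply]
    have := hne v
    omega
  have h1 := rt_degree_zeroDiv hz hz.1
  rw [h0, map_zero] at h1
  haveI : FiniteDimensional ↥K⟮z⟯ F := hz.2.1
  have h2 : 0 < Module.finrank ↥K⟮z⟯ F := Module.finrank_pos
  omega

/-- a separating generator has a pole -/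
theorem s27hl_exists_pole {z : F} (hz : rt_IsSepGen K z) : ∃ w : Place K F, w.ord z < 0 := by
  obtain ⟨w, hw⟩ := s27hl_exists_zero hz.inv
  refine ⟨w, ?_⟩
  rw [w.ord_inv] at hw
  omega

variable (hx : rt_IsSepGen K x)

include hx

/-- two places over `a` have the same restriction to `K(x)`, and conversely -/
theorem s27hl_restrict_eq_iff_at [Algebra.IsIntegral ↥K⟮x⟯ F] (a : K) {w w₀ : Place K F}
    (hw₀ : 0 < w₀.ord (x - algebraMap K F a)) :
    w.restrict ↥K⟮x⟯ = w₀.restrict ↥K⟮x⟯ ↔ 0 < w.ord (x - algebraMap K F a) :=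
  s27hl_spot_restrict_eq_iff hx (s27hl_spot_at x a) hw₀

theorem s27hl_restrict_eq_iff_inf [Algebra.IsIntegral ↥K⟮x⟯ F] {w w₀ : Place K F}
    (hw₀ : w₀.ord x < 0) :
    w.restrict ↥K⟮x⟯ = w₀.restrict ↥K⟮x⟯ ↔ w.ord x < 0 :=
  s27hl_spot_restrict_eq_iff hx (s27hl_spot_inf x) hw₀

/-- the ramification index over `K(x)` at a place over `a` is `ord (x - a)` -/
theorem s27hl_ramificationIndex_at (a : K) {w : Place K F}
    (hw : 0 < w.ord (x - algebraMap K F a)) :
    ((Place.ramificationIndex (F := ↥K⟮x⟯) w : ℕ) : ℤ) = w.ord (x - algebraMap K F a) :=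
  s27hl_spot_ramificationIndex hx (s27hl_spot_at x a) hw

theorem s27hl_ramificationIndex_inf {w : Place K F} (hw : w.ord x < 0) :
    ((Place.ramificationIndex (F := ↥K⟮x⟯) w : ℕ) : ℤ) = - w.ord x :=
  s27hl_spot_ramificationIndex hx (s27hl_spot_inf x) hw

/-- the order of `R(x)` at the place of `K(x)` below a place over `a` -/
theorem s27hl_restrict_ord_aeval_at [Algebra.IsIntegral ↥K⟮x⟯ F] (a : K) {w : Place K F}
    (hw : 0 < w.ord (x - algebraMap K F a)) {R : K[X]} (hR : R ≠ 0) :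
    (w.restrict ↥K⟮x⟯).ord (aeval (AdjoinSimple.gen K x) R) = (R.rootMultiplicity a : ℤ) :=
  s27hl_spot_restrict_ord_aeval hx (s27hl_spot_at x a) hw hR

theorem s27hl_restrict_ord_aeval_inf [Algebra.IsIntegral ↥K⟮x⟯ F] {w : Place K F}
    (hw : w.ord x < 0) {R : K[X]} (hR : R ≠ 0) :
    (w.restrict ↥K⟮x⟯).ord (aeval (AdjoinSimple.gen K x) R) = -(R.natDegree : ℤ) :=
  s27hl_spot_restrict_ord_aeval hx (s27hl_spot_inf x) hw hR

/-- **Norm formula over `a ∈ K`**: if `N_{F/K(x)} f · T(x) = R(x)`, then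
`∑_{w : x(w) = a} ord_w f = mult_a R - mult_a T`. -/
theorem s27hl_sum_ord_norm_at (a : K) {f : F} (hf : f ≠ 0) {R T : K[X]} (hT : T ≠ 0)
    (hN : algebraMap ↥K⟮x⟯ F (Algebra.norm ↥K⟮x⟯ f) * aeval x T = aeval x R)
    (s : Finset (Place K F)) (hs : ∀ w, w ∈ s ↔ 0 < w.ord (x - algebraMap K F a)) :
    ∑ w ∈ s, w.ord f = (R.rootMultiplicity a : ℤ) - T.rootMultiplicity a := by
  obtain ⟨w₀, hw₀⟩ := s27hl_exists_zero (hx.sub_const a)
  exact s27hl_spot_sum_ord_norm hx (s27hl_spot_at x a) hw₀ hf hT hN s hs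

/-- **Norm formula at infinity**: if `N_{F/K(x)} f · T(x) = R(x)`, then
`∑_{w : x(w) = ∞} ord_w f = deg T - deg R`. -/
theorem s27hl_sum_ord_norm_inf {f : F} (hf : f ≠ 0) {R T : K[X]} (hT : T ≠ 0)
    (hN : algebraMap ↥K⟮x⟯ F (Algebra.norm ↥K⟮x⟯ f) * aeval x T = aeval x R)
    (s : Finset (Place K F)) (hs : ∀ w, w ∈ s ↔ w.ord x < 0) :
    ∑ w ∈ s, w.ord f = (T.natDegree : ℤ) - R.natDegree := by
  obtain ⟨w₀, hw₀⟩ := s27hl_exists_pole hx
  rw [s27hl_spot_sum_ord_norm hx (s27hl_spot_inf x) hw₀ hf hT hN s hs]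
  ring

/-- **Trace lemma over `a ∈ K`**: `P` an unramified place over `a`, `f` with a pole of order
`j ≥ 1` at `P` and regular at the other places over `a`; if `Tr_{F/K(x)} f · T(x) = R(x)` then
`R ≠ 0` and `mult_a T = mult_a R + j` (the trace has a pole of order exactly `j` at `a`). -/
theorem s27hl_trace_pole_at (a : K) {P : Place K F} (hP : P.ord (x - algebraMap K F a) = 1)
    {f : F} {j : ℕ} (hj : 0 < j) (hfP : P.ord f = -(j : ℤ))
    (hreg : ∀ w : Place K F, 0 < w.ord (x - algebraMap K F a) → w ≠ P → 0 ≤ w.ord f)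
    {R T : K[X]} (hT : T ≠ 0)
    (hTr : algebraMap ↥K⟮x⟯ F (Algebra.trace ↥K⟮x⟯ F f) * aeval x T = aeval x R) :
    R ≠ 0 ∧ (T.rootMultiplicity a : ℤ) = R.rootMultiplicity a + j :=
  s27hl_spot_trace_pole hx (s27hl_spot_at x a) (P := P) (by rw [hP]; exact one_pos) hP hj hfP
    hreg hT hTr

/-- **Trace lemma at infinity**: `P` an unramified pole of `x`, `f` with a pole of order `j ≥ 1` at
`P` and regular at the other poles of `x`; if `Tr_{F/K(x)} f · T(x) = R(x)` then `R ≠ 0` and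
`deg R = deg T + j`. -/
theorem s27hl_trace_pole_inf {P : Place K F} (hP : P.ord x = -1)
    {f : F} {j : ℕ} (hj : 0 < j) (hfP : P.ord f = -(j : ℤ))
    (hreg : ∀ w : Place K F, w.ord x < 0 → w ≠ P → 0 ≤ w.ord f)
    {R T : K[X]} (hT : T ≠ 0)
    (hTr : algebraMap ↥K⟮x⟯ F (Algebra.trace ↥K⟮x⟯ F f) * aeval x T = aeval x R) :
    R ≠ 0 ∧ (R.natDegree : ℤ) = T.natDegree + j := by
  obtain ⟨h1, h2⟩ := s27hl_spot_trace_pole hx (s27hl_spot_inf x) (P := P)
    (by show P.ord x < 0; rw [hP]; omega) (by show - P.ord x = 1; rw [hP]; omega) hj hfP hreg hT hTr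
  exact ⟨h1, by omega⟩

/-- the finite set of zeros of `z` -/
theorem s27hl_mem_support_zeroDiv (z : F) (w : Place K F) :
    w ∈ (rt_zeroDiv hx z).support ↔ 0 < w.ord z := by
  rw [Finsupp.mem_support_iff, rt_zeroDiv_apply]
  constructor
  · intro h
    by_contra hn
    exact h (max_eq_right (not_lt.mp hn))
  · intro h h'
    have := le_max_left (w.ord z) 0
    omega

/-- the finite set of poles of `z` -/
theorem s27hl_mem_support_poleDiv (z : F) (w : Place K F) :
    w ∈ (rt_poleDiv hx z).support ↔ w.ord z < 0 := by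
  rw [Finsupp.mem_support_iff, rt_poleDiv_apply]
  constructor
  · intro h
    by_contra hn
    exact h (max_eq_right (by have := not_lt.mp hn; omega))
  · intro h h'
    have := le_max_left (-w.ord z) 0
    omega

/-- the norm formula over `a`, summed over the support of the zero divisor of `x - a` -/
theorem s27hl_sum_ord_norm_at' (a : K) {f : F} (hf : f ≠ 0) {R T : K[X]} (hT : T ≠ 0)
    (hN : algebraMap ↥K⟮x⟯ F (Algebra.norm ↥K⟮x⟯ f) * aeval x T = aeval x R) :
    ∑ w ∈ (rt_zeroDiv hx (x - algebraMap K F a)).support, w.ord f =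
      (R.rootMultiplicity a : ℤ) - T.rootMultiplicity a :=
  s27hl_sum_ord_norm_at hx a hf hT hN _ (s27hl_mem_support_zeroDiv hx _)

/-- the norm formula at infinity, summed over the support of the pole divisor of `x` -/
theorem s27hl_sum_ord_norm_inf' {f : F} (hf : f ≠ 0) {R T : K[X]} (hT : T ≠ 0)
    (hN : algebraMap ↥K⟮x⟯ F (Algebra.norm ↥K⟮x⟯ f) * aeval x T = aeval x R) :
    ∑ w ∈ (rt_poleDiv hx x).support, w.ord f = (T.natDegree : ℤ) - R.natDegree :=
  s27hl_sum_ord_norm_inf hx hf hT hN _ (s27hl_mem_support_poleDiv hx _)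

end Inst

end Fermat.Agent.S27
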