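/-
S27 / (HENS), glue for H10-c INTERP (helper10; prefix `s27h10_`): the hypothesis `hsum` of
`s27h10_interp` from the norm equation `S(x) · N(f) = lam · e(x)^ℓ` (output of `s27h_solve`), by
helper23's norm formula `s27hl_sum_ord_norm_at` and the root multiplicities of `S` (leaf (L-A), taken
as the hypothesis `hLA`).
-/
import Mathlib
import Fermat.Agent.S27.Hens.Interp
import Fermat.Agent.S27.Hens.Line

set_option autoImplicit false
set_option linter.unusedSectionVars false
set_option linter.unusedVariables false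

noncomputable section

namespace Fermat.Agent.S27

open AlgebraicCurve IntermediateField Polynomial Fermat.Agent.JT3 Fermat.Agent.S24

universe u v
variable {K : Type u} {F : Type v} [Field K] [Field F] [Algebra K F]

theorem s27h10_rootMultiplicity_C_mul_pow [DecidableEq K] {lam : K} (hlam : lam ≠ 0) (eK : K[X])
    (l : ℕ) (b : K) :
    (C lam * eK ^ l).rootMultiplicity b = l * eK.rootMultiplicity b := by
  rw [← count_roots, roots_C_mul _ hlam, roots_pow, Multiset.count_nsmul, count_roots]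

variable [IsAlgClosed K] {x : F} (hx : rt_IsSepGen K x)

include hx in
/-- **the hypothesis `hsum` of `s27h10_interp`** from the norm equation. -/
theorem s27h10_hsum_of_norm_eq {f : F} (hf : f ≠ 0) (D : Divisor K F) {SK eK : K[X]}
    (hSK : SK ≠ 0) {lam : K} (hlam : lam ≠ 0) (l : ℕ)
    (hnorm : aeval x SK * algebraMap ↥K⟮x⟯ F (Algebra.norm ↥K⟮x⟯ f) =
      algebraMap K F lam * aeval x (eK ^ l))
    (b : K) (s : Finset (Place K F)) (hs : ∀ w, w ∈ s ↔ 0 < w.ord (x - algebraMap K F b))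
    (hLA : ∑ w ∈ s, D w = (SK.rootMultiplicity b : ℤ)) :
    ∑ w ∈ s, (w.ord f + D w) = (l : ℤ) * (eK.rootMultiplicity b : ℤ) := by
  classical
  have hN : algebraMap ↥K⟮x⟯ F (Algebra.norm ↥K⟮x⟯ f) * aeval x SK =
      aeval x (C lam * eK ^ l) := by
    rw [mul_comm, hnorm, map_mul, aeval_C]
  have h1 := s27hl_sum_ord_norm_at hx b hf hSK hN s hs
  rw [Finset.sum_add_distrib, h1, hLA, s27h10_rootMultiplicity_C_mul_pow hlam]
  push_cast
  ring

section wrap

universe u' v'
variable {k : Type u'} {Fb : Type v'} [Field k] [Field Fb] [Algebra k Fb] [IsAlgClosed k]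
  (R : s27r_Red K F k Fb) {x : F} (h : s27r_Good R x)
  (red : Place K F → Place k Fb)
  (hdiv : ∀ (f : F) (hf : f ∈ R.V), R.r ⟨f, hf⟩ ≠ 0 →
      Finsupp.mapDomain red (rt_div h.sepK f) = rt_div h.sepk (R.r ⟨f, hf⟩))

include hdiv in
/-- **H10-c INTERP from the norm equation** (the output shape of `s27h_solve`); `hLA` is leaf (L-A). -/
theorem s27h10_interp_of_norm_eq {g : ℕ} (Pb : Fin g → Place k Fb) (a : Fin g → k)
    (ha : Function.Injective a)
    (hPb : ∀ i, (Pb i).ord (R.r ⟨x, h.x_mem⟩ - algebraMap k Fb (a i)) = 1)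
    (l : ℕ) (hl : 0 < l) (D : Divisor K F)
    (hDred : Finsupp.mapDomain red D = l • ∑ i, Finsupp.single (Pb i) (1 : ℤ))
    (f : F) (hfV : f ∈ R.V) (hf1 : R.r ⟨f, hfV⟩ = 1) (hfL : f ∈ riemannRochSpace D)
    (e : Polynomial ↥R.O) (he : e.Monic) (hered : e.map R.r0 = ∏ i, (X - C (a i)))
    (S : Polynomial ↥R.O) (hS0 : S.map R.O.subtype ≠ 0)
    (hLA : ∀ (b : K) (s : Finset (Place K F)),
      (∀ w, w ∈ s ↔ 0 < w.ord (x - algebraMap K F b)) →
      ∑ w ∈ s, D w = ((S.map R.O.subtype).rootMultiplicity b : ℤ))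
    (lam : K) (hlam : lam ≠ 0)
    (hnorm : aeval x (S.map R.O.subtype) * algebraMap ↥K⟮x⟯ F (Algebra.norm ↥K⟮x⟯ f) =
      algebraMap K F lam * aeval x ((e ^ l).map R.O.subtype)) :
    ∃ (ξ : Fin g → ↥R.O) (Q : Fin g → Place K F), e = ∏ i, (X - C (ξ i)) ∧
      (∀ i, R.r0 (ξ i) = a i) ∧ Function.Injective Q ∧ (∀ i, red (Q i) = Pb i) ∧
      (∀ i, 0 < (Q i).ord (x - algebraMap K F (ξ i : K))) ∧
      rt_div h.sepK f + D = l • ∑ i, Finsupp.single (Q i) (1 : ℤ) := by
  have hf0 : f ≠ 0 := by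
    rintro rfl
    have : R.r ⟨0, hfV⟩ = 0 := map_zero R.r
    rw [this] at hf1
    exact zero_ne_one hf1
  rw [Polynomial.map_pow] at hnorm
  exact s27h10_interp R h red hdiv Pb a ha hPb l hl D hDred f hfV hf1 hfL e he hered
    (fun b s hs => s27h10_hsum_of_norm_eq h.sepK hf0 D hS0 hlam l hnorm b s hs (hLA b s hs))

end wrap

end Fermat.Agent.S27
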