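import Mathlib
import Fermat.Agent.S27.Red.Final

/-!
# S27 / (HENS): leaf (L-D) NORMALIZE  (helper25, prefix `s27hnz_`)

`R : s27r_Red K F k Fb` a constant reduction with the (GOOD) hypotheses, `red` the reduction map on
places with `red_* (div f) = div (r f)`.  A PRINCIPAL divisor `D0` of `F / K` with `red_* D0 = 0`
is the divisor of a function `f ∈ V` whose reduction is `1`:

  `s27hnz_normalize : ∃ (f : F) (hfV : f ∈ R.V), R.r ⟨f, hfV⟩ = 1 ∧ rt_div h.sepK f = D0`.

Proof: `D0 = div f0`, `f0 = c · u` with `c ∈ Kˣ`, `u ∈ Vˣ` (`s27r_hcu`); `div (r u) = red_* D0 = 0`,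
so `r u` has no poles and is a constant `b ≠ 0` of `k` (`rt_const_of_forall_mem`); divide `u` by a
lift of `b` to `O`.
-/

set_option autoImplicit false

namespace Fermat.Agent.S27

open AlgebraicCurve IntermediateField Polynomial Fermat.Agent.JT3 Fermat.Agent.S24

universe u v u' v'
variable {K : Type u} {F : Type v} [Field K] [Field F] [Algebra K F]
variable {k : Type u'} {Fb : Type v'} [Field k] [Field Fb] [Algebra k Fb]

/-- **(L-D) NORMALIZE.** -/
theorem s27hnz_normalize [IsAlgClosed K] [IsAlgClosed k] (R : s27r_Red K F k Fb) {x : F}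
    (h : s27r_Good R x) (red : Place K F → Place k Fb)
    (hdiv : ∀ (f : F) (hf : f ∈ R.V), R.r ⟨f, hf⟩ ≠ 0 →
      Finsupp.mapDomain red (rt_div h.sepK f) = rt_div h.sepk (R.r ⟨f, hf⟩))
    (D0 : Divisor K F) (hD0 : Finsupp.mapDomain red D0 = 0) (hp : Divisor.IsPrincipal D0) :
    ∃ (f : F) (hfV : f ∈ R.V), R.r ⟨f, hfV⟩ = 1 ∧ rt_div h.sepK f = D0 := by
  obtain ⟨f0, hf0, hD0f⟩ := hp
  have hD0eq : D0 = rt_div h.sepK f0 := by
    ext v
    rw [rt_div_apply, hD0f v]
  obtain ⟨c, hc, u, hu, hru, hfu⟩ := s27r_hcu R h f0 hf0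
  have hu0 : u ≠ 0 := by
    rintro rfl
    exact hru (map_zero R.r)
  have hcF : algebraMap K F c ≠ 0 := by
    simpa using hc
  -- `div u = D0`
  have hdu : rt_div h.sepK u = D0 := by
    rw [hD0eq, hfu, rt_div_mul h.sepK hcF hu0, rt_div_algebraMap, zero_add]
  -- `div (r u) = 0`
  have hdru : rt_div h.sepk (R.r ⟨u, hu⟩) = 0 := by
    rw [← hdiv u hu hru, hdu, hD0]
  -- `r u` is a nonzero constant
  obtain ⟨b, hb⟩ : ∃ b : k, R.r ⟨u, hu⟩ = algebraMap k Fb b := by
    refine rt_const_of_forall_mem h.sepk _ fun w => ?_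
    rw [hw_mem_iff_ord_nonneg w hru]
    have := DFunLike.congr_fun hdru w
    rw [rt_div_apply, Finsupp.zero_apply] at this
    exact this.ge
  have hb0 : b ≠ 0 := by
    rintro rfl
    rw [map_zero] at hb
    exact hru hb
  -- a lift of `b` to `O`
  obtain ⟨⟨b', hb'O⟩, hb'⟩ := R.r0_surj b
  have hb'unit : IsUnit (⟨b', hb'O⟩ : R.O) := by
    rw [← R.r0_ne_zero_iff, hb']
    exact hb0
  obtain ⟨β, hβ⟩ := hb'unit
  -- the inverse of the lift
  set a : R.O := ((β⁻¹ : (R.O)ˣ) : R.O) with ha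
  have hra : R.r0 a * b = 1 := by
    rw [← hb', ← hβ, ← map_mul, ha, Units.inv_mul, map_one]
  have haO : (a : K) ∈ R.O := a.2
  have ha0 : (a : K) ≠ 0 := by
    intro h0
    have : a = 0 := Subtype.ext h0
    rw [this, map_zero, zero_mul] at hra
    exact zero_ne_one hra
  have haV : algebraMap K F (a : K) ∈ R.V := R.algebraMap_mem haO
  refine ⟨algebraMap K F (a : K) * u, R.V.mul_mem _ _ haV hu, ?_, ?_⟩
  · have hmul : (⟨algebraMap K F (a : K) * u, R.V.mul_mem _ _ haV hu⟩ : R.V) =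
        ⟨algebraMap K F (a : K), haV⟩ * ⟨u, hu⟩ := rfl
    rw [hmul, map_mul, hb]
    have := R.comp (a : K) haO
    rw [this, ← map_mul]
    have hsub : (⟨(a : K), haO⟩ : R.O) = a := rfl
    rw [hsub, hra, map_one]
  · have haF : algebraMap K F (a : K) ≠ 0 := by
      simpa using ha0
    rw [rt_div_mul h.sepK haF hu0, rt_div_algebraMap, zero_add, hdu]

end Fermat.Agent.S27
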