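/-
S27 / (HENS), leaf RATLINE ("the places of `K(x)` are `K ∪ {∞}`"): an element of `K⟮x⟯` which is
regular wherever `x` is regular is a polynomial in `x`, and its degree is read off at the poles
of `x`.
-/
import Mathlib
import Fermat.Agent.S27.Good.FramePole
import Fermat.Agent.JT3.Places.CharFree

set_option autoImplicit false

namespace Fermat.Agent.S27

open AlgebraicCurve IntermediateField Polynomial Fermat.Agent.JT3 Fermat.Agent.S24
open scoped IntermediateField.algebraAdjoinAdjoin

universe u v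
variable {K : Type u} {F : Type v} [Field K] [Field F] [Algebra K F]

/-- an element of `K⟮x⟯`, regular at every place at which `x` is regular, is a polynomial in `x`. -/
theorem s27hr_exists_poly [IsAlgClosed K] {x : F} (hx : rt_IsSepGen K x) (f : F) (hf : f ∈ K⟮x⟯)
    (hreg : ∀ v : Place K F, 0 ≤ v.ord x → 0 ≤ v.ord f) : ∃ P : K[X], f = aeval x P := by
  classical
  by_cases hf0 : f = 0
  · exact ⟨0, by rw [hf0, map_zero]⟩
  have hx0 : x ≠ 0 := by
    rintro rfl
    exact hx.1 (isAlgebraic_zero)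
  have hint : IsIntegral (Algebra.adjoin K ({x} : Set F)) f := by
    apply rt_isIntegral_of_forall_mem hx
    intro v hv
    rw [hw_mem_iff_ord_nonneg v hf0]
    exact hreg v ((hw_mem_iff_ord_nonneg v hx0).1 hv)
  have hPID := hw_isPrincipalIdealRing_adjoin hx.1
  -- integrality inside `K⟮x⟯`
  have hint' : IsIntegral (Algebra.adjoin K ({x} : Set F)) (⟨f, hf⟩ : K⟮x⟯) := by
    have hinj : Function.Injective (algebraMap K⟮x⟯ F) := (algebraMap K⟮x⟯ F).injective
    exact (isIntegral_algebraMap_iff hinj).1 hint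
  obtain ⟨a, ha⟩ := (IsIntegrallyClosed.isIntegral_iff (R := Algebra.adjoin K ({x} : Set F))
    (K := K⟮x⟯)).1 hint'
  have haF : (a : F) = f := by
    have := congrArg (fun z : K⟮x⟯ => (z : F)) ha
    exact this
  have hmem : (a : F) ∈ (aeval (R := K) x).range := by
    rw [← Algebra.adjoin_singleton_eq_range_aeval]
    exact a.2
  obtain ⟨P, hP⟩ := hmem
  exact ⟨P, by rw [← haF, ← hP]; rfl⟩

/-- the degree of a polynomial in `x` is bounded by its pole orders at the poles of `x`. -/
theorem s27hr_natDegree_le [IsAlgClosed K] {x : F} (hx : rt_IsSepGen K x) (P : K[X]) (d : ℕ)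
    (hinf : ∀ v : Place K F, v.ord x < 0 → (d : ℤ) * v.ord x ≤ v.ord (aeval x P)) :
    P.natDegree ≤ d := by
  by_cases hP : P = 0
  · rw [hP, natDegree_zero]
    exact Nat.zero_le _
  have : FiniteDimensional K⟮x⟯ F := hx.2.1
  have : Algebra.IsSeparable K⟮x⟯ F := hx.2.2
  obtain ⟨v, hv⟩ := pcf_exists_pole (K := K) (F := F) hx.1
  have h1 := (s27g_fr_ord_aeval v hv hP).2
  have h2 := hinf v hv
  rw [h1] at h2
  by_contra hcon
  push Not at hcon
  have : (P.natDegree : ℤ) * v.ord x < (d : ℤ) * v.ord x := by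
    apply mul_lt_mul_of_neg_right _ hv
    exact_mod_cast hcon
  omega

/-- **RATLINE**: an element of `K⟮x⟯` regular wherever `x` is regular and with pole order at most
`d` times that of `x` at the poles of `x` is a polynomial in `x` of degree at most `d`. -/
theorem s27hr_exists_poly_natDegree_le [IsAlgClosed K] {x : F} (hx : rt_IsSepGen K x) (f : F)
    (hf : f ∈ K⟮x⟯) (hreg : ∀ v : Place K F, 0 ≤ v.ord x → 0 ≤ v.ord f) (d : ℕ)
    (hinf : ∀ v : Place K F, v.ord x < 0 → (d : ℤ) * v.ord x ≤ v.ord f) :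
    ∃ P : K[X], f = aeval x P ∧ P.natDegree ≤ d := by
  obtain ⟨P, hP⟩ := s27hr_exists_poly hx f hf hreg
  exact ⟨P, hP, s27hr_natDegree_le hx P d (fun v hv => by rw [← hP]; exact hinf v hv)⟩

end Fermat.Agent.S27
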