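import Mathlib
import Fermat.Agent.JT3.Places.TowerNorm
import Fermat.Agent.JT3.Riemann.Main
import Fermat.Agent.S27.Hens.RatLine

/-!
# S27 / (HENS), cell H8-c NORMDIV: the divisor of `S(x) · N(h)`

`F / K` a function field over an algebraically closed field, `x` a separating generator,
`D ≥ 0` a divisor whose support avoids the poles of `x`, `a v` the value of `x` at the points of
the support, `S := ∏_{v ∈ supp D} (X - a v)^(D v)`.  For `h ∈ L(D)`, `h ≠ 0`, the element
`f := S(x) · N_{F/K(x)}(h)` of `K(x)` is regular where `x` is, and has a pole of order at most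
`deg D` (counted in multiples of the pole of `x`) at the poles of `x`.  These are exactly the
hypotheses `hreg`, `hinf` of the (RATLINE) lemma: `f ∈ K[x]_{≤ deg D}`.

Route: `K⟮x⟯` as a function field over `K`, `v₀ := v.restrict K⟮x⟯`, `v.ord f = e · v₀.ord f`,
and the place-by-place norm formula `ptw_sum_ord_fiber`.
-/

set_option autoImplicit false
set_option linter.style.haveILetI false
set_option linter.unusedSectionVars false

namespace Fermat.Agent.S27

open AlgebraicCurve IntermediateField Polynomial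
open Fermat.Agent.S24 Fermat.Agent.JT3

universe u v
variable {K : Type u} {F : Type v} [Field K] [Field F] [Algebra K F]

/-- the generator of `K(x)` generates it. -/
theorem s27hnd_adjoin_gen_eq_top (x : F) :
    IntermediateField.adjoin K {AdjoinSimple.gen K x} = ⊤ := by
  apply IntermediateField.map_injective (K⟮x⟯.val)
  rw [IntermediateField.adjoin_map, Set.image_singleton]
  have : K⟮x⟯.val (AdjoinSimple.gen K x) = x := rfl
  rw [this]
  ext y
  constructor
  · intro hy
    exact ⟨⟨y, hy⟩, trivial, rfl⟩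
  · rintro ⟨z, _, rfl⟩
    exact z.2

theorem s27hnd_isAlgebraic_gen (x : F) :
    Algebra.IsAlgebraic (K⟮AdjoinSimple.gen K x⟯) K⟮x⟯ := by
  refine ⟨fun y => ?_⟩
  have hy : y ∈ K⟮AdjoinSimple.gen K x⟯ := by
    rw [s27hnd_adjoin_gen_eq_top]; trivial
  have : y = algebraMap (K⟮AdjoinSimple.gen K x⟯) K⟮x⟯ ⟨y, hy⟩ := rfl
  rw [this]
  exact isAlgebraic_algebraMap _

/-- `ord` of a finite product of nonzero elements. -/
theorem s27hnd_ord_prod (v : Place K F) {ι : Type*} (s : Finset ι) (f : ι → F)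
    (hf : ∀ i ∈ s, f i ≠ 0) : v.ord (∏ i ∈ s, f i) = ∑ i ∈ s, v.ord (f i) := by
  classical
  induction s using Finset.induction_on with
  | empty => simp [Place.ord_one]
  | insert i s hi ih =>
    rw [Finset.prod_insert hi, Finset.sum_insert hi,
      Place.ord_mul _ (hf i (Finset.mem_insert_self i s))
        (Finset.prod_ne_zero_iff.2 fun j hj => hf j (Finset.mem_insert_of_mem hj)),
      ih fun j hj => hf j (Finset.mem_insert_of_mem hj)]

theorem s27hnd_ord_sub_const_nonneg (v : Place K F) (z : F) (c : K) (hz : 0 ≤ v.ord z) :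
    0 ≤ v.ord (z - algebraMap K F c) := by
  by_cases h0 : z - algebraMap K F c = 0
  · rw [h0, Place.ord_zero]
  · have hzm : z ∈ v.toValuationSubring := by
      rcases eq_or_ne z 0 with rfl | hz0
      · exact zero_mem _
      · exact (hw_mem_iff_ord_nonneg v hz0).2 hz
    exact (hw_mem_iff_ord_nonneg v h0).1 (sub_mem hzm (v.algebraMap_mem' c))

theorem s27hnd_ord_sub_const_of_neg (v : Place K F) (z : F) (c : K) (hz : v.ord z < 0) :
    v.ord (z - algebraMap K F c) = v.ord z := by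
  have hz0 : z ≠ 0 := by
    rintro rfl
    rw [Place.ord_zero] at hz
    exact lt_irrefl _ hz
  rcases eq_or_ne c 0 with rfl | hc
  · rw [map_zero, sub_zero]
  · have hc' : -algebraMap K F c ≠ 0 := neg_ne_zero.2 (by simpa using hc)
    rw [sub_eq_add_neg]
    exact hw_ord_add_eq_of_lt v hz0 hc' (by rw [hw_ord_neg, hw_ord_algebraMap]; exact hz)

section main

variable [IsAlgClosed K] {x : F} (hx : rt_IsSepGen K x)

/-- the polynomial `S = ∏ (X - a v)^(D v)` -/
noncomputable def s27hnd_S (D : Divisor K F) (a : Place K F → K) : K[X] :=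
  ∏ P ∈ D.support, (X - C (a P)) ^ (D P).toNat

include hx in
/-- **(NORMDIV)** the divisor of `S(x) · N(h)` for `h ∈ L(D)`. -/
theorem s27hnd_norm_bound (D : Divisor K F) (hD : 0 ≤ D) (hDx : ∀ v, D v ≠ 0 → 0 ≤ v.ord x)
    (a : Place K F → K) (ha : ∀ v, D v ≠ 0 → 0 < v.ord (x - algebraMap K F (a v)))
    {h : F} (hh : h ∈ riemannRochSpace D) (hh0 : h ≠ 0) (v : Place K F) :
    (0 ≤ v.ord x →
      0 ≤ v.ord (aeval x (s27hnd_S D a) * algebraMap K⟮x⟯ F (Algebra.norm K⟮x⟯ h))) ∧
    (v.ord x < 0 → Divisor.degree D * v.ord x ≤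
      v.ord (aeval x (s27hnd_S D a) * algebraMap K⟮x⟯ F (Algebra.norm K⟮x⟯ h))) := by
  classical
  haveI : FiniteDimensional K⟮x⟯ F := hx.2.1
  haveI : Algebra.IsSeparable K⟮x⟯ F := hx.2.2
  haveI : HasPrincipalDivisors K F := rt_hasPrincipalDivisors hx
  haveI : Algebra.IsAlgebraic K⟮x⟯ F := hx.isAlgebraic
  haveI : Algebra.IsAlgebraic (K⟮AdjoinSimple.gen K x⟯) K⟮x⟯ := s27hnd_isAlgebraic_gen x
  set x₀ : K⟮x⟯ := AdjoinSimple.gen K x with hx₀
  set v₀ : Place K K⟮x⟯ := v.restrict K⟮x⟯ with hv₀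
  set e : ℕ := Place.ramificationIndex (F := K⟮x⟯) v with he
  have hepos : 0 < e := v.ramificationIndex_pos (F := K⟮x⟯)
  set y : Place K F → K⟮x⟯ := fun P => x₀ - algebraMap K K⟮x⟯ (a P) with hy
  have hyF : ∀ P, algebraMap K⟮x⟯ F (y P) = x - algebraMap K F (a P) := fun P => by
    rw [hy]
    simp only [map_sub]
    rw [← IsScalarTower.algebraMap_apply]
    rfl
  have hy0 : ∀ P ∈ D.support, y P ≠ 0 := by
    intro P hP h0
    have := ha P (Finsupp.mem_support_iff.1 hP)
    rw [← hyF P, h0, map_zero, Place.ord_zero] at this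
    exact lt_irrefl _ this
  have hS₀ : aeval x₀ (s27hnd_S D a) = ∏ P ∈ D.support, (y P) ^ (D P).toNat := by
    rw [s27hnd_S, map_prod]
    refine Finset.prod_congr rfl fun P _ => ?_
    rw [map_pow, map_sub, aeval_X, aeval_C]
  have hSF : aeval x (s27hnd_S D a) = algebraMap K⟮x⟯ F (aeval x₀ (s27hnd_S D a)) := by
    rw [← Polynomial.aeval_algebraMap_apply]
    rfl
  set f₀ : K⟮x⟯ := aeval x₀ (s27hnd_S D a) * Algebra.norm K⟮x⟯ h with hf₀
  have hfF : aeval x (s27hnd_S D a) * algebraMap K⟮x⟯ F (Algebra.norm K⟮x⟯ h) =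
      algebraMap K⟮x⟯ F f₀ := by
    rw [hf₀, map_mul, hSF]
  have hN0 : Algebra.norm K⟮x⟯ h ≠ 0 := by
    rw [Ne, Algebra.norm_eq_zero_iff]
    exact hh0
  have hS0 : aeval x₀ (s27hnd_S D a) ≠ 0 := by
    rw [hS₀]
    exact Finset.prod_ne_zero_iff.2 fun P hP => pow_ne_zero _ (hy0 P hP)
  have hordS : v₀.ord (aeval x₀ (s27hnd_S D a)) =
      ∑ P ∈ D.support, ((D P).toNat : ℤ) * v₀.ord (y P) := by
    rw [hS₀, s27hnd_ord_prod v₀ _ _ (fun P hP => pow_ne_zero _ (hy0 P hP))]
    exact Finset.sum_congr rfl fun P _ => rt_ord_pow v₀ _ _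
  have hordN : v₀.ord (Algebra.norm K⟮x⟯ h) = ∑ w ∈ v₀.fiber F, w.ord h :=
    (ptw_sum_ord_fiber x₀ x v₀ hh0).symm
  have hordf : v₀.ord f₀ = ∑ P ∈ D.support, ((D P).toNat : ℤ) * v₀.ord (y P) +
      ∑ w ∈ v₀.fiber F, w.ord h := by
    rw [hf₀, Place.ord_mul _ hS0 hN0, hordS, hordN]
  have hhL : ∀ w : Place K F, -D w ≤ w.ord h := (rt_mem_L_iff hh0).1 hh
  have hxx₀ : algebraMap K⟮x⟯ F x₀ = x := rfl
  have hvx : v.ord x = e * v₀.ord x₀ := by
    have := v.ord_restrict (F := K⟮x⟯) x₀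
    rwa [hxx₀] at this
  have hDnn : ∀ P, 0 ≤ D P := fun P => by
    have := Finsupp.le_def.1 hD P
    simpa using this
  have htoNat : ∀ P, ((D P).toNat : ℤ) = D P := fun P => Int.toNat_of_nonneg (hDnn P)
  have hford : v.ord (algebraMap K⟮x⟯ F f₀) = e * v₀.ord f₀ := v.ord_restrict (F := K⟮x⟯) f₀
  rw [hfF, hford, hordf]
  constructor
  · intro hreg
    have hx₀nn : 0 ≤ v₀.ord x₀ := by
      by_contra hneg
      push Not at hneg
      have : (e : ℤ) * v₀.ord x₀ < 0 := mul_neg_of_pos_of_neg (by exact_mod_cast hepos) hneg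
      omega
    have hyord : ∀ P, 0 ≤ v₀.ord (y P) := fun P =>
      s27hnd_ord_sub_const_nonneg v₀ x₀ (a P) hx₀nn
    have hyord1 : ∀ P ∈ v₀.fiber F, D P ≠ 0 → 1 ≤ v₀.ord (y P) := by
      intro P hP hDP
      have h1 := ha P hDP
      rw [← hyF P, P.ord_restrict (F := K⟮x⟯) (y P), Place.mem_fiber.1 hP] at h1
      have hePpos : (0 : ℤ) < (Place.ramificationIndex (F := K⟮x⟯) P : ℤ) := by
        exact_mod_cast P.ramificationIndex_pos (F := K⟮x⟯)
      have := (mul_pos_iff_of_pos_left hePpos).1 h1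
      omega
    have hsum : ∑ w ∈ v₀.fiber F, D w ≤
        ∑ P ∈ D.support, ((D P).toNat : ℤ) * v₀.ord (y P) := by
      have h1 : ∑ w ∈ v₀.fiber F, D w =
          ∑ w ∈ (v₀.fiber F).filter (fun w => w ∈ D.support), D w := by
        rw [Finset.sum_filter_of_ne]
        intro w _ hw
        exact Finsupp.mem_support_iff.2 hw
      have h2 : ∑ w ∈ (v₀.fiber F).filter (fun w => w ∈ D.support), D w ≤
          ∑ w ∈ (v₀.fiber F).filter (fun w => w ∈ D.support),
            ((D w).toNat : ℤ) * v₀.ord (y w) := by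
        refine Finset.sum_le_sum fun w hw => ?_
        rw [Finset.mem_filter] at hw
        have h3 := hyord1 w hw.1 (Finsupp.mem_support_iff.1 hw.2)
        rw [htoNat]
        nlinarith [hDnn w]
      have h3 : ∑ w ∈ (v₀.fiber F).filter (fun w => w ∈ D.support),
            ((D w).toNat : ℤ) * v₀.ord (y w) ≤
          ∑ P ∈ D.support, ((D P).toNat : ℤ) * v₀.ord (y P) := by
        refine Finset.sum_le_sum_of_subset_of_nonneg ?_ ?_
        · intro w hw
          exact (Finset.mem_filter.1 hw).2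
        · intro P _ _
          exact mul_nonneg (by positivity) (hyord P)
      rw [h1]
      exact h2.trans h3
    have h4 : 0 ≤ ∑ w ∈ v₀.fiber F, (D w + w.ord h) :=
      Finset.sum_nonneg fun w _ => by have := hhL w; omega
    rw [Finset.sum_add_distrib] at h4
    exact mul_nonneg (by positivity) (by omega)
  · intro hinf
    have hx₀neg : v₀.ord x₀ < 0 := by
      by_contra hnn
      push Not at hnn
      have : 0 ≤ (e : ℤ) * v₀.ord x₀ := mul_nonneg (by positivity) hnn
      omega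
    have hyord : ∀ P, v₀.ord (y P) = v₀.ord x₀ := fun P =>
      s27hnd_ord_sub_const_of_neg v₀ x₀ (a P) hx₀neg
    have hS : ∑ P ∈ D.support, ((D P).toNat : ℤ) * v₀.ord (y P) =
        Divisor.degree D * v₀.ord x₀ := by
      rw [rt_degree_eq_sum hx D D.support (Finset.Subset.refl _), Finset.sum_mul]
      exact Finset.sum_congr rfl fun P _ => by rw [htoNat, hyord]
    have hNnn : 0 ≤ ∑ w ∈ v₀.fiber F, w.ord h := by
      refine Finset.sum_nonneg fun w hw => ?_
      have hDw : D w = 0 := by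
        by_contra hne
        have h1 := hDx w hne
        have h2 := w.ord_restrict (F := K⟮x⟯) x₀
        rw [hxx₀, Place.mem_fiber.1 hw] at h2
        have hewpos : (0 : ℤ) < (Place.ramificationIndex (F := K⟮x⟯) w : ℤ) := by
          exact_mod_cast w.ramificationIndex_pos (F := K⟮x⟯)
        have : (Place.ramificationIndex (F := K⟮x⟯) w : ℤ) * v₀.ord x₀ < 0 :=
          mul_neg_of_pos_of_neg hewpos hx₀neg
        omega
      have := hhL w
      rw [hDw] at this
      omega
    rw [hS, hvx]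
    calc Divisor.degree D * ((e : ℤ) * v₀.ord x₀)
        = (e : ℤ) * (Divisor.degree D * v₀.ord x₀) := by ring
      _ ≤ (e : ℤ) * (Divisor.degree D * v₀.ord x₀ + ∑ w ∈ v₀.fiber F, w.ord h) :=
        mul_le_mul_of_nonneg_left (by omega) (by positivity)

include hx in
/-- **(NORMDIV) + (RATLINE)**: `S(x) · N(h)` is a polynomial in `x` of degree `≤ deg D`. -/
theorem s27hnd_exists_poly (D : Divisor K F) (hD : 0 ≤ D) (hDx : ∀ v, D v ≠ 0 → 0 ≤ v.ord x)
    (a : Place K F → K) (ha : ∀ v, D v ≠ 0 → 0 < v.ord (x - algebraMap K F (a v)))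
    {h : F} (hh : h ∈ riemannRochSpace D) {d : ℕ} (hd : Divisor.degree D = d) :
    ∃ P : K[X], aeval x (s27hnd_S D a) * algebraMap K⟮x⟯ F (Algebra.norm K⟮x⟯ h) = aeval x P ∧
      P.natDegree ≤ d := by
  rcases eq_or_ne h 0 with rfl | hh0
  · refine ⟨0, ?_, by simp⟩
    haveI : FiniteDimensional K⟮x⟯ F := hx.2.1
    rw [Algebra.norm_zero, map_zero, mul_zero, map_zero]
  have hmem : aeval x (s27hnd_S D a) * algebraMap K⟮x⟯ F (Algebra.norm K⟮x⟯ h) ∈ K⟮x⟯ := by
    refine mul_mem ?_ (Subtype.property _)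
    rw [IntermediateField.mem_adjoin_simple_iff]
    exact ⟨s27hnd_S D a, 1, by simp⟩
  refine s27hr_exists_poly_natDegree_le hx _ hmem
    (fun v hv => (s27hnd_norm_bound hx D hD hDx a ha hh hh0 v).1 hv) d (fun v hv => ?_)
  rw [← hd]
  exact (s27hnd_norm_bound hx D hD hDx a ha hh hh0 v).2 hv

end main

end Fermat.Agent.S27
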