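import Mathlib
import Fermat.Agent.JT3.Places.CharFree
import Fermat.Agent.S27.Hens.NormDiv

/-!
# S27 / (HENS), leaf (L-A) ROOTMULT-S: the root multiplicities of `S`

`D ≥ 0` a divisor of `F / K`, `val v` the value of `x` at the points of the support of `D`
(`0 < ord_v (x - val v)`), `S := s27hnd_S D val = ∏_{v ∈ supp D} (X - val v)^(D v)`.
Then for every `b : K` the multiplicity of `b` as a root of `S` is the total multiplicity in `D`
of the points of the fibre `x = b`:

  `∑_{w : x(w) = b} D w = mult_b S`.

This is the "`T`-side" of the norm formula `x_* Z = ℓ ∑ [ξ_i]` of Step 6 of (HENS).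
Prefix `s27hrm_`.
-/

set_option autoImplicit false
set_option linter.unusedSectionVars false

namespace Fermat.Agent.S27

open AlgebraicCurve IntermediateField Polynomial
open Fermat.Agent.JT3

universe u v
variable {K : Type u} {F : Type v} [Field K] [Field F] [Algebra K F]

open scoped Classical in
/-- the root multiplicity of a finite product of powers of monic linear factors. -/
theorem s27hrm_rootMultiplicity_prod {ι : Type*} (s : Finset ι) (a : ι → K) (n : ι → ℕ)
    (b : K) :
    (∏ i ∈ s, (X - C (a i)) ^ n i).rootMultiplicity b =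
      ∑ i ∈ s, if a i = b then n i else 0 := by
  classical
  induction s using Finset.induction_on with
  | empty => simp
  | insert i s hi ih =>
    have hne : ∀ t : Finset ι, (∏ j ∈ t, (X - C (a j)) ^ n j) ≠ 0 := fun t =>
      Finset.prod_ne_zero_iff.2 fun j _ => pow_ne_zero _ (X_sub_C_ne_zero (a j))
    rw [Finset.prod_insert hi, Finset.sum_insert hi,
      rootMultiplicity_mul (mul_ne_zero (pow_ne_zero _ (X_sub_C_ne_zero (a i))) (hne s)), ih]
    congr 1
    by_cases hab : a i = b
    · rw [if_pos hab, ← hab, rootMultiplicity_X_sub_C_pow]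
    · rw [if_neg hab]
      apply rootMultiplicity_eq_zero
      rw [IsRoot.def, eval_pow, eval_sub, eval_X, eval_C]
      intro h0
      exact hab (sub_eq_zero.1 (eq_zero_of_pow_eq_zero h0)).symm

/-- **(L-A) ROOTMULT-S.** -/
theorem s27hrm_sum_eq_rootMultiplicity {x : F} (D : Divisor K F) (hD : 0 ≤ D)
    (val : Place K F → K)
    (hval : ∀ v, D v ≠ 0 → 0 < v.ord (x - algebraMap K F (val v))) (b : K)
    (s : Finset (Place K F)) (hs : ∀ w, w ∈ s ↔ 0 < w.ord (x - algebraMap K F b)) :
    ∑ w ∈ s, D w = ((s27hnd_S D val).rootMultiplicity b : ℤ) := by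
  classical
  rw [s27hnd_S, s27hrm_rootMultiplicity_prod, Nat.cast_sum]
  -- both sides as sums over the points of the support with value `b`
  have hL : ∑ w ∈ s, D w = ∑ w ∈ D.support.filter (fun w => val w = b), D w := by
    rw [← Finset.sum_filter_ne_zero (s := s)]
    apply Finset.sum_congr _ fun _ _ => rfl
    ext w
    simp only [Finset.mem_filter, Finsupp.mem_support_iff, hs]
    constructor
    · rintro ⟨hw, hDw⟩
      exact ⟨hDw, pcf_const_unique w (hval w hDw) hw⟩
    · rintro ⟨hDw, rfl⟩
      exact ⟨hval w hDw, hDw⟩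
  rw [hL, Finset.sum_filter]
  apply Finset.sum_congr rfl
  intro w _
  by_cases hw : val w = b
  · rw [if_pos hw, if_pos hw]
    have : 0 ≤ D w := by
      have := Finsupp.le_def.mp hD w
      simpa using this
    rw [Int.toNat_of_nonneg this]
  · rw [if_neg hw, if_neg hw, Nat.cast_zero]

end Fermat.Agent.S27
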