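/-
S27 / (HENS), cell H8-e SPOLY (helper12; prefix `s27hs_`): the polynomial `S(X) ∈ O[X]`.

Setting: a constant reduction `R` with (GOOD) hypotheses `h`, the reduction map `red` with property
(R) (`hdiv`); places `P̄_i` of the residue function field at which `x̄` takes the values `a_i`;
an effective divisor `D` on `F` with `red_* D = l · Σ P̄_i` (in Step 4: `D = E' + (l - 1) E₀`).

* `s27hs_val`       : the `x`-value of a place `P` whose reduction is not a pole of `x̄` (an element
  of `O`; `0` otherwise);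
* `s27hs_exists_S`  : `S := ∏_{P ∈ supp D} (X - x(P))^(D P)` lies in `O[X]`, is monic of degree
  `l g = deg D`, maps to helper1's `s27hnd_S D val` over `K` and to `(∏ (X - a_i))^l` over `k`.
-/
import Mathlib
import Fermat.Agent.S27.Hens.Discs
import Fermat.Agent.S27.Hens.NormDiv
import Fermat.Agent.JT3.Places.CharFree

set_option autoImplicit false
set_option linter.unusedSectionVars false
set_option linter.unusedVariables false
set_option linter.style.haveILetI false

noncomputable section

namespace Fermat.Agent.S27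

open AlgebraicCurve IntermediateField Polynomial Fermat.Agent.JT3 Fermat.Agent.S24

universe u v u' v'
variable {K : Type u} {F : Type v} [Field K] [Field F] [Algebra K F]
variable {k : Type u'} {Fb : Type v'} [Field k] [Field Fb] [Algebra k Fb]

/-- places with distinct values are distinct. -/
theorem s27hs_injective_of_values {g : ℕ} {xb : Fb} (Pb : Fin g → Place k Fb) (a : Fin g → k)
    (ha : Function.Injective a) (hPb : ∀ i, 0 < (Pb i).ord (xb - algebraMap k Fb (a i))) :
    Function.Injective Pb := by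
  intro i j hij
  apply ha
  have h1 := hPb i
  rw [hij] at h1
  exact pcf_const_unique (Pb j) h1 (hPb j)

variable [IsAlgClosed K] [IsAlgClosed k] (R : s27r_Red K F k Fb) {x : F} (h : s27r_Good R x)
  (red : Place K F → Place k Fb)
  (hdiv : ∀ (f : F) (hf : f ∈ R.V), R.r ⟨f, hf⟩ ≠ 0 →
      Finsupp.mapDomain red (rt_div h.sepK f) = rt_div h.sepk (R.r ⟨f, hf⟩))

open Classical in
/-- the `x`-value of a place whose reduction is not a pole of `x̄`, as an element of `O`. -/
def s27hs_val (P : Place K F) : R.O :=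
  if hP : 0 ≤ (red P).ord (R.r ⟨x, h.x_mem⟩) then
    ⟨(s27hd_value R h red hdiv P hP).choose, (s27hd_value R h red hdiv P hP).choose_spec.choose⟩
  else 0

theorem s27hs_val_spec (P : Place K F) (hP : 0 ≤ (red P).ord (R.r ⟨x, h.x_mem⟩)) :
    0 < P.ord (x - algebraMap K F (s27hs_val R h red hdiv P : K)) ∧
      0 < (red P).ord (R.r ⟨x, h.x_mem⟩ -
        algebraMap k Fb (R.r0 (s27hs_val R h red hdiv P))) := by
  have := (s27hd_value R h red hdiv P hP).choose_spec.choose_spec
  rw [s27hs_val, dif_pos hP]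
  exact this

section main

variable {g : ℕ} (Pb : Fin g → Place k Fb) (a : Fin g → k)
  (hPb : ∀ i, 0 < (Pb i).ord (R.r ⟨x, h.x_mem⟩ - algebraMap k Fb (a i)))
  (hPbinj : Function.Injective Pb)
  (D : Divisor K F) (hD : 0 ≤ D) (l : ℕ)
  (hDr : Finsupp.mapDomain red D = l • ∑ i, Finsupp.single (Pb i) (1 : ℤ))

include hD hDr in
/-- the support of `D` lies over the `P̄_i`. -/
theorem s27hs_exists_index {P : Place K F} (hP : D P ≠ 0) : ∃ i, red P = Pb i := by
  classical
  have h1 := s27hd_le_mapDomain_apply red hD P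
  have h2 : 0 < D P := lt_of_le_of_ne (Finsupp.le_def.mp hD P) (Ne.symm hP)
  rw [hDr, Finsupp.smul_apply, Finsupp.finsetSum_apply] at h1
  by_contra hne
  push Not at hne
  have h3 : ∑ i, (Finsupp.single (Pb i) (1 : ℤ)) (red P) = 0 := by
    refine Finset.sum_eq_zero fun i _ => ?_
    rw [Finsupp.single_apply, if_neg (fun h0 => hne i h0.symm)]
  rw [h3, smul_zero] at h1
  omega

include hPb in
/-- `x̄` is regular at the `P̄_i`. -/
theorem s27hs_regular_Pb (i : Fin g) : 0 ≤ (Pb i).ord (R.r ⟨x, h.x_mem⟩) := by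
  have hx0 : R.r ⟨x, h.x_mem⟩ ≠ 0 := by
    intro h0
    apply h.sepk.1
    rw [h0]
    exact isAlgebraic_zero
  rw [← hw_mem_iff_ord_nonneg (Pb i) hx0]
  have h1 := rt_mem_of_ord_pos (Pb i) (hPb i)
  have := add_mem h1 ((Pb i).algebraMap_mem' (a i))
  rwa [sub_add_cancel] at this

include hPb hD hDr in
/-- the values of `x` on the support of `D`. -/
theorem s27hs_val_of_mem {P : Place K F} (hP : D P ≠ 0) :
    0 ≤ P.ord x ∧ 0 < P.ord (x - algebraMap K F (s27hs_val R h red hdiv P : K)) ∧
      ∀ i, red P = Pb i → R.r0 (s27hs_val R h red hdiv P) = a i := by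
  obtain ⟨i, hi⟩ := s27hs_exists_index red Pb D hD l hDr hP
  have hreg : 0 ≤ (red P).ord (R.r ⟨x, h.x_mem⟩) := by
    rw [hi]
    exact s27hs_regular_Pb R h Pb a hPb i
  obtain ⟨h1, h2⟩ := s27hs_val_spec R h red hdiv P hreg
  refine ⟨s27hd_regular R h red hdiv P hreg, h1, fun j hj => ?_⟩
  rw [hj] at h2
  exact pcf_const_unique (Pb j) h2 (hPb j)

/-- the polynomial `S = ∏_{P ∈ supp D} (X - x(P))^(D P)` over `O`. -/
def s27hs_S : (↥R.O)[X] :=
  ∏ P ∈ D.support, (X - C (s27hs_val R h red hdiv P)) ^ (D P).toNat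

theorem s27hs_S_monic : (s27hs_S R h red hdiv D).Monic :=
  monic_prod_of_monic _ _ fun P _ => (monic_X_sub_C _).pow _

theorem s27hs_S_map_subtype :
    (s27hs_S R h red hdiv D).map R.O.subtype =
      s27hnd_S D (fun P => (s27hs_val R h red hdiv P : K)) := by
  rw [s27hs_S, s27hnd_S, Polynomial.map_prod]
  refine Finset.prod_congr rfl fun P _ => ?_
  rw [Polynomial.map_pow, Polynomial.map_sub, Polynomial.map_X, Polynomial.map_C]
  rfl

include hPb hPbinj hD hDr in
theorem s27hs_S_map_r0 :
    (s27hs_S R h red hdiv D).map R.r0 = (∏ i, (X - C (a i))) ^ l := by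
  classical
  rw [s27hs_S, Polynomial.map_prod]
  -- group the factors along `red`
  have hmaps : ∀ P ∈ D.support, red P ∈ Finset.univ.image Pb := by
    intro P hP
    obtain ⟨i, hi⟩ := s27hs_exists_index red Pb D hD l hDr (Finsupp.mem_support_iff.mp hP)
    exact Finset.mem_image.mpr ⟨i, Finset.mem_univ i, hi.symm⟩
  rw [← Finset.prod_fiberwise_of_maps_to hmaps, Finset.prod_image (fun i _ j _ hij => hPbinj hij),
    ← Finset.prod_pow]
  refine Finset.prod_congr rfl fun i _ => ?_
  -- the fibre over `P̄_i`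
  have hfib : ∀ P ∈ D.support.filter (fun P => red P = Pb i),
      ((X - C (s27hs_val R h red hdiv P)) ^ (D P).toNat).map R.r0 =
        (X - C (a i)) ^ (D P).toNat := by
    intro P hP
    rw [Finset.mem_filter] at hP
    have h3 := (s27hs_val_of_mem R h red hdiv Pb a hPb D hD l hDr
      (Finsupp.mem_support_iff.mp hP.1)).2.2 i hP.2
    rw [Polynomial.map_pow, Polynomial.map_sub, Polynomial.map_X, Polynomial.map_C, h3]
  rw [Finset.prod_congr rfl hfib, Finset.prod_pow_eq_pow_sum]
  congr 1
  -- the multiplicity of `P̄_i` in `red_* D`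
  have h4 : (Finsupp.mapDomain red D) (Pb i) = l := by
    rw [hDr, Finsupp.smul_apply, Finsupp.finsetSum_apply, Finset.sum_eq_single i]
    · rw [Finsupp.single_eq_same]; simp
    · intro j _ hji
      rw [Finsupp.single_apply, if_neg (fun h0 => hji (hPbinj h0))]
    · intro hi; exact absurd (Finset.mem_univ i) hi
  rw [s27r6_mapDomain_apply, ← Finset.sum_filter] at h4
  have h5 : ((∑ P ∈ D.support.filter (fun P => red P = Pb i), (D P).toNat : ℕ) : ℤ) = l := by
    rw [← h4]
    push_cast
    refine Finset.sum_congr rfl fun P _ => ?_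
    exact Int.toNat_of_nonneg (Finsupp.le_def.mp hD P)
  exact_mod_cast h5

include hPb hPbinj hD hDr in
theorem s27hs_S_natDegree : (s27hs_S R h red hdiv D).natDegree = l * g := by
  have h1 := (s27hs_S_monic R h red hdiv D).natDegree_map R.r0
  rw [s27hs_S_map_r0 R h red hdiv Pb a hPb hPbinj D hD l hDr] at h1
  rw [← h1, natDegree_pow, natDegree_prod_of_monic _ _ fun i _ => monic_X_sub_C (a i)]
  simp

include h hDr in
theorem s27hs_degree : Divisor.degree D = (l : ℤ) * g := by
  rw [← s27r6_degree_mapDomain red h.sepK h.sepk D, hDr, map_nsmul, map_sum]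
  simp only [rt_degree_single h.sepk]
  simp

include hdiv hPb hPbinj hD hDr in
/-- **H8-e SPOLY**: the polynomial `S ∈ O[X]` of Step 4. -/
theorem s27hs_exists_S :
    ∃ (val : Place K F → K) (S : (↥R.O)[X]), (∀ P, val P ∈ R.O) ∧
      (∀ P, D P ≠ 0 → 0 ≤ P.ord x) ∧
      (∀ P, D P ≠ 0 → 0 < P.ord (x - algebraMap K F (val P))) ∧
      (∀ P i, D P ≠ 0 → red P = Pb i → ∃ hv : val P ∈ R.O, R.r0 ⟨val P, hv⟩ = a i) ∧
      S.Monic ∧ S.natDegree = l * g ∧
      S.map R.O.subtype = s27hnd_S D val ∧
      S.map R.r0 = (∏ i, (X - C (a i))) ^ l ∧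
      Divisor.degree D = (l : ℤ) * g := by
  refine ⟨fun P => (s27hs_val R h red hdiv P : K), s27hs_S R h red hdiv D,
    fun P => (s27hs_val R h red hdiv P).2, fun P hP => ?_, fun P hP => ?_, fun P i hP hi => ?_,
    s27hs_S_monic R h red hdiv D, s27hs_S_natDegree R h red hdiv Pb a hPb hPbinj D hD l hDr,
    s27hs_S_map_subtype R h red hdiv D, s27hs_S_map_r0 R h red hdiv Pb a hPb hPbinj D hD l hDr,
    s27hs_degree R h red Pb D l hDr⟩
  · exact (s27hs_val_of_mem R h red hdiv Pb a hPb D hD l hDr hP).1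
  · exact (s27hs_val_of_mem R h red hdiv Pb a hPb D hD l hDr hP).2.1
  · exact ⟨(s27hs_val R h red hdiv P).2,
      (s27hs_val_of_mem R h red hdiv Pb a hPb D hD l hDr hP).2.2 i hi⟩

end main

end Fermat.Agent.S27
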