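/-
S27 / (HENS), leaf (L-E) (helper12; prefix `s27hs_`): the polynomial `S` of the divisor `l • Σ P_i`.

* `s27hs_val_eq`      : `s27hs_val P = ξ` as soon as `x - ξ` vanishes at `P` (and `red P = P̄_i`);
* `s27hs_S_nsmul_sum` : `S(l • Σ P_i) = (∏ (X - ξ0_i))^l` over `K`.
-/
import Mathlib
import Fermat.Agent.S27.Hens.SPoly

set_option autoImplicit false
set_option linter.unusedSectionVars false
set_option linter.unusedVariables false
set_option linter.style.haveILetI false

noncomputable section

namespace Fermat.Agent.S27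

open AlgebraicCurve IntermediateField Polynomial Fermat.Agent.JT3 Fermat.Agent.S24

universe u v u' v'
variable {K : Type u} {F : Type v} [Field K] [Field F] [Algebra K F]
variable {k : Type u'} {Fb : Type v'} [Field k] [Field Fb] [Algebra k Fb]
variable [IsAlgClosed K] [IsAlgClosed k] (R : s27r_Red K F k Fb) {x : F} (h : s27r_Good R x)
  (red : Place K F → Place k Fb)
  (hdiv : ∀ (f : F) (hf : f ∈ R.V), R.r ⟨f, hf⟩ ≠ 0 →
      Finsupp.mapDomain red (rt_div h.sepK f) = rt_div h.sepk (R.r ⟨f, hf⟩))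
  {g : ℕ} (Pb : Fin g → Place k Fb) (a : Fin g → k)
  (hPb : ∀ i, 0 < (Pb i).ord (R.r ⟨x, h.x_mem⟩ - algebraMap k Fb (a i)))

include hPb in
/-- the value function `s27hs_val` computes the `x`-value. -/
theorem s27hs_val_eq {P : Place K F} {i : Fin g} (hP : red P = Pb i) {ξ : K}
    (hξ : 0 < P.ord (x - algebraMap K F ξ)) : (s27hs_val R h red hdiv P : K) = ξ := by
  have hreg : 0 ≤ (red P).ord (R.r ⟨x, h.x_mem⟩) := by
    rw [hP]
    exact s27hs_regular_Pb R h Pb a hPb i
  exact pcf_const_unique P (s27hs_val_spec R h red hdiv P hreg).1 hξ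

include hPb in
/-- **(L-E)**: the polynomial `S` of `l • Σ P_i`. -/
theorem s27hs_S_nsmul_sum (P : Fin g → Place K F) (hPinj : Function.Injective P)
    (hPred : ∀ i, red (P i) = Pb i) (ξ0 : Fin g → K)
    (hPpos : ∀ i, 0 < (P i).ord (x - algebraMap K F (ξ0 i))) (l : ℕ) :
    (s27hs_S R h red hdiv (l • ∑ i, Finsupp.single (P i) (1 : ℤ))).map R.O.subtype =
      (∏ i, (X - C (ξ0 i))) ^ l := by
  classical
  rw [s27hs_S_map_subtype, s27hnd_S]
  set D : Divisor K F := l • ∑ i, Finsupp.single (P i) (1 : ℤ) with hDdef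
  have hDapply : ∀ P' : Place K F, D P' = l * ∑ i, (if P i = P' then (1 : ℤ) else 0) := by
    intro P'
    rw [hDdef, Finsupp.smul_apply, Finsupp.finsetSum_apply, nsmul_eq_mul]
    congr 1
    refine Finset.sum_congr rfl fun i _ => ?_
    rw [Finsupp.single_apply]
  have hsub : D.support ⊆ Finset.univ.image P := by
    intro P' hP'
    rw [Finsupp.mem_support_iff, hDapply] at hP'
    by_contra hne
    apply hP'
    rw [Finset.sum_eq_zero, mul_zero]
    intro i _
    rw [if_neg]
    intro h0
    exact hne (Finset.mem_image.mpr ⟨i, Finset.mem_univ i, h0⟩)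
  rw [Finset.prod_subset hsub (fun P' _ hP' => by
    rw [Finsupp.notMem_support_iff.mp hP', Int.toNat_zero, pow_zero]),
    Finset.prod_image (fun i _ j _ hij => hPinj hij), ← Finset.prod_pow]
  refine Finset.prod_congr rfl fun i _ => ?_
  have hDi : D (P i) = l := by
    rw [hDapply, Finset.sum_eq_single i]
    · rw [if_pos rfl, mul_one]
    · intro j _ hji
      rw [if_neg (fun h0 => hji (hPinj h0))]
    · intro hi; exact absurd (Finset.mem_univ i) hi
  rw [hDi, Int.toNat_natCast, s27hs_val_eq R h red hdiv Pb a hPb (hPred i) (hPpos i)]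

end Fermat.Agent.S27
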