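/-
S27 / (HENS), FINAL ASSEMBLY, conditional form (helper12; prefix `s27hm_`).

`s27hm_SolveStmt R h red hdiv` is the statement of helper18's `s27h_solve` (Steps 4-6: the polynomial
system has a unique solution near the base point) for the fixed constant reduction `R`.

* `s27hm_surj`     : (SURJ) of Step 6 from the existence half of `s27h_solve`;
* `s27hm_inj`      : (INJ) of Step 6 from the uniqueness half of `s27h_solve`;
* `s27h_hens_of`   : **(HENS)** from `s27h_solve`: multiplication by `ℓ` is bijective on the kernel of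
  the reduction homomorphism `φ : Pic⁰(F) → Pic⁰(F̄)`, for `ℓ` invertible in the residue field.
-/
import Mathlib
import Fermat.Agent.S27.Hens.BaseCor
import Fermat.Agent.S27.Hens.SPolyE
import Fermat.Agent.S27.Hens.InterpSum
import Fermat.Agent.S27.Hens.Normalize
import Fermat.Agent.S27.Hens.InjNorm
import Fermat.Agent.S27.Hens.RootMultS
import Fermat.Agent.S27.Hens.FinRamDiff

set_option autoImplicit false
set_option linter.unusedSectionVars false
set_option linter.unusedVariables false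
set_option linter.style.haveILetI false

noncomputable section

namespace Fermat.Agent.S27

open AlgebraicCurve IntermediateField Polynomial Fermat.Agent.JT3 Fermat.Agent.S24

universe u v u' v'
variable {K : Type u} {F : Type v} [Field K] [Field F] [Algebra K F]
variable {k : Type u'} {Fb : Type v'} [Field k] [Field Fb] [Algebra k Fb]
variable [IsAlgClosed K] [IsAlgClosed k] (R : s27r_Red K F k Fb) {x : F} (h : s27r_Good R x)
  (red : Place K F → Place k Fb)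
  (hdiv : ∀ (f : F) (hf : f ∈ R.V), R.r ⟨f, hf⟩ ≠ 0 →
      Finsupp.mapDomain red (rt_div h.sepK f) = rt_div h.sepk (R.r ⟨f, hf⟩))

/-- the statement of `s27h_solve` (helper18, Steps 4-6) for the fixed reduction `R`. -/
def s27hm_SolveStmt : Prop :=
  ∀ (g : ℕ) (_ : s27r_IsGenus k Fb g) (Pb : Fin g → Place k Fb) (a : Fin g → k)
    (_ : Function.Injective a)
    (_ : ∀ i, (Pb i).ord (R.r ⟨x, h.x_mem⟩ - algebraMap k Fb (a i)) = 1)
    (_ : Module.finrank k ↥(riemannRochSpace (∑ i, Finsupp.single (Pb i) (1 : ℤ))) = 1)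
    (_ : ∀ m : ℕ, 1 ≤ m → Module.finrank k
      ↥(riemannRochSpace (m • ∑ i, Finsupp.single (Pb i) (1 : ℤ))) = (m - 1) * g + 1)
    (ℓ : ℕ) (_ : (ℓ : k) ≠ 0) (D : Divisor K F) (_ : 0 ≤ D)
    (_ : Finsupp.mapDomain red D = ℓ • ∑ i, Finsupp.single (Pb i) (1 : ℤ)),
    ∃ (M : ℕ) (w : Fin M → F) (_ : ∀ j, w j ∈ R.V), (∀ j, w j ∈ riemannRochSpace D) ∧
      (∀ f ∈ riemannRochSpace D, ∀ hfV : f ∈ R.V, R.r ⟨f, hfV⟩ = 1 →
        ∃ (c : Fin M → ↥R.O) (c0 : K), (∀ j, R.r0 (c j) = 0) ∧ c0 ≠ 0 ∧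
          f = algebraMap K F c0 * (1 + ∑ j, ((c j : ↥R.O) : K) • w j)) ∧
      ∃! ce : (Fin M → ↥R.O) × (↥R.O)[X], (∀ j, R.r0 (ce.1 j) = 0) ∧ ce.2.Monic ∧
        ce.2.natDegree = g ∧ ce.2.map R.r0 = ∏ i, (X - C (a i)) ∧
        ∃ lam : K, lam ≠ 0 ∧
          aeval x ((s27hs_S R h red hdiv D).map R.O.subtype) *
            algebraMap K⟮x⟯ F (Algebra.norm K⟮x⟯ (1 + ∑ j, ((ce.1 j : ↥R.O) : K) • w j)) =
          algebraMap K F lam * aeval x ((ce.2 ^ ℓ).map R.O.subtype)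

/-! ### the functions `1 + ∑ c_j w_j` -/

section hc

variable {M : ℕ} (w : Fin M → F) (hwV : ∀ j, w j ∈ R.V) (c : Fin M → ↥R.O)

include hwV in
theorem s27hm_hc_mem : 1 + ∑ j, ((c j : ↥R.O) : K) • w j ∈ R.V := by
  refine add_mem R.V.one_mem (sum_mem fun j _ => ?_)
  rw [Algebra.smul_def]
  exact mul_mem (R.algebraMap_mem (c j).2) (hwV j)

theorem s27hm_hc_r (hc : ∀ j, R.r0 (c j) = 0) :
    R.r ⟨1 + ∑ j, ((c j : ↥R.O) : K) • w j, s27hm_hc_mem R w hwV c⟩ = 1 := by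
  have e : (⟨1 + ∑ j, ((c j : ↥R.O) : K) • w j, s27hm_hc_mem R w hwV c⟩ : ↥R.V) =
      1 + ∑ j, (⟨algebraMap K F (c j : K), R.algebraMap_mem (c j).2⟩ : ↥R.V) * ⟨w j, hwV j⟩ := by
    apply Subtype.ext
    push_cast
    congr 1
    refine Finset.sum_congr rfl fun j _ => ?_
    rw [Algebra.smul_def]
  rw [e, map_add, map_one, map_sum, Finset.sum_eq_zero, add_zero]
  intro j _
  rw [map_mul, R.comp (c j : K) (c j).2]
  have : (⟨(c j : K), (c j).2⟩ : ↥R.O) = c j := rfl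
  rw [this, hc j, map_zero, zero_mul]

theorem s27hm_hc_mem_L {D : Divisor K F} (hD : 0 ≤ D) (hwL : ∀ j, w j ∈ riemannRochSpace D) :
    1 + ∑ j, ((c j : ↥R.O) : K) • w j ∈ riemannRochSpace D := by
  refine add_mem ?_ (sum_mem fun j _ => Submodule.smul_mem _ _ (hwL j))
  have := rt_algebraMap_mem_L hD (1 : K)
  rwa [map_one] at this

end hc

/-! ### the root multiplicities of `S` -/

section LA

variable {g : ℕ} (Pb : Fin g → Place k Fb) (a : Fin g → k)
  (hPb : ∀ i, (Pb i).ord (R.r ⟨x, h.x_mem⟩ - algebraMap k Fb (a i)) = 1)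
  (D : Divisor K F) (hD : 0 ≤ D) (ℓ : ℕ)
  (hDr : Finsupp.mapDomain red D = ℓ • ∑ i, Finsupp.single (Pb i) (1 : ℤ))

include hPb in
theorem s27hm_hPb_pos (i : Fin g) :
    0 < (Pb i).ord (R.r ⟨x, h.x_mem⟩ - algebraMap k Fb (a i)) := by
  rw [hPb i]; norm_num

include hPb hD hDr in
/-- leaf (L-A) for the concrete `S`. -/
theorem s27hm_LA (b : K) (s : Finset (Place K F))
    (hs : ∀ w, w ∈ s ↔ 0 < w.ord (x - algebraMap K F b)) :
    ∑ w ∈ s, D w = (((s27hs_S R h red hdiv D).map R.O.subtype).rootMultiplicity b : ℤ) := by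
  rw [s27hs_S_map_subtype]
  exact s27hrm_sum_eq_rootMultiplicity D hD _
    (fun v hv => (s27hs_val_of_mem R h red hdiv Pb a (s27hm_hPb_pos R h Pb a hPb) D hD ℓ hDr hv).2.1)
    b s hs

theorem s27hm_S_ne_zero : (s27hs_S R h red hdiv D).map R.O.subtype ≠ 0 :=
  ((s27hs_S_monic R h red hdiv D).map R.O.subtype).ne_zero

end LA

/-! ### (SURJ) and (INJ) -/

section main

variable (hsolve : s27hm_SolveStmt R h red hdiv)
  {g : ℕ} (hgk : s27r_IsGenus k Fb g) (Pb : Fin g → Place k Fb) (a : Fin g → k)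
  (ha : Function.Injective a)
  (hPb : ∀ i, (Pb i).ord (R.r ⟨x, h.x_mem⟩ - algebraMap k Fb (a i)) = 1)
  (hl1 : Module.finrank k ↥(riemannRochSpace (∑ i, Finsupp.single (Pb i) (1 : ℤ))) = 1)
  (hlm : ∀ m : ℕ, 1 ≤ m → Module.finrank k
    ↥(riemannRochSpace (m • ∑ i, Finsupp.single (Pb i) (1 : ℤ))) = (m - 1) * g + 1)
  (ℓ : ℕ) (hℓ : (ℓ : k) ≠ 0)

include hℓ in
theorem s27hm_l_pos : 0 < ℓ := by
  rcases Nat.eq_zero_or_pos ℓ with h0 | h0
  · exfalso; apply hℓ; rw [h0, Nat.cast_zero]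
  · exact h0

include hsolve hgk ha hPb hl1 hlm hℓ in
/-- **(SURJ)** of Step 6. -/
theorem s27hm_surj (E0 E' : Divisor K F) (hE0nn : 0 ≤ E0) (hE'nn : 0 ≤ E')
    (hE0 : Finsupp.mapDomain red E0 = ∑ i, Finsupp.single (Pb i) (1 : ℤ))
    (hE' : Finsupp.mapDomain red E' = ∑ i, Finsupp.single (Pb i) (1 : ℤ)) :
    ∃ E : Divisor K F, 0 ≤ E ∧
      Finsupp.mapDomain red E = ∑ i, Finsupp.single (Pb i) (1 : ℤ) ∧
      Divisor.IsPrincipal (ℓ • (E - E0) - (E' - E0)) := by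
  classical
  have hl := s27hm_l_pos ℓ hℓ
  set D : Divisor K F := E' + (ℓ - 1) • E0 with hDdef
  have hD : 0 ≤ D := add_nonneg hE'nn (nsmul_nonneg hE0nn _)
  have hDr : Finsupp.mapDomain red D = ℓ • ∑ i, Finsupp.single (Pb i) (1 : ℤ) := by
    rw [hDdef, Finsupp.mapDomain_add, hE']
    have : Finsupp.mapDomain red ((ℓ - 1) • E0) = (ℓ - 1) • Finsupp.mapDomain red E0 :=
      map_nsmul (Finsupp.mapDomain.addMonoidHom red) _ _
    rw [this, hE0, ← succ_nsmul', Nat.sub_add_cancel hl]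
  obtain ⟨M, w, hwV, hwL, -, ⟨ce, ⟨hc0, hmon, -, hmap, lam, hlam, hnorm⟩, -⟩⟩ :=
    hsolve g hgk Pb a ha hPb hl1 hlm ℓ hℓ D hD hDr
  set f : F := 1 + ∑ j, ((ce.1 j : ↥R.O) : K) • w j with hfdef
  have hfV : f ∈ R.V := s27hm_hc_mem R w hwV ce.1
  have hf1 : R.r ⟨f, hfV⟩ = 1 := s27hm_hc_r R w hwV ce.1 hc0
  have hfL : f ∈ riemannRochSpace D := s27hm_hc_mem_L R w ce.1 hD hwL
  have hf0 : f ≠ 0 := by
    intro h0
    have h1 : R.r ⟨f, hfV⟩ = 0 := by
      have : (⟨f, hfV⟩ : ↥R.V) = 0 := Subtype.ext h0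
      rw [this, map_zero]
    rw [hf1] at h1
    exact one_ne_zero h1
  rw [Polynomial.map_pow] at hnorm
  refine s27h10_surj R h red hdiv Pb a ha hPb ℓ hl E0 E' hE0 hE' f hfV hf1 hfL ce.2 hmon hmap
    (fun b s hs => ?_)
  exact s27h10_hsum_of_norm_eq h.sepK hf0 D (s27hm_S_ne_zero R h red hdiv D) hlam ℓ hnorm b s hs
    (s27hm_LA R h red hdiv Pb a hPb D hD ℓ hDr b s hs)

include hsolve hgk ha hPb hl1 hlm hℓ in
/-- **(INJ)** of Step 6. -/
theorem s27hm_inj (P : Fin g → Place K F) (ξ0 : Fin g → K) (hξ0 : ∀ i, ξ0 i ∈ R.O)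
    (hξ0a : ∀ i, R.r0 ⟨ξ0 i, hξ0 i⟩ = a i) (hPred : ∀ i, red (P i) = Pb i)
    (hPord : ∀ i, (P i).ord (x - algebraMap K F (ξ0 i)) = 1)
    (E : Divisor K F) (hE : 0 ≤ E)
    (hEr : Finsupp.mapDomain red E = ∑ i, Finsupp.single (Pb i) (1 : ℤ))
    (hp : Divisor.IsPrincipal (ℓ • (E - ∑ i, Finsupp.single (P i) (1 : ℤ)))) :
    E = ∑ i, Finsupp.single (P i) (1 : ℤ) := by
  classical
  have hl := s27hm_l_pos ℓ hℓ
  have hPbpos := s27hm_hPb_pos R h Pb a hPb
  have hPbinj : Function.Injective Pb := s27hs_injective_of_values Pb a ha hPbpos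
  have hPinj : Function.Injective P := by
    intro i j hij
    apply hPbinj
    rw [← hPred i, ← hPred j, hij]
  have hPpos : ∀ i, 0 < (P i).ord (x - algebraMap K F (ξ0 i)) := by
    intro i; rw [hPord i]; norm_num
  set E0 : Divisor K F := ∑ i, Finsupp.single (P i) (1 : ℤ) with hE0def
  have hE0nn : 0 ≤ E0 := s27hb_sum_single_nonneg _ _
  have hE0r : Finsupp.mapDomain red E0 = ∑ i, Finsupp.single (Pb i) (1 : ℤ) := by
    rw [hE0def, Finsupp.mapDomain_finsetSum]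
    refine Finset.sum_congr rfl fun i _ => ?_
    rw [Finsupp.mapDomain_single, hPred]
  -- the points of `E`
  obtain ⟨Q, ξ, hQinj, hQred, hξa, hQpos, hEQ⟩ :=
    s27h10_decomp R h red hdiv Pb a ha hPb E hE hEr
  -- the normalised function
  have hD0 : Finsupp.mapDomain red (ℓ • (E - E0)) = 0 := by
    have : Finsupp.mapDomain red (ℓ • (E - E0)) = ℓ • Finsupp.mapDomain red (E - E0) :=
      map_nsmul (Finsupp.mapDomain.addMonoidHom red) _ _
    rw [this, s27r6_mapDomain_sub, hEr, hE0r, sub_self, smul_zero]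
  obtain ⟨f, hfV, hf1, hdivf⟩ := s27hnz_normalize R h red hdiv (ℓ • (E - E0)) hD0 hp
  have hf0 : f ≠ 0 := by
    intro h0
    have h1 : R.r ⟨f, hfV⟩ = 0 := by
      have : (⟨f, hfV⟩ : ↥R.V) = 0 := Subtype.ext h0
      rw [this, map_zero]
    rw [hf1] at h1
    exact one_ne_zero h1
  -- the system for `D = ℓ • E0`
  set D : Divisor K F := ℓ • E0 with hDdef
  have hD : 0 ≤ D := nsmul_nonneg hE0nn _
  have hDr : Finsupp.mapDomain red D = ℓ • ∑ i, Finsupp.single (Pb i) (1 : ℤ) := by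
    have : Finsupp.mapDomain red (ℓ • E0) = ℓ • Finsupp.mapDomain red E0 :=
      map_nsmul (Finsupp.mapDomain.addMonoidHom red) _ _
    rw [hDdef, this, hE0r]
  have hfL : f ∈ riemannRochSpace D := by
    rw [rt_mem_L_iff hf0]
    intro v
    have h1 := DFunLike.congr_fun hdivf v
    rw [rt_div_apply] at h1
    rw [h1, hDdef, Finsupp.smul_apply, Finsupp.smul_apply, Finsupp.sub_apply, smul_sub]
    have h2 : 0 ≤ ℓ • E v := nsmul_nonneg (Finsupp.le_def.mp hE v) ℓ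
    linarith
  obtain ⟨M, w, hwV, hwL, hexp, ⟨ce, hce, huniq⟩⟩ :=
    hsolve g hgk Pb a ha hPb hl1 hlm ℓ hℓ D hD hDr
  obtain ⟨c, c0, hc0, hc0ne, hfc⟩ := hexp f hfL hfV hf1
  set f' : F := 1 + ∑ j, ((c j : ↥R.O) : K) • w j with hf'def
  have hc0F : algebraMap K F c0 ≠ 0 := by
    rwa [Ne, map_eq_zero]
  have hf'0 : f' ≠ 0 := by
    intro h0
    rw [h0, mul_zero] at hfc
    exact hf0 hfc
  have hdivf' : rt_div h.sepK f' =
      ℓ • ∑ i, Finsupp.single (Q i) (1 : ℤ) - ℓ • ∑ i, Finsupp.single (P i) (1 : ℤ) := by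
    have h1 : rt_div h.sepK f = rt_div h.sepK f' := by
      rw [hfc, rt_div_mul h.sepK hc0F hf'0, rt_div_algebraMap, zero_add]
    rw [← h1, hdivf, smul_sub, hEQ]
  obtain ⟨lam, hlam, hnorm⟩ :=
    s27hi_injNorm h.sepK P Q ξ0 (fun i => (ξ i : K)) hPpos hQpos hf'0 hdivf'
  -- the polynomial `S` of `D`
  have hS : (s27hs_S R h red hdiv D).map R.O.subtype = (∏ i, (X - C (ξ0 i))) ^ ℓ :=
    s27hs_S_nsmul_sum R h red hdiv Pb a hPbpos P hPinj hPred ξ0 hPpos ℓ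
  -- the two solutions
  set e0 : (↥R.O)[X] := ∏ i, (X - C (⟨ξ0 i, hξ0 i⟩ : ↥R.O)) with he0def
  set eQ : (↥R.O)[X] := ∏ i, (X - C (ξ i)) with heQdef
  have hmapK : ∀ η : Fin g → ↥R.O, (∏ i, (X - C (η i)) : (↥R.O)[X]).map R.O.subtype =
      ∏ i, (X - C ((η i : ↥R.O) : K)) := by
    intro η
    rw [Polynomial.map_prod]
    refine Finset.prod_congr rfl fun i _ => ?_
    rw [Polynomial.map_sub, Polynomial.map_X, Polynomial.map_C]
    rfl
  have hmapk : ∀ (η : Fin g → ↥R.O), (∀ i, R.r0 (η i) = a i) →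
      (∏ i, (X - C (η i)) : (↥R.O)[X]).map R.r0 = ∏ i, (X - C (a i)) := by
    intro η hη
    rw [Polynomial.map_prod]
    refine Finset.prod_congr rfl fun i _ => ?_
    rw [Polynomial.map_sub, Polynomial.map_X, Polynomial.map_C, hη i]
  have hmonic : ∀ η : Fin g → ↥R.O, (∏ i, (X - C (η i)) : (↥R.O)[X]).Monic :=
    fun η => monic_prod_of_monic _ _ fun i _ => monic_X_sub_C _
  have hnatdeg : ∀ η : Fin g → ↥R.O, (∏ i, (X - C (η i)) : (↥R.O)[X]).natDegree = g := by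
    intro η
    rw [natDegree_prod_of_monic _ _ fun i _ => monic_X_sub_C _]
    simp
  have h1 : ce = ((0 : Fin M → ↥R.O), e0) := by
    symm
    apply huniq
    refine ⟨fun j => map_zero _, hmonic _, hnatdeg _, hmapk _ hξ0a, 1, one_ne_zero, ?_⟩
    have hz : (1 : F) + ∑ j, (((0 : Fin M → ↥R.O) j : ↥R.O) : K) • w j = 1 := by
      simp
    haveI : FiniteDimensional ↥K⟮x⟯ F := h.sepK.2.1
    rw [hz]
    simp only [map_one, mul_one, one_mul]
    rw [Polynomial.map_pow, hS, he0def, hmapK]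
  have h2 : ce = (c, eQ) := by
    symm
    apply huniq
    refine ⟨hc0, hmonic _, hnatdeg _, hmapk _ hξa, lam, hlam, ?_⟩
    rw [hS, Polynomial.map_pow, heQdef, hmapK]
    exact hnorm
  have hprod : eQ = e0 := by
    have := h2.symm.trans h1
    exact (Prod.ext_iff.mp this).2
  have hQP : Q = P :=
    s27h10_eq_of_prod_eq R h red hdiv Pb a ha hPb Q P ξ (fun i => ⟨ξ0 i, hξ0 i⟩) hQred hPred hξa
      hξ0a hQpos hPpos hprod
  rw [hEQ, hQP]

end main

/-! ### (HENS) -/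

include hdiv in
/-- **(HENS) from `s27h_solve`**: multiplication by `ℓ` is bijective on the kernel of the reduction
homomorphism on `Pic⁰`, for `ℓ` invertible in the residue field. -/
theorem s27h_hens_of (hsolve : s27hm_SolveStmt R h red hdiv)
    (φ : Pic0 K F →+ Pic0 k Fb)
    (hφ : ∀ (D : Divisor K F) (hD : D ∈ Divisor.degZero (K := K) (F := F)),
      ∃ hD' : Finsupp.mapDomain red D ∈ Divisor.degZero (K := k) (F := Fb),
        φ (Pic0.mk ⟨D, hD⟩) = Pic0.mk ⟨Finsupp.mapDomain red D, hD'⟩)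
    (ℓ : ℕ) (hℓ : (ℓ : k) ≠ 0) : Function.Bijective (fun c : φ.ker => ℓ • c) := by
  obtain ⟨g, hgk⟩ := s27r_exists_isGenus h.sepk
  obtain ⟨Pb, a, ξ0, hξ0, P, ha, hPb, hξ0a, hPred, hPord, -, hl1, hlm, hE0r, hE0nn, -, -, -⟩ :=
    s27hb_exists_base R h red hdiv hgk (s27hfd_finite_bad h.sepk)
  have B := s27hb_base R h red hgk hPred hl1
  refine s27h6_bijective_of R h red hdiv B φ hφ ℓ ?_ ?_
  · intro E hE hEr hp
    exact s27hm_inj R h red hdiv hsolve hgk Pb a ha hPb hl1 hlm ℓ hℓ P ξ0 hξ0 hξ0a hPred hPord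
      E hE hEr hp
  · intro E' hE' hE'r
    exact s27hm_surj R h red hdiv hsolve hgk Pb a ha hPb hl1 hlm ℓ hℓ _ E' hE0nn hE' hE0r hE'r

end Fermat.Agent.S27
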