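import Fermat.Agent.S27.Hens.FirstOrder

/-!
# S27 / (HENS): the abstract algebraic core of Steps 4-6 (main theorem `s27h_core`)
-/

set_option autoImplicit false

namespace Fermat.Agent.S27

open IsLocalRing DualNumber Polynomial

section Pt

variable {M g ℓ : ℕ} (hMg : M + g = ℓ * g) {A : Type*}

/-- the point of `A^(ℓ g)` with `c`-part `c` and `ε`-part `e` -/
def s27h_pt (c : Fin M → A) (e : Fin g → A) : Fin (ℓ * g) → A := fun i =>
  if h : (i : ℕ) < M then c ⟨i, h⟩ else e ⟨(i : ℕ) - M, by have := i.2; omega⟩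

theorem s27h_pt_cv (c : Fin M → A) (e : Fin g → A) : s27h_pt hMg c e ∘ s27h_cv hMg = c := by
  funext j
  simp [s27h_pt, s27h_cv]

theorem s27h_pt_ev (c : Fin M → A) (e : Fin g → A) : s27h_pt hMg c e ∘ s27h_ev hMg = e := by
  funext j
  simp [s27h_pt, s27h_ev]

theorem s27h_pt_eta (b : Fin (ℓ * g) → A) :
    s27h_pt hMg (b ∘ s27h_cv hMg) (b ∘ s27h_ev hMg) = b := by
  funext i
  rcases s27h_cv_or_ev hMg i with ⟨j, rfl⟩ | ⟨j, rfl⟩
  · exact congrFun (s27h_pt_cv hMg (b ∘ s27h_cv hMg) (b ∘ s27h_ev hMg)) j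
  · exact congrFun (s27h_pt_ev hMg (b ∘ s27h_cv hMg) (b ∘ s27h_ev hMg)) j

end Pt

section FirstOrderR

variable {K : Type*} [Field K] (O : ValuationSubring K) {M g ℓ : ℕ}

theorem s27h_evalR_zero_coeff (Rtot : (MvPolynomial (Fin M) O)[X]) (i : ℕ) :
    (s27h_evalR Rtot (0 : Fin M → O)).coeff i = MvPolynomial.coeff 0 (Rtot.coeff i) := by
  rw [s27h_evalR, coeff_map]
  show MvPolynomial.aeval (0 : Fin M → O) (Rtot.coeff i) = _
  rw [MvPolynomial.aeval_eq_eval, MvPolynomial.eval_zero, MvPolynomial.constantCoeff_eq]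

/-- `Rtot(ε dc) = Rtot(0) + ε ∑_j dc_j R1_j` over the dual numbers. -/
theorem s27h_evalR_firstOrder (Rtot : (MvPolynomial (Fin M) O)[X])
    (dc : Fin M → ResidueField O) :
    s27h_evalR Rtot (fun j => (ε : (ResidueField O)[ε]) *
        algebraMap (ResidueField O) (ResidueField O)[ε] (dc j)) =
      (s27h_evalR Rtot (0 : Fin M → O)).map (s27h_phi O) +
        C (ε : (ResidueField O)[ε]) *
          (∑ j, C (dc j) * (s27h_lin Rtot j).map (residue O)).map
            (algebraMap (ResidueField O) (ResidueField O)[ε]) := by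
  refine Polynomial.ext fun i => ?_
  have hL : (s27h_evalR Rtot (fun j => (ε : (ResidueField O)[ε]) *
      algebraMap (ResidueField O) (ResidueField O)[ε] (dc j))).coeff i =
      MvPolynomial.eval₂ (s27h_phi O) (fun j => (ε : (ResidueField O)[ε]) *
        algebraMap (ResidueField O) (ResidueField O)[ε] (dc j)) (Rtot.coeff i) := by
    rw [s27h_evalR, coeff_map]
    rfl
  rw [hL, s27h_eval₂_firstOrder, coeff_add, coeff_map, coeff_C_mul, coeff_map,
    s27h_evalR_zero_coeff, finset_sum_coeff]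
  simp only [coeff_C_mul, coeff_map, s27h_lin_coeff]

end FirstOrderR

section Main

variable {K : Type*} [Field K] (O : ValuationSubring K) {M g ℓ : ℕ}

/-- the tangent hypothesis of the core -/
def s27h_Tangent (Rtot : (MvPolynomial (Fin M) O)[X]) (ℓ g : ℕ) (e0 : O[X]) : Prop :=
  ∀ (dc : Fin M → ResidueField O) (de : Fin g → ResidueField O),
    (∑ j, C (dc j) * (s27h_lin Rtot j).map (residue O))
      - C (∑ j, dc j * ((s27h_lin Rtot j).map (residue O)).coeff (ℓ * g))
        * (e0.map (residue O)) ^ ℓ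
      = C ((ℓ : ℕ) : ResidueField O) * (e0.map (residue O)) ^ (ℓ - 1)
        * ∑ j : Fin g, C (de j) * X ^ (j : ℕ)
    → dc = 0 ∧ de = 0

variable (hMg : M + g = ℓ * g) (Rtot : (MvPolynomial (Fin M) O)[X])
  (hdeg : Rtot.natDegree ≤ ℓ * g) (e0 : O[X]) (he0 : e0.Monic) (hg : e0.natDegree = g)
  (hbase : (s27h_evalR Rtot (0 : Fin M → O)).map (residue O) = (e0.map (residue O)) ^ ℓ)

/-- the base point -/
noncomputable def s27h_base : Fin (ℓ * g) → O :=
  s27h_pt hMg (0 : Fin M → O) (fun j : Fin g => e0.coeff (j : ℕ))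

include he0 hg in
theorem s27h_base_monic :
    s27h_monic g (s27h_base O hMg e0 ∘ s27h_ev hMg) = e0 := by
  rw [s27h_base, s27h_pt_ev]
  exact (s27h_eq_monic he0 hg).symm

include he0 hg hbase in
theorem s27h_top_residue :
    residue O ((s27h_evalR Rtot (0 : Fin M → O)).coeff (ℓ * g)) = 1 := by
  have h1 : ((s27h_evalR Rtot (0 : Fin M → O)).map (residue O)).coeff (ℓ * g) = 1 := by
    rw [hbase]
    have hm : ((e0.map (residue O)) ^ ℓ).Monic := (he0.map _).pow ℓ
    have hd : ((e0.map (residue O)) ^ ℓ).natDegree = ℓ * g := by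
      rw [(he0.map _).natDegree_pow, he0.natDegree_map, hg]
    have := hm.coeff_natDegree
    rwa [hd] at this
  rwa [coeff_map] at h1

include he0 hg hbase in
/-- the base point solves the system modulo `m` -/
theorem s27h_base_mem (i : Fin (ℓ * g)) :
    MvPolynomial.eval (s27h_base O hMg e0) (s27h_G hMg Rtot i) ∈ maximalIdeal O := by
  rw [← residue_eq_zero_iff]
  have h1 := s27h_G_aeval hMg Rtot (s27h_base O hMg e0) i
  rw [MvPolynomial.aeval_eq_eval] at h1
  rw [h1, s27h_base_monic O hMg e0 he0 hg, s27h_base, s27h_pt_cv, ← coeff_map, Polynomial.map_sub,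
    Polynomial.map_mul, Polynomial.map_pow, Polynomial.map_C, hbase,
    s27h_top_residue O Rtot e0 he0 hg hbase, map_one, one_mul, sub_self, coeff_zero]

include hdeg he0 hg hbase in
/-- the Jacobian determinant at the base point is a unit, by the tangent hypothesis -/
theorem s27h_base_isUnit_det (htan : s27h_Tangent O Rtot ℓ g e0) :
    IsUnit (Matrix.det (Matrix.of fun i j =>
      MvPolynomial.eval (s27h_base O hMg e0) (MvPolynomial.pderiv j (s27h_G hMg Rtot i)))) := by
  classical
  apply s27h_isUnit_det_of_tangent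
  intro v hv
  set φ := s27h_phi O with hφ
  set ι := algebraMap (ResidueField O) (ResidueField O)[ε] with hι
  set dc : Fin M → ResidueField O := v ∘ s27h_cv hMg with hdc
  set de : Fin g → ResidueField O := v ∘ s27h_ev hMg with hde
  set pt : Fin (ℓ * g) → (ResidueField O)[ε] :=
    fun j => φ (s27h_base O hMg e0 j) + ε * ι (v j) with hpt
  have hptc : pt ∘ s27h_cv hMg = fun j => (ε : (ResidueField O)[ε]) * ι (dc j) := by
    funext j
    have h0 : s27h_base O hMg e0 (s27h_cv hMg j) = 0 :=
      congrFun (s27h_pt_cv hMg (0 : Fin M → O) (fun j : Fin g => e0.coeff (j : ℕ))) j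
    simp only [hpt, Function.comp_apply, h0, map_zero, zero_add, hdc]
  have hpte : pt ∘ s27h_ev hMg = fun j : Fin g => φ (e0.coeff (j : ℕ)) + ε * ι (de j) := by
    funext j
    have h0 : s27h_base O hMg e0 (s27h_ev hMg j) = e0.coeff (j : ℕ) :=
      congrFun (s27h_pt_ev hMg (0 : Fin M → O) (fun j : Fin g => e0.coeff (j : ℕ))) j
    simp only [hpt, Function.comp_apply, h0, hde]
  set e0b := e0.map (residue O) with he0b
  set deP : (ResidueField O)[X] := ∑ j : Fin g, C (de j) * X ^ (j : ℕ) with hdeP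
  set R1k : (ResidueField O)[X] := ∑ j, C (dc j) * (s27h_lin Rtot j).map (residue O) with hR1k
  set τ : ResidueField O :=
    ∑ j, dc j * ((s27h_lin Rtot j).map (residue O)).coeff (ℓ * g) with hτ
  set Y : (ResidueField O)[X] :=
    R1k - C τ * e0b ^ ℓ - C ((ℓ : ℕ) : ResidueField O) * e0b ^ (ℓ - 1) * deP with hY
  have hR1kτ : R1k.coeff (ℓ * g) = τ := by
    rw [hR1k, finset_sum_coeff]
    simp only [coeff_C_mul, hτ]
  have hmapφ : e0.map φ = e0b.map ι := by
    rw [he0b, Polynomial.map_map]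
    rfl
  -- the generic monic polynomial at the deformed point
  have hmon : s27h_monic g (pt ∘ s27h_ev hMg) = e0.map φ + C (ε : (ResidueField O)[ε]) * deP.map ι := by
    rw [hpte]
    have h1 : e0.map φ = s27h_monic g (fun j : Fin g => φ (e0.coeff (j : ℕ))) := by
      rw [← s27h_monic_map, ← s27h_eq_monic he0 hg]
    rw [h1, s27h_monic, s27h_monic, hdeP, Polynomial.map_sum, Finset.mul_sum, add_assoc,
      ← Finset.sum_add_distrib]
    congr 1
    refine Finset.sum_congr rfl fun j _ => ?_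
    rw [Polynomial.map_mul, Polynomial.map_C, Polynomial.map_pow, Polynomial.map_X, C_add, C_mul]
    ring
  have hEE : C (ε : (ResidueField O)[ε]) * C (ε : (ResidueField O)[ε]) = 0 := by
    rw [← C_mul, DualNumber.eps_mul_eps, C_0]
  have hφt : φ ((s27h_evalR Rtot (0 : Fin M → O)).coeff (ℓ * g)) = 1 := by
    show ι (residue O _) = 1
    rw [s27h_top_residue O Rtot e0 he0 hg hbase, map_one]
  -- the key identity
  have hkey : (s27h_evalR Rtot (pt ∘ s27h_cv hMg)
        - C ((s27h_evalR Rtot (pt ∘ s27h_cv hMg)).coeff (ℓ * g))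
          * (s27h_monic g (pt ∘ s27h_ev hMg)) ^ ℓ)
      - (s27h_evalR Rtot (0 : Fin M → O)
          - C ((s27h_evalR Rtot (0 : Fin M → O)).coeff (ℓ * g)) * e0 ^ ℓ).map φ
      = C (ε : (ResidueField O)[ε]) * Y.map ι := by
    rw [hptc, s27h_evalR_firstOrder, hmon, s27h_add_eps_pow hEE, ← hR1k]
    have htop : (Polynomial.map (s27h_phi O) (s27h_evalR Rtot (0 : Fin M → O)) +
        C (ε : (ResidueField O)[ε]) * R1k.map ι).coeff (ℓ * g) = 1 + ε * ι τ := by
      rw [coeff_add, coeff_map, coeff_C_mul, coeff_map, hR1kτ]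
      rw [← hφ, hφt]
    rw [htop, Polynomial.map_sub, Polynomial.map_mul, Polynomial.map_C, Polynomial.map_pow, ← hφ,
      hφt, hY, Polynomial.map_sub, Polynomial.map_sub, Polynomial.map_mul, Polynomial.map_mul,
      Polynomial.map_mul, Polynomial.map_pow, Polynomial.map_pow, Polynomial.map_C,
      Polynomial.map_C, ← hmapφ, map_natCast, C_add, C_mul, C_1]
    have hnat : (C ((ℓ : ℕ) : (ResidueField O)[ε]) : (ResidueField O)[ε][X]) = (ℓ : (ResidueField O)[ε][X]) :=
      by simp
    rw [hnat]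
    linear_combination (-(C (ι τ) * (ℓ : (ResidueField O)[ε][X]) * (e0.map φ) ^ (ℓ - 1) * deP.map ι)) * hEE
  -- all coefficients of `Y` vanish
  have hYzero : Y = 0 := by
    refine Polynomial.ext fun i => ?_
    rw [coeff_zero]
    by_cases hi : i < ℓ * g
    · have h1 := s27h_G_aeval hMg Rtot pt ⟨i, hi⟩
      have h2 := s27h_G_aeval hMg Rtot (s27h_base O hMg e0) ⟨i, hi⟩
      rw [MvPolynomial.aeval_eq_eval, s27h_base_monic O hMg e0 he0 hg] at h2
      have h2' : s27h_base O hMg e0 ∘ s27h_cv hMg = (0 : Fin M → O) := by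
        rw [s27h_base, s27h_pt_cv]
      rw [h2'] at h2
      have h3 := hv ⟨i, hi⟩
      have h4 : MvPolynomial.aeval pt (s27h_G hMg Rtot ⟨i, hi⟩) =
          MvPolynomial.eval₂ φ pt (s27h_G hMg Rtot ⟨i, hi⟩) := by
        rw [MvPolynomial.aeval_def]; rfl
      rw [← h4, h1, h2] at h3
      have h5 := congrArg (fun p => p.coeff i) hkey
      simp only [coeff_sub, coeff_map, coeff_C_mul] at h5
      have h6 : (ε : (ResidueField O)[ε]) * ι (Y.coeff i) = 0 := by
        rw [← h5, sub_eq_zero]
        simpa only [coeff_sub, coeff_C_mul] using h3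
      exact s27h_eps_mul_inl_eq_zero h6
    · have hi' : ℓ * g ≤ i := not_lt.mp hi
      -- degree considerations
      have hm : (e0b ^ ℓ).Monic := (he0.map _).pow ℓ
      have hd : (e0b ^ ℓ).natDegree = ℓ * g := by
        rw [he0b, (he0.map _).natDegree_pow, he0.natDegree_map, hg]
      have hR1deg : R1k.natDegree ≤ ℓ * g := by
        rw [hR1k]
        refine natDegree_sum_le_of_forall_le _ _ fun j _ => ?_
        refine (natDegree_C_mul_le _ _).trans (natDegree_map_le.trans ?_)
        exact (s27h_lin_natDegree_le Rtot j).trans hdeg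
      have hZ : (C ((ℓ : ℕ) : ResidueField O) * e0b ^ (ℓ - 1) * deP).coeff i = 0 := by
        rcases Nat.eq_zero_or_pos g with hg0 | hgpos
        · have : deP = 0 := by
            rw [hdeP]
            subst hg0
            simp
          rw [this, mul_zero, coeff_zero]
        · have hℓpos : 0 < ℓ := by
            rcases Nat.eq_zero_or_pos ℓ with h0 | h0
            · rw [h0, zero_mul] at hMg; omega
            · exact h0
          apply coeff_eq_zero_of_natDegree_lt
          have hdP : deP.natDegree ≤ g - 1 := by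
            rw [hdeP]
            refine natDegree_sum_le_of_forall_le _ _ fun j _ => ?_
            refine (natDegree_C_mul_le _ _).trans ((natDegree_X_pow_le _).trans ?_)
            have := j.2
            omega
          have hdE : (e0b ^ (ℓ - 1)).natDegree = (ℓ - 1) * g := by
            rw [he0b, (he0.map _).natDegree_pow, he0.natDegree_map, hg]
          have h5 : (C ((ℓ : ℕ) : ResidueField O) * e0b ^ (ℓ - 1) * deP).natDegree ≤
              (ℓ - 1) * g + (g - 1) := by
            refine natDegree_mul_le.trans (add_le_add ?_ hdP)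
            exact (natDegree_C_mul_le _ _).trans hdE.le
          have h6 : (ℓ - 1) * g + g = ℓ * g := by
            rw [← Nat.succ_mul, Nat.succ_eq_add_one, Nat.sub_add_cancel hℓpos]
          omega
      rw [hY, coeff_sub, coeff_sub, hZ, sub_zero, coeff_C_mul]
      rcases hi'.eq_or_lt with h | h
      · rw [← h, hR1kτ]
        have : (e0b ^ ℓ).coeff (ℓ * g) = 1 := by
          have := hm.coeff_natDegree
          rwa [hd] at this
        rw [this, mul_one, sub_self]
      · rw [coeff_eq_zero_of_natDegree_lt (hR1deg.trans_lt h),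
          coeff_eq_zero_of_natDegree_lt (by rw [hd]; exact h), mul_zero, sub_self]
  -- apply the tangent hypothesis
  have h7 : R1k - C τ * e0b ^ ℓ = C ((ℓ : ℕ) : ResidueField O) * e0b ^ (ℓ - 1) * deP := by
    rw [hY] at hYzero
    exact sub_eq_zero.mp hYzero
  obtain ⟨hdc0, hde0⟩ := htan dc de h7
  funext i
  rcases s27h_cv_or_ev hMg i with ⟨j, rfl⟩ | ⟨j, rfl⟩
  · exact congrFun hdc0 j
  · exact congrFun hde0 j

include hMg hdeg he0 hg hbase in
/-- **The abstract core of Steps 4-6 of (HENS).**  If `Rtot(0) ≡ e0^ℓ` modulo `m` and the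
tangent hypothesis holds, there is a unique `(c, e)` with `c ∈ m^M`, `e` monic of degree `g`,
`e ≡ e0` modulo `m`, and `Rtot(c) = top(c) · e^ℓ`. -/
theorem s27h_core [IsAlgClosed K] (htan : s27h_Tangent O Rtot ℓ g e0) :
    ∃! ce : (Fin M → O) × O[X], (∀ j, ce.1 j ∈ maximalIdeal O) ∧ ce.2.Monic ∧
      ce.2.natDegree = g ∧ ce.2.map (residue O) = e0.map (residue O) ∧
      s27h_IsSol Rtot ℓ g ce.1 ce.2 := by
  classical
  obtain ⟨b, ⟨hb1, hb2⟩, hbu⟩ := s27h_mvHensel O (s27h_G hMg Rtot) (s27h_base O hMg e0)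
    (s27h_base_mem O hMg Rtot e0 he0 hg hbase)
    (s27h_base_isUnit_det O hMg Rtot hdeg e0 he0 hg hbase htan)
  have hbc : ∀ j, s27h_base O hMg e0 (s27h_cv hMg j) = 0 := fun j =>
    congrFun (s27h_pt_cv hMg (0 : Fin M → O) (fun j : Fin g => e0.coeff (j : ℕ))) j
  have hbe : ∀ j, s27h_base O hMg e0 (s27h_ev hMg j) = e0.coeff (j : ℕ) := fun j =>
    congrFun (s27h_pt_ev hMg (0 : Fin M → O) (fun j : Fin g => e0.coeff (j : ℕ))) j
  -- residues of monic polynomials
  have hres : ∀ (ε' : Fin g → O), (∀ j, ε' j - e0.coeff (j : ℕ) ∈ maximalIdeal O) →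
      (s27h_monic g ε').map (residue O) = e0.map (residue O) := by
    intro ε' h
    conv_rhs => rw [s27h_eq_monic he0 hg]
    rw [s27h_monic_map, s27h_monic_map]
    congr 1
    funext j
    have := h j
    rw [← residue_eq_zero_iff, map_sub, sub_eq_zero] at this
    exact this
  refine ⟨(b ∘ s27h_cv hMg, s27h_monic g (b ∘ s27h_ev hMg)), ⟨?_, ?_, ?_, ?_, ?_⟩, ?_⟩
  · intro j
    have := hb1 (s27h_cv hMg j)
    rwa [hbc, sub_zero] at this
  · exact (s27h_monic_monic _).1
  · exact (s27h_monic_monic _).2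
  · apply hres
    intro j
    have := hb1 (s27h_ev hMg j)
    rwa [hbe] at this
  · apply (s27h_G_eq_zero_iff hMg Rtot hdeg b).mp
    intro i
    rw [MvPolynomial.aeval_eq_eval]
    exact hb2 i
  · rintro ⟨c', e'⟩ ⟨h1, h2, h3, h4, h5⟩
    simp only at h1 h2 h3 h4 h5
    set b' : Fin (ℓ * g) → O := s27h_pt hMg c' (fun j : Fin g => e'.coeff (j : ℕ)) with hb'
    have hc' : b' ∘ s27h_cv hMg = c' := s27h_pt_cv hMg _ _
    have he' : s27h_monic g (b' ∘ s27h_ev hMg) = e' := by
      rw [hb', s27h_pt_ev]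
      exact (s27h_eq_monic h2 h3).symm
    have hbb : b' = b := by
      apply hbu
      refine ⟨?_, ?_⟩
      · intro i
        rcases s27h_cv_or_ev hMg i with ⟨j, rfl⟩ | ⟨j, rfl⟩
        · rw [hbc, sub_zero]
          have : b' (s27h_cv hMg j) = c' j := congrFun hc' j
          rw [this]
          exact h1 j
        · rw [hbe]
          have : b' (s27h_ev hMg j) = e'.coeff (j : ℕ) :=
            congrFun (s27h_pt_ev hMg c' (fun j : Fin g => e'.coeff (j : ℕ))) j
          rw [this, ← residue_eq_zero_iff, map_sub, sub_eq_zero, ← coeff_map, ← coeff_map, h4]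
      · intro i
        rw [← MvPolynomial.aeval_eq_eval]
        revert i
        rw [s27h_G_eq_zero_iff hMg Rtot hdeg b', hc', he']
        exact h5
    rw [← hc', ← he', hbb]

end Main

end Fermat.Agent.S27
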