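import Mathlib
import Fermat.Agent.S27.Red.Final
import Fermat.Agent.S27.Hens.CoreMain
import Fermat.Agent.JT3.Places.CharFree

/-!
# S27 / (HENS): shared definitions for the cells of Steps 2-6

* `s27h_divOf Q`   : the divisor `Q_1 + … + Q_g` of a tuple of places;
* `s27h_ePoly ξ`   : the monic polynomial `∏ (X - ξ_i)`;
* `s27h_IsFrame xb Pb a` : the frame chosen on the residue curve (Step 2): `g` places `Pb_i` of `Fb`,
  unramified for `xb`, with pairwise distinct values `a_i = xb(Pb_i)`, and non-special: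
  `l(m (Pb_1 + … + Pb_g)) = (m - 1) g + 1` for all `m ≥ 1`.
-/

set_option autoImplicit false

namespace Fermat.Agent.S27

open AlgebraicCurve IntermediateField Polynomial Fermat.Agent.JT3

universe u v u' v'
variable {K : Type u} {F : Type v} [Field K] [Field F] [Algebra K F]
variable {k : Type u'} {Fb : Type v'} [Field k] [Field Fb] [Algebra k Fb]

/-- `Q_1 + … + Q_g` -/
noncomputable def s27h_divOf {g : ℕ} (Q : Fin g → Place K F) : Divisor K F :=
  ∑ i, Finsupp.single (Q i) (1 : ℤ)

/-- `∏ (X - ξ_i)` -/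
noncomputable def s27h_ePoly {A : Type*} [CommRing A] {g : ℕ} (ξ : Fin g → A) : A[X] :=
  ∏ i, (X - C (ξ i))

/-- the frame on the residue curve (Step 2 of (HENS)) -/
structure s27h_IsFrame (xb : Fb) {g : ℕ} (Pb : Fin g → Place k Fb) (a : Fin g → k) : Prop where
  a_inj : Function.Injective a
  ord_eq : ∀ i, (Pb i).ord (xb - algebraMap k Fb (a i)) = 1
  l_eq : ∀ m : ℕ, 1 ≤ m →
    Module.finrank k ↥(riemannRochSpace (m • s27h_divOf Pb)) = (m - 1) * g + 1

theorem s27h_ePoly_monic {A : Type*} [CommRing A] [Nontrivial A] {g : ℕ} (ξ : Fin g → A) :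
    (s27h_ePoly ξ).Monic :=
  monic_prod_of_monic _ _ fun i _ => monic_X_sub_C (ξ i)

theorem s27h_ePoly_natDegree {A : Type*} [CommRing A] [Nontrivial A] {g : ℕ} (ξ : Fin g → A) :
    (s27h_ePoly ξ).natDegree = g := by
  rw [s27h_ePoly, natDegree_prod_of_monic _ _ fun i _ => monic_X_sub_C (ξ i)]
  simp

theorem s27h_ePoly_map {A B : Type*} [CommRing A] [CommRing B] (f : A →+* B) {g : ℕ}
    (ξ : Fin g → A) : (s27h_ePoly ξ).map f = s27h_ePoly (fun i => f (ξ i)) := by
  simp [s27h_ePoly, Polynomial.map_prod]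

theorem s27h_IsFrame.Pb_injective {xb : Fb} {g : ℕ} {Pb : Fin g → Place k Fb} {a : Fin g → k}
    (hfr : s27h_IsFrame xb Pb a) : Function.Injective Pb := by
  intro i j hij
  apply hfr.a_inj
  have h1 := hfr.ord_eq i
  have h2 := hfr.ord_eq j
  rw [hij] at h1
  exact pcf_const_unique (x := xb) (Pb j) (by rw [h1]; exact one_pos) (by rw [h2]; exact one_pos)

end Fermat.Agent.S27
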