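import Mathlib
import Fermat.Agent.S27.Hens.CoreMain

/-!
# S27 / (HENS): auxiliary lemmas for the final assembly (`Hens/Solve.lean`)

* transfer between the residue field `ResidueField O` and an abstract residue field `k` given by
  a surjective ring hom `r0 : O →+* k` (prefix `s27hv_`);
* the tangent hypothesis of `s27h_core` from its `k`-form.
-/

set_option autoImplicit false

namespace Fermat.Agent.S27

open Polynomial IsLocalRing

section Transfer

variable {K : Type*} [Field K] (O : ValuationSubring K) {k : Type*} [Field k] (r0 : O →+* k)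
  (hr0 : Function.Surjective r0)

include hr0 in
theorem s27hv_r0_eq_zero_iff (a : O) : r0 a = 0 ↔ a ∈ maximalIdeal O := by
  have hmax : (RingHom.ker r0).IsMaximal := RingHom.ker_isMaximal_of_surjective r0 hr0
  have heq : RingHom.ker r0 = maximalIdeal O := IsLocalRing.eq_maximalIdeal hmax
  rw [← heq, RingHom.mem_ker]

/-- the isomorphism `ResidueField O → k` induced by `r0` (as a ring hom) -/
noncomputable def s27hv_iota : ResidueField O →+* k :=
  Ideal.Quotient.lift (maximalIdeal O) r0 fun a ha => (s27hv_r0_eq_zero_iff O r0 hr0 a).2 ha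

theorem s27hv_iota_residue (a : O) : s27hv_iota O r0 hr0 (residue O a) = r0 a := rfl

theorem s27hv_iota_injective : Function.Injective (s27hv_iota O r0 hr0) :=
  RingHom.injective _

theorem s27hv_map_iota (p : O[X]) :
    (p.map (residue O)).map (s27hv_iota O r0 hr0) = p.map r0 := by
  rw [Polynomial.map_map]
  rfl

include hr0 in
theorem s27hv_map_eq_iff (p q : O[X]) :
    p.map (residue O) = q.map (residue O) ↔ p.map r0 = q.map r0 := by
  constructor
  · intro h
    rw [← s27hv_map_iota O r0 hr0, ← s27hv_map_iota O r0 hr0 q, h]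
  · intro h
    apply Polynomial.map_injective _ (s27hv_iota_injective O r0 hr0)
    rw [s27hv_map_iota, s27hv_map_iota, h]

include hr0 in
/-- the tangent hypothesis of `s27h_core` from its `k`-form -/
theorem s27hv_tangent_of_r0 {M g ℓ : ℕ} (Rtot : (MvPolynomial (Fin M) O)[X]) (e0 : O[X])
    (H : ∀ (dc : Fin M → k) (de : Fin g → k),
      (∑ j, C (dc j) * (s27h_lin Rtot j).map r0)
        - C (∑ j, dc j * ((s27h_lin Rtot j).map r0).coeff (ℓ * g)) * (e0.map r0) ^ ℓ
        = C ((ℓ : ℕ) : k) * (e0.map r0) ^ (ℓ - 1) * ∑ j : Fin g, C (de j) * X ^ (j : ℕ) →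
      dc = 0 ∧ de = 0) :
    s27h_Tangent O Rtot ℓ g e0 := by
  intro dc de heq
  set ι := s27hv_iota O r0 hr0 with hι
  have hc : ∀ (j : Fin M) (n : ℕ), ι (((s27h_lin Rtot j).map (residue O)).coeff n) =
      ((s27h_lin Rtot j).map r0).coeff n := by
    intro j n
    rw [← Polynomial.coeff_map, hι, s27hv_map_iota]
  have h1 := congrArg (Polynomial.map ι) heq
  simp only [Polynomial.map_sub, Polynomial.map_mul, Polynomial.map_sum, Polynomial.map_C,
    Polynomial.map_pow, Polynomial.map_X, map_natCast, map_sum, map_mul, hc] at h1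
  rw [hι] at h1
  simp only [s27hv_map_iota] at h1
  rw [← hι] at h1
  have h1' : (∑ j, C (ι (dc j)) * (s27h_lin Rtot j).map r0)
        - C (∑ j, ι (dc j) * ((s27h_lin Rtot j).map r0).coeff (ℓ * g)) * (e0.map r0) ^ ℓ
        = C ((ℓ : ℕ) : k) * (e0.map r0) ^ (ℓ - 1) * ∑ j : Fin g, C (ι (de j)) * X ^ (j : ℕ) := by
    simp only [map_sum, map_mul, Polynomial.map_natCast, map_natCast] at h1 ⊢
    exact h1
  obtain ⟨h2, h3⟩ := H (fun j => ι (dc j)) (fun j => ι (de j)) h1'
  refine ⟨?_, ?_⟩
  · funext j
    apply s27hv_iota_injective O r0 hr0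
    rw [← hι, Pi.zero_apply, map_zero]
    exact congrFun h2 j
  · funext j
    apply s27hv_iota_injective O r0 hr0
    rw [← hι, Pi.zero_apply, map_zero]
    exact congrFun h3 j

end Transfer

end Fermat.Agent.S27
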