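/-
Project S27, cell (HENS) H8-b (helper3): coefficientwise membership over an infinite field.
Prefix `s27hc_`.  Namespace `Fermat.Agent.S27`.  Mathlib only.

`K` an infinite field, `V` a `K`-vector space, `U ≤ V` a subspace, `R_α ∈ V` finitely many vectors
indexed by exponents `α`.  If `∑_α c^α • R_α ∈ U` for EVERY point `c : σ → K`, then every `R_α ∈ U`
(`s27hc_coeff_mem`).  Application ((HENS) Step 4): `V = F`, `U = K[x]_{≤ ℓ g}`, `R_α = S · N_α`.

* `s27hc_coeff_mem`          : the `Finset` form;
* `s27hc_coeff_mem_finsupp`  : the `Finsupp` form (`P : (σ →₀ ℕ) →₀ V`);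
* `s27hc_coeff_mem_mvPolynomial` : `V = A` a `K`-algebra, `P : MvPolynomial σ A`,
  `∀ c, aeval-like evaluation at `algebraMap K A ∘ c` lies in `U` ⟹ all coefficients lie in `U`.
-/
import Mathlib

set_option autoImplicit false

namespace Fermat.Agent.S27

open MvPolynomial

variable {K : Type*} [Field K] [Infinite K] {V : Type*} [AddCommGroup V] [Module K V]
  {σ : Type*}

/-- **coefficientwise membership**: a `V`-valued polynomial map `c ↦ ∑_α c^α • R_α` on `K^σ` with all
values in a subspace `U` has all its coefficients in `U`. -/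
theorem s27hc_coeff_mem (U : Submodule K V) (s : Finset (σ →₀ ℕ)) (R : (σ →₀ ℕ) → V)
    (h : ∀ c : σ → K, ∑ α ∈ s, (α.prod fun i n => c i ^ n) • R α ∈ U) :
    ∀ α ∈ s, R α ∈ U := by
  classical
  intro α₀ hα₀
  by_contra hnot
  obtain ⟨f, hf, hfU⟩ := Submodule.exists_dual_map_eq_bot_of_notMem hnot inferInstance
  have hfU' : ∀ u ∈ U, f u = 0 := by
    intro u hu
    have : f u ∈ U.map f := Submodule.mem_map_of_mem hu
    rw [hfU] at this
    exact (Submodule.mem_bot K).1 this
  set P : MvPolynomial σ K := ∑ α ∈ s, monomial α (f (R α)) with hP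
  have hzero : P = 0 := by
    apply MvPolynomial.funext
    intro c
    rw [hP, map_sum, map_zero]
    have h1 := hfU' _ (h c)
    rw [map_sum] at h1
    rw [← h1]
    refine Finset.sum_congr rfl fun α _ => ?_
    rw [eval_monomial, map_smul, smul_eq_mul, mul_comm]
  have hcoeff : coeff α₀ P = f (R α₀) := by
    rw [hP, coeff_sum]
    rw [Finset.sum_eq_single α₀]
    · rw [coeff_monomial, if_pos rfl]
    · intro β _ hβ
      rw [coeff_monomial, if_neg hβ]
    · intro hn
      exact absurd hα₀ hn
  rw [hzero, coeff_zero] at hcoeff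
  exact hf hcoeff.symm

/-- the `Finsupp` form. -/
theorem s27hc_coeff_mem_finsupp (U : Submodule K V) (P : (σ →₀ ℕ) →₀ V)
    (h : ∀ c : σ → K, (P.sum fun α v => (α.prod fun i n => c i ^ n) • v) ∈ U) :
    ∀ α, P α ∈ U := by
  classical
  intro α
  by_cases hα : α ∈ P.support
  · exact s27hc_coeff_mem U P.support (fun α => P α) (fun c => h c) α hα
  · rw [Finsupp.notMem_support_iff.1 hα]
    exact U.zero_mem

/-- the `MvPolynomial` form: `A` a commutative `K`-algebra, `U` a `K`-subspace of `A`, `P` a polynomial
over `A` whose values at all `K`-rational points lie in `U`.  Then all coefficients of `P` lie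
in `U`. -/
theorem s27hc_coeff_mem_mvPolynomial {A : Type*} [CommRing A] [Algebra K A] (U : Submodule K A)
    (P : MvPolynomial σ A)
    (h : ∀ c : σ → K, MvPolynomial.eval (fun i => algebraMap K A (c i)) P ∈ U) :
    ∀ α, coeff α P ∈ U := by
  classical
  intro α
  by_cases hα : α ∈ P.support
  · refine s27hc_coeff_mem U P.support (fun α => coeff α P) (fun c => ?_) α hα
    have h1 := h c
    rw [MvPolynomial.eval_eq] at h1
    convert h1 using 1
    refine Finset.sum_congr rfl fun β _ => ?_
    rw [Algebra.smul_def, mul_comm, Finsupp.prod, map_prod]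
    congr 1
    refine Finset.prod_congr rfl fun i _ => ?_
    rw [map_pow]
  · rw [MvPolynomial.notMem_support_iff.1 hα]
    exact U.zero_mem

end Fermat.Agent.S27
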