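/-
S27 lottery, (HENS) cell H2' NORMRED, the ADAPTER (helper5; prefix `s27hn_`): the abstract results of
`Hens/NormRed.lean` instantiated at helper12's Gauss reduction `s27r_gaussRed` with his orthonormal basis
`s27r_exists_orthoBasis`.  For `R : s27r_Red K F k Fb`, `h : s27r_Good R x`, `K1 = K⟮x⟯`, `k1 = k⟮r x⟯`,
`V1 = s27r_V1 R x = V ∩ K⟮x⟯`, `r1 = s27r_r1 R … : V1 → k⟮r x⟯`:

* `s27hn_norm_red`  : `N_{F/K(x)} f ∈ V1` and `r1 (N f) = N_{Fb/k(x̄)} (r f)`  for `f ∈ V`;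
* `s27hn_trace_red` : the same for the trace;
* `s27hn_norm_poly` : det-polynomiality: ONE polynomial `P ∈ V1[c_j]`, of total degree `≤ [Fb : k(x̄)]`, with
  `N(w₀ + ∑ c_j w_j) = P(c)` on `K(x)^ι`, `N(r w₀ + ∑ c̄_j r w_j) = (r1 P)(c̄)` on `k(x̄)^ι`,
  `P(0) = N(w₀)`, and (if `w₀ = 1`) linear coefficients `Tr(w_j)`, reducing to `Tr(r w_j)`.
-/
import Mathlib
import Fermat.Agent.S27.Hens.NormRed
import Fermat.Agent.S27.Red.OrthoBasis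

set_option autoImplicit false
set_option linter.unusedSectionVars false
set_option linter.unusedVariables false

namespace Fermat.Agent.S27

open AlgebraicCurve IntermediateField Polynomial Fermat.Agent.JT3

universe u v u' v'
variable {K : Type u} {F : Type v} [Field K] [Field F] [Algebra K F]
variable {k : Type u'} {Fb : Type v'} [Field k] [Field Fb] [Algebra k Fb]
variable (R : s27r_Red K F k Fb) {x : F}

/-- the data consumed by `Hens/NormRed.lean`, from `s27r_Good`. -/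
theorem s27hn_exists_data (h : s27r_Good R x) :
    ∃ (ω : Module.Basis (Fin (Module.finrank k⟮R.r ⟨x, h.x_mem⟩⟯ Fb)) K⟮x⟯ F)
      (hωV : ∀ i, ω i ∈ R.V)
      (ωb : Module.Basis (Fin (Module.finrank k⟮R.r ⟨x, h.x_mem⟩⟯ Fb)) k⟮R.r ⟨x, h.x_mem⟩⟯ Fb),
      (∀ c : Fin (Module.finrank k⟮R.r ⟨x, h.x_mem⟩⟯ Fb) → K⟮x⟯,
        (∑ i, c i • ω i) ∈ R.V ↔ ∀ i, c i ∈ s27r_V1 R x) ∧
      (∀ i, ωb i = R.r ⟨ω i, hωV i⟩) := by
  have hx := h.x_mem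
  have hxb : Transcendental k (R.r ⟨x, hx⟩) := h.sepk.1
  have : FiniteDimensional k⟮R.r ⟨x, hx⟩⟯ Fb := h.sepk.2.1
  obtain ⟨ω, ωb, h1, h2, -⟩ := s27r_exists_orthoBasis (s27r_gaussRed R hx hxb) h.deg_eq
  exact ⟨ω, fun i => (h1 i).1, ωb, h2, fun i => ((h1 i).2).symm⟩

/-- **reduction of the norm** for a good reduction. -/
theorem s27hn_norm_red (h : s27r_Good R x) {f : F} (hf : f ∈ R.V) :
    ∃ hN : Algebra.norm K⟮x⟯ f ∈ s27r_V1 R x,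
      s27r_r1 R h.x_mem h.sepk.1 ⟨Algebra.norm K⟮x⟯ f, hN⟩ =
        Algebra.norm k⟮R.r ⟨x, h.x_mem⟩⟯ (R.r ⟨f, hf⟩) := by
  obtain ⟨ω, hωV, ωb, hω, hωb⟩ := s27hn_exists_data R h
  exact ⟨s27h_norm_mem R.V (s27r_V1 R x) ω hωV hω hf,
    s27h_norm_red R.V (s27r_V1 R x) (fun _ => Iff.rfl) R.r (s27r_r1 R h.x_mem h.sepk.1)
      (fun _ => rfl) ω hωV hω ωb hωb hf⟩

/-- **reduction of the trace** for a good reduction. -/
theorem s27hn_trace_red (h : s27r_Good R x) {f : F} (hf : f ∈ R.V) :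
    ∃ hT : Algebra.trace K⟮x⟯ F f ∈ s27r_V1 R x,
      s27r_r1 R h.x_mem h.sepk.1 ⟨Algebra.trace K⟮x⟯ F f, hT⟩ =
        Algebra.trace k⟮R.r ⟨x, h.x_mem⟩⟯ Fb (R.r ⟨f, hf⟩) := by
  obtain ⟨ω, hωV, ωb, hω, hωb⟩ := s27hn_exists_data R h
  exact ⟨s27h_trace_mem R.V (s27r_V1 R x) ω hωV hω hf,
    s27h_trace_red R.V (s27r_V1 R x) (fun _ => Iff.rfl) R.r (s27r_r1 R h.x_mem h.sepk.1)
      (fun _ => rfl) ω hωV hω ωb hωb hf⟩

/-- **det-polynomiality** for a good reduction: one polynomial over `V1 = V ∩ K⟮x⟯` computes the norm of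
the affine family `w₀ + ∑ c_j w_j` on the generic AND on the special fibre. -/
theorem s27hn_norm_poly (h : s27r_Good R x) {ι : Type*} [Fintype ι] [DecidableEq ι] {w₀ : F}
    (hw₀ : w₀ ∈ R.V) {w : ι → F} (hw : ∀ j, w j ∈ R.V) :
    ∃ P : MvPolynomial ι (s27r_V1 R x),
      P.totalDegree ≤ Module.finrank k⟮R.r ⟨x, h.x_mem⟩⟯ Fb ∧
      (∀ c : ι → K⟮x⟯, Algebra.norm K⟮x⟯ (w₀ + ∑ j, c j • w j) =
        MvPolynomial.eval₂ (s27r_V1 R x).subtype c P) ∧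
      (∀ cb : ι → k⟮R.r ⟨x, h.x_mem⟩⟯,
        Algebra.norm k⟮R.r ⟨x, h.x_mem⟩⟯ (R.r ⟨w₀, hw₀⟩ + ∑ j, cb j • R.r ⟨w j, hw j⟩) =
          MvPolynomial.eval₂ (s27r_r1 R h.x_mem h.sepk.1) cb P) ∧
      (((MvPolynomial.coeff 0 P : s27r_V1 R x) : K⟮x⟯) = Algebra.norm K⟮x⟯ w₀) ∧
      (w₀ = 1 → ∀ j, ((MvPolynomial.coeff (Finsupp.single j 1) P : s27r_V1 R x) : K⟮x⟯) =
          Algebra.trace K⟮x⟯ F (w j) ∧
        s27r_r1 R h.x_mem h.sepk.1 (MvPolynomial.coeff (Finsupp.single j 1) P) =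
          Algebra.trace k⟮R.r ⟨x, h.x_mem⟩⟯ Fb (R.r ⟨w j, hw j⟩)) := by
  obtain ⟨ω, hωV, ωb, hω, hωb⟩ := s27hn_exists_data R h
  refine ⟨s27h_normPoly R.V (s27r_V1 R x) ω hωV hω hw₀ hw,
    s27h_normPoly_totalDegree_le R.V (s27r_V1 R x) ω hωV hω hw₀ hw,
    fun c => s27h_norm_poly R.V (s27r_V1 R x) ω hωV hω hw₀ hw c,
    fun cb => s27h_norm_poly_red R.V (s27r_V1 R x) (fun _ => Iff.rfl) R.r
      (s27r_r1 R h.x_mem h.sepk.1) (fun _ => rfl) ω hωV hω ωb hωb hw₀ hw cb, ?_, ?_⟩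
  · rw [s27h_normPoly_coeff_zero, s27h_norm_eq R.V (s27r_V1 R x) ω hωV hω hw₀]
  · rintro rfl j
    have h1 : s27h_mulMat R.V (s27r_V1 R x) ω hωV hω hw₀ = 1 :=
      s27h_mulMat_one R.V (s27r_V1 R x) ω hωV hω
    refine ⟨?_, ?_⟩
    · rw [s27h_normPoly_coeff_single R.V (s27r_V1 R x) ω hωV hω hw₀ hw h1 j,
        s27h_trace_eq R.V (s27r_V1 R x) ω hωV hω (hw j)]
    · exact s27h_normPoly_coeff_single_red R.V (s27r_V1 R x) (fun _ => Iff.rfl) R.r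
        (s27r_r1 R h.x_mem h.sepk.1) (fun _ => rfl) ω hωV hω ωb hωb hw₀ hw h1 j

end Fermat.Agent.S27
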