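/-
S27 lottery, (HENS) cell H8-d ASSEMBLY (helper5; prefix `s27h8_`): the polynomial system `Rtot` of helper18's
`Hens/Core.lean` built from the leaves.

Input: `R : s27r_Red K F k Fb`, `h : s27r_Good R x`, `S ∈ O[X]`, `w_1..w_M ∈ V`, and
`hpol : ∀ c ∈ K^M, S(x) · N_{F/K(x)}(1 + ∑ c_j w_j) = p(x)` with `p ∈ K[X]`, `deg p ≤ d`
(= NORMDIV ∘ RATLINE).  Output (`s27h8_exists_Rtot`): `Rtot ∈ (O[c_1..c_M])[X]` of `X`-degree `≤ d` with
(i) `Rtot(c)(x) = S(x) · N(1 + ∑ c_j w_j)` for `c ∈ O^M`; (ii) the reduced system computes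
`S̄(x̄) · N_{Fb/k(x̄)}(1 + ∑ c̄_j w̄_j)`; (iii) `Rtot(0) = S`; (iv) the reduced linear terms are
`S̄(x̄) · Tr_{Fb/k(x̄)}(w̄_j)`.
-/
import Fermat.Agent.S27.Hens.CoreMain
import Fermat.Agent.S27.Hens.NormRedGood
import Fermat.Agent.S27.Hens.CoeffMem

set_option autoImplicit false
set_option linter.unusedSectionVars false
set_option linter.unusedVariables false

namespace Fermat.Agent.S27

open Polynomial AlgebraicCurve IntermediateField Fermat.Agent.JT3

section build

variable {M : ℕ} {R : Type*} [CommRing R]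

/-- the polynomial `∑_α c^α Q_α(X)` of `(R[c_1..c_M])[X]` built from a family `Q_α ∈ R[X]`. -/
noncomputable def s27h8_build (s : Finset (Fin M →₀ ℕ)) (Q : (Fin M →₀ ℕ) → R[X]) :
    (MvPolynomial (Fin M) R)[X] :=
  ∑ α ∈ s, C (MvPolynomial.monomial α (1 : R)) * (Q α).map MvPolynomial.C

theorem s27h8_build_map {R' : Type*} [CommRing R'] (f : R →+* R') (s : Finset (Fin M →₀ ℕ))
    (Q : (Fin M →₀ ℕ) → R[X]) :
    (s27h8_build s Q).map (MvPolynomial.map f) = s27h8_build s (fun α => (Q α).map f) := by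
  rw [s27h8_build, s27h8_build, Polynomial.map_sum]
  refine Finset.sum_congr rfl fun α _ => ?_
  rw [Polynomial.map_mul, Polynomial.map_C, MvPolynomial.map_monomial, map_one,
    Polynomial.map_map, Polynomial.map_map]
  congr 2
  exact RingHom.ext fun a => MvPolynomial.map_C f a

theorem s27h8_evalR_build {A : Type*} [CommRing A] [Algebra R A] (s : Finset (Fin M →₀ ℕ))
    (Q : (Fin M →₀ ℕ) → R[X]) (c : Fin M → A) :
    s27h_evalR (s27h8_build s Q) c =
      ∑ α ∈ s, C (α.prod fun i n => c i ^ n) * (Q α).map (algebraMap R A) := by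
  rw [s27h_evalR, s27h8_build, Polynomial.map_sum]
  refine Finset.sum_congr rfl fun α _ => ?_
  rw [Polynomial.map_mul, Polynomial.map_C, Polynomial.map_map]
  congr 2
  · show MvPolynomial.aeval c (MvPolynomial.monomial α (1 : R)) = _
    rw [MvPolynomial.aeval_monomial, map_one, one_mul]
  · exact RingHom.ext fun a => MvPolynomial.aeval_C c a

theorem s27h8_build_coeff (s : Finset (Fin M →₀ ℕ)) (Q : (Fin M →₀ ℕ) → R[X]) (i : ℕ) :
    (s27h8_build s Q).coeff i = ∑ α ∈ s, MvPolynomial.monomial α ((Q α).coeff i) := by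
  rw [s27h8_build, finsetSum_coeff]
  refine Finset.sum_congr rfl fun α _ => ?_
  rw [coeff_C_mul, coeff_map, mul_comm, MvPolynomial.C_mul_monomial, mul_one]

theorem s27h8_natDegree_build_le (s : Finset (Fin M →₀ ℕ)) (Q : (Fin M →₀ ℕ) → R[X]) {d : ℕ}
    (hd : ∀ α ∈ s, (Q α).natDegree ≤ d) : (s27h8_build s Q).natDegree ≤ d := by
  rw [natDegree_le_iff_coeff_eq_zero]
  intro i hi
  rw [s27h8_build_coeff]
  refine Finset.sum_eq_zero fun α hα => ?_
  rw [coeff_eq_zero_of_natDegree_lt (lt_of_le_of_lt (hd α hα) hi), map_zero]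

theorem s27h8_lin_build (s : Finset (Fin M →₀ ℕ)) (Q : (Fin M →₀ ℕ) → R[X]) (j : Fin M)
    (hj : Finsupp.single j 1 ∉ s → Q (Finsupp.single j 1) = 0) :
    s27h_lin (s27h8_build s Q) j = Q (Finsupp.single j 1) := by
  classical
  ext i
  rw [s27h_lin_coeff, s27h8_build_coeff, MvPolynomial.coeff_sum]
  simp only [MvPolynomial.coeff_monomial]
  by_cases hjs : Finsupp.single j 1 ∈ s
  · rw [Finset.sum_eq_single (Finsupp.single j 1)]
    · rw [if_pos rfl]
    · intro α _ hα; rw [if_neg hα]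
    · intro h; exact absurd hjs h
  · rw [hj hjs, coeff_zero]
    refine Finset.sum_eq_zero fun α hα => ?_
    rw [if_neg]
    rintro rfl
    exact hjs hα

end build

section main

universe u v u' v'
variable {K : Type u} {F : Type v} [Field K] [Field F] [Algebra K F]
variable {k : Type u'} {Fb : Type v'} [Field k] [Field Fb] [Algebra k Fb]
variable (R : s27r_Red K F k Fb) {x : F}

/-- the inclusion `V ∩ K⟮x⟯ → V`. -/
def s27h8_incl1 : ↥(s27r_V1 R x) →+* ↥R.V where
  toFun a := ⟨((a : K⟮x⟯) : F), a.2⟩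
  map_one' := rfl
  map_mul' _ _ := rfl
  map_zero' := rfl
  map_add' _ _ := rfl

theorem s27h8_coe_incl1 (a : ↥(s27r_V1 R x)) :
    ((s27h8_incl1 R a : ↥R.V) : F) = ((a : K⟮x⟯) : F) := rfl

theorem s27h8_r_incl1 (hx : x ∈ R.V) (hxb : Transcendental k (R.r ⟨x, hx⟩))
    (a : ↥(s27r_V1 R x)) :
    R.r (s27h8_incl1 R a) = ((s27r_r1 R hx hxb a : k⟮R.r ⟨x, hx⟩⟯) : Fb) := rfl

/-- the coefficient polynomials: `S(x) · N_α = Q_α(x)` with `Q_α ∈ O[X]` of degree `≤ d`. -/
theorem s27h8_exists_Q [Infinite K] (h : s27r_Good R x) {M d : ℕ} (S : (↥R.O)[X])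
    (P : MvPolynomial (Fin M) ↥(s27r_V1 R x))
    (hpol : ∀ c : Fin M → K, ∃ p : K[X], p.natDegree ≤ d ∧
      aeval x (S.map R.O.subtype) * algebraMap K⟮x⟯ F
        (MvPolynomial.eval₂ (s27r_V1 R x).subtype (fun j => algebraMap K K⟮x⟯ (c j)) P) =
        aeval x p)
    (α : Fin M →₀ ℕ) :
    ∃ Q : (↥R.O)[X], Q.natDegree ≤ d ∧
      s27r_evalV R h.x_mem Q =
        s27r_evalV R h.x_mem S * s27h8_incl1 R (MvPolynomial.coeff α P) := by
  have hx := h.x_mem
  have hxb : Transcendental k (R.r ⟨x, hx⟩) := h.sepk.1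
  set s : F := aeval x (S.map R.O.subtype) with hs
  let U : Submodule K F :=
    Submodule.map (aeval x : K[X] →ₐ[K] F).toLinearMap (Polynomial.degreeLT K (d + 1))
  let ψ : ↥(s27r_V1 R x) →+* F := (algebraMap K⟮x⟯ F).comp (s27r_V1 R x).subtype
  have key := s27hc_coeff_mem_mvPolynomial U (MvPolynomial.C s * MvPolynomial.map ψ P)
    (fun c => by
      obtain ⟨p, hpd, hpe⟩ := hpol c
      rw [map_mul, MvPolynomial.eval_C, MvPolynomial.eval_map]
      have e1 : MvPolynomial.eval₂ ψ (fun i => algebraMap K F (c i)) P =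
          algebraMap K⟮x⟯ F (MvPolynomial.eval₂ (s27r_V1 R x).subtype
            (fun j => algebraMap K K⟮x⟯ (c j)) P) := by
        rw [MvPolynomial.eval₂_comp_left]
        rfl
      rw [e1, hpe]
      refine ⟨p, ?_, rfl⟩
      rw [SetLike.mem_coe, Polynomial.mem_degreeLT]
      exact lt_of_le_of_lt (Polynomial.degree_le_of_natDegree_le hpd)
        (by exact_mod_cast Nat.lt_succ_self d)) α
  rw [MvPolynomial.coeff_C_mul, MvPolynomial.coeff_map] at key
  obtain ⟨p, hp, hpe⟩ := key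
  rw [SetLike.mem_coe, Polynomial.mem_degreeLT] at hp
  have hpe' : aeval x p = s * (((MvPolynomial.coeff α P : ↥(s27r_V1 R x)) : K⟮x⟯) : F) := hpe
  -- `p` has coefficients in `O`
  have hsV : s ∈ R.V := by
    rw [hs, ← s27r_coe_evalV R hx]
    exact Subtype.property _
  have hpV : aeval x p ∈ R.V := by
    rw [hpe']
    exact R.V.mul_mem _ _ hsV (MvPolynomial.coeff α P).2
  have hcoef := (s27r_aeval_mem_iff R hx hxb p).1 hpV
  have hlift : p ∈ Polynomial.lifts R.O.subtype := by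
    rw [Polynomial.lifts_iff_coeff_lifts]
    exact fun n => ⟨⟨p.coeff n, hcoef n⟩, rfl⟩
  obtain ⟨Q, rfl⟩ := (Polynomial.mem_lifts _).1 hlift
  refine ⟨Q, ?_, ?_⟩
  · have hnd : (Q.map R.O.subtype).natDegree = Q.natDegree :=
      Polynomial.natDegree_map_eq_of_injective Subtype.val_injective Q
    rw [← hnd]
    have := Polynomial.natDegree_lt_iff_degree_lt (p := Q.map R.O.subtype) (n := d + 1)
    by_cases h0 : Q.map R.O.subtype = 0
    · rw [h0]; simp
    · have := (Polynomial.natDegree_lt_iff_degree_lt h0).2 hp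
      omega
  · apply Subtype.ext
    rw [s27r_coe_evalV, hpe', MulMemClass.coe_mul, s27r_coe_evalV, s27h8_coe_incl1]


/-- **H8-d ASSEMBLY.** -/
theorem s27h8_exists_Rtot [IsAlgClosed K] (h : s27r_Good R x) {M d : ℕ} (S : (↥R.O)[X])
    (w : Fin M → F) (hw : ∀ j, w j ∈ R.V)
    (hpol : ∀ c : Fin M → K, ∃ p : K[X], p.natDegree ≤ d ∧
      aeval x (S.map R.O.subtype) *
        algebraMap K⟮x⟯ F (Algebra.norm K⟮x⟯ (1 + ∑ j, c j • w j)) = aeval x p) :
    ∃ Rtot : (MvPolynomial (Fin M) ↥R.O)[X], Rtot.natDegree ≤ d ∧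
      (∀ c : Fin M → ↥R.O, aeval x ((s27h_evalR Rtot c).map R.O.subtype) =
        aeval x (S.map R.O.subtype) *
          algebraMap K⟮x⟯ F (Algebra.norm K⟮x⟯ (1 + ∑ j, ((c j : ↥R.O) : K) • w j))) ∧
      (∀ cb : Fin M → k,
        aeval (R.r ⟨x, h.x_mem⟩) (s27h_evalR (Rtot.map (MvPolynomial.map R.r0)) cb) =
          aeval (R.r ⟨x, h.x_mem⟩) (S.map R.r0) *
            algebraMap k⟮R.r ⟨x, h.x_mem⟩⟯ Fb
              (Algebra.norm k⟮R.r ⟨x, h.x_mem⟩⟯ (1 + ∑ j, cb j • R.r ⟨w j, hw j⟩))) ∧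
      s27h_evalR Rtot (0 : Fin M → ↥R.O) = S ∧
      (∀ j, aeval (R.r ⟨x, h.x_mem⟩) ((s27h_lin Rtot j).map R.r0) =
        aeval (R.r ⟨x, h.x_mem⟩) (S.map R.r0) *
          algebraMap k⟮R.r ⟨x, h.x_mem⟩⟯ Fb
            (Algebra.trace k⟮R.r ⟨x, h.x_mem⟩⟯ Fb (R.r ⟨w j, hw j⟩))) := by
  classical
  have hx := h.x_mem
  have hxb : Transcendental k (R.r ⟨x, hx⟩) := h.sepk.1
  have hxK : Transcendental K x := h.sepK.1
  obtain ⟨P, -, hgen, hspec, hc0, hc1⟩ := s27hn_norm_poly R h R.V.one_mem hw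
  -- `hpol` in the shape of `s27h8_exists_Q`
  have hpol' : ∀ c : Fin M → K, ∃ p : K[X], p.natDegree ≤ d ∧
      aeval x (S.map R.O.subtype) * algebraMap K⟮x⟯ F
        (MvPolynomial.eval₂ (s27r_V1 R x).subtype (fun j => algebraMap K K⟮x⟯ (c j)) P) =
        aeval x p := by
    intro c
    obtain ⟨p, hpd, hpe⟩ := hpol c
    refine ⟨p, hpd, ?_⟩
    rw [← hgen, ← hpe]
    congr 4
    refine Finset.sum_congr rfl fun j _ => ?_
    rw [algebraMap_smul]
  choose Q hQd hQe using s27h8_exists_Q R h S P hpol'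
  -- vanishing of `Q α` outside the support, injectivity of `aeval x`
  have hinj : ∀ q q' : (↥R.O)[X], s27r_evalV R hx q = s27r_evalV R hx q' → q = q' := by
    intro q q' e
    have e1 := congrArg (fun z : ↥R.V => (z : F)) e
    simp only [s27r_coe_evalV] at e1
    have e2 : q.map R.O.subtype = q'.map R.O.subtype := by
      have := (transcendental_iff_injective.1 hxK) e1
      exact this
    exact Polynomial.map_injective _ Subtype.val_injective e2
  have hQ0 : ∀ α, α ∉ P.support → Q α = 0 := by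
    intro α hα
    apply hinj
    rw [hQe α, MvPolynomial.notMem_support_iff.1 hα, map_zero, mul_zero]
    show _ = Polynomial.eval₂ _ _ 0
    rw [Polynomial.eval₂_zero]
  have hone : s27h8_incl1 R (MvPolynomial.coeff 0 P) = 1 := by
    apply Subtype.ext
    rw [s27h8_coe_incl1, hc0, map_one]
    rfl
  have hQzero : Q 0 = S := by
    apply hinj
    rw [hQe 0, hone, mul_one]
  have h0mem : (0 : Fin M →₀ ℕ) ∈ P.support := by
    by_contra hcon
    have h1 := hQ0 0 hcon
    have h2 : MvPolynomial.coeff 0 P = 0 := MvPolynomial.notMem_support_iff.1 hcon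
    rw [h2, map_zero] at hone
    exact zero_ne_one hone
  refine ⟨s27h8_build P.support Q, s27h8_natDegree_build_le _ _ fun α _ => hQd α, ?_, ?_, ?_, ?_⟩
  · -- (i)
    intro c
    have hg := hgen (fun j => algebraMap K K⟮x⟯ ((c j : ↥R.O) : K))
    have hsum : (∑ j, (algebraMap K K⟮x⟯ ((c j : ↥R.O) : K)) • w j) =
        ∑ j, ((c j : ↥R.O) : K) • w j :=
      Finset.sum_congr rfl fun j _ => algebraMap_smul _ _ _
    rw [hsum] at hg
    rw [hg, s27h8_evalR_build, Polynomial.map_sum, map_sum, MvPolynomial.eval₂_eq, map_sum,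
      Finset.mul_sum]
    refine Finset.sum_congr rfl fun α _ => ?_
    rw [Polynomial.map_mul, Polynomial.map_C, map_mul, aeval_C, Algebra.algebraMap_self,
      Polynomial.map_id, ← s27r_coe_evalV R hx, hQe α, MulMemClass.coe_mul, s27r_coe_evalV,
      s27h8_coe_incl1, map_mul, map_prod]
    have hprod : algebraMap K F (R.O.subtype (α.prod fun i n => c i ^ n)) =
        ∏ i ∈ α.support, (algebraMap K F ((c i : ↥R.O) : K)) ^ α i := by
      rw [Finsupp.prod, map_prod, map_prod]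
      simp only [map_pow, ValuationSubring.subtype_apply]
    rw [hprod]
    simp only [map_pow, ← IsScalarTower.algebraMap_apply]
    simp only [IntermediateField.algebraMap_apply, ValuationSubring.subtype_apply]
    ring
  · -- (ii)
    intro cb
    have hg := hspec (fun j => algebraMap k k⟮R.r ⟨x, hx⟩⟯ (cb j))
    have hsum : (∑ j, (algebraMap k k⟮R.r ⟨x, hx⟩⟯ (cb j)) • R.r ⟨w j, hw j⟩) =
        ∑ j, cb j • R.r ⟨w j, hw j⟩ :=
      Finset.sum_congr rfl fun j _ => algebraMap_smul _ _ _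
    have hr1 : R.r ⟨1, R.V.one_mem⟩ = 1 := map_one R.r
    rw [hsum, hr1] at hg
    rw [hg, s27h8_build_map, s27h8_evalR_build, map_sum, MvPolynomial.eval₂_eq, map_sum,
      Finset.mul_sum]
    refine Finset.sum_congr rfl fun α _ => ?_
    rw [map_mul, aeval_C, Algebra.algebraMap_self, Polynomial.map_id, ← s27r_r_evalV R hx, hQe α,
      map_mul, s27r_r_evalV, s27h8_r_incl1 R hx hxb, map_mul, map_prod]
    have hprod : algebraMap k Fb (α.prod fun i n => cb i ^ n) =
        ∏ i ∈ α.support, (algebraMap k Fb (cb i)) ^ α i := by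
      rw [Finsupp.prod, map_prod]
      simp only [map_pow]
    rw [hprod]
    simp only [map_pow, ← IsScalarTower.algebraMap_apply]
    simp only [IntermediateField.algebraMap_apply]
    ring
  · -- (iii)
    rw [s27h8_evalR_build, Finset.sum_eq_single (0 : Fin M →₀ ℕ)]
    · rw [Finsupp.prod_zero_index, map_one, one_mul, Algebra.algebraMap_self, Polynomial.map_id,
        hQzero]
    · intro α _ hα
      have : (α.prod fun i n => ((0 : Fin M → ↥R.O) i) ^ n) = 0 := by
        obtain ⟨i, hi⟩ : ∃ i, α i ≠ 0 := by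
          by_contra hcon
          push Not at hcon
          exact hα (Finsupp.ext hcon)
        refine Finset.prod_eq_zero (Finsupp.mem_support_iff.2 hi) ?_
        show ((0 : Fin M → ↥R.O) i) ^ (α i) = 0
        rw [Pi.zero_apply, zero_pow hi]
      rw [this, map_zero, zero_mul]
    · intro hcon; exact absurd h0mem hcon
  · -- (iv)
    intro j
    rw [s27h8_lin_build _ _ j (hQ0 _), ← s27r_r_evalV R hx, hQe, map_mul, s27r_r_evalV,
      s27h8_r_incl1 R hx hxb, ((hc1 rfl j).2)]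
    rfl

end main

end Fermat.Agent.S27
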