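/-
Project S27, cell (HENS) H9-GEO (helper3): the residue-side heart of Step 5 (the differential of the
system is injective).  Prefix `s27h9_`.  Namespace `Fermat.Agent.S27`.

`k` algebraically closed (ANY characteristic), `E / k` a function field with separating generator
`x`; `P i` (`i < g`) places with `ord_{P i} (x - a i) = 1` for pairwise distinct `a i ∈ k`
(unramified points over distinct values), `Eb0 = ∑ P i` non-special (`ℓ(Eb0) = 1`).

* `s27h9_adjoin_gen_eq_top`, `s27h9_isAlgebraic_gen` : `k(x)` as a function field over `k`;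
* `s27h9_ord_add_ge`, `s27h9_ord_add_of_lt`          : orders of sums;
* `s27h9_ord_sub_of_ne`, `s27h9_P_injective`, `s27h9_ord_e0`, `s27h9_Eb0_apply_P/_of_ne`;
* `s27h9_unramified`, `s27h9_fiber_ne`               : the fibre of `x` through `P i`;
* `s27h9_mem_L_Eb0`   : `dh ∈ L(m Eb0)`, `Tr dh` with at most simple poles at the `P i` ⟹ `dh ∈ L(Eb0)`
                        (helper18's `s27h_trace_pole`);
* `s27h9_tangent_geo` : the linear system `∑ dc_j lin_j - lam e0^ℓ = ℓ e0^(ℓ-1) ∑ de_j X^j` with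
                        `lin_j = e0^ℓ Tr(wb_j)` has only the zero solution (shape of `s27h_Tangent`).
-/
import Mathlib
import Fermat.Agent.S27.Hens.Trace
import Fermat.Agent.JT3.Riemann.Main

set_option autoImplicit false
set_option linter.unusedSectionVars false

namespace Fermat.Agent.S27
open AlgebraicCurve IntermediateField Polynomial WithZero
open Fermat.Agent.S24 Fermat.Agent.JT3

universe u v
variable {k : Type u} {E : Type v} [Field k] [Field E] [Algebra k E]

theorem s27h9_adjoin_gen_eq_top (x : E) :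
    (k⟮AdjoinSimple.gen k x⟯ : IntermediateField k ↥k⟮x⟯) = ⊤ := by
  apply IntermediateField.map_injective (k⟮x⟯.val)
  rw [IntermediateField.adjoin_map, Set.image_singleton]
  have h1 : (k⟮x⟯.val) (AdjoinSimple.gen k x) = x := rfl
  rw [h1, ← AlgHom.fieldRange_eq_map, IntermediateField.fieldRange_val]

instance s27h9_isAlgebraic_gen (x : E) :
    Algebra.IsAlgebraic ↥(k⟮AdjoinSimple.gen k x⟯ : IntermediateField k ↥k⟮x⟯) ↥k⟮x⟯ :=
  ⟨fun y => by
    have hy : y ∈ (k⟮AdjoinSimple.gen k x⟯ : IntermediateField k ↥k⟮x⟯) := by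
      rw [s27h9_adjoin_gen_eq_top]
      exact IntermediateField.mem_top
    exact isAlgebraic_algebraMap
      (⟨y, hy⟩ : ↥(k⟮AdjoinSimple.gen k x⟯ : IntermediateField k ↥k⟮x⟯))⟩

/-! ### orders of sums -/

theorem s27h9_ord_add_ge (v : Place k E) {f g : E} {n : ℤ} (hf : f = 0 ∨ n ≤ v.ord f)
    (hg : g = 0 ∨ n ≤ v.ord g) : f + g = 0 ∨ n ≤ v.ord (f + g) := by
  have hf' : v.adicValuation f ≤ exp (-n) := v.adicValuation_le_exp_iff.2 (by simpa using hf)
  have hg' : v.adicValuation g ≤ exp (-n) := v.adicValuation_le_exp_iff.2 (by simpa using hg)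
  have := v.adicValuation_le_exp_iff.1 ((Valuation.map_add _ f g).trans (max_le hf' hg'))
  simpa using this

theorem s27h9_ord_add_of_lt (v : Place k E) {f g : E} (hf : f ≠ 0) (hg : g ≠ 0)
    (h : v.ord f < v.ord g) : f + g ≠ 0 ∧ v.ord (f + g) = v.ord f := by
  have hlt : v.adicValuation g < v.adicValuation f := by
    rw [v.adicValuation_eq_exp_neg_ord hf, v.adicValuation_eq_exp_neg_ord hg, exp_lt_exp]
    omega
  have heq : v.adicValuation (f + g) = v.adicValuation f :=
    Valuation.map_add_eq_of_lt_left _ hlt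
  have hne : f + g ≠ 0 := by
    intro h0
    rw [h0, map_zero] at heq
    exact v.adicValuation_ne_zero hf heq.symm
  refine ⟨hne, ?_⟩
  rw [v.adicValuation_eq_exp_neg_ord hne, v.adicValuation_eq_exp_neg_ord hf, exp_inj] at heq
  omega


/-! ### the points `P i` over pairwise distinct values `a i` -/

section points

variable [IsAlgClosed k] {x : E} {g : ℕ} (P : Fin g → Place k E) (a : Fin g → k)
  (ha : Function.Injective a) (hP : ∀ i, (P i).ord (x - algebraMap k E (a i)) = 1)

include hP in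
theorem s27h9_sub_ne_zero (i : Fin g) : x - algebraMap k E (a i) ≠ 0 := by
  intro h0
  have := hP i
  rw [h0, Place.ord_zero] at this
  omega

include ha hP in
/-- `x - a j` is a unit at `P i` for `j ≠ i`. -/
theorem s27h9_ord_sub_of_ne {i j : Fin g} (hij : j ≠ i) :
    x - algebraMap k E (a j) ≠ 0 ∧ (P i).ord (x - algebraMap k E (a j)) = 0 := by
  have hc : a i - a j ≠ 0 := sub_ne_zero.2 fun h => hij (ha h).symm
  have hc' : algebraMap k E (a i - a j) ≠ 0 := (_root_.map_ne_zero _).2 hc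
  have hdec : x - algebraMap k E (a j) =
      algebraMap k E (a i - a j) + (x - algebraMap k E (a i)) := by
    rw [map_sub]; ring
  have hlt : (P i).ord (algebraMap k E (a i - a j)) < (P i).ord (x - algebraMap k E (a i)) := by
    rw [hw_ord_algebraMap, hP i]
    norm_num
  obtain ⟨h1, h2⟩ := s27h9_ord_add_of_lt (P i) hc' (s27h9_sub_ne_zero P a hP i) hlt
  rw [hdec]
  exact ⟨h1, by rw [h2, hw_ord_algebraMap]⟩

include ha hP in
theorem s27h9_P_injective : Function.Injective P := by
  intro i j hij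
  by_contra hne
  have h1 := (s27h9_ord_sub_of_ne P a ha hP (i := i) (j := j) (fun h => hne h.symm)).2
  rw [hij, hP j] at h1
  omega

include hP in
theorem s27h9_x_mem (i : Fin g) : x ∈ (P i).toValuationSubring := by
  have h1 : x - algebraMap k E (a i) ∈ (P i).toValuationSubring :=
    rt_mem_of_ord_pos (P i) (by rw [hP i]; norm_num)
  have h2 : x = (x - algebraMap k E (a i)) + algebraMap k E (a i) := by ring
  rw [h2]
  exact add_mem h1 ((P i).algebraMap_mem' _)

include hP in
theorem s27h9_ord_aeval_nonneg (i : Fin g) (p : k[X]) :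
    aeval x p = 0 ∨ 0 ≤ (P i).ord (aeval x p) := by
  by_cases h0 : aeval x p = 0
  · exact Or.inl h0
  · exact Or.inr ((hw_mem_iff_ord_nonneg (P i) h0).1 (rt_aeval_mem (P i) (s27h9_x_mem P a hP i) p))

include ha hP in
theorem s27h9_ord_prod (i : Fin g) (s : Finset (Fin g)) :
    ∏ j ∈ s, (x - algebraMap k E (a j)) ≠ 0 ∧
      (P i).ord (∏ j ∈ s, (x - algebraMap k E (a j))) = if i ∈ s then 1 else 0 := by
  classical
  induction s using Finset.induction_on with
  | empty => simp [Place.ord_one]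
  | insert j s hj ih =>
    obtain ⟨ih1, ih2⟩ := ih
    rw [Finset.prod_insert hj]
    have hj0 : x - algebraMap k E (a j) ≠ 0 := s27h9_sub_ne_zero P a hP j
    refine ⟨mul_ne_zero hj0 ih1, ?_⟩
    rw [(P i).ord_mul hj0 ih1, ih2]
    by_cases hji : j = i
    · subst hji
      rw [hP j, if_neg hj, if_pos (Finset.mem_insert_self _ _)]
      rfl
    · rw [(s27h9_ord_sub_of_ne P a ha hP hji).2, zero_add]
      have : (i ∈ insert j s) ↔ i ∈ s := by
        rw [Finset.mem_insert]
        exact ⟨fun h => h.resolve_left fun h => hji h.symm, Or.inr⟩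
      simp only [this]

theorem s27h9_aeval_e0 : aeval x (∏ i, (X - C (a i)) : k[X]) = ∏ i, (x - algebraMap k E (a i)) := by
  rw [map_prod]
  refine Finset.prod_congr rfl fun i _ => ?_
  rw [map_sub, aeval_X, aeval_C]

include ha hP in
theorem s27h9_ord_e0 (i : Fin g) :
    aeval x (∏ i, (X - C (a i)) : k[X]) ≠ 0 ∧
      (P i).ord (aeval x (∏ i, (X - C (a i)) : k[X])) = 1 := by
  rw [s27h9_aeval_e0]
  obtain ⟨h1, h2⟩ := s27h9_ord_prod P a ha hP i Finset.univ
  exact ⟨h1, by rw [h2, if_pos (Finset.mem_univ _)]⟩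

include ha hP in
/-- the divisor `Eb0 = ∑ P i` at the point `P i`. -/
theorem s27h9_Eb0_apply_P (i : Fin g) :
    (∑ j, Finsupp.single (P j) (1 : ℤ) : Divisor k E) (P i) = 1 := by
  classical
  rw [Finsupp.finsetSum_apply, Finset.sum_eq_single i]
  · rw [Finsupp.single_eq_same]
  · intro j _ hji
    rw [Finsupp.single_apply, if_neg]
    exact fun h => hji ((s27h9_P_injective P a ha hP) h)
  · intro h; exact absurd (Finset.mem_univ i) h

/-- the divisor `Eb0 = ∑ P i` outside the points `P i`. -/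
theorem s27h9_Eb0_apply_of_ne (w : Place k E) (hw : ∀ j, P j ≠ w) :
    (∑ j, Finsupp.single (P j) (1 : ℤ) : Divisor k E) w = 0 := by
  classical
  rw [Finsupp.finsetSum_apply]
  refine Finset.sum_eq_zero fun j _ => ?_
  rw [Finsupp.single_apply, if_neg (hw j)]

end points


/-! ### the tower `E / k(x)` -/

section tower

variable [IsAlgClosed k] {x : E} [FiniteDimensional ↥k⟮x⟯ E] (hx : rt_IsSepGen k x) {g : ℕ}
  (P : Fin g → Place k E) (a : Fin g → k) (ha : Function.Injective a)
  (hP : ∀ i, (P i).ord (x - algebraMap k E (a i)) = 1)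

theorem s27h9_algebraMap_genSub (c : k) :
    algebraMap ↥k⟮x⟯ E (AdjoinSimple.gen k x - algebraMap k ↥k⟮x⟯ c) = x - algebraMap k E c := by
  rw [map_sub, AdjoinSimple.algebraMap_gen, ← IsScalarTower.algebraMap_apply]

include hP in
/-- `P i` is unramified over `k(x)`. -/
theorem s27h9_unramified (i : Fin g) :
    Place.ramificationIndex (F := ↥k⟮x⟯) (P i) = 1 ∧
      ((P i).restrict ↥k⟮x⟯).ord (AdjoinSimple.gen k x - algebraMap k ↥k⟮x⟯ (a i)) = 1 := by
  have h1 := (P i).ord_restrict (F := ↥k⟮x⟯)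
    (AdjoinSimple.gen k x - algebraMap k ↥k⟮x⟯ (a i))
  rw [s27h9_algebraMap_genSub, hP i] at h1
  have hpos : 0 < Place.ramificationIndex (F := ↥k⟮x⟯) (P i) :=
    (P i).ramificationIndex_pos (F := ↥k⟮x⟯)
  have he : ((Place.ramificationIndex (F := ↥k⟮x⟯) (P i) : ℕ) : ℤ) = 1 :=
    Int.eq_one_of_mul_eq_one_right (by positivity) h1.symm
  refine ⟨by exact_mod_cast he, ?_⟩
  rw [he, one_mul] at h1
  exact h1.symm

include ha hP in
/-- the other points over `a i` are not among the `P j`. -/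
theorem s27h9_fiber_ne (i : Fin g) (w' : Place k E)
    (hw' : w'.restrict ↥k⟮x⟯ = (P i).restrict ↥k⟮x⟯) (hne : w' ≠ P i) (j : Fin g) : P j ≠ w' := by
  rintro rfl
  have hji : j ≠ i := fun h => hne (by rw [h])
  have h1 := (P j).ord_restrict (F := ↥k⟮x⟯)
    (AdjoinSimple.gen k x - algebraMap k ↥k⟮x⟯ (a i))
  rw [s27h9_algebraMap_genSub, hw', (s27h9_unramified P a hP i).2, mul_one,
    (s27h9_ord_sub_of_ne P a ha hP (i := j) (j := i) (fun h => hji h.symm)).2] at h1
  have hpos : 0 < Place.ramificationIndex (F := ↥k⟮x⟯) (P j) :=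
    (P j).ramificationIndex_pos (F := ↥k⟮x⟯)
  omega

include hx ha hP in
/-- **the pole-order step**: if `dh ∈ L(m Eb0)` and `Tr dh` has at most simple poles at the `P i`,
then `dh ∈ L(Eb0)`. -/
theorem s27h9_mem_L_Eb0 (m : ℕ) {dh : E}
    (hdh : dh ∈ riemannRochSpace ((m : ℤ) • ∑ i, Finsupp.single (P i) (1 : ℤ)))
    (hT : ∀ i, algebraMap ↥k⟮x⟯ E (Algebra.trace ↥k⟮x⟯ E dh) = 0 ∨
      -1 ≤ (P i).ord (algebraMap ↥k⟮x⟯ E (Algebra.trace ↥k⟮x⟯ E dh))) :
    dh ∈ riemannRochSpace (∑ i, Finsupp.single (P i) (1 : ℤ)) := by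
  classical
  haveI : Algebra.IsSeparable ↥k⟮x⟯ E := hx.2.2
  haveI : HasPrincipalDivisors k E := rt_hasPrincipalDivisors hx
  haveI : Algebra.IsAlgebraic ↥k⟮x⟯ E := hx.isAlgebraic
  rcases eq_or_ne dh 0 with rfl | hdh0
  · exact Submodule.zero_mem _
  rw [rt_mem_L_iff hdh0] at hdh ⊢
  intro w
  by_cases hw : ∃ i, P i = w
  · obtain ⟨i, rfl⟩ := hw
    rw [s27h9_Eb0_apply_P P a ha hP i]
    by_contra hcon
    rw [not_le] at hcon
    -- the pole order `j ≥ 2`
    set j : ℕ := (-(P i).ord dh).toNat with hj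
    have hj2 : 2 ≤ j := by rw [hj]; omega
    have hjord : (P i).ord dh = -(j : ℤ) := by rw [hj]; omega
    obtain ⟨he, hv⟩ := s27h9_unramified P a hP i
    have hreg : ∀ w' ∈ ((P i).restrict ↥k⟮x⟯).fiber E, w' ≠ P i → 0 ≤ w'.ord dh := by
      intro w' hw' hne
      have h1 := hdh w'
      rw [Finsupp.smul_apply,
        s27h9_Eb0_apply_of_ne P w' (s27h9_fiber_ne P a ha hP i w' (Place.mem_fiber.1 hw') hne),
        smul_zero, neg_zero] at h1
      exact h1
    obtain ⟨hTr0, hTrord⟩ := s27h_trace_pole (K := k) (F := ↥k⟮x⟯) (F' := E)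
      (AdjoinSimple.gen k x) x ((P i).restrict ↥k⟮x⟯) (w := P i)
      (Place.restrict_mem_fiber (P i)) he (f := dh) (j := j) (by omega) hjord hreg
    have h2 := (P i).ord_restrict (F := ↥k⟮x⟯) (Algebra.trace ↥k⟮x⟯ E dh)
    rw [he, hTrord] at h2
    rcases hT i with h0 | h3
    · exact hTr0 ((map_eq_zero_iff _ (algebraMap ↥k⟮x⟯ E).injective).1 h0)
    · rw [h2] at h3
      push_cast at h3
      omega
  · rw [not_exists] at hw
    have h1 := hdh w
    rw [Finsupp.smul_apply, s27h9_Eb0_apply_of_ne P w hw, smul_zero, neg_zero] at h1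
    rw [s27h9_Eb0_apply_of_ne P w hw, neg_zero]
    exact h1

end tower


/-! ### the polynomial bookkeeping -/

section poly

variable {g : ℕ}

theorem s27h9_coeff_deP (de : Fin g → k) (j : Fin g) :
    (∑ i : Fin g, C (de i) * X ^ (i : ℕ) : k[X]).coeff (j : ℕ) = de j := by
  classical
  rw [finsetSum_coeff, Finset.sum_eq_single j]
  · rw [coeff_C_mul, coeff_X_pow, if_pos rfl, mul_one]
  · intro i _ hij
    rw [coeff_C_mul, coeff_X_pow, if_neg, mul_zero]
    exact fun h => hij (Fin.ext h.symm)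
  · intro h; exact absurd (Finset.mem_univ j) h

theorem s27h9_coeff_deP_top (de : Fin g → k) :
    (∑ i : Fin g, C (de i) * X ^ (i : ℕ) : k[X]).coeff g = 0 := by
  rw [finsetSum_coeff]
  refine Finset.sum_eq_zero fun i _ => ?_
  rw [coeff_C_mul, coeff_X_pow, if_neg, mul_zero]
  have := i.2
  omega

theorem s27h9_e0_monic (a : Fin g → k) : (∏ i, (X - C (a i)) : k[X]).Monic :=
  monic_prod_X_sub_C a Finset.univ

theorem s27h9_e0_coeff (a : Fin g → k) : (∏ i, (X - C (a i)) : k[X]).coeff g = 1 := by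
  have hm := s27h9_e0_monic a
  have hd : (∏ i, (X - C (a i)) : k[X]).natDegree = g := by
    rw [natDegree_prod_of_monic _ _ fun i _ => monic_X_sub_C (a i)]
    simp
  have := hm.coeff_natDegree
  rwa [hd] at this

end poly

/-! ### the main statement -/

section final

variable [IsAlgClosed k] {x : E}

/-- **(HENS) H9-GEO: injectivity of the differential of the system on the residue side.**
`P i` unramified points over pairwise distinct values `a i` of the separating generator `x`, with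
`Eb0 = ∑ P i` non-special (`ℓ(Eb0) = 1`); `wb j ∈ L(ℓ Eb0)` spanning a complement of the constants;
`lin j = e0^ℓ · Tr(wb j)` as polynomials in `x`, `e0 = ∏ (X - a i)`; `ℓ ≠ 0` in `k`.  Then the linear
system `∑ dc_j lin_j - lam e0^ℓ = ℓ e0^(ℓ-1) ∑ de_j X^j` has only the zero solution `(dc, de)`. -/
theorem s27h9_tangent_geo (hx : rt_IsSepGen k x) {g M : ℕ} (P : Fin g → Place k E)
    (a : Fin g → k) (ha : Function.Injective a)
    (hP : ∀ i, (P i).ord (x - algebraMap k E (a i)) = 1)
    (hns : Module.finrank k ↥(riemannRochSpace (∑ i, Finsupp.single (P i) (1 : ℤ))) = 1)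
    (ℓ : ℕ) (hℓ : (ℓ : k) ≠ 0) (e0 : k[X]) (he0 : e0 = ∏ i, (X - C (a i)))
    (wb : Fin M → E)
    (hwb : ∀ j, wb j ∈ riemannRochSpace ((ℓ : ℤ) • ∑ i, Finsupp.single (P i) (1 : ℤ)))
    (hind : ∀ (c : k) (dc : Fin M → k), ∑ j, dc j • wb j = algebraMap k E c → dc = 0)
    (lin : Fin M → k[X])
    (hlin : ∀ j, aeval x (lin j) =
      aeval x (e0 ^ ℓ) * algebraMap ↥k⟮x⟯ E (Algebra.trace ↥k⟮x⟯ E (wb j)))
    (lam : k) (dc : Fin M → k) (de : Fin g → k)
    (heq : ∑ j, C (dc j) * lin j - C lam * e0 ^ ℓ =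
      C (ℓ : k) * e0 ^ (ℓ - 1) * ∑ j : Fin g, C (de j) * X ^ (j : ℕ)) :
    dc = 0 ∧ de = 0 := by
  classical
  haveI : FiniteDimensional ↥k⟮x⟯ E := hx.2.1
  have hℓpos : 0 < ℓ := Nat.pos_of_ne_zero fun h => hℓ (by rw [h, Nat.cast_zero])
  subst he0
  set e0 : k[X] := ∏ i, (X - C (a i)) with he0
  set deP : k[X] := ∑ j : Fin g, C (de j) * X ^ (j : ℕ) with hdeP
  set dh : E := ∑ j, dc j • wb j with hdh
  -- the `k`-linear trace
  set Tl : E →ₗ[k] E := ((Algebra.linearMap ↥k⟮x⟯ E).restrictScalars k).comp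
    ((Algebra.trace ↥k⟮x⟯ E).restrictScalars k) with hTl
  have hTl_apply : ∀ f : E, Tl f = algebraMap ↥k⟮x⟯ E (Algebra.trace ↥k⟮x⟯ E f) := fun f => rfl
  have he0x : aeval x e0 ≠ 0 := by
    intro h0
    exact (s27h9_e0_monic a).ne_zero ((transcendental_iff.1 hx.1) e0 h0)
  -- step 1: `dc = 0`
  have hdc : dc = 0 := by
    -- (#) `e0(x) (T - lam) = ℓ deP(x)`
    have h1 := congrArg (aeval x) heq
    simp only [map_sub, map_sum, map_mul, aeval_C, map_pow] at h1
    have h2 : ∑ j, algebraMap k E (dc j) * aeval x (lin j) = aeval x e0 ^ ℓ * Tl dh := by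
      rw [hdh, map_sum, Finset.mul_sum]
      refine Finset.sum_congr rfl fun j _ => ?_
      rw [hlin j, map_pow, map_smul, hTl_apply, Algebra.smul_def]
      ring
    rw [h2] at h1
    have hsplit : aeval x e0 ^ ℓ = aeval x e0 ^ (ℓ - 1) * aeval x e0 := by
      rw [← pow_succ, Nat.sub_add_cancel hℓpos]
    have h3 : aeval x e0 * (Tl dh - algebraMap k E lam) =
        algebraMap k E (ℓ : k) * aeval x deP := by
      apply mul_left_cancel₀ (pow_ne_zero (ℓ - 1) he0x)
      rw [← mul_assoc, ← hsplit, mul_sub]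
      linear_combination h1
    -- poles of `T`
    have hT : ∀ i, algebraMap ↥k⟮x⟯ E (Algebra.trace ↥k⟮x⟯ E dh) = 0 ∨
        -1 ≤ (P i).ord (algebraMap ↥k⟮x⟯ E (Algebra.trace ↥k⟮x⟯ E dh)) := by
      intro i
      rw [← hTl_apply]
      have hlamord : algebraMap k E lam = 0 ∨ -1 ≤ (P i).ord (algebraMap k E lam) := by
        right
        rw [hw_ord_algebraMap]
        norm_num
      have hdiff : Tl dh - algebraMap k E lam = 0 ∨
          -1 ≤ (P i).ord (Tl dh - algebraMap k E lam) := by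
        by_cases hz : Tl dh - algebraMap k E lam = 0
        · exact Or.inl hz
        right
        obtain ⟨-, hord1⟩ := s27h9_ord_e0 P a ha hP i
        have hrhs : algebraMap k E (ℓ : k) * aeval x deP ≠ 0 := by
          rw [← h3]
          exact mul_ne_zero he0x hz
        have hrhs' : algebraMap k E (ℓ : k) * aeval x deP = aeval x (C (ℓ : k) * deP) := by
          rw [map_mul, aeval_C]
        have hnn : 0 ≤ (P i).ord (algebraMap k E (ℓ : k) * aeval x deP) := by
          rw [hrhs']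
          rw [hrhs'] at hrhs
          exact (s27h9_ord_aeval_nonneg P a hP i _).resolve_left hrhs
        rw [← h3, (P i).ord_mul he0x hz, hord1] at hnn
        omega
      have := s27h9_ord_add_ge (P i) hdiff hlamord
      rwa [sub_add_cancel] at this
    have hdhL : dh ∈ riemannRochSpace ((ℓ : ℤ) • ∑ i, Finsupp.single (P i) (1 : ℤ)) :=
      Submodule.sum_mem _ fun j _ => Submodule.smul_mem _ _ (hwb j)
    have hdh1 := s27h9_mem_L_Eb0 hx P a ha hP ℓ hdhL hT
    -- non-speciality
    have hEb0 : (0 : Divisor k E) ≤ ∑ i, Finsupp.single (P i) (1 : ℤ) :=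
      Finset.sum_nonneg fun i _ => Finsupp.single_nonneg.2 zero_le_one
    have hone : (1 : E) ∈ riemannRochSpace (∑ i, Finsupp.single (P i) (1 : ℤ)) := by
      have := rt_algebraMap_mem_L hEb0 (1 : k)
      rwa [map_one] at this
    have hone0 : (⟨1, hone⟩ : ↥(riemannRochSpace (∑ i, Finsupp.single (P i) (1 : ℤ)))) ≠ 0 := by
      intro h
      exact one_ne_zero (congrArg Subtype.val h)
    obtain ⟨c, hc⟩ := (finrank_eq_one_iff_of_nonzero' _ hone0).1 hns ⟨dh, hdh1⟩
    have hc' : dh = algebraMap k E c := by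
      have := congrArg Subtype.val hc
      simp only [Submodule.coe_smul] at this
      rw [← this, Algebra.smul_def, mul_one]
    exact hind c dc hc'
  refine ⟨hdc, ?_⟩
  -- step 2: `de = 0`, a polynomial identity
  have hsplit : e0 ^ ℓ = e0 ^ (ℓ - 1) * e0 := by
    rw [← pow_succ, Nat.sub_add_cancel hℓpos]
  have h4 : e0 ^ (ℓ - 1) * (-(C lam * e0)) = e0 ^ (ℓ - 1) * (C (ℓ : k) * deP) := by
    have h5 := heq
    rw [hdc] at h5
    simp only [Pi.zero_apply, map_zero, zero_mul, Finset.sum_const_zero, zero_sub] at h5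
    rw [hsplit] at h5
    linear_combination h5
  have h6 : -(C lam * e0) = C (ℓ : k) * deP :=
    mul_left_cancel₀ (pow_ne_zero _ (s27h9_e0_monic a).ne_zero) h4
  have hlam : lam = 0 := by
    have := congrArg (fun p : k[X] => p.coeff g) h6
    simp only [coeff_neg, coeff_C_mul] at this
    rw [s27h9_e0_coeff a, hdeP, s27h9_coeff_deP_top de, mul_one, mul_zero] at this
    exact neg_eq_zero.1 this
  rw [hlam, map_zero, zero_mul, neg_zero] at h6
  have hdeP0 : deP = 0 := by
    rcases mul_eq_zero.1 h6.symm with h | h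
    · exact absurd (C_eq_zero.1 h) hℓ
    · exact h
  funext j
  have := s27h9_coeff_deP de j
  rw [← hdeP, hdeP0, coeff_zero] at this
  exact this.symm

end final

end Fermat.Agent.S27
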