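/-
S27 / (HENS), glue leaf H8-a (helper28): the `O`-basis `1, w_1, …, w_M` of `L(D) ∩ V` of Step 4.
Prefix `s27hw_`.

`R : s27r_Red K F k Fb`, `h : s27r_Good R x`, `red` with property (R) (`hdiv`).  For a divisor
`D ≥ 0` with `l(D) ≥ M + 1` (Riemann) and `l(red_* D) = M + 1`:

* `s27hw_redSub_eq` : `red (L(D)) = L(red_* D)` as soon as `l(red_* D) ≤ l(D)`;
* `s27hw_exists_basis` : there are `w_1..w_M ∈ L(D) ∩ V` such that `1, w_1, .., w_M` is a `K`-basis of
  `L(D)`, orthonormal (`c_0 + ∑ c_j w_j ∈ V ↔ c_0, c_j ∈ O`), the reductions `w̄_j` lie in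
  `L(red_* D)` and are independent modulo the constants (`hind`, the shape of H9-GEO);
* `s27hw_r_expand` : reduction of `c_0 + ∑ c_j w_j` termwise;
* `s27hw_unit_form` : if moreover `f̄ = 1` then `c̄_0 = 1`, `c̄_j = 0` and
  `f = c_0 (1 + ∑ c'_j w_j)` with `c'_j ∈ 𝔪` (the shape used by (INJ) of Step 6).
-/
import Mathlib
import Fermat.Agent.S27.Red.Final
import Fermat.Agent.S27.Red.LinRedB

set_option autoImplicit false
set_option linter.unusedSectionVars false
set_option linter.style.haveILetI false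

noncomputable section

namespace Fermat.Agent.S27

open AlgebraicCurve IntermediateField Polynomial Fermat.Agent.JT3 Fermat.Agent.S24 Module

universe u v u' v'
variable {K : Type u} {F : Type v} [Field K] [Field F] [Algebra K F]
variable {k : Type u'} {Fb : Type v'} [Field k] [Field Fb] [Algebra k Fb]

section LinAlg

/-- a basis of a finite-dimensional space starting with a given nonzero vector -/
theorem s27hw_exists_basis_zero {k W : Type*} [Field k] [AddCommGroup W] [Module k W]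
    [Module.Finite k W] {M : ℕ} (hfr : finrank k W = M + 1) (one : W) (hone : one ≠ 0) :
    ∃ β : Basis (Fin (M + 1)) k W, β 0 = one := by
  classical
  obtain ⟨W', hW'⟩ := Submodule.exists_isCompl (Submodule.span k {one})
  have hfrW' : finrank k ↥W' = M := by
    have h2 := Submodule.finrank_add_eq_of_isCompl hW'
    rw [finrank_span_singleton hone, hfr] at h2
    omega
  let b' : Basis (Fin M) k ↥W' := (finBasis k ↥W').reindex (finCongr hfrW')
  have hwbli : LinearIndependent k (fun j => ((b' j : ↥W') : W)) :=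
    b'.linearIndependent.map' W'.subtype (Submodule.ker_subtype _)
  have hwbspan : Submodule.span k (Set.range (fun j => ((b' j : ↥W') : W))) = W' := by
    rw [show (fun j => ((b' j : ↥W') : W)) = W'.subtype ∘ b' from rfl, Set.range_comp,
      ← Submodule.map_span, b'.span_eq, Submodule.map_top, Submodule.range_subtype]
  have hone_not : one ∉ Submodule.span k (Set.range (fun j => ((b' j : ↥W') : W))) := by
    rw [hwbspan]
    intro hmem
    have : one ∈ Submodule.span k {one} ⊓ W' :=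
      ⟨Submodule.mem_span_singleton_self one, hmem⟩
    rw [hW'.inf_eq_bot, Submodule.mem_bot] at this
    exact hone this
  have hli : LinearIndependent k (Fin.cons one (fun j => ((b' j : ↥W') : W)) : Fin (M + 1) → W) :=
    linearIndependent_finCons.2 ⟨hwbli, hone_not⟩
  refine ⟨basisOfLinearIndependentOfCardEqFinrank hli (by rw [Fintype.card_fin, hfr]), ?_⟩
  rw [coe_basisOfLinearIndependentOfCardEqFinrank]
  rfl

end LinAlg

section General

variable (R : s27r_Red K F k Fb) {M : ℕ}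

/-- reduction of `c_0 + ∑ c_j w_j` (`c_0, c_j ∈ O`, `w_j ∈ V`) termwise -/
theorem s27hw_r_expand (w : Fin M → F) (hwV : ∀ j, w j ∈ R.V) (c0 : R.O) (c : Fin M → R.O) :
    ∃ hmem : algebraMap K F (c0 : K) + ∑ j, (c j : K) • w j ∈ R.V,
      R.r ⟨algebraMap K F (c0 : K) + ∑ j, (c j : K) • w j, hmem⟩ =
        algebraMap k Fb (R.r0 c0) + ∑ j, R.r0 (c j) • R.r ⟨w j, hwV j⟩ := by
  have h1 : algebraMap K F (c0 : K) ∈ R.V := R.algebraMap_mem c0.2
  have h2 : ∑ j, (c j : K) • w j ∈ R.V := s27l_sum_mem R w hwV c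
  refine ⟨R.V.add_mem _ _ h1 h2, ?_⟩
  have : (⟨algebraMap K F (c0 : K) + ∑ j, (c j : K) • w j, R.V.add_mem _ _ h1 h2⟩ : R.V) =
      ⟨algebraMap K F (c0 : K), h1⟩ + ⟨∑ j, (c j : K) • w j, h2⟩ := rfl
  rw [this, map_add, s27l_r_sum R w hwV c h2]
  congr 1
  exact R.comp (c0 : K) c0.2

/-- **the unit form**: an element `f = c_0 + ∑ c_j w_j` of `V` (`c_0, c_j ∈ O`) with `f̄ = 1`, when
the `w̄_j` are independent modulo constants, has `c̄_0 = 1`, `c̄_j = 0`; hence
`f = c_0 (1 + ∑ c'_j w_j)` with `c'_j ∈ 𝔪`. -/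
theorem s27hw_unit_form (w : Fin M → F) (hwV : ∀ j, w j ∈ R.V)
    (hind : ∀ (a : k) (dc : Fin M → k),
      ∑ j, dc j • R.r ⟨w j, hwV j⟩ = algebraMap k Fb a → dc = 0)
    (c0 : R.O) (c : Fin M → R.O) {f : F} (hf : f = algebraMap K F (c0 : K) + ∑ j, (c j : K) • w j)
    (hfV : f ∈ R.V) (hf1 : R.r ⟨f, hfV⟩ = 1) :
    R.r0 c0 = 1 ∧ (∀ j, R.r0 (c j) = 0) ∧
      ∃ c' : Fin M → R.O, (∀ j, R.r0 (c' j) = 0) ∧
        f = algebraMap K F (c0 : K) * (1 + ∑ j, (c' j : K) • w j) := by
  obtain ⟨hmem, hr⟩ := s27hw_r_expand R w hwV c0 c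
  have hr1 : algebraMap k Fb (R.r0 c0) + ∑ j, R.r0 (c j) • R.r ⟨w j, hwV j⟩ = 1 := by
    rw [← hr, ← hf1]
    congr 1
    exact Subtype.ext hf.symm
  have hdc : (fun j => R.r0 (c j)) = 0 := by
    apply hind (1 - R.r0 c0)
    rw [map_sub, map_one]
    linear_combination hr1
  have hcj : ∀ j, R.r0 (c j) = 0 := fun j => congrFun hdc j
  have hc0 : R.r0 c0 = 1 := by
    have h0 : ∑ j, R.r0 (c j) • R.r ⟨w j, hwV j⟩ = 0 :=
      Finset.sum_eq_zero fun j _ => by rw [hcj j, zero_smul]
    rw [h0, add_zero] at hr1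
    have : algebraMap k Fb (R.r0 c0) = algebraMap k Fb 1 := by rw [hr1, map_one]
    exact (algebraMap k Fb).injective this
  refine ⟨hc0, hcj, ?_⟩
  have hu : IsUnit c0 := (R.r0_ne_zero_iff c0).1 (by rw [hc0]; exact one_ne_zero)
  obtain ⟨d, hd⟩ := hu.exists_right_inv
  have hc0K : (c0 : K) ≠ 0 := by
    intro h0
    have : c0 = 0 := Subtype.ext h0
    rw [this, zero_mul] at hd
    exact zero_ne_one hd
  have hdK : (d : K) = (c0 : K)⁻¹ := by
    have : (c0 : K) * (d : K) = 1 := by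
      have := congrArg (Subtype.val) hd
      simpa using this
    field_simp
    rw [mul_comm]; exact this
  refine ⟨fun j => d * c j, fun j => by rw [map_mul, hcj j, mul_zero], ?_⟩
  rw [hf, mul_add, mul_one, Finset.mul_sum]
  congr 1
  refine Finset.sum_congr rfl fun j _ => ?_
  have : ((d * c j : R.O) : K) = (c0 : K)⁻¹ * (c j : K) := by
    rw [← hdK]; rfl
  rw [this, Algebra.smul_def, Algebra.smul_def, map_mul, ← mul_assoc, ← mul_assoc, ← map_mul,
    mul_inv_cancel₀ hc0K, map_one, one_mul]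

end General

variable [IsAlgClosed K] [IsAlgClosed k] (R : s27r_Red K F k Fb) {x : F} (h : s27r_Good R x)
  (red : Place K F → Place k Fb)
  (hdiv : ∀ (f : F) (hf : f ∈ R.V), R.r ⟨f, hf⟩ ≠ 0 →
      Finsupp.mapDomain red (rt_div h.sepK f) = rt_div h.sepk (R.r ⟨f, hf⟩))

include hdiv in
/-- `red (L(D)) = L(red_* D)` as soon as `l(red_* D) ≤ l(D)`. -/
theorem s27hw_redSub_eq (D : Divisor K F)
    (hle : finrank k ↥(riemannRochSpace (Finsupp.mapDomain red D)) ≤
      finrank K ↥(riemannRochSpace D)) :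
    s27r_redSub R (riemannRochSpace D) = riemannRochSpace (Finsupp.mapDomain red D) := by
  haveI := rt_L_finite h.sepK D
  haveI := rt_L_finite h.sepk (Finsupp.mapDomain red D)
  apply Submodule.eq_of_le_of_finrank_le (s27r6_redSub_L_le R h red hdiv D)
  rw [s27l_finrank_redSub R h (riemannRochSpace D)]
  exact hle

include hdiv in
/-- **Step 4, the `O`-basis of `L(D) ∩ V`.** -/
theorem s27hw_exists_basis (D : Divisor K F) (hD : 0 ≤ D) (M : ℕ)
    (hlK : M + 1 ≤ finrank K ↥(riemannRochSpace D))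
    (hlk : finrank k ↥(riemannRochSpace (Finsupp.mapDomain red D)) = M + 1) :
    ∃ (w : Fin M → F) (hwV : ∀ j, w j ∈ R.V),
      (∀ j, w j ∈ riemannRochSpace D) ∧
      (∀ j, R.r ⟨w j, hwV j⟩ ∈ riemannRochSpace (Finsupp.mapDomain red D)) ∧
      (∀ (a : k) (dc : Fin M → k),
        ∑ j, dc j • R.r ⟨w j, hwV j⟩ = algebraMap k Fb a → dc = 0) ∧
      finrank K ↥(riemannRochSpace D) = M + 1 ∧
      LinearIndependent K (Fin.cons (1 : F) w : Fin (M + 1) → F) ∧
      (∀ f ∈ riemannRochSpace D, ∃ (c0 : K) (c : Fin M → K),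
        f = algebraMap K F c0 + ∑ j, c j • w j ∧
          (f ∈ R.V → c0 ∈ R.O ∧ ∀ j, c j ∈ R.O)) := by
  classical
  haveI := rt_L_finite h.sepK D
  haveI := rt_L_finite h.sepk (Finsupp.mapDomain red D)
  have hdim : finrank k ↥(s27r_redSub R (riemannRochSpace D)) =
      finrank K ↥(riemannRochSpace D) := s27l_finrank_redSub R h (riemannRochSpace D)
  have hle : finrank K ↥(riemannRochSpace D) ≤ M + 1 := by
    rw [← hdim, ← hlk]
    exact s27r6_finrank_redSub_le R h red hdiv D
  have hfrK : finrank K ↥(riemannRochSpace D) = M + 1 := le_antisymm hle hlK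
  have hsub : s27r_redSub R (riemannRochSpace D) =
      riemannRochSpace (Finsupp.mapDomain red D) :=
    s27hw_redSub_eq R h red hdiv D (by rw [hlk, hfrK])
  haveI hfinW : Module.Finite k ↥(s27r_redSub R (riemannRochSpace D)) :=
    (s27l_finrank_redSub_le R (riemannRochSpace D)).1
  have hfrW : finrank k ↥(s27r_redSub R (riemannRochSpace D)) = M + 1 := by rw [hdim, hfrK]
  -- the constant `1` in the reduction
  have h1L : (1 : F) ∈ riemannRochSpace D := by
    have := rt_algebraMap_mem_L hD (1 : K)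
    rwa [map_one] at this
  have h1W : (1 : Fb) ∈ s27r_redSub R (riemannRochSpace D) :=
    ⟨1, R.V.one_mem, h1L, map_one R.r⟩
  obtain ⟨β, hβ0⟩ := s27hw_exists_basis_zero hfrW
    (⟨1, h1W⟩ : ↥(s27r_redSub R (riemannRochSpace D)))
    (fun h0 => one_ne_zero (congrArg Subtype.val h0))
  -- lifts
  have hlift : ∀ j : Fin M, ∃ f : F, ∃ hf : f ∈ R.V, f ∈ riemannRochSpace D ∧
      R.r ⟨f, hf⟩ = ((β j.succ : ↥(s27r_redSub R (riemannRochSpace D))) : Fb) :=
    fun j => (β j.succ).2
  choose w hwV hwL hwr using hlift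
  have huV : ∀ i, (Fin.cons (1 : F) w : Fin (M + 1) → F) i ∈ R.V := by
    intro i
    refine Fin.cases ?_ (fun j => ?_) i
    · exact R.V.one_mem
    · exact hwV j
  have huL : ∀ i, (Fin.cons (1 : F) w : Fin (M + 1) → F) i ∈ riemannRochSpace D := by
    intro i
    refine Fin.cases ?_ (fun j => ?_) i
    · exact h1L
    · exact hwL j
  have hur : ∀ i, R.r ⟨(Fin.cons (1 : F) w : Fin (M + 1) → F) i, huV i⟩ = (β i : Fb) := by
    intro i
    refine Fin.cases ?_ (fun j => ?_) i
    · rw [hβ0]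
      exact map_one R.r
    · exact hwr j
  obtain ⟨hindk, hindK, hspan, horth⟩ :=
    s27l_adapted_of_basis R (riemannRochSpace D) hdim β (Fin.cons (1 : F) w) huV huL hur
  have hu0 : R.r ⟨(Fin.cons (1 : F) w : Fin (M + 1) → F) 0, huV 0⟩ = 1 := map_one R.r
  refine ⟨w, hwV, hwL, ?_, ?_, hfrK, hindK, ?_⟩
  · intro j
    rw [← hsub, hwr j]
    exact (β j.succ).2
  · intro a dc hsum
    have h0 := Fintype.linearIndependent_iff.1 hindk (Fin.cons (-a) dc) (by
      rw [Fin.sum_univ_succ, hu0]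
      simp only [Fin.cons_zero, Fin.cons_succ]
      rw [hsum, Algebra.smul_def, mul_one, map_neg, neg_add_cancel])
    funext j
    have := h0 j.succ
    simpa using this
  · intro f hf
    have hfs : f ∈ Submodule.span K (Set.range (Fin.cons (1 : F) w : Fin (M + 1) → F)) := by
      rw [hspan]; exact hf
    obtain ⟨g, hg⟩ := (Submodule.mem_span_range_iff_exists_fun K).1 hfs
    have hexp : f = algebraMap K F (g 0) + ∑ j : Fin M, g j.succ • w j := by
      rw [← hg, Fin.sum_univ_succ]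
      simp only [Fin.cons_zero, Fin.cons_succ]
      rw [Algebra.smul_def, mul_one]
    refine ⟨g 0, fun j => g j.succ, hexp, fun hfV => ?_⟩
    have hgO := (horth g).1 (by rw [hg]; exact hfV)
    exact ⟨hgO 0, fun j => hgO j.succ⟩

end Fermat.Agent.S27
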