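import Mathlib
import Fermat.Agent.S27.Hens.SolveAux
import Fermat.Agent.S27.Hens.Defs
import Fermat.Agent.S27.Red.Gauss
import Fermat.Agent.S27.Hens.SPoly
import Fermat.Agent.S27.Hens.System
import Fermat.Agent.S27.Hens.TangentGeo
import Fermat.Agent.S27.Hens.BaseCor
import Fermat.Agent.S27.Hens.WBasis

/-!
# S27 / (HENS): `s27h_solve` — the system of Step 4 has a unique solution near the base point

For an effective divisor `D` of `F` with `red_* D = ℓ • Ē₀` (`Ē₀ = ∑ P̄_i` the non-special base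
divisor), there are `w_1, …, w_M ∈ L(D) ∩ V` (`M = (ℓ - 1) g`) such that there is a UNIQUE pair
`(c, e)`, `c ∈ 𝔪^M`, `e ∈ O[X]` monic of degree `g` with `ē = ∏ (X - a_i)`, such that
`S(x) · N_{F/K(x)} (1 + ∑ c_j w_j) = λ · e(x)^ℓ` for some `λ ∈ Kˣ`.
-/

set_option autoImplicit false

namespace Fermat.Agent.S27

open AlgebraicCurve IntermediateField Polynomial Fermat.Agent.JT3 IsLocalRing

universe u v u' v'
variable {K : Type u} {F : Type v} [Field K] [Field F] [Algebra K F]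
variable {k : Type u'} {Fb : Type v'} [Field k] [Field Fb] [Algebra k Fb]

section IsSolIff

variable (R : s27r_Red K F k Fb) {x : F} (hxK : Transcendental K x)

include hxK in
/-- `IsSol` from the norm equation -/
theorem s27hv_isSol_of_eq {M g ℓ : ℕ} (Rtot : (MvPolynomial (Fin M) ↥R.O)[X]) (c : Fin M → ↥R.O)
    (e : (↥R.O)[X]) (he : e.Monic) (hg : e.natDegree = g) (lam : K)
    (hN : aeval x ((s27h_evalR Rtot c).map R.O.subtype) =
      algebraMap K F lam * aeval x ((e ^ ℓ).map R.O.subtype)) :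
    s27h_IsSol Rtot ℓ g c e := by
  have hinj : Function.Injective (aeval x : K[X] →ₐ[K] F) := transcendental_iff_injective.mp hxK
  have h1 : (s27h_evalR Rtot c).map R.O.subtype = C lam * (e ^ ℓ).map R.O.subtype := by
    apply hinj
    rw [hN, map_mul, aeval_C]
  have hm : (e ^ ℓ).Monic := he.pow ℓ
  have hd : (e ^ ℓ).natDegree = ℓ * g := by rw [he.natDegree_pow, hg]
  have h2 : (((s27h_evalR Rtot c).coeff (ℓ * g) : ↥R.O) : K) = lam := by
    have := congrArg (fun p => p.coeff (ℓ * g)) h1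
    simp only [coeff_map, coeff_C_mul] at this
    have h3 : (e ^ ℓ).coeff (ℓ * g) = 1 := by
      have := hm.coeff_natDegree
      rwa [hd] at this
    rw [h3, map_one, mul_one] at this
    exact this
  rw [s27h_IsSol]
  apply Polynomial.map_injective R.O.subtype Subtype.val_injective
  rw [h1, Polynomial.map_mul, Polynomial.map_C, ← h2]
  rfl

/-- the norm equation from `IsSol` -/
theorem s27hv_eq_of_isSol {M g ℓ : ℕ} (Rtot : (MvPolynomial (Fin M) ↥R.O)[X]) (c : Fin M → ↥R.O)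
    (e : (↥R.O)[X]) (hsol : s27h_IsSol Rtot ℓ g c e) :
    aeval x ((s27h_evalR Rtot c).map R.O.subtype) =
      algebraMap K F (((s27h_evalR Rtot c).coeff (ℓ * g) : ↥R.O) : K) *
        aeval x ((e ^ ℓ).map R.O.subtype) := by
  rw [s27h_IsSol] at hsol
  conv_lhs => rw [hsol]
  rw [Polynomial.map_mul, Polynomial.map_C, map_mul, aeval_C]
  rfl

end IsSolIff

section ROne

variable (R : s27r_Red K F k Fb)

/-- `1 + ∑ c_j w_j` lies in `V` and its reduction is `1 + ∑ c̄_j w̄_j`. -/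
theorem s27hv_r_one_add_sum {M : ℕ} (w : Fin M → F) (hwV : ∀ j, w j ∈ R.V) (c : Fin M → ↥R.O) :
    ∃ hV : (1 + ∑ j, ((c j : ↥R.O) : K) • w j) ∈ R.V,
      R.r ⟨1 + ∑ j, ((c j : ↥R.O) : K) • w j, hV⟩ =
        1 + ∑ j, algebraMap k Fb (R.r0 (c j)) * R.r ⟨w j, hwV j⟩ := by
  set v : ↥R.V := 1 + ∑ j, R.incl (c j) * ⟨w j, hwV j⟩ with hv
  have hcoe : (v : F) = 1 + ∑ j, ((c j : ↥R.O) : K) • w j := by
    rw [hv]
    push_cast
    congr 1
    refine Finset.sum_congr rfl fun j _ => ?_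
    rw [Algebra.smul_def]
    rfl
  refine ⟨hcoe ▸ v.2, ?_⟩
  have : (⟨1 + ∑ j, ((c j : ↥R.O) : K) • w j, hcoe ▸ v.2⟩ : ↥R.V) = v := Subtype.ext hcoe.symm
  rw [this, hv, map_add, map_one, map_sum]
  congr 1
  refine Finset.sum_congr rfl fun j _ => ?_
  rw [map_mul, R.r_incl]

end ROne

section Main

variable [IsAlgClosed K] [IsAlgClosed k] (R : s27r_Red K F k Fb) {x : F} (h : s27r_Good R x)
  (red : Place K F → Place k Fb)
  (hdiv : ∀ (f : F) (hf : f ∈ R.V), R.r ⟨f, hf⟩ ≠ 0 →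
      Finsupp.mapDomain red (rt_div h.sepK f) = rt_div h.sepk (R.r ⟨f, hf⟩))

include hdiv in
/-- **(HENS), Steps 4-6 assembled**: the system attached to `D` has a unique solution near the
base point. -/
theorem s27h_solve {g : ℕ} (hgk : s27r_IsGenus k Fb g) (Pb : Fin g → Place k Fb) (a : Fin g → k)
    (ha : Function.Injective a)
    (hPb : ∀ i, (Pb i).ord (R.r ⟨x, h.x_mem⟩ - algebraMap k Fb (a i)) = 1)
    (hl1 : Module.finrank k ↥(riemannRochSpace (∑ i, Finsupp.single (Pb i) (1 : ℤ))) = 1)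
    (hlm : ∀ m : ℕ, 1 ≤ m → Module.finrank k
      ↥(riemannRochSpace (m • ∑ i, Finsupp.single (Pb i) (1 : ℤ))) = (m - 1) * g + 1)
    (ℓ : ℕ) (hℓ : (ℓ : k) ≠ 0) (D : Divisor K F) (hD : 0 ≤ D)
    (hDr : Finsupp.mapDomain red D = ℓ • ∑ i, Finsupp.single (Pb i) (1 : ℤ)) :
    ∃ (M : ℕ) (w : Fin M → F) (hwV : ∀ j, w j ∈ R.V), (∀ j, w j ∈ riemannRochSpace D) ∧
      (∀ f ∈ riemannRochSpace D, ∀ hfV : f ∈ R.V, R.r ⟨f, hfV⟩ = 1 →
        ∃ (c : Fin M → ↥R.O) (c0 : K), (∀ j, R.r0 (c j) = 0) ∧ c0 ≠ 0 ∧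
          f = algebraMap K F c0 * (1 + ∑ j, ((c j : ↥R.O) : K) • w j)) ∧
      ∃! ce : (Fin M → ↥R.O) × (↥R.O)[X], (∀ j, R.r0 (ce.1 j) = 0) ∧ ce.2.Monic ∧
        ce.2.natDegree = g ∧ ce.2.map R.r0 = ∏ i, (X - C (a i)) ∧
        ∃ lam : K, lam ≠ 0 ∧
          aeval x ((s27hs_S R h red hdiv D).map R.O.subtype) *
            algebraMap K⟮x⟯ F (Algebra.norm K⟮x⟯ (1 + ∑ j, ((ce.1 j : ↥R.O) : K) • w j)) =
          algebraMap K F lam * aeval x ((ce.2 ^ ℓ).map R.O.subtype) := by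
  classical
  have hx := h.x_mem
  have hxK : Transcendental K x := h.sepK.1
  haveI : FiniteDimensional K⟮x⟯ F := h.sepK.2.1
  have hℓpos : 1 ≤ ℓ := by
    rcases Nat.eq_zero_or_pos ℓ with h0 | h0
    · exfalso
      apply hℓ
      rw [h0]
      simp
    · exact h0
  have hPb' : ∀ i, 0 < (Pb i).ord (R.r ⟨x, hx⟩ - algebraMap k Fb (a i)) := fun i => by
    rw [hPb i]; exact one_pos
  have hPbinj : Function.Injective Pb := s27hs_injective_of_values Pb a ha hPb'
  -- the polynomial `S`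
  have hSsub := s27hs_S_map_subtype R h red hdiv D
  have hSr0 := s27hs_S_map_r0 R h red hdiv Pb a hPb' hPbinj D hD ℓ hDr
  have hSmonic := s27hs_S_monic R h red hdiv D
  have hdegD : Divisor.degree D = (ℓ : ℤ) * g := s27hs_degree R h red Pb D ℓ hDr
  have hDx : ∀ P, D P ≠ 0 → 0 ≤ P.ord x := fun P hP =>
    (s27hs_val_of_mem R h red hdiv Pb a hPb' D hD ℓ hDr hP).1
  have hDval : ∀ P, D P ≠ 0 →
      0 < P.ord (x - algebraMap K F ((s27hs_val R h red hdiv P : ↥R.O) : K)) := fun P hP =>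
    (s27hs_val_of_mem R h red hdiv Pb a hPb' D hD ℓ hDr hP).2.1
  -- the basis
  have hMg : (ℓ - 1) * g + g = ℓ * g := by
    rw [← Nat.succ_mul, Nat.succ_eq_add_one, Nat.sub_add_cancel hℓpos]
  have hlK : (ℓ - 1) * g + 1 ≤ Module.finrank K ↥(riemannRochSpace D) := by
    have h1 := s27hb_riemann_K R h hgk D
    rw [hdegD] at h1
    have e1 : (((ℓ - 1) * g : ℕ) : ℤ) + g = (ℓ : ℤ) * g := by exact_mod_cast hMg
    have : (((ℓ - 1) * g + 1 : ℕ) : ℤ) ≤ (Module.finrank K ↥(riemannRochSpace D) : ℤ) := by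
      push_cast at e1 ⊢
      linarith
    exact_mod_cast this
  have hlk := hlm ℓ hℓpos
  have hlk' : Module.finrank k ↥(riemannRochSpace (Finsupp.mapDomain red D)) =
      (ℓ - 1) * g + 1 := by rw [hDr]; exact hlk
  obtain ⟨w, hwV, hwL, hwbL0, hind, -, -, hexp0⟩ :=
    s27hw_exists_basis R h red hdiv D hD ((ℓ - 1) * g) hlK hlk'
  have hwbL : ∀ j, R.r ⟨w j, hwV j⟩ ∈
      riemannRochSpace (ℓ • ∑ i, Finsupp.single (Pb i) (1 : ℤ)) := by
    intro j
    rw [← hDr]
    exact hwbL0 j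
  have hexp : ∀ f ∈ riemannRochSpace D, f ∈ R.V → ∃ (c0 : K) (c : Fin ((ℓ - 1) * g) → K),
      c0 ∈ R.O ∧ (∀ j, c j ∈ R.O) ∧ f = algebraMap K F c0 + ∑ j, c j • w j := by
    intro f hf hfV
    obtain ⟨c0, c, hfe, hO⟩ := hexp0 f hf
    exact ⟨c0, c, (hO hfV).1, (hO hfV).2, hfe⟩
  -- polynomiality
  have h1L : (1 : F) ∈ riemannRochSpace D := by
    have := rt_algebraMap_mem_L (K := K) (F := F) hD (1 : K)
    rwa [map_one] at this
  have hpol : ∀ c : Fin ((ℓ - 1) * g) → K, ∃ p : K[X], p.natDegree ≤ ℓ * g ∧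
      aeval x ((s27hs_S R h red hdiv D).map R.O.subtype) *
        algebraMap K⟮x⟯ F (Algebra.norm K⟮x⟯ (1 + ∑ j, c j • w j)) = aeval x p := by
    intro c
    have hh : (1 + ∑ j, c j • w j) ∈ riemannRochSpace D :=
      add_mem h1L (Submodule.sum_mem _ fun j _ => Submodule.smul_mem _ _ (hwL j))
    obtain ⟨p, hp1, hp2⟩ := s27hnd_exists_poly h.sepK D hD hDx _ hDval hh (d := ℓ * g)
      (by rw [hdegD]; push_cast; ring)
    exact ⟨p, hp2, by rw [hSsub]; exact hp1⟩
  obtain ⟨Rtot, hdeg, hi, -, hiii, hiv⟩ :=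
    s27h8_exists_Rtot R h (s27hs_S R h red hdiv D) w hwV hpol
  -- a monic lift of `∏ (X - a_i)`
  choose ξt hξt using fun i => R.r0_surj (a i)
  have he0 : (s27h_ePoly ξt).Monic := s27h_ePoly_monic ξt
  have hg0 : (s27h_ePoly ξt).natDegree = g := s27h_ePoly_natDegree ξt
  have he0r : (s27h_ePoly ξt).map R.r0 = ∏ i, (X - C (a i)) := by
    rw [s27h_ePoly_map, s27h_ePoly]
    simp only [hξt]
  -- the base point
  have hbase : (s27h_evalR Rtot (0 : Fin ((ℓ - 1) * g) → ↥R.O)).map (residue ↥R.O) =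
      ((s27h_ePoly ξt).map (residue ↥R.O)) ^ ℓ := by
    rw [hiii, ← Polynomial.map_pow]
    apply (s27hv_map_eq_iff R.O R.r0 R.r0_surj _ _).2
    rw [hSr0, Polynomial.map_pow, he0r]
  -- the tangent hypothesis
  have htan : s27h_Tangent R.O Rtot ℓ g (s27h_ePoly ξt) := by
    apply s27hv_tangent_of_r0 R.O R.r0 R.r0_surj
    intro dc de heq
    refine s27h9_tangent_geo h.sepk Pb a ha hPb hl1 ℓ hℓ ((s27h_ePoly ξt).map R.r0) he0r
      (fun j => R.r ⟨w j, hwV j⟩) (fun j => ?_) hind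
      (fun j => (s27h_lin Rtot j).map R.r0) (fun j => ?_)
      (∑ j, dc j * ((s27h_lin Rtot j).map R.r0).coeff (ℓ * g)) dc de heq
    · rw [natCast_zsmul]
      exact hwbL j
    · rw [hiv j, hSr0, he0r]
  obtain ⟨ce0, hce0, huniq⟩ := s27h_core R.O hMg Rtot hdeg (s27h_ePoly ξt) he0 hg0 hbase htan
  refine ⟨(ℓ - 1) * g, w, hwV, hwL, ?_, ?_⟩
  · -- the `O`-expansion
    intro f hfL hfV hf1
    obtain ⟨c0, c, hc0, hc, hfe⟩ := hexp f hfL hfV
    set cO : Fin ((ℓ - 1) * g) → ↥R.O := fun j => ⟨c j, hc j⟩ with hcO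
    set c0O : ↥R.O := ⟨c0, hc0⟩ with hc0O
    have hfV' : (⟨f, hfV⟩ : ↥R.V) = R.incl c0O + ∑ j, R.incl (cO j) * ⟨w j, hwV j⟩ := by
      apply Subtype.ext
      push_cast
      rw [hfe]
      congr 1
      refine Finset.sum_congr rfl fun j _ => ?_
      rw [Algebra.smul_def]
      rfl
    have hred : (1 : Fb) = algebraMap k Fb (R.r0 c0O) +
        ∑ j, algebraMap k Fb (R.r0 (cO j)) * R.r ⟨w j, hwV j⟩ := by
      rw [← hf1, hfV', map_add, map_sum, R.r_incl]
      congr 1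
      refine Finset.sum_congr rfl fun j _ => ?_
      rw [map_mul, R.r_incl]
    have hdc : (fun j => R.r0 (cO j)) = 0 := by
      apply hind (1 - R.r0 c0O) (fun j => R.r0 (cO j))
      rw [map_sub, map_one]
      simp only [Algebra.smul_def]
      rw [eq_sub_iff_add_eq']
      exact hred.symm
    have hdc' : ∀ j, R.r0 (cO j) = 0 := fun j => congrFun hdc j
    have hr0c0 : R.r0 c0O = 1 := by
      have h2 := hred
      simp only [hdc', map_zero, zero_mul, Finset.sum_const_zero, add_zero] at h2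
      apply (algebraMap k Fb).injective
      rw [map_one]
      exact h2.symm
    have hunit : IsUnit c0O := (R.r0_ne_zero_iff c0O).1 (by rw [hr0c0]; exact one_ne_zero)
    obtain ⟨b, hb⟩ := hunit.exists_right_inv
    have hbK : c0 * (b : K) = 1 := by
      have := congrArg (fun z : ↥R.O => (z : K)) hb
      simpa using this
    have hc0ne : c0 ≠ 0 := by
      rintro rfl
      rw [zero_mul] at hbK
      exact zero_ne_one hbK
    refine ⟨fun j => cO j * b, c0, fun j => ?_, hc0ne, ?_⟩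
    · rw [map_mul, hdc' j, zero_mul]
    · rw [hfe, mul_add, mul_one, Finset.mul_sum]
      congr 1
      refine Finset.sum_congr rfl fun j _ => ?_
      rw [Algebra.smul_def, Algebra.smul_def, ← mul_assoc, ← map_mul]
      congr 2
      show c j = c0 * (c j * (b : K))
      calc c j = c j * (c0 * (b : K)) := by rw [hbK, mul_one]
        _ = c0 * (c j * (b : K)) := by ring
  · -- the unique solution
    have hiff : ∀ ce : (Fin ((ℓ - 1) * g) → ↥R.O) × (↥R.O)[X],
        ((∀ j, ce.1 j ∈ maximalIdeal ↥R.O) ∧ ce.2.Monic ∧ ce.2.natDegree = g ∧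
          ce.2.map (residue ↥R.O) = (s27h_ePoly ξt).map (residue ↥R.O) ∧
          s27h_IsSol Rtot ℓ g ce.1 ce.2) ↔
        ((∀ j, R.r0 (ce.1 j) = 0) ∧ ce.2.Monic ∧ ce.2.natDegree = g ∧
          ce.2.map R.r0 = ∏ i, (X - C (a i)) ∧
          ∃ lam : K, lam ≠ 0 ∧
            aeval x ((s27hs_S R h red hdiv D).map R.O.subtype) *
              algebraMap K⟮x⟯ F
                (Algebra.norm K⟮x⟯ (1 + ∑ j, ((ce.1 j : ↥R.O) : K) • w j)) =
            algebraMap K F lam * aeval x ((ce.2 ^ ℓ).map R.O.subtype)) := by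
      intro ce
      constructor
      · rintro ⟨h1, h2, h3, h4, h5⟩
        have hc0 : ∀ j, R.r0 (ce.1 j) = 0 := fun j =>
          (s27hv_r0_eq_zero_iff R.O R.r0 R.r0_surj _).2 (h1 j)
        refine ⟨hc0, h2, h3,
          ((s27hv_map_eq_iff R.O R.r0 R.r0_surj _ _).1 h4).trans he0r, ?_⟩
        have heq := s27hv_eq_of_isSol R (x := x) Rtot ce.1 ce.2 h5
        rw [hi ce.1] at heq
        refine ⟨_, ?_, heq⟩
        intro h0
        rw [h0, map_zero, zero_mul] at heq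
        rcases mul_eq_zero.mp heq with hS0 | hN0
        · have hinj : Function.Injective (aeval x : K[X] →ₐ[K] F) :=
            transcendental_iff_injective.mp hxK
          have : (s27hs_S R h red hdiv D).map R.O.subtype = 0 := by
            apply hinj
            rw [hS0, map_zero]
          exact (hSmonic.map R.O.subtype).ne_zero this
        · rw [map_eq_zero, Algebra.norm_eq_zero_iff] at hN0
          obtain ⟨hV, hr⟩ := s27hv_r_one_add_sum R w hwV ce.1
          have hz : (⟨1 + ∑ j, ((ce.1 j : ↥R.O) : K) • w j, hV⟩ : ↥R.V) = 0 := Subtype.ext hN0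
          rw [hz, map_zero] at hr
          simp only [hc0, map_zero, zero_mul, Finset.sum_const_zero, add_zero] at hr
          exact zero_ne_one hr
      · rintro ⟨h1, h2, h3, h4, lam, -, heq⟩
        refine ⟨fun j => (s27hv_r0_eq_zero_iff R.O R.r0 R.r0_surj _).1 (h1 j), h2, h3,
          (s27hv_map_eq_iff R.O R.r0 R.r0_surj _ _).2 (h4.trans he0r.symm), ?_⟩
        exact s27hv_isSol_of_eq R hxK Rtot ce.1 ce.2 h2 h3 lam (by rw [hi ce.1]; exact heq)
    exact ⟨ce0, (hiff ce0).1 hce0, fun y hy => huniq y ((hiff y).2 hy)⟩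

end Main

end Fermat.Agent.S27
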