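/-
S27 / (HENS) cell H11 (helper26): Step 7 of helper18's proof + the glue to `Pic0.torsion`.

Abstract form: `φ : A →+ B` a surjective homomorphism of commutative groups such that
multiplication by `l` is bijective on `ker φ`.  Then for every `n`, `φ` restricts to a bijection
`A[l^n] ≃ B[l^n]`.  Prefix `s27h_tor`.
-/
import Mathlib
import Fermat.Prelude.Def_AlgebraicCurve_DivisorClassGroup

set_option autoImplicit false

namespace Fermat.Agent.S27

open AlgebraicCurve

section abstract

variable {A B : Type*} [AddCommGroup A] [AddCommGroup B] (φ : A →+ B)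

/-- if `[l]` is bijective on `ker φ`, so is `[l ^ n]`. -/
theorem s27h_tor_pow_bijective (l : ℕ) (hbij : Function.Bijective (fun c : φ.ker => l • c))
    (n : ℕ) : Function.Bijective (fun c : φ.ker => (l ^ n) • c) := by
  induction n with
  | zero =>
    have : (fun c : φ.ker => (l ^ 0) • c) = id := by
      funext c; simp
    rw [this]; exact Function.bijective_id
  | succ n ih =>
    have : (fun c : φ.ker => (l ^ (n + 1)) • c) =
        (fun c : φ.ker => (l ^ n) • c) ∘ (fun c : φ.ker => l • c) := by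
      funext c
      simp only [Function.comp_apply]
      rw [smul_smul, pow_succ]
    rw [this]; exact ih.comp hbij

/-- the `m`-torsion of a commutative group, as a subtype (`ℕ`-scalars). -/
abbrev s27h_tor_sub (A : Type*) [AddCommGroup A] (m : ℕ) : Type _ := {a : A // m • a = 0}

/-- the restriction of `φ` to the `m`-torsion. -/
def s27h_tor_map (m : ℕ) : s27h_tor_sub A m → s27h_tor_sub B m :=
  fun a => ⟨φ a.1, by rw [← map_nsmul, a.2, map_zero]⟩

@[simp] theorem s27h_tor_map_coe (m : ℕ) (a : s27h_tor_sub A m) :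
    (s27h_tor_map φ m a : B) = φ a.1 := rfl

/-- `φ` is injective on `m`-torsion as soon as `[m]` is injective on `ker φ`. -/
theorem s27h_tor_map_injective (m : ℕ)
    (hinj : Function.Injective (fun c : φ.ker => m • c)) :
    Function.Injective (s27h_tor_map φ m) := by
  intro a a' h
  have h1 : φ a.1 = φ a'.1 := congrArg Subtype.val h
  have hk : a.1 - a'.1 ∈ φ.ker := by
    rw [AddMonoidHom.mem_ker, map_sub, h1, sub_self]
  have h2 : m • (⟨a.1 - a'.1, hk⟩ : φ.ker) = m • (0 : φ.ker) := by
    apply Subtype.ext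
    simp only [AddSubgroup.coe_nsmul, smul_zero, AddSubgroup.coe_zero]
    rw [smul_sub, a.2, a'.2, sub_self]
  have h3 := hinj h2
  have h4 : a.1 - a'.1 = 0 := congrArg Subtype.val h3
  exact Subtype.ext (sub_eq_zero.1 h4)

/-- `φ` is surjective on `m`-torsion as soon as `φ` is surjective and `[m]` is surjective on
`ker φ`. -/
theorem s27h_tor_map_surjective (hsurj : Function.Surjective φ) (m : ℕ)
    (hs : Function.Surjective (fun c : φ.ker => m • c)) :
    Function.Surjective (s27h_tor_map φ m) := by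
  intro b
  obtain ⟨a, ha⟩ := hsurj b.1
  have hk : m • a ∈ φ.ker := by
    rw [AddMonoidHom.mem_ker, map_nsmul, ha, b.2]
  obtain ⟨c, hc⟩ := hs ⟨m • a, hk⟩
  have hc' : m • (c : A) = m • a := by
    have := congrArg Subtype.val hc
    simpa using this
  refine ⟨⟨a - c, ?_⟩, ?_⟩
  · rw [smul_sub, hc', sub_self]
  · apply Subtype.ext
    simp only [s27h_tor_map_coe, map_sub]
    rw [ha, (AddMonoidHom.mem_ker).1 c.2, sub_zero]

/-- **Step 7**: `φ` restricts to a bijection on `l ^ n`-torsion. -/
theorem s27h_tor_map_bijective (hsurj : Function.Surjective φ) (l : ℕ)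
    (hbij : Function.Bijective (fun c : φ.ker => l • c)) (n : ℕ) :
    Function.Bijective (s27h_tor_map φ (l ^ n)) :=
  ⟨s27h_tor_map_injective φ _ (s27h_tor_pow_bijective φ l hbij n).1,
    s27h_tor_map_surjective φ hsurj _ (s27h_tor_pow_bijective φ l hbij n).2⟩

/-- the equivalence `A[l^n] ≃ B[l^n]`. -/
noncomputable def s27h_tor_equiv (hsurj : Function.Surjective φ) (l : ℕ)
    (hbij : Function.Bijective (fun c : φ.ker => l • c)) (n : ℕ) :
    s27h_tor_sub A (l ^ n) ≃ s27h_tor_sub B (l ^ n) :=
  Equiv.ofBijective _ (s27h_tor_map_bijective φ hsurj l hbij n)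

/-- **Step 7, cardinalities**. -/
theorem s27h_tor_card (hsurj : Function.Surjective φ) (l : ℕ)
    (hbij : Function.Bijective (fun c : φ.ker => l • c)) (n : ℕ) :
    Nat.card {a : A // (l ^ n) • a = 0} = Nat.card {b : B // (l ^ n) • b = 0} :=
  Nat.card_congr (s27h_tor_equiv φ hsurj l hbij n)

/-- the kernel of `[l ^ n]` on `A` is trivial on `ker φ` (used by consumers). -/
theorem s27h_tor_ker_eq_zero (l : ℕ) (hbij : Function.Bijective (fun c : φ.ker => l • c))
    (n : ℕ) {a : A} (ha : a ∈ φ.ker) (h : (l ^ n) • a = 0) : a = 0 := by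
  have h2 : (l ^ n) • (⟨a, ha⟩ : φ.ker) = (l ^ n) • (0 : φ.ker) := by
    apply Subtype.ext
    simp only [AddSubgroup.coe_nsmul, smul_zero, AddSubgroup.coe_zero]
    exact h
  exact congrArg Subtype.val ((s27h_tor_pow_bijective φ l hbij n).1 h2)

end abstract

section glue

variable {K : Type*} {F : Type*} [Field K] [Field F] [Algebra K F]

/-- `Pic0.torsion K F m` as the subtype of `ℕ`-torsion. -/
noncomputable def s27h_tor_pic0Equiv (m : ℕ) :
    ↥(Pic0.torsion K F m) ≃ {a : Pic0 K F // m • a = 0} where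
  toFun a := ⟨a.1, by
    have := (Pic0.mem_torsion (K := K) (F := F)).1 a.2
    rwa [natCast_zsmul] at this⟩
  invFun a := ⟨a.1, (Pic0.mem_torsion (K := K) (F := F)).2 (by rw [natCast_zsmul]; exact a.2)⟩
  left_inv _ := rfl
  right_inv _ := rfl

variable {k : Type*} {Fb : Type*} [Field k] [Field Fb] [Algebra k Fb]

/-- **(HENS) H11**: a surjective homomorphism `Pic0 K F →+ Pic0 k Fb` with `[l]` bijective on its
kernel preserves the cardinality of the `l ^ n`-torsion. -/
theorem s27h_card_torsion_of (φ : Pic0 K F →+ Pic0 k Fb) (hsurj : Function.Surjective φ)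
    (l : ℕ) (hbij : Function.Bijective (fun c : φ.ker => l • c)) (n : ℕ) :
    Nat.card (Pic0.torsion K F (l ^ n)) = Nat.card (Pic0.torsion k Fb (l ^ n)) := by
  rw [Nat.card_congr (s27h_tor_pic0Equiv (K := K) (F := F) (l ^ n)),
    Nat.card_congr (s27h_tor_pic0Equiv (K := k) (F := Fb) (l ^ n))]
  exact s27h_tor_card φ hsurj l hbij n

/-- the explicit equivalence of torsion subgroups (as types). -/
noncomputable def s27h_torsion_equiv_of (φ : Pic0 K F →+ Pic0 k Fb)
    (hsurj : Function.Surjective φ) (l : ℕ)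
    (hbij : Function.Bijective (fun c : φ.ker => l • c)) (n : ℕ) :
    ↥(Pic0.torsion K F (l ^ n)) ≃ ↥(Pic0.torsion k Fb (l ^ n)) :=
  (s27h_tor_pic0Equiv (K := K) (F := F) (l ^ n)).trans
    ((s27h_tor_equiv φ hsurj l hbij n).trans (s27h_tor_pic0Equiv (K := k) (F := Fb) (l ^ n)).symm)

theorem s27h_torsion_equiv_of_coe (φ : Pic0 K F →+ Pic0 k Fb)
    (hsurj : Function.Surjective φ) (l : ℕ)
    (hbij : Function.Bijective (fun c : φ.ker => l • c)) (n : ℕ)
    (a : ↥(Pic0.torsion K F (l ^ n))) :
    ((s27h_torsion_equiv_of φ hsurj l hbij n a : ↥(Pic0.torsion k Fb (l ^ n))) : Pic0 k Fb) =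
      φ a.1 := rfl

end glue

end Fermat.Agent.S27
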