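/-
S27 / (HENS), MAIN THEOREM (helper12).

* `s27h_hens`      : **(HENS)**: for a constant reduction `R` with the (GOOD) hypotheses, the reduction
  map `red` on places with property (R) and the induced homomorphism `φ : Pic⁰(F) → Pic⁰(F̄)`,
  multiplication by `ℓ` is bijective on `ker φ` for every `ℓ` invertible in the residue field
  (= `s27h_hens_of` of `Hens/MainOf.lean` applied to helper18's `s27h_solve` of `Hens/Solve.lean`);
* `s27h_hens_stmt` : the seam `s27t_Hens_stmt` of `Top/RedHens.lean`.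
-/
import Mathlib
import Fermat.Agent.S27.Hens.MainOf
import Fermat.Agent.S27.Hens.Solve
import Fermat.Agent.S27.Top.RedHens

set_option autoImplicit false
set_option linter.unusedVariables false

noncomputable section

namespace Fermat.Agent.S27

open AlgebraicCurve IntermediateField Polynomial Fermat.Agent.JT3 Fermat.Agent.S24

universe u v u' v'
variable {K : Type u} {F : Type v} [Field K] [Field F] [Algebra K F]
variable {k : Type u'} {Fb : Type v'} [Field k] [Field Fb] [Algebra k Fb]

/-- **(HENS)**: multiplication by `ℓ` is bijective on the kernel of the reduction homomorphism on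
`Pic⁰`, for `ℓ` invertible in the residue field. -/
theorem s27h_hens [IsAlgClosed K] [IsAlgClosed k] (R : s27r_Red K F k Fb) {x : F}
    (h : s27r_Good R x) (red : Place K F → Place k Fb)
    (hdiv : ∀ (f : F) (hf : f ∈ R.V), R.r ⟨f, hf⟩ ≠ 0 →
      Finsupp.mapDomain red (rt_div h.sepK f) = rt_div h.sepk (R.r ⟨f, hf⟩))
    (φ : Pic0 K F →+ Pic0 k Fb)
    (hφ : ∀ (D : Divisor K F) (hD : D ∈ Divisor.degZero (K := K) (F := F)),
      ∃ hD' : Finsupp.mapDomain red D ∈ Divisor.degZero (K := k) (F := Fb),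
        φ (Pic0.mk ⟨D, hD⟩) = Pic0.mk ⟨Finsupp.mapDomain red D, hD'⟩)
    (ℓ : ℕ) (hℓ : (ℓ : k) ≠ 0) : Function.Bijective (fun c : φ.ker => ℓ • c) :=
  s27h_hens_of R h red hdiv
    (fun _ hgk Pb a ha hPb hl1 hlm ℓ hℓ D hD hDr =>
      s27h_solve R h red hdiv hgk Pb a ha hPb hl1 hlm ℓ hℓ D hD hDr) φ hφ ℓ hℓ

/-- the seam `s27t_Hens_stmt` of `Top/RedHens.lean`. -/
theorem s27h_hens_stmt : s27t_Hens_stmt.{u, v, u', v'} :=
  fun K F _ _ _ _ _ _ k Fb _ _ _ _ R _ h red _ hdiv φ hφ l hl => s27h_hens R h red hdiv φ hφ l hl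

end Fermat.Agent.S27
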