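import Fermat.Agent.S27.Hens.MvHensel

/-!
# S27 / (HENS): the abstract algebraic core of Steps 4-6

`O` a valuation subring of an algebraically closed field `K`, `k` its residue field.
Input: `Rtot : (MvPolynomial (Fin M) O)[X]` of `X`-degree `≤ ℓ g` (in the application
`Rtot(c) = S(X) · N(1 + ∑ c_j w_j)`), `M + g = ℓ g`, a monic `e0` of degree `g` with
`Rtot(0) ≡ e0^ℓ mod m`, and the tangent hypothesis.  Output: a unique `(c, e)`, `c ∈ m^M`,
`e` monic of degree `g`, `e ≡ e0`, with `Rtot(c) = top(c) · e^ℓ`.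
-/

set_option autoImplicit false

namespace Fermat.Agent.S27

open Polynomial IsLocalRing

section Defs

variable {R : Type*} [CommRing R] {M g ℓ : ℕ}

/-- `Rtot` evaluated at a point `c` of an `R`-algebra `A`. -/
noncomputable def s27h_evalR {A : Type*} [CommRing A] [Algebra R A]
    (Rtot : (MvPolynomial (Fin M) R)[X]) (c : Fin M → A) : A[X] :=
  Rtot.map ((MvPolynomial.aeval c : MvPolynomial (Fin M) R →ₐ[R] A) : MvPolynomial (Fin M) R →+* A)

/-- The monic polynomial `X^g + ∑_{j<g} ε_j X^j`. -/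
noncomputable def s27h_monic {A : Type*} [CommRing A] (g : ℕ) (ε : Fin g → A) : A[X] :=
  X ^ g + ∑ j : Fin g, C (ε j) * X ^ (j : ℕ)

/-- `(c, e)` solves the system: `Rtot(c) = top(c) · e^ℓ`. -/
def s27h_IsSol {A : Type*} [CommRing A] [Algebra R A] (Rtot : (MvPolynomial (Fin M) R)[X])
    (ℓ g : ℕ) (c : Fin M → A) (e : A[X]) : Prop :=
  s27h_evalR Rtot c = C ((s27h_evalR Rtot c).coeff (ℓ * g)) * e ^ ℓ

theorem s27h_monic_coeff_lt {A : Type*} [CommRing A] (ε : Fin g → A) (j : Fin g) :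
    (s27h_monic g ε).coeff (j : ℕ) = ε j := by
  classical
  rw [s27h_monic, coeff_add, coeff_X_pow, if_neg (by have := j.2; omega), zero_add,
    finset_sum_coeff]
  rw [Finset.sum_eq_single j]
  · simp
  · intro i _ hij
    rw [coeff_C_mul, coeff_X_pow, if_neg, mul_zero]
    intro h
    exact hij (Fin.ext h.symm)
  · intro h; exact absurd (Finset.mem_univ j) h

theorem s27h_monic_natDegree_le {A : Type*} [CommRing A] (ε : Fin g → A) :
    (s27h_monic g ε).natDegree ≤ g := by
  rw [s27h_monic]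
  refine (natDegree_add_le _ _).trans (max_le (natDegree_X_pow_le g) ?_)
  refine natDegree_sum_le_of_forall_le _ _ fun j _ => ?_
  refine (natDegree_C_mul_le _ _).trans ((natDegree_X_pow_le _).trans ?_)
  have := j.2
  omega

theorem s27h_monic_coeff_g {A : Type*} [CommRing A] (ε : Fin g → A) :
    (s27h_monic g ε).coeff g = 1 := by
  classical
  rw [s27h_monic, coeff_add, coeff_X_pow, if_pos rfl, finset_sum_coeff]
  rw [Finset.sum_eq_zero, add_zero]
  intro i _
  rw [coeff_C_mul, coeff_X_pow, if_neg, mul_zero]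
  have := i.2
  omega

theorem s27h_monic_monic {A : Type*} [CommRing A] [Nontrivial A] (ε : Fin g → A) :
    (s27h_monic g ε).Monic ∧ (s27h_monic g ε).natDegree = g := by
  have h1 := s27h_monic_natDegree_le ε
  have h2 := s27h_monic_coeff_g ε
  have h3 : (s27h_monic g ε).natDegree = g := by
    refine le_antisymm h1 (le_natDegree_of_ne_zero ?_)
    rw [h2]; exact one_ne_zero
  exact ⟨by rw [Monic, leadingCoeff, h3, h2], h3⟩

/-- A monic polynomial of degree `g` is `s27h_monic g` of its lower coefficients. -/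
theorem s27h_eq_monic {A : Type*} [CommRing A] {e : A[X]} (he : e.Monic)
    (hg : e.natDegree = g) : e = s27h_monic g (fun j : Fin g => e.coeff (j : ℕ)) := by
  classical
  ext i
  rcases lt_trichotomy i g with h | h | h
  · have := s27h_monic_coeff_lt (fun j : Fin g => e.coeff (j : ℕ)) ⟨i, h⟩
    exact this.symm
  · subst h
    rw [s27h_monic_coeff_g]
    have := he.coeff_natDegree
    rwa [hg] at this
  · rw [coeff_eq_zero_of_natDegree_lt (by omega),
      coeff_eq_zero_of_natDegree_lt ((s27h_monic_natDegree_le _).trans_lt h)]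

theorem s27h_monic_map {A B : Type*} [CommRing A] [CommRing B] (f : A →+* B) (ε : Fin g → A) :
    (s27h_monic g ε).map f = s27h_monic g (fun j => f (ε j)) := by
  simp [s27h_monic, Polynomial.map_sum]

end Defs

section System

variable {R : Type*} [CommRing R] {M g ℓ : ℕ} (hMg : M + g = ℓ * g)

/-- position of the `c`-variables among the `ℓ g` unknowns -/
def s27h_cv : Fin M → Fin (ℓ * g) := fun j => Fin.cast hMg (Fin.castAdd g j)

/-- position of the `ε`-variables among the `ℓ g` unknowns -/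
def s27h_ev : Fin g → Fin (ℓ * g) := fun j => Fin.cast hMg (Fin.natAdd M j)

theorem s27h_cv_or_ev (i : Fin (ℓ * g)) :
    (∃ j, i = s27h_cv hMg j) ∨ ∃ j, i = s27h_ev hMg j := by
  have hi : (i : ℕ) < M + g := by rw [hMg]; exact i.2
  by_cases h : (i : ℕ) < M
  · exact Or.inl ⟨⟨i, h⟩, Fin.ext rfl⟩
  · refine Or.inr ⟨⟨i - M, by omega⟩, Fin.ext ?_⟩
    simp [s27h_ev]
    omega

theorem s27h_cv_ne_ev (j : Fin M) (j' : Fin g) : s27h_cv hMg j ≠ s27h_ev hMg j' := by
  intro h
  have := congrArg Fin.val h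
  simp [s27h_cv, s27h_ev] at this
  have := j.2
  omega

theorem s27h_cv_injective : Function.Injective (s27h_cv hMg) := by
  intro a b h
  have := congrArg Fin.val h
  simp [s27h_cv] at this
  exact Fin.ext this

theorem s27h_ev_injective : Function.Injective (s27h_ev hMg) := by
  intro a b h
  have := congrArg Fin.val h
  simp [s27h_ev] at this
  exact Fin.ext this

variable (Rtot : (MvPolynomial (Fin M) R)[X])

/-- `Rtot` in the `ℓ g` variables -/
noncomputable def s27h_Rs : (MvPolynomial (Fin (ℓ * g)) R)[X] :=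
  Rtot.map ((MvPolynomial.rename (s27h_cv hMg) :
    MvPolynomial (Fin M) R →ₐ[R] MvPolynomial (Fin (ℓ * g)) R) : _ →+* _)

/-- the generic monic polynomial of degree `g` -/
noncomputable def s27h_Es : (MvPolynomial (Fin (ℓ * g)) R)[X] :=
  s27h_monic g (fun j => (MvPolynomial.X (s27h_ev hMg j) : MvPolynomial (Fin (ℓ * g)) R))

/-- the system as a polynomial in `X` -/
noncomputable def s27h_Sys : (MvPolynomial (Fin (ℓ * g)) R)[X] :=
  s27h_Rs hMg Rtot - C ((s27h_Rs hMg Rtot).coeff (ℓ * g)) * (s27h_Es hMg) ^ ℓ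

/-- the `ℓ g` equations in `ℓ g` unknowns -/
noncomputable def s27h_G (i : Fin (ℓ * g)) : MvPolynomial (Fin (ℓ * g)) R :=
  (s27h_Sys hMg Rtot).coeff (i : ℕ)

variable {A : Type*} [CommRing A] [Algebra R A]

theorem s27h_Rs_map (b : Fin (ℓ * g) → A) :
    (s27h_Rs hMg Rtot).map ((MvPolynomial.aeval b : MvPolynomial (Fin (ℓ * g)) R →ₐ[R] A) : _ →+* A)
      = s27h_evalR Rtot (b ∘ s27h_cv hMg) := by
  rw [s27h_Rs, s27h_evalR, Polynomial.map_map]
  congr 1
  apply MvPolynomial.ringHom_ext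
  · intro r; simp
  · intro q; simp

theorem s27h_Sys_map (b : Fin (ℓ * g) → A) :
    (s27h_Sys hMg Rtot).map ((MvPolynomial.aeval b : MvPolynomial (Fin (ℓ * g)) R →ₐ[R] A) : _ →+* A)
      = s27h_evalR Rtot (b ∘ s27h_cv hMg)
        - C ((s27h_evalR Rtot (b ∘ s27h_cv hMg)).coeff (ℓ * g))
          * (s27h_monic g (b ∘ s27h_ev hMg)) ^ ℓ := by
  rw [s27h_Sys, Polynomial.map_sub, Polynomial.map_mul, Polynomial.map_pow, Polynomial.map_C,
    ← Polynomial.coeff_map, s27h_Rs_map, s27h_Es, s27h_monic_map]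
  congr 3
  congr 1
  funext j
  simp

theorem s27h_G_aeval (b : Fin (ℓ * g) → A) (i : Fin (ℓ * g)) :
    MvPolynomial.aeval b (s27h_G hMg Rtot i) =
      (s27h_evalR Rtot (b ∘ s27h_cv hMg)
        - C ((s27h_evalR Rtot (b ∘ s27h_cv hMg)).coeff (ℓ * g))
          * (s27h_monic g (b ∘ s27h_ev hMg)) ^ ℓ).coeff (i : ℕ) := by
  rw [← s27h_Sys_map, Polynomial.coeff_map]
  rfl

theorem s27h_evalR_natDegree_le (hdeg : Rtot.natDegree ≤ ℓ * g) (c : Fin M → A) :
    (s27h_evalR Rtot c).natDegree ≤ ℓ * g :=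
  (natDegree_map_le).trans hdeg

/-- The difference `Rtot(c) - top(c) e^ℓ` has degree `< ℓ g` for monic `e` of degree `g`. -/
theorem s27h_diff_coeff_eq_zero [Nontrivial A] (hdeg : Rtot.natDegree ≤ ℓ * g) (c : Fin M → A)
    {e : A[X]} (he : e.Monic) (hg : e.natDegree = g) {i : ℕ} (hi : ℓ * g ≤ i) :
    (s27h_evalR Rtot c - C ((s27h_evalR Rtot c).coeff (ℓ * g)) * e ^ ℓ).coeff i = 0 := by
  have hpm : (e ^ ℓ).Monic := he.pow ℓ
  have hpd : (e ^ ℓ).natDegree = ℓ * g := by rw [he.natDegree_pow, hg]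
  rw [coeff_sub, coeff_C_mul]
  rcases hi.eq_or_lt with h | h
  · subst h
    have : (e ^ ℓ).coeff (ℓ * g) = 1 := by
      have := hpm.coeff_natDegree
      rwa [hpd] at this
    rw [this, mul_one, sub_self]
  · have h1 : (s27h_evalR Rtot c).coeff i = 0 :=
      coeff_eq_zero_of_natDegree_lt ((s27h_evalR_natDegree_le Rtot hdeg c).trans_lt h)
    have h2 : (e ^ ℓ).coeff i = 0 := coeff_eq_zero_of_natDegree_lt (by rw [hpd]; exact h)
    rw [h1, h2, mul_zero, sub_self]

/-- The point `b` solves the `ℓ g` equations iff `(c, e)` solves `Rtot(c) = top(c) e^ℓ`. -/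
theorem s27h_G_eq_zero_iff [Nontrivial A] (hdeg : Rtot.natDegree ≤ ℓ * g) (b : Fin (ℓ * g) → A) :
    (∀ i, MvPolynomial.aeval b (s27h_G hMg Rtot i) = 0) ↔
      s27h_IsSol Rtot ℓ g (b ∘ s27h_cv hMg) (s27h_monic g (b ∘ s27h_ev hMg)) := by
  obtain ⟨hm, hd⟩ := s27h_monic_monic (b ∘ s27h_ev hMg)
  rw [s27h_IsSol, ← sub_eq_zero]
  constructor
  · intro h
    ext i
    rw [coeff_zero]
    by_cases hi : i < ℓ * g
    · have := h ⟨i, hi⟩
      rwa [s27h_G_aeval] at this
    · exact s27h_diff_coeff_eq_zero Rtot hdeg _ hm hd (not_lt.mp hi)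
  · intro h i
    rw [s27h_G_aeval, h, coeff_zero]

end System

end Fermat.Agent.S27
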