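/-
S27 / (HENS), Step 6, the counting lemma (H10-COMB): an effective divisor `Z` supported in the
residue discs of `P̄_1, …, P̄_g`, whose `x`-fibres have the sizes prescribed by `ℓ · Σ [ξ_i]`, equals
`ℓ · Σ Q_i`, where `Q_i` is the point of the `i`-th disc with `x(Q_i) = ξ_i`.
-/
import Mathlib
import Fermat.Agent.JT3.Riemann.Main

set_option autoImplicit false

namespace Fermat.Agent.S27

open AlgebraicCurve

universe u v u' v'
variable {K : Type u} {F : Type v} [Field K] [Field F] [Algebra K F]
variable {k : Type u'} {Fb : Type v'} [Field k] [Field Fb] [Algebra k Fb]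

open scoped Classical in
/-- **H10-COMB.** -/
theorem s27hz_eq_smul_sum (red : Place K F → Place k Fb) (x : F) (Z : Divisor K F) (hZ : 0 ≤ Z)
    {g l : ℕ} (Pb : Fin g → Place k Fb) (ξ : Fin g → K) (hξ : Function.Injective ξ)
    (Q : Fin g → Place K F)
    (hQ : ∀ i, red (Q i) = Pb i ∧ 0 < (Q i).ord (x - algebraMap K F (ξ i)))
    (hQuniq : ∀ (i : Fin g) (Q' : Place K F), red Q' = Pb i →
      0 < Q'.ord (x - algebraMap K F (ξ i)) → Q' = Q i)
    (hvu : ∀ (w : Place K F) (η η' : K), 0 < w.ord (x - algebraMap K F η) →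
      0 < w.ord (x - algebraMap K F η') → η = η')
    (hsupp : ∀ w, Z w ≠ 0 → ∃ i, red w = Pb i)
    (hval : ∀ (w : Place K F) (i : Fin g), Z w ≠ 0 → red w = Pb i →
      ∃ η : K, 0 < w.ord (x - algebraMap K F η) ∧ ∀ j, η = ξ j → j = i)
    (hfib : ∀ η : K, (∑ w ∈ Z.support.filter (fun w => 0 < w.ord (x - algebraMap K F η)), Z w) =
      (l : ℤ) * ((Finset.univ.filter fun i => ξ i = η).card : ℤ)) :
    Z = l • ∑ i, Finsupp.single (Q i) (1 : ℤ) := by
  classical
  have hZnn : ∀ w, 0 ≤ Z w := fun w => by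
    have := Finsupp.le_def.mp hZ w
    simpa using this
  -- Step 1: the support of `Z` consists of the `Q i`
  have hstep1 : ∀ w, Z w ≠ 0 → ∃ i, w = Q i := by
    intro w hw
    obtain ⟨i, hi⟩ := hsupp w hw
    obtain ⟨η, hη, hηi⟩ := hval w i hw hi
    have hpos : 0 < ∑ w' ∈ Z.support.filter (fun w' => 0 < w'.ord (x - algebraMap K F η)), Z w' := by
      apply Finset.sum_pos'
      · intro w' _
        exact hZnn w'
      · refine ⟨w, ?_, lt_of_le_of_ne (hZnn w) (Ne.symm hw)⟩
        rw [Finset.mem_filter, Finsupp.mem_support_iff]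
        exact ⟨hw, hη⟩
    rw [hfib η] at hpos
    have hcard : 0 < (Finset.univ.filter fun i => ξ i = η).card := by
      by_contra h0
      push Not at h0
      have : (Finset.univ.filter fun i => ξ i = η).card = 0 := by omega
      rw [this] at hpos
      simp at hpos
    obtain ⟨j, hj⟩ := Finset.card_pos.1 hcard
    rw [Finset.mem_filter] at hj
    have hji : j = i := hηi j hj.2.symm
    subst hji
    refine ⟨j, hQuniq j w hi ?_⟩
    rw [hj.2]
    exact hη
  -- `Q` is injective
  have hQinj : Function.Injective Q := by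
    intro i j hij
    apply hξ
    exact hvu (Q i) _ _ (hQ i).2 (hij ▸ (hQ j).2)
  -- Step 2: `Z (Q i) = l`
  have hstep2 : ∀ i, Z (Q i) = l := by
    intro i
    have h1 := hfib (ξ i)
    have hcard : (Finset.univ.filter fun j => ξ j = ξ i).card = 1 := by
      rw [Finset.card_eq_one]
      refine ⟨i, ?_⟩
      ext j
      rw [Finset.mem_filter, Finset.mem_singleton]
      exact ⟨fun h => hξ h.2, fun h => ⟨Finset.mem_univ _, by rw [h]⟩⟩
    rw [hcard, Nat.cast_one, mul_one] at h1
    rw [← h1]
    by_cases h0 : Z (Q i) = 0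
    · rw [h0]
      symm
      apply Finset.sum_eq_zero
      intro w hw
      rw [Finset.mem_filter, Finsupp.mem_support_iff] at hw
      obtain ⟨j, rfl⟩ := hstep1 w hw.1
      have : ξ j = ξ i := hvu (Q j) _ _ (hQ j).2 hw.2
      have : j = i := hξ this
      subst this
      exact h0
    · symm
      apply Finset.sum_eq_single_of_mem (Q i)
      · rw [Finset.mem_filter, Finsupp.mem_support_iff]
        exact ⟨h0, (hQ i).2⟩
      · intro w hw hne
        rw [Finset.mem_filter, Finsupp.mem_support_iff] at hw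
        obtain ⟨j, rfl⟩ := hstep1 w hw.1
        have : ξ j = ξ i := hvu (Q j) _ _ (hQ j).2 hw.2
        have : j = i := hξ this
        subst this
        exact absurd rfl hne
  -- Step 3
  ext w
  rw [Finsupp.smul_apply, Finsupp.finsetSum_apply]
  by_cases hw : ∃ i, w = Q i
  · obtain ⟨i, rfl⟩ := hw
    rw [hstep2 i, Finset.sum_eq_single_of_mem i (Finset.mem_univ i)]
    · simp
    · intro j _ hji
      rw [Finsupp.single_apply, if_neg]
      exact fun h => hji (hQinj h)
  · have h0 : Z w = 0 := by
      by_contra h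
      exact hw (hstep1 w h)
    rw [h0]
    symm
    rw [Finset.sum_eq_zero, smul_zero]
    intro j _
    rw [Finsupp.single_apply, if_neg]
    exact fun h => hw ⟨j, h.symm⟩

/-- the hypothesis `hsupp` of `s27hz_eq_smul_sum` from `red_* Z = ℓ · Σ P̄_i`. -/
theorem s27hz_exists_of_mapDomain (red : Place K F → Place k Fb) (Z : Divisor K F) (hZ : 0 ≤ Z)
    {g l : ℕ} (Pb : Fin g → Place k Fb)
    (hred : Finsupp.mapDomain red Z = l • ∑ i, Finsupp.single (Pb i) (1 : ℤ))
    (w : Place K F) (hw : Z w ≠ 0) : ∃ i, red w = Pb i := by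
  classical
  have hZnn : ∀ v, 0 ≤ Z v := fun v => by
    have := Finsupp.le_def.mp hZ v
    simpa using this
  have h1 : 0 < Finsupp.mapDomain red Z (red w) := by
    rw [Finsupp.mapDomain, Finsupp.sum_apply, Finsupp.sum]
    apply Finset.sum_pos'
    · intro v _
      rw [Finsupp.single_apply]
      split_ifs
      · exact hZnn v
      · exact le_rfl
    · refine ⟨w, Finsupp.mem_support_iff.2 hw, ?_⟩
      rw [Finsupp.single_apply, if_pos rfl]
      exact lt_of_le_of_ne (hZnn w) (Ne.symm hw)
  rw [hred, Finsupp.smul_apply, Finsupp.finsetSum_apply] at h1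
  by_contra hcon
  push Not at hcon
  have : ∑ i, (Finsupp.single (Pb i) (1 : ℤ)) (red w) = 0 := by
    apply Finset.sum_eq_zero
    intro i _
    rw [Finsupp.single_apply, if_neg]
    exact fun h => hcon i h.symm
  rw [this, smul_zero] at h1
  exact lt_irrefl _ h1

end Fermat.Agent.S27
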