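import Mathlib

/-!
# S27 / (HENS), cell H1b: the étale algebra of a square system with inverted Jacobian

For `G : Fin N → R[X_1..X_N]` put `Δ := det (∂_j G_i)` and
`B := R[X_1..X_N, Y] / (G_1, .., G_N, Y Δ - 1)`.  Then `B` is étale over `R`
(a submersive presentation of relative dimension `0`).
-/

set_option autoImplicit false

namespace Fermat.Agent.S27

open MvPolynomial

variable {R : Type*} [CommRing R] {N : ℕ}

/-- The Jacobian determinant of the square system `G`. -/
noncomputable def s27h_Delta (G : Fin N → MvPolynomial (Fin N) R) : MvPolynomial (Fin N) R :=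
  Matrix.det (Matrix.of fun i j => pderiv j (G i))

/-- The relations `G_i` (in the variables `inl`) and `Y Δ - 1`. -/
noncomputable def s27h_rel (G : Fin N → MvPolynomial (Fin N) R) :
    Fin N ⊕ Unit → MvPolynomial (Fin N ⊕ Unit) R :=
  Sum.elim (fun i => rename Sum.inl (G i))
    (fun _ => X (Sum.inr ()) * rename Sum.inl (s27h_Delta G) - 1)

/-- The algebra `R[X, Y] / (G, Y Δ - 1)`. -/
abbrev s27h_B (G : Fin N → MvPolynomial (Fin N) R) : Type _ :=
  MvPolynomial (Fin N ⊕ Unit) R ⧸ Ideal.span (Set.range (s27h_rel G))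

/-- The naive pre-submersive presentation of `s27h_B G`. -/
noncomputable def s27h_pre (G : Fin N → MvPolynomial (Fin N) R) :
    Algebra.PreSubmersivePresentation R (s27h_B G) (Fin N ⊕ Unit) (Fin N ⊕ Unit) :=
  Algebra.PreSubmersivePresentation.naive (v := s27h_rel G) id Function.injective_id

theorem s27h_pderiv_inr_rename (u : Unit) (p : MvPolynomial (Fin N) R) :
    pderiv (Sum.inr u : Fin N ⊕ Unit) (rename Sum.inl p) = 0 := by
  classical
  refine pderiv_eq_zero_of_notMem_vars (fun hmem => ?_)
  have := vars_rename (Sum.inl : Fin N → Fin N ⊕ Unit) p hmem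
  simp at this

theorem s27h_jacobiMatrix_eq (G : Fin N → MvPolynomial (Fin N) R) :
    (s27h_pre G).jacobiMatrix =
      Matrix.fromBlocks
        (Matrix.of fun i j => rename Sum.inl (pderiv i (G j)))
        (Matrix.of fun i _ => pderiv (Sum.inl i)
          (X (Sum.inr ()) * rename Sum.inl (s27h_Delta G) - 1))
        0
        (Matrix.of fun _ _ => rename Sum.inl (s27h_Delta G)) := by
  classical
  refine Matrix.ext fun i j => ?_
  rw [s27h_pre, Algebra.PreSubmersivePresentation.jacobiMatrix_naive]
  rcases i with i | u <;> rcases j with j | u'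
  · simp [s27h_rel, pderiv_rename Sum.inl_injective]
  · simp [s27h_rel]
  · simp [s27h_rel, s27h_pderiv_inr_rename]
  · simp [s27h_rel, s27h_pderiv_inr_rename, pderiv_X]

theorem s27h_jacobiMatrix_det (G : Fin N → MvPolynomial (Fin N) R) :
    (s27h_pre G).jacobiMatrix.det =
      rename Sum.inl (s27h_Delta G) * rename Sum.inl (s27h_Delta G) := by
  classical
  rw [s27h_jacobiMatrix_eq, Matrix.det_fromBlocks_zero₂₁]
  congr 1
  swap
  · simp [Matrix.det_unique]
  have : (Matrix.of fun i j => rename Sum.inl (pderiv i (G j)) :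
      Matrix (Fin N) (Fin N) (MvPolynomial (Fin N ⊕ Unit) R)) =
      ((rename Sum.inl : MvPolynomial (Fin N) R →ₐ[R] _).toRingHom.mapMatrix
        (Matrix.of fun i j => pderiv j (G i))).transpose := by
    ext i j
    simp
  rw [this, Matrix.det_transpose, ← RingHom.map_det]
  rfl

theorem s27h_jacobian_isUnit (G : Fin N → MvPolynomial (Fin N) R) :
    IsUnit (s27h_pre G).jacobian := by
  classical
  rw [Algebra.PreSubmersivePresentation.jacobian_eq_jacobiMatrix_det, s27h_jacobiMatrix_det,
    map_mul]
  have hrel := (s27h_pre G).aeval_val_relation (Sum.inr ())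
  have h1 : algebraMap (s27h_pre G).Ring (s27h_B G) (X (Sum.inr ())) *
      algebraMap (s27h_pre G).Ring (s27h_B G) (rename Sum.inl (s27h_Delta G)) = 1 := by
    have h2 : (s27h_pre G).relation (Sum.inr ()) =
        X (Sum.inr ()) * rename Sum.inl (s27h_Delta G) - 1 := rfl
    rw [h2, map_sub, map_mul, map_one, sub_eq_zero] at hrel
    simpa [Algebra.Generators.algebraMap_apply] using hrel
  have hu : IsUnit (algebraMap (s27h_pre G).Ring (s27h_B G) (rename Sum.inl (s27h_Delta G))) :=
    IsUnit.of_mul_eq_one _ (by rw [mul_comm]; exact h1)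
  exact hu.mul hu

/-- The submersive presentation of `s27h_B G`. -/
noncomputable def s27h_sub (G : Fin N → MvPolynomial (Fin N) R) :
    Algebra.SubmersivePresentation R (s27h_B G) (Fin N ⊕ Unit) (Fin N ⊕ Unit) :=
  { s27h_pre G with jacobian_isUnit := s27h_jacobian_isUnit G }

/-- `R[X, Y] / (G, Y Δ - 1)` is étale over `R`. -/
theorem s27h_etale (G : Fin N → MvPolynomial (Fin N) R) : Algebra.Etale R (s27h_B G) := by
  haveI : Algebra.IsStandardSmoothOfRelativeDimension 0 R (s27h_B G) :=
    (s27h_sub G).isStandardSmoothOfRelativeDimension (by simp [Algebra.Presentation.dimension])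
  infer_instance

end Fermat.Agent.S27
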