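import Fermat.Agent.S27.Hens.Tangent
import Fermat.Agent.S27.Hens.Core

/-!
# S27 / (HENS): first-order evaluation over the dual numbers

* `s27h_eval₂_firstOrder`: `q(ε u) = q(0) + ε ∑_j u_j · (coefficient of c_j in q)`.
* `s27h_add_eps_pow`: `(x + e y)^n = x^n + e (n x^(n-1) y)` when `e² = 0`.
* `s27h_lin`: the `c_j`-linear coefficient of `Rtot`.
* `s27h_evalR_firstOrder`: `Rtot(ε dc) = Rtot(0) + ε ∑_j dc_j R1_j`.
-/

set_option autoImplicit false

namespace Fermat.Agent.S27

open IsLocalRing DualNumber Polynomial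

theorem s27h_add_eps_pow {A : Type*} [CommRing A] {e : A} (he : e * e = 0) (x y : A) (n : ℕ) :
    (x + e * y) ^ n = x ^ n + e * ((n : A) * x ^ (n - 1) * y) := by
  induction n with
  | zero => simp
  | succ n ih =>
    rw [pow_succ, ih]
    rcases n with _ | m
    · simp
    · simp only [Nat.add_sub_cancel, Nat.cast_add, Nat.cast_one]
      have h1 : x ^ (m + 1) = x ^ m * x := pow_succ x m
      rw [pow_succ x (m + 1), h1]
      linear_combination ((↑m + 1) * x ^ m * y * y) * he

section

variable {K : Type*} [Field K] (O : ValuationSubring K) {M : ℕ}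

/-- first-order evaluation of a multivariate polynomial at an infinitesimal point -/
theorem s27h_eval₂_firstOrder (q : MvPolynomial (Fin M) O) (dc : Fin M → ResidueField O) :
    MvPolynomial.eval₂ (s27h_phi O)
        (fun j => ε * algebraMap (ResidueField O) (ResidueField O)[ε] (dc j)) q =
      s27h_phi O (MvPolynomial.coeff 0 q) +
        ε * algebraMap (ResidueField O) (ResidueField O)[ε]
          (∑ j, dc j * residue O (MvPolynomial.coeff (Finsupp.single j 1) q)) := by
  classical
  set φ := s27h_phi O with hφ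
  set ι := algebraMap (ResidueField O) (ResidueField O)[ε] with hι
  obtain ⟨w, hw⟩ := s27h_taylor (MvPolynomial.map φ q) (fun _ => (0 : (ResidueField O)[ε]))
    (fun j => ι (dc j)) ε
  simp only [zero_add] at hw
  rw [MvPolynomial.eval_map] at hw
  rw [hw]
  have hε2 : (ε : (ResidueField O)[ε]) ^ 2 = 0 := by rw [pow_two, DualNumber.eps_mul_eps]
  have h0 : MvPolynomial.eval (fun _ => (0 : (ResidueField O)[ε])) (MvPolynomial.map φ q) =
      φ (MvPolynomial.coeff 0 q) := by
    rw [MvPolynomial.eval_zero', MvPolynomial.constantCoeff_eq, MvPolynomial.coeff_map]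
  have h1 : ∀ j, MvPolynomial.eval (fun _ => (0 : (ResidueField O)[ε]))
      (MvPolynomial.pderiv j (MvPolynomial.map φ q)) =
        ι (residue O (MvPolynomial.coeff (Finsupp.single j 1) q)) := by
    intro j
    rw [MvPolynomial.eval_zero', MvPolynomial.constantCoeff_eq, MvPolynomial.coeff_pderiv,
      MvPolynomial.coeff_map, zero_add]
    simp only [Finsupp.coe_zero, Pi.zero_apply, Nat.cast_zero, zero_add, mul_one]
    rfl
  rw [h0, hε2, zero_mul, add_zero]
  congr 2
  rw [map_sum]
  refine Finset.sum_congr rfl fun j _ => ?_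
  rw [h1, map_mul, mul_comm]

variable {g ℓ : ℕ}

/-- the `c_j`-linear coefficient of `Rtot` -/
noncomputable def s27h_lin {R : Type*} [CommRing R] (Rtot : (MvPolynomial (Fin M) R)[X])
    (j : Fin M) : R[X] :=
  ∑ i ∈ Finset.range (Rtot.natDegree + 1),
    monomial i (MvPolynomial.coeff (Finsupp.single j 1) (Rtot.coeff i))

theorem s27h_lin_coeff {R : Type*} [CommRing R] (Rtot : (MvPolynomial (Fin M) R)[X])
    (j : Fin M) (i : ℕ) :
    (s27h_lin Rtot j).coeff i = MvPolynomial.coeff (Finsupp.single j 1) (Rtot.coeff i) := by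
  classical
  rw [s27h_lin, finset_sum_coeff]
  simp only [coeff_monomial]
  by_cases hi : i < Rtot.natDegree + 1
  · rw [Finset.sum_eq_single i]
    · simp
    · intro b _ hb; rw [if_neg hb]
    · intro h; exact absurd (Finset.mem_range.mpr hi) h
  · rw [Finset.sum_eq_zero, coeff_eq_zero_of_natDegree_lt (by omega), MvPolynomial.coeff_zero]
    intro b hb
    rw [if_neg]
    have := Finset.mem_range.mp hb
    omega

theorem s27h_lin_natDegree_le {R : Type*} [CommRing R] (Rtot : (MvPolynomial (Fin M) R)[X])
    (j : Fin M) : (s27h_lin Rtot j).natDegree ≤ Rtot.natDegree := by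
  rw [natDegree_le_iff_coeff_eq_zero]
  intro i hi
  rw [s27h_lin_coeff, coeff_eq_zero_of_natDegree_lt hi, MvPolynomial.coeff_zero]

end

end Fermat.Agent.S27
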