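/-
S27 / (HENS), glue requested by helper18's ruling 2 (helper10; prefix `s27h10_`): the hypothesis `hsum`
of `s27h10_interp` from the norm equation of `s27h_solve`, for helper12's CONCRETE polynomial
`s27hs_S R h red hdiv D` (Hens/SPoly.lean), by helper23's norm formula (Hens/Line.lean) and helper5's
root multiplicities of `S` (Hens/RootMultS.lean).

* `s27h10_hsum_of_solve`   : the fibre sums;
* `s27h10_interp_of_solve` : `s27h10_interp` with `hsum` discharged: from a solution `(f, e)` of the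
  norm equation to `div f + D = ℓ • ∑ Q_i`.
-/
import Mathlib
import Fermat.Agent.S27.Hens.InterpSum
import Fermat.Agent.S27.Hens.SPoly
import Fermat.Agent.S27.Hens.RootMultS

set_option autoImplicit false
set_option linter.unusedSectionVars false
set_option linter.unusedVariables false

noncomputable section

namespace Fermat.Agent.S27

open AlgebraicCurve IntermediateField Polynomial Fermat.Agent.JT3 Fermat.Agent.S24

universe u v u' v'
variable {K : Type u} {F : Type v} [Field K] [Field F] [Algebra K F]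
variable {k : Type u'} {Fb : Type v'} [Field k] [Field Fb] [Algebra k Fb]

variable [IsAlgClosed K] [IsAlgClosed k] (R : s27r_Red K F k Fb) {x : F} (h : s27r_Good R x)
  (red : Place K F → Place k Fb)
  (hdiv : ∀ (f : F) (hf : f ∈ R.V), R.r ⟨f, hf⟩ ≠ 0 →
      Finsupp.mapDomain red (rt_div h.sepK f) = rt_div h.sepk (R.r ⟨f, hf⟩))

include hdiv in
/-- **the hypothesis `hsum` of `s27h10_interp`** from the norm equation of `s27h_solve`. -/
theorem s27h10_hsum_of_solve {g : ℕ} (Pb : Fin g → Place k Fb) (a : Fin g → k)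
    (hPb : ∀ i, 0 < (Pb i).ord (R.r ⟨x, h.x_mem⟩ - algebraMap k Fb (a i)))
    (D : Divisor K F) (hD : 0 ≤ D) (l : ℕ)
    (hDr : Finsupp.mapDomain red D = l • ∑ i, Finsupp.single (Pb i) (1 : ℤ))
    (f : F) (hf : f ≠ 0) (e : Polynomial ↥R.O) (lam : K) (hlam : lam ≠ 0)
    (hN : aeval x ((s27hs_S R h red hdiv D).map R.O.subtype) *
        algebraMap ↥K⟮x⟯ F (Algebra.norm ↥K⟮x⟯ f) =
      algebraMap K F lam * aeval x ((e ^ l).map R.O.subtype)) :
    ∀ (b : K) (s : Finset (Place K F)),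
      (∀ w, w ∈ s ↔ 0 < w.ord (x - algebraMap K F b)) →
      ∑ w ∈ s, (w.ord f + D w) = (l : ℤ) * ((e.map R.O.subtype).rootMultiplicity b : ℤ) := by
  intro b s hs
  have hS0 : (s27hs_S R h red hdiv D).map R.O.subtype ≠ 0 :=
    ((s27hs_S_monic R h red hdiv D).map _).ne_zero
  rw [Polynomial.map_pow] at hN
  refine s27h10_hsum_of_norm_eq h.sepK hf D hS0 hlam l hN b s hs ?_
  rw [s27hs_S_map_subtype]
  exact s27hrm_sum_eq_rootMultiplicity D hD _
    (fun v hv => (s27hs_val_of_mem R h red hdiv Pb a hPb D hD l hDr hv).2.1) b s hs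

include hdiv in
/-- **H10-c INTERP for the output of `s27h_solve`**: from `(f, e)` with `f ∈ L(D) ∩ V`, `r f = 1`,
`e` monic with `ē = ∏ (X - a_i)` and `S(x) · N(f) = lam · e(x)^ℓ` to `div f + D = ℓ • ∑ Q_i`. -/
theorem s27h10_interp_of_solve {g : ℕ} (Pb : Fin g → Place k Fb) (a : Fin g → k)
    (ha : Function.Injective a)
    (hPb : ∀ i, (Pb i).ord (R.r ⟨x, h.x_mem⟩ - algebraMap k Fb (a i)) = 1)
    (l : ℕ) (hl : 0 < l) (D : Divisor K F) (hD : 0 ≤ D)
    (hDr : Finsupp.mapDomain red D = l • ∑ i, Finsupp.single (Pb i) (1 : ℤ))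
    (f : F) (hfV : f ∈ R.V) (hf1 : R.r ⟨f, hfV⟩ = 1) (hfL : f ∈ riemannRochSpace D)
    (e : Polynomial ↥R.O) (he : e.Monic) (hered : e.map R.r0 = ∏ i, (X - C (a i)))
    (lam : K) (hlam : lam ≠ 0)
    (hN : aeval x ((s27hs_S R h red hdiv D).map R.O.subtype) *
        algebraMap ↥K⟮x⟯ F (Algebra.norm ↥K⟮x⟯ f) =
      algebraMap K F lam * aeval x ((e ^ l).map R.O.subtype)) :
    ∃ (ξ : Fin g → ↥R.O) (Q : Fin g → Place K F), e = ∏ i, (X - C (ξ i)) ∧
      (∀ i, R.r0 (ξ i) = a i) ∧ Function.Injective Q ∧ (∀ i, red (Q i) = Pb i) ∧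
      (∀ i, 0 < (Q i).ord (x - algebraMap K F (ξ i : K))) ∧
      rt_div h.sepK f + D = l • ∑ i, Finsupp.single (Q i) (1 : ℤ) := by
  have hf0 : f ≠ 0 := by
    rintro rfl
    have : R.r ⟨0, hfV⟩ = 0 := map_zero R.r
    rw [this] at hf1
    exact zero_ne_one hf1
  have hPbpos : ∀ i, 0 < (Pb i).ord (R.r ⟨x, h.x_mem⟩ - algebraMap k Fb (a i)) := fun i => by
    rw [hPb i]; norm_num
  exact s27h10_interp R h red hdiv Pb a ha hPb l hl D hDr f hfV hf1 hfL e he hered
    (s27h10_hsum_of_solve R h red hdiv Pb a hPbpos D hD l hDr f hf0 e lam hlam hN)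

include hdiv in
/-- **(SURJ) for the output of `s27h_solve`**, in the shape of `hsurj` of `s27h6_bijective_of`. -/
theorem s27h10_surj_of_solve {g : ℕ} (Pb : Fin g → Place k Fb) (a : Fin g → k)
    (ha : Function.Injective a)
    (hPb : ∀ i, (Pb i).ord (R.r ⟨x, h.x_mem⟩ - algebraMap k Fb (a i)) = 1)
    (l : ℕ) (hl : 0 < l) (E0 E' : Divisor K F) (hE0nn : 0 ≤ E0) (hE'nn : 0 ≤ E')
    (hE0 : Finsupp.mapDomain red E0 = ∑ i, Finsupp.single (Pb i) (1 : ℤ))
    (hE' : Finsupp.mapDomain red E' = ∑ i, Finsupp.single (Pb i) (1 : ℤ))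
    (f : F) (hfV : f ∈ R.V) (hf1 : R.r ⟨f, hfV⟩ = 1)
    (hfL : f ∈ riemannRochSpace (E' + (l - 1) • E0))
    (e : Polynomial ↥R.O) (he : e.Monic) (hered : e.map R.r0 = ∏ i, (X - C (a i)))
    (lam : K) (hlam : lam ≠ 0)
    (hN : aeval x ((s27hs_S R h red hdiv (E' + (l - 1) • E0)).map R.O.subtype) *
        algebraMap ↥K⟮x⟯ F (Algebra.norm ↥K⟮x⟯ f) =
      algebraMap K F lam * aeval x ((e ^ l).map R.O.subtype)) :
    ∃ E : Divisor K F, 0 ≤ E ∧
      Finsupp.mapDomain red E = ∑ i, Finsupp.single (Pb i) (1 : ℤ) ∧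
      Divisor.IsPrincipal (l • (E - E0) - (E' - E0)) := by
  have hf0 : f ≠ 0 := by
    rintro rfl
    have : R.r ⟨0, hfV⟩ = 0 := map_zero R.r
    rw [this] at hf1
    exact zero_ne_one hf1
  have hPbpos : ∀ i, 0 < (Pb i).ord (R.r ⟨x, h.x_mem⟩ - algebraMap k Fb (a i)) := fun i => by
    rw [hPb i]; norm_num
  have hDnn : 0 ≤ E' + (l - 1) • E0 := add_nonneg hE'nn (nsmul_nonneg hE0nn _)
  have hDr : Finsupp.mapDomain red (E' + (l - 1) • E0) =
      l • ∑ i, Finsupp.single (Pb i) (1 : ℤ) := by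
    rw [Finsupp.mapDomain_add, hE']
    have : Finsupp.mapDomain red ((l - 1) • E0) = (l - 1) • Finsupp.mapDomain red E0 :=
      map_nsmul (Finsupp.mapDomain.addMonoidHom red) _ _
    rw [this, hE0, ← succ_nsmul', Nat.sub_add_cancel hl]
  exact s27h10_surj R h red hdiv Pb a ha hPb l hl E0 E' hE0 hE' f hfV hf1 hfL e he hered
    (s27h10_hsum_of_solve R h red hdiv Pb a hPbpos _ hDnn l hDr f hf0 e lam hlam hN)

end Fermat.Agent.S27
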