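import Mathlib

/-!
# S27 / (HENS), cell H1c: sections of étale algebras over the valuation ring of an
algebraically closed field

`s27h_exists_section`: if `O` is a valuation subring of an algebraically closed field `K` (ANY rank,
no completeness) and `B` is an étale `O`-algebra, every `O`-algebra map `B → O/m` lifts to an
`O`-algebra map `B → O`.  Proof: étale ⇒ flat ⇒ going down gives a prime `q ≤ n := ker φ` over `(0)`;
`Frac (B/q)` is formally unramified and essentially of finite type over `K`, hence `= K`; the image
of `B` in `K` is a subring containing `O` in which the maximal ideal of `O` generates a proper ideal,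
hence it is `O` itself.
-/

set_option autoImplicit false

namespace Fermat.Agent.S27

open IsLocalRing

theorem s27h_exists_section {K : Type*} [Field K] [IsAlgClosed K] (O : ValuationSubring K)
    (B : Type*) [CommRing B] [Algebra O B] [Algebra.Etale O B]
    (φ : B →ₐ[O] ResidueField O) :
    ∃ ψ : B →ₐ[O] O, ∀ z : B, residue O (ψ z) = φ z := by
  classical
  -- the prime `n := ker φ` lies over the maximal ideal
  set n : Ideal B := RingHom.ker φ.toRingHom with hn
  haveI hnprime : n.IsPrime := RingHom.ker_isPrime φ.toRingHom
  have hn_mem : ∀ z : B, z ∈ n ↔ φ z = 0 := fun z => Iff.rfl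
  have hn_alg : ∀ x : O, algebraMap O B x ∈ n ↔ x ∈ maximalIdeal O := by
    intro x
    rw [hn_mem, AlgHom.commutes]
    exact residue_eq_zero_iff x
  haveI hnover : n.LiesOver (maximalIdeal O) := ⟨by
    ext x
    rw [Ideal.mem_comap]
    exact (hn_alg x).symm⟩
  -- going down
  haveI : Module.Flat O B := inferInstance
  obtain ⟨q, hqn, hqprime, hqover⟩ :=
    Ideal.exists_ideal_le_liesOver_of_le (p := (⊥ : Ideal O)) (q := maximalIdeal O) n bot_le
  haveI := hqprime
  -- the domain `D := B / q` and its fraction field
  let D := B ⧸ q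
  let L := FractionRing D
  have hinjOD : Function.Injective (algebraMap O D) := by
    rw [injective_iff_map_eq_zero]
    intro x hx
    have hx' : algebraMap O B x ∈ q := by
      rw [← Ideal.Quotient.eq_zero_iff_mem]
      exact hx
    have : x ∈ q.under O := hx'
    rw [← hqover.over] at this
    exact this
  have hinjDL : Function.Injective (algebraMap D L) := IsFractionRing.injective D L
  have hinjOL : Function.Injective (algebraMap O L) := by
    rw [IsScalarTower.algebraMap_eq O D L]
    exact hinjDL.comp hinjOD
  letI algKL : Algebra K L := (IsFractionRing.lift hinjOL).toAlgebra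
  haveI towerOKL : IsScalarTower O K L := IsScalarTower.of_algebraMap_eq fun x => by
    show algebraMap O L x = IsFractionRing.lift hinjOL (algebraMap O K x)
    rw [IsFractionRing.lift_algebraMap]
  haveI : Algebra.FormallyUnramified O D := inferInstance
  haveI : Algebra.FormallyUnramified D L := inferInstance
  haveI : Algebra.FormallyUnramified O L := Algebra.FormallyUnramified.comp O D L
  haveI : Algebra.FormallyUnramified K L := Algebra.FormallyUnramified.of_restrictScalars O K L
  haveI : Algebra.FiniteType O D := inferInstance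
  haveI : Algebra.EssFiniteType O D := inferInstance
  haveI : Algebra.EssFiniteType D L := Algebra.EssFiniteType.of_isLocalization L (nonZeroDivisors D)
  haveI : Algebra.EssFiniteType O L := Algebra.EssFiniteType.comp O D L
  haveI : Algebra.EssFiniteType K L := Algebra.EssFiniteType.of_comp O K L
  have hbij : Function.Bijective (algebraMap K L) :=
    Algebra.FormallyUnramified.bijective_of_isAlgClosed_of_isLocalRing K L
  -- the map `θ : B → K`
  let e : K ≃+* L := RingEquiv.ofBijective (algebraMap K L) hbij
  let θ : B →+* K := (e.symm : L →+* K).comp ((algebraMap D L).comp (Ideal.Quotient.mk q))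
  have hθ_alg : ∀ x : O, θ (algebraMap O B x) = (x : K) := by
    intro x
    show e.symm (algebraMap D L (Ideal.Quotient.mk q (algebraMap O B x))) = (x : K)
    rw [RingEquiv.symm_apply_eq]
    show algebraMap D L (algebraMap O D x) = algebraMap K L (x : K)
    rw [← IsScalarTower.algebraMap_apply O D L, IsScalarTower.algebraMap_apply O K L]
    rfl
  have hθ_ker : ∀ z : B, θ z = 0 → z ∈ q := by
    intro z hz
    have h1 : algebraMap D L (Ideal.Quotient.mk q z) = 0 := by
      have : e.symm (algebraMap D L (Ideal.Quotient.mk q z)) = 0 := hz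
      simpa using this
    have h2 : Ideal.Quotient.mk q z = 0 := by
      apply hinjDL
      rw [h1, map_zero]
    exact Ideal.Quotient.eq_zero_iff_mem.mp h2
  have hone : (1 : B) ∉ n := fun h => hnprime.ne_top ((Ideal.eq_top_iff_one n).mpr h)
  -- `θ` takes values in `O`
  have hθ_mem : ∀ z : B, θ z ∈ O := by
    intro z
    by_contra hz
    have hinv : (θ z)⁻¹ ∈ O := (O.mem_or_inv_mem (θ z)).resolve_left hz
    have hz0 : θ z ≠ 0 := fun h => hz (h ▸ O.zero_mem)
    set y : O := ⟨(θ z)⁻¹, hinv⟩ with hy
    have hym : y ∈ maximalIdeal O := by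
      rw [mem_maximalIdeal, mem_nonunits_iff]
      intro hu
      obtain ⟨u, hu⟩ := hu.exists_right_inv
      apply hz
      have : ((y * u : O) : K) = 1 := by rw [hu]; rfl
      have h3 : (θ z)⁻¹ * (u : K) = 1 := by simpa [hy] using this
      have h4 : (u : K) = θ z := by
        field_simp at h3
        exact h3.symm ▸ rfl
      rw [← h4]
      exact u.2
    have hw : algebraMap O B y * z ∈ n := Ideal.mul_mem_right _ _ ((hn_alg y).mpr hym)
    have hθw : θ (algebraMap O B y * z - 1) = 0 := by
      rw [map_sub, map_mul, hθ_alg, map_one]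
      show (θ z)⁻¹ * θ z - 1 = 0
      rw [inv_mul_cancel₀ hz0, sub_self]
    have hq1 : algebraMap O B y * z - 1 ∈ n := hqn (hθ_ker _ hθw)
    apply hone
    have := Ideal.sub_mem n hw hq1
    simpa using this
  -- the section
  let ψr : B →+* O := θ.codRestrict O.toSubring hθ_mem
  have hψr_alg : ∀ x : O, ψr (algebraMap O B x) = x := fun x => Subtype.ext (hθ_alg x)
  let ψ : B →ₐ[O] O := { ψr with commutes' := fun x => hψr_alg x }
  have hψ_ker : ∀ z : B, ψ z = 0 → z ∈ q := fun z hz =>
    hθ_ker z (congrArg Subtype.val hz)
  have hψ_n : ∀ z ∈ n, ψ z ∈ maximalIdeal O := by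
    intro z hz
    by_contra hzm
    rw [mem_maximalIdeal, mem_nonunits_iff, not_not] at hzm
    obtain ⟨u, hu⟩ := hzm.exists_left_inv
    have h0 : ψ (algebraMap O B u * z - 1) = 0 := by
      rw [map_sub, map_mul, AlgHom.commutes, map_one]
      show u * ψ z - 1 = 0
      rw [hu, sub_self]
    have hq1 : algebraMap O B u * z - 1 ∈ n := hqn (hψ_ker _ h0)
    apply hone
    have := Ideal.sub_mem n (Ideal.mul_mem_left n (algebraMap O B u) hz) hq1
    simpa using this
  refine ⟨ψ, fun z => ?_⟩
  obtain ⟨c, hc⟩ := residue_surjective (R := O) (φ z)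
  have hz' : z - algebraMap O B c ∈ n := by
    rw [hn_mem, map_sub, AlgHom.commutes]
    show φ z - residue O c = 0
    rw [hc, sub_self]
  have h1 := hψ_n _ hz'
  rw [map_sub, AlgHom.commutes] at h1
  have h2 : residue O (ψ z - c) = 0 := (residue_eq_zero_iff _).mpr h1
  rw [map_sub, sub_eq_zero] at h2
  rw [h2, hc]

end Fermat.Agent.S27
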