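import Fermat.Agent.S27.Hens.Taylor
import Fermat.Agent.S27.Hens.EtaleAlg
import Fermat.Agent.S27.Hens.Section

/-!
# S27 / (HENS), cell H1: multivariable Hensel lemma over the valuation ring of an
algebraically closed field (any rank, no completeness)

`s27h_mvHensel`: a square polynomial system over `O` with a residue solution at which the
Jacobian determinant is a unit has a unique solution in the residue class.
-/

set_option autoImplicit false

namespace Fermat.Agent.S27

open MvPolynomial IsLocalRing

variable {K : Type*} [Field K] (O : ValuationSubring K) {N : ℕ}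

/-- evaluation commutes with the residue map -/
theorem s27h_residue_eval (p : MvPolynomial (Fin N) O) (b : Fin N → O) :
    residue O (eval b p) = eval₂ (residue O) (fun i => residue O (b i)) p := by
  have h := eval₂_comp_left (residue O) (RingHom.id O) b p
  rw [RingHom.comp_id] at h
  exact h

/-- congruent points give congruent values -/
theorem s27h_eval_congr (p : MvPolynomial (Fin N) O) {a b : Fin N → O}
    (hab : ∀ i, b i - a i ∈ maximalIdeal O) : residue O (eval b p) = residue O (eval a p) := by
  rw [s27h_residue_eval, s27h_residue_eval]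
  congr 1
  funext i
  have := (residue_eq_zero_iff _).mpr (hab i)
  rw [map_sub, sub_eq_zero] at this
  exact this

theorem s27h_eval_Delta (G : Fin N → MvPolynomial (Fin N) O) (a : Fin N → O) :
    eval a (s27h_Delta G) = Matrix.det (Matrix.of fun i j => eval a (pderiv j (G i))) := by
  rw [s27h_Delta, RingHom.map_det]
  rfl

/-- **Uniqueness** in the multivariable Hensel lemma (valuation rings; no algebraic closedness). -/
theorem s27h_mvHensel_unique (G : Fin N → MvPolynomial (Fin N) O) (a : Fin N → O)
    (hJ : IsUnit (Matrix.det (Matrix.of fun i j => eval a (pderiv j (G i)))))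
    (b b' : Fin N → O) (hb : ∀ i, b i - a i ∈ maximalIdeal O) (hb' : ∀ i, b' i - a i ∈ maximalIdeal O)
    (hGb : ∀ i, eval b (G i) = 0) (hGb' : ∀ i, eval b' (G i) = 0) : b = b' := by
  classical
  by_contra hne
  obtain ⟨j0, hj0⟩ : ∃ j, b' j ≠ b j := by
    by_contra h
    push_neg at h
    exact hne (funext fun j => (h j).symm)
  set c : Fin N → O := fun j => b' j - b j with hc
  obtain ⟨l, -, hl⟩ := Finset.exists_max_image Finset.univ (fun j => O.valuation (c j : K))
    ⟨j0, Finset.mem_univ _⟩
  have hcl : (c l : K) ≠ 0 := by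
    intro h0
    have h1 := hl j0 (Finset.mem_univ _)
    rw [h0, map_zero] at h1
    have h2 : O.valuation (c j0 : K) = 0 := le_antisymm h1 zero_le'
    rw [Valuation.zero_iff] at h2
    apply hj0
    have : c j0 = 0 := Subtype.ext h2
    exact sub_eq_zero.mp this
  have hvl : O.valuation (c l : K) ≠ 0 := (Valuation.ne_zero_iff _).mpr hcl
  have hu_mem : ∀ j, (c j : K) / (c l : K) ∈ O := by
    intro j
    rw [← ValuationSubring.valuation_le_one_iff, map_div₀]
    exact div_le_one_of_le₀ (hl j (Finset.mem_univ _)) zero_le'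
  set u : Fin N → O := fun j => ⟨(c j : K) / (c l : K), hu_mem j⟩ with hu
  have hd0 : c l ≠ 0 := fun h => hcl (by rw [h]; rfl)
  set d : O := c l with hd
  have hdm : d ∈ maximalIdeal O := by
    have : d = (b' l - a l) - (b l - a l) := by rw [hd, hc]; ring
    rw [this]
    exact Ideal.sub_mem _ (hb' l) (hb l)
  have hb'eq : b' = fun j => b j + d * u j := by
    funext j
    apply Subtype.ext
    show (b' j : K) = (b j : K) + (c l : K) * ((c j : K) / (c l : K))
    rw [mul_div_cancel₀ _ hcl]
    show (b' j : K) = (b j : K) + ((b' j : K) - (b j : K))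
    ring
  have hul : u l = 1 := by
    apply Subtype.ext
    show (c l : K) / (c l : K) = 1
    exact div_self hcl
  -- first-order Taylor expansion
  set Jb : Matrix (Fin N) (Fin N) O := Matrix.of fun i j => eval b (pderiv j (G i)) with hJb
  have hv : ∀ i, (Jb.mulVec u) i ∈ maximalIdeal O := by
    intro i
    obtain ⟨w, hw⟩ := s27h_taylor (G i) b u d
    rw [← hb'eq, hGb', hGb, zero_add] at hw
    have h1 : d * (∑ j, eval b (pderiv j (G i)) * u j + d * w) = 0 := by
      rw [hw]; ring
    have h2 : ∑ j, eval b (pderiv j (G i)) * u j + d * w = 0 :=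
      (mul_eq_zero.mp h1).resolve_left hd0
    have h3 : (Jb.mulVec u) i = -(d * w) := by
      rw [eq_neg_iff_add_eq_zero, ← h2]
      rfl
    rw [h3]
    exact Ideal.neg_mem_iff _ |>.mpr (Ideal.mul_mem_right _ _ hdm)
  -- the Jacobian at `b` is invertible
  have hJbdet : IsUnit Jb.det := by
    have h1 : residue O Jb.det =
        residue O (Matrix.det (Matrix.of fun i j => eval a (pderiv j (G i)))) := by
      rw [RingHom.map_det, RingHom.map_det]
      congr 1
      ext i j
      simp only [RingHom.mapMatrix_apply, Matrix.map_apply, hJb, Matrix.of_apply]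
      exact s27h_eval_congr O _ hb
    by_contra hnu
    have h2 : Jb.det ∈ maximalIdeal O := by
      rwa [mem_maximalIdeal, mem_nonunits_iff]
    rw [← residue_eq_zero_iff, h1, residue_eq_zero_iff, mem_maximalIdeal, mem_nonunits_iff] at h2
    exact h2 hJ
  have hinv : Jb⁻¹ * Jb = 1 := Matrix.nonsing_inv_mul Jb hJbdet
  have hueq : u = Jb⁻¹.mulVec (Jb.mulVec u) := by
    rw [Matrix.mulVec_mulVec, hinv, Matrix.one_mulVec]
  have hulm : u l ∈ maximalIdeal O := by
    rw [hueq]
    show ∑ j, Jb⁻¹ l j * (Jb.mulVec u) j ∈ maximalIdeal O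
    exact Ideal.sum_mem _ fun j _ => Ideal.mul_mem_left _ _ (hv j)
  rw [hul] at hulm
  exact (Ideal.ne_top_iff_one _).mp (maximalIdeal.isMaximal O).ne_top hulm

/-- **Multivariable Hensel lemma** over the valuation ring of an algebraically closed field. -/
theorem s27h_mvHensel [IsAlgClosed K] (G : Fin N → MvPolynomial (Fin N) O) (a : Fin N → O)
    (ha : ∀ i, eval a (G i) ∈ maximalIdeal O)
    (hJ : IsUnit (Matrix.det (Matrix.of fun i j => eval a (pderiv j (G i))))) :
    ∃! b : Fin N → O, (∀ i, b i - a i ∈ maximalIdeal O) ∧ ∀ i, eval b (G i) = 0 := by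
  classical
  have hΔ : IsUnit (eval a (s27h_Delta G)) := by rw [s27h_eval_Delta]; exact hJ
  have hΔres : residue O (eval a (s27h_Delta G)) ≠ 0 := by
    intro h
    rw [residue_eq_zero_iff, mem_maximalIdeal, mem_nonunits_iff] at h
    exact h hΔ
  -- the residue point of the étale algebra
  let pt : Fin N ⊕ Unit → ResidueField O :=
    Sum.elim (fun i => residue O (a i)) (fun _ => (residue O (eval a (s27h_Delta G)))⁻¹)
  let f : MvPolynomial (Fin N ⊕ Unit) O →ₐ[O] ResidueField O := aeval pt
  have hf_rename : ∀ p : MvPolynomial (Fin N) O, f (rename Sum.inl p) = residue O (eval a p) := by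
    intro p
    show aeval pt (rename Sum.inl p) = _
    rw [aeval_rename, s27h_residue_eval, aeval_def]
    rfl
  have hf_rel : ∀ j, f (s27h_rel G j) = 0 := by
    rintro (i | u)
    · show f (rename Sum.inl (G i)) = 0
      rw [hf_rename]
      exact (residue_eq_zero_iff _).mpr (ha i)
    · show f (X (Sum.inr ()) * rename Sum.inl (s27h_Delta G) - 1) = 0
      rw [map_sub, map_mul, map_one, hf_rename]
      show aeval pt (X (Sum.inr ())) * _ - 1 = 0
      rw [aeval_X]
      show (residue O (eval a (s27h_Delta G)))⁻¹ * _ - 1 = 0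
      rw [inv_mul_cancel₀ hΔres, sub_self]
  have hf_span : ∀ r ∈ Ideal.span (Set.range (s27h_rel G)), f r = 0 := by
    intro r hr
    have hle : Ideal.span (Set.range (s27h_rel G)) ≤ RingHom.ker f.toRingHom := by
      rw [Ideal.span_le]
      rintro _ ⟨j, rfl⟩
      exact hf_rel j
    exact hle hr
  let φ : s27h_B G →ₐ[O] ResidueField O := Ideal.Quotient.liftₐ _ f hf_span
  haveI : Algebra.Etale O (s27h_B G) := s27h_etale G
  obtain ⟨ψ, hψ⟩ := s27h_exists_section O (s27h_B G) φ
  let mkB : MvPolynomial (Fin N ⊕ Unit) O →ₐ[O] s27h_B G := Ideal.Quotient.mkₐ O _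
  let b : Fin N → O := fun i => ψ (mkB (X (Sum.inl i)))
  have hb_eval : ∀ p : MvPolynomial (Fin N) O, eval b p = ψ (mkB (rename Sum.inl p)) := by
    intro p
    have h1 : (aeval b : MvPolynomial (Fin N) O →ₐ[O] O) =
        (ψ.comp mkB).comp (rename Sum.inl) := by
      apply MvPolynomial.algHom_ext
      intro i
      simp [b]
    have h2 := AlgHom.congr_fun h1 p
    exact h2
  have hex : (∀ i, b i - a i ∈ maximalIdeal O) ∧ ∀ i, eval b (G i) = 0 := by
    constructor
    · intro i
      rw [← residue_eq_zero_iff, map_sub, sub_eq_zero]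
      show residue O (ψ (mkB (X (Sum.inl i)))) = _
      rw [hψ]
      show f (X (Sum.inl i)) = _
      show aeval pt (X (Sum.inl i)) = _
      rw [aeval_X]
      rfl
    · intro i
      rw [hb_eval]
      have : mkB (rename Sum.inl (G i)) = 0 :=
        Ideal.Quotient.eq_zero_iff_mem.mpr (Ideal.subset_span ⟨Sum.inl i, rfl⟩)
      rw [this, map_zero]
  refine ⟨b, hex, fun b' hb' => ?_⟩
  exact (s27h_mvHensel_unique O G a hJ b b' hex.1 hb'.1 hex.2 hb'.2).symm

end Fermat.Agent.S27
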