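/-
S27 / (HENS), leaf POLYID: a multivariate polynomial with coefficients in a `K`-algebra `L` all of
whose values at `K`-points lie in a `K`-subspace `U` of `L` has all its coefficients in `U`
(`K` an infinite field).  Mathlib only.
-/
import Mathlib

set_option autoImplicit false

namespace Fermat.Agent.S27

open MvPolynomial

/-- apply a `K`-linear functional coefficientwise. -/
noncomputable def s27hp_mapCoeff {K L : Type*} [Field K] [Field L] [Algebra K L] {σ : Type*}
    (φ : L →ₗ[K] K) (P : MvPolynomial σ L) : MvPolynomial σ K :=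
  ∑ α ∈ P.support, monomial α (φ (P.coeff α))

theorem s27hp_coeff_mapCoeff {K L : Type*} [Field K] [Field L] [Algebra K L] {σ : Type*}
    (φ : L →ₗ[K] K) (P : MvPolynomial σ L) (β : σ →₀ ℕ) :
    (s27hp_mapCoeff φ P).coeff β = φ (P.coeff β) := by
  classical
  rw [s27hp_mapCoeff, coeff_sum]
  simp only [coeff_monomial]
  rw [Finset.sum_ite_eq' P.support β]
  split_ifs with h
  · rfl
  · rw [notMem_support_iff.1 h, map_zero]

theorem s27hp_eval_mapCoeff {K L : Type*} [Field K] [Field L] [Algebra K L] {σ : Type*}
    (φ : L →ₗ[K] K) (P : MvPolynomial σ L) (c : σ → K) :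
    eval c (s27hp_mapCoeff φ P) = φ (eval (fun j => algebraMap K L (c j)) P) := by
  classical
  rw [s27hp_mapCoeff, map_sum, eval_eq, map_sum]
  refine Finset.sum_congr rfl fun α _ => ?_
  rw [eval_monomial]
  have : P.coeff α * ∏ i ∈ α.support, (algebraMap K L (c i)) ^ α i =
      (∏ i ∈ α.support, c i ^ α i) • P.coeff α := by
    rw [Algebra.smul_def, map_prod, mul_comm]
    simp only [map_pow]
  rw [this, map_smul, smul_eq_mul, mul_comm]
  rfl

/-- **POLYID**: if all values of `P` at `K`-points lie in the `K`-subspace `U`, so do all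
coefficients of `P`. -/
theorem s27hp_coeff_mem {K L : Type*} [Field K] [Infinite K] [Field L] [Algebra K L] {σ : Type*}
    (U : Submodule K L) (P : MvPolynomial σ L)
    (h : ∀ c : σ → K, eval (fun j => algebraMap K L (c j)) P ∈ U) (α : σ →₀ ℕ) :
    P.coeff α ∈ U := by
  by_contra hα
  obtain ⟨φ, hφ, hU⟩ := Submodule.exists_le_ker_of_notMem hα
  have hzero : s27hp_mapCoeff φ P = 0 := by
    apply MvPolynomial.funext
    intro c
    rw [s27hp_eval_mapCoeff, map_zero]
    exact hU (h c)
  apply hφ
  rw [← s27hp_coeff_mapCoeff, hzero, coeff_zero]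

end Fermat.Agent.S27
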