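import Mathlib

/-!
# S27 / (HENS), leaf PRODFORM (Step 6, (INJ) half)

A polynomial of degree `≤ ℓ g` over a domain which vanishes to order `≥ ℓ` at `g` points
`ξ i` (counted with coincidences) is its top coefficient times `(∏ (X - ξ i)) ^ ℓ`.
Mathlib only.
-/

set_option autoImplicit false

namespace Fermat.Agent.S27

open Polynomial

variable {A : Type*} [CommRing A] [IsDomain A]

open scoped Classical in
/-- **(PRODFORM)** (classical decidability in the `filter`) -/
theorem s27hpf_eq_C_mul_pow (P : A[X]) {g l : ℕ} (hdeg : P.natDegree ≤ l * g)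
    (ξ : Fin g → A)
    (hroot : ∀ η : A, l * (Finset.univ.filter fun i => ξ i = η).card ≤ P.rootMultiplicity η) :
    P = C (P.coeff (l * g)) * (∏ i, (X - C (ξ i))) ^ l ∧ P.natDegree = l * g := by
  classical
  set s : Multiset A := l • (Finset.univ.val.map ξ) with hs
  have hcard : Multiset.card s = l * g := by
    rw [hs, Multiset.card_nsmul, Multiset.card_map]
    simp
  have hle : s ≤ P.roots := by
    rw [Multiset.le_iff_count]
    intro η
    rw [Polynomial.count_roots, hs, Multiset.count_nsmul, Multiset.count_map]
    refine le_trans (le_of_eq ?_) (hroot η)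
    congr 1
    rw [Finset.card_def, Finset.filter_val]
    congr 1
    refine Multiset.filter_congr fun i _ => ?_
    exact eq_comm
  have h1 : Multiset.card P.roots ≤ P.natDegree := Polynomial.card_roots' P
  have h2 : Multiset.card s ≤ Multiset.card P.roots := Multiset.card_le_card hle
  have heq : s = P.roots := Multiset.eq_of_le_of_card_le hle (by omega)
  have hnat : P.natDegree = l * g := by omega
  have hroots : Multiset.card P.roots = P.natDegree := by omega
  have h3 := Polynomial.C_leadingCoeff_mul_prod_multiset_X_sub_C hroots
  refine ⟨?_, hnat⟩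
  have hprod : (P.roots.map fun a => X - C a).prod = (∏ i, (X - C (ξ i))) ^ l := by
    rw [← heq, hs, Multiset.map_nsmul, Multiset.prod_nsmul, Multiset.map_map]
    rfl
  rw [hprod, Polynomial.leadingCoeff, hnat] at h3
  exact h3.symm

end Fermat.Agent.S27
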