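/-
S27 / (HENS), glue leaf H9-b (helper28): transfer between the ABSTRACT residue field
`ResidueField O` of the core (`s27h_core`, `s27h_Tangent`) and the GIVEN residue map
`r0 : O →+* k` of a reduction datum (`R.r0` for `R : s27r_Red K F k Fb`).  Prefix `s27hrt_`.

* `s27hrt_equiv` : `ResidueField O ≃+* k` with `s27hrt_equiv_residue : ι (residue O a) = r0 a`;
* `s27hrt_map_eq_iff` : `p.map (residue O) = q.map (residue O) ↔ p.map r0 = q.map r0`;
* `s27hrt_tangent` : `s27h_Tangent O Rtot ℓ g e0` from the same implication stated over `k`;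
* `s27hrt_core` : `s27h_core` restated with `r0` everywhere;
* `s27hrt_core_red` : the same for `R : s27r_Red K F k Fb`.
-/
import Mathlib
import Fermat.Agent.S27.Hens.CoreMain
import Fermat.Agent.S27.Red.Defs

set_option autoImplicit false

noncomputable section

namespace Fermat.Agent.S27

open IsLocalRing Polynomial

section Abstract

variable {K : Type*} [Field K] (O : ValuationSubring K) {k : Type*} [Field k]
  (r0 : O →+* k) (hsurj : Function.Surjective r0) (hker : ∀ a : O, r0 a = 0 ↔ ¬ IsUnit a)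

include hker in
theorem s27hrt_mem_maximalIdeal_iff (a : O) : a ∈ maximalIdeal O ↔ r0 a = 0 := by
  rw [hker a, mem_maximalIdeal, mem_nonunits_iff]

/-- the ring homomorphism `ResidueField O → k` induced by `r0` -/
def s27hrt_hom : ResidueField O →+* k :=
  Ideal.Quotient.lift (maximalIdeal O) r0
    (fun a ha => (s27hrt_mem_maximalIdeal_iff O r0 hker a).1 ha)

include hker in
theorem s27hrt_hom_residue (a : O) : s27hrt_hom O r0 hker (residue O a) = r0 a :=
  Ideal.Quotient.lift_mk _ _ _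

include hker in
theorem s27hrt_hom_comp : (s27hrt_hom O r0 hker).comp (residue O) = r0 :=
  RingHom.ext fun a => s27hrt_hom_residue O r0 hker a

include hker in
theorem s27hrt_hom_injective : Function.Injective (s27hrt_hom O r0 hker) :=
  (s27hrt_hom O r0 hker).injective

include hsurj hker in
theorem s27hrt_hom_surjective : Function.Surjective (s27hrt_hom O r0 hker) := by
  intro y
  obtain ⟨a, rfl⟩ := hsurj y
  exact ⟨residue O a, s27hrt_hom_residue O r0 hker a⟩

/-- `ResidueField O ≃+* k`, compatible with the residue maps -/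
def s27hrt_equiv : ResidueField O ≃+* k :=
  RingEquiv.ofBijective (s27hrt_hom O r0 hker)
    ⟨s27hrt_hom_injective O r0 hker, s27hrt_hom_surjective O r0 hsurj hker⟩

include hker in
theorem s27hrt_equiv_residue (a : O) : s27hrt_equiv O r0 hsurj hker (residue O a) = r0 a :=
  s27hrt_hom_residue O r0 hker a

include hker in
theorem s27hrt_map_map (p : O[X]) :
    (p.map (residue O)).map (s27hrt_hom O r0 hker) = p.map r0 := by
  rw [Polynomial.map_map, s27hrt_hom_comp]

include hker in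
theorem s27hrt_map_eq_iff (p q : O[X]) :
    p.map (residue O) = q.map (residue O) ↔ p.map r0 = q.map r0 := by
  constructor
  · intro h
    rw [← s27hrt_map_map O r0 hker p, ← s27hrt_map_map O r0 hker q, h]
  · intro h
    apply Polynomial.map_injective _ (s27hrt_hom_injective O r0 hker)
    rw [s27hrt_map_map, s27hrt_map_map, h]

variable {M : ℕ}

include hker in
/-- **Transfer of the tangent hypothesis**: it may be checked over `k` through `r0`. -/
theorem s27hrt_tangent (Rtot : (MvPolynomial (Fin M) O)[X]) (ℓ g : ℕ) (e0 : O[X])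
    (H : ∀ (dc : Fin M → k) (de : Fin g → k),
      (∑ j, C (dc j) * (s27h_lin Rtot j).map r0)
        - C (∑ j, dc j * ((s27h_lin Rtot j).map r0).coeff (ℓ * g)) * (e0.map r0) ^ ℓ
        = C ((ℓ : ℕ) : k) * (e0.map r0) ^ (ℓ - 1) * ∑ j : Fin g, C (de j) * X ^ (j : ℕ)
      → dc = 0 ∧ de = 0) :
    s27h_Tangent O Rtot ℓ g e0 := by
  intro dc de heq
  set ι := s27hrt_hom O r0 hker with hι
  have hinj : Function.Injective ι := s27hrt_hom_injective O r0 hker
  have hmm : ∀ p : O[X], (p.map (residue O)).map ι = p.map r0 := s27hrt_map_map O r0 hker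
  have h2 : ∀ j, ι (((s27h_lin Rtot j).map (residue O)).coeff (ℓ * g)) =
      ((s27h_lin Rtot j).map r0).coeff (ℓ * g) := by
    intro j
    rw [← hmm]
    simp only [coeff_map]
  have hL : Polynomial.map ι ((∑ j, C (dc j) * (s27h_lin Rtot j).map (residue O))
      - C (∑ j, dc j * ((s27h_lin Rtot j).map (residue O)).coeff (ℓ * g))
        * (e0.map (residue O)) ^ ℓ) =
      (∑ j, C (ι (dc j)) * (s27h_lin Rtot j).map r0)
        - C (∑ j, ι (dc j) * ((s27h_lin Rtot j).map r0).coeff (ℓ * g)) * (e0.map r0) ^ ℓ := by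
    rw [Polynomial.map_sub, Polynomial.map_mul, Polynomial.map_pow, Polynomial.map_C, hmm,
      Polynomial.map_sum, map_sum]
    congr 1
    · refine Finset.sum_congr rfl fun j _ => ?_
      rw [Polynomial.map_mul, Polynomial.map_C, hmm]
    · congr 2
      refine Finset.sum_congr rfl fun j _ => ?_
      rw [map_mul, h2]
  have hR : Polynomial.map ι (C ((ℓ : ℕ) : ResidueField O) * (e0.map (residue O)) ^ (ℓ - 1)
        * ∑ j : Fin g, C (de j) * X ^ (j : ℕ)) =
      C ((ℓ : ℕ) : k) * (e0.map r0) ^ (ℓ - 1) * ∑ j : Fin g, C (ι (de j)) * X ^ (j : ℕ) := by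
    rw [Polynomial.map_mul, Polynomial.map_mul, Polynomial.map_pow, Polynomial.map_C, hmm,
      Polynomial.map_sum, map_natCast]
    congr 1
    refine Finset.sum_congr rfl fun j _ => ?_
    rw [Polynomial.map_mul, Polynomial.map_C, Polynomial.map_pow, Polynomial.map_X]
  have h1 := congrArg (Polynomial.map ι) heq
  rw [hL, hR] at h1
  obtain ⟨hdc, hde⟩ := H (fun j => ι (dc j)) (fun j => ι (de j)) h1
  constructor
  · funext j
    apply hinj
    show ι (dc j) = ι 0
    rw [map_zero]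
    exact congrFun hdc j
  · funext j
    apply hinj
    show ι (de j) = ι 0
    rw [map_zero]
    exact congrFun hde j

include hker in
/-- **The core in `r0`-language.** -/
theorem s27hrt_core [IsAlgClosed K] {g ℓ : ℕ} (hMg : M + g = ℓ * g)
    (Rtot : (MvPolynomial (Fin M) O)[X]) (hdeg : Rtot.natDegree ≤ ℓ * g) (e0 : O[X])
    (he0 : e0.Monic) (hg : e0.natDegree = g)
    (hbase : (s27h_evalR Rtot (0 : Fin M → O)).map r0 = (e0.map r0) ^ ℓ)
    (H : ∀ (dc : Fin M → k) (de : Fin g → k),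
      (∑ j, C (dc j) * (s27h_lin Rtot j).map r0)
        - C (∑ j, dc j * ((s27h_lin Rtot j).map r0).coeff (ℓ * g)) * (e0.map r0) ^ ℓ
        = C ((ℓ : ℕ) : k) * (e0.map r0) ^ (ℓ - 1) * ∑ j : Fin g, C (de j) * X ^ (j : ℕ)
      → dc = 0 ∧ de = 0) :
    ∃! ce : (Fin M → O) × O[X], (∀ j, r0 (ce.1 j) = 0) ∧ ce.2.Monic ∧
      ce.2.natDegree = g ∧ ce.2.map r0 = e0.map r0 ∧ s27h_IsSol Rtot ℓ g ce.1 ce.2 := by
  have hbase' : (s27h_evalR Rtot (0 : Fin M → O)).map (residue O) = (e0.map (residue O)) ^ ℓ := by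
    rw [← Polynomial.map_pow, s27hrt_map_eq_iff O r0 hker, Polynomial.map_pow]
    exact hbase
  obtain ⟨ce, ⟨h1, h2, h3, h4, h5⟩, huniq⟩ := s27h_core O hMg Rtot hdeg e0 he0 hg hbase'
    (s27hrt_tangent O r0 hker Rtot ℓ g e0 H)
  refine ⟨ce, ⟨fun j => (s27hrt_mem_maximalIdeal_iff O r0 hker _).1 (h1 j), h2, h3,
    (s27hrt_map_eq_iff O r0 hker _ _).1 h4, h5⟩, ?_⟩
  rintro ce' ⟨h1', h2', h3', h4', h5'⟩
  exact huniq ce' ⟨fun j => (s27hrt_mem_maximalIdeal_iff O r0 hker _).2 (h1' j), h2', h3',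
    (s27hrt_map_eq_iff O r0 hker _ _).2 h4', h5'⟩

end Abstract

section Red

universe u v u' v'
variable {K : Type u} {F : Type v} [Field K] [Field F] [Algebra K F]
variable {k : Type u'} {Fb : Type v'} [Field k] [Field Fb] [Algebra k Fb]
variable (R : s27r_Red K F k Fb) {M : ℕ}

/-- `ResidueField R.O ≃+* k` for a reduction datum, compatible with `R.r0`. -/
def s27hrt_equiv_red : ResidueField R.O ≃+* k :=
  s27hrt_equiv R.O R.r0 R.r0_surj R.r0_eq_zero_iff

theorem s27hrt_equiv_red_residue (a : R.O) : s27hrt_equiv_red R (residue R.O a) = R.r0 a :=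
  s27hrt_equiv_residue R.O R.r0 R.r0_surj R.r0_eq_zero_iff a

theorem s27hrt_tangent_red (Rtot : (MvPolynomial (Fin M) R.O)[X]) (ℓ g : ℕ) (e0 : (↥R.O)[X])
    (H : ∀ (dc : Fin M → k) (de : Fin g → k),
      (∑ j, C (dc j) * (s27h_lin Rtot j).map R.r0)
        - C (∑ j, dc j * ((s27h_lin Rtot j).map R.r0).coeff (ℓ * g)) * (e0.map R.r0) ^ ℓ
        = C ((ℓ : ℕ) : k) * (e0.map R.r0) ^ (ℓ - 1) * ∑ j : Fin g, C (de j) * X ^ (j : ℕ)
      → dc = 0 ∧ de = 0) :
    s27h_Tangent R.O Rtot ℓ g e0 :=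
  s27hrt_tangent R.O R.r0 R.r0_eq_zero_iff Rtot ℓ g e0 H

/-- **The core for a reduction datum `R`, in `R.r0`-language.** -/
theorem s27hrt_core_red [IsAlgClosed K] {g ℓ : ℕ} (hMg : M + g = ℓ * g)
    (Rtot : (MvPolynomial (Fin M) R.O)[X]) (hdeg : Rtot.natDegree ≤ ℓ * g) (e0 : (↥R.O)[X])
    (he0 : e0.Monic) (hg : e0.natDegree = g)
    (hbase : (s27h_evalR Rtot (0 : Fin M → R.O)).map R.r0 = (e0.map R.r0) ^ ℓ)
    (H : ∀ (dc : Fin M → k) (de : Fin g → k),
      (∑ j, C (dc j) * (s27h_lin Rtot j).map R.r0)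
        - C (∑ j, dc j * ((s27h_lin Rtot j).map R.r0).coeff (ℓ * g)) * (e0.map R.r0) ^ ℓ
        = C ((ℓ : ℕ) : k) * (e0.map R.r0) ^ (ℓ - 1) * ∑ j : Fin g, C (de j) * X ^ (j : ℕ)
      → dc = 0 ∧ de = 0) :
    ∃! ce : (Fin M → R.O) × (↥R.O)[X], (∀ j, R.r0 (ce.1 j) = 0) ∧ ce.2.Monic ∧
      ce.2.natDegree = g ∧ ce.2.map R.r0 = e0.map R.r0 ∧ s27h_IsSol Rtot ℓ g ce.1 ce.2 :=
  s27hrt_core R.O R.r0 R.r0_eq_zero_iff hMg Rtot hdeg e0 he0 hg hbase H

end Red

end Fermat.Agent.S27
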