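/-
S27 / (HENS), cell H6 (helper28): Step 3, "A¹ = U".  Prefix `s27h_s3`.

`R : s27r_Red K F k Fb`, `h : s27r_Good R x`, `red` with property (R) (`hdiv`), and the induced
`φ : Pic0 K F →+ Pic0 k Fb`.  `E0 ≥ 0` of degree `g` (the Riemann genus of `F/K`) whose reduction
`Eb0 = red_* E0` is non-special (`l(Eb0) = 1`).

* `s27h_s3_unique` (3a): every divisor `D` of degree `g` with `red_* D = Eb0` has `l(D) = 1`, and the
  unique effective divisor `E ~ D` satisfies `red_* E = Eb0`;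
* `s27h_s3_ker_repr` : every class in `ker φ` is `[E - E0]` with `E ≥ 0`, `red_* E = Eb0`;
* `s27h_s3_bijective` (3b): multiplication by `l` is bijective on `ker φ` as soon as
  (INJ) `l E ~ l E0 ⇒ E = E0` and (SURJ) `∀ E', ∃ E, l E - (l-1) E0 ~ E'` hold on
  `U = {E ≥ 0 : red_* E = Eb0}`.
-/
import Mathlib
import Fermat.Agent.S27.Red.Final

set_option autoImplicit false
set_option linter.unusedSectionVars false
set_option linter.style.haveILetI false

noncomputable section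

namespace Fermat.Agent.S27

open AlgebraicCurve IntermediateField Polynomial Fermat.Agent.JT3 Fermat.Agent.S24

universe u v u' v'
variable {K : Type u} {F : Type v} [Field K] [Field F] [Algebra K F]
variable {k : Type u'} {Fb : Type v'} [Field k] [Field Fb] [Algebra k Fb]

/-! ### Classes of divisors of degree zero -/

section Classes

theorem s27h_s3_mk_eq_iff {D D' : Divisor K F} (hD : D ∈ Divisor.degZero (K := K) (F := F))
    (hD' : D' ∈ Divisor.degZero (K := K) (F := F)) :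
    Pic0.mk ⟨D, hD⟩ = Pic0.mk ⟨D', hD'⟩ ↔ Divisor.IsPrincipal (D' - D) := by
  rw [Pic0.mk, Pic0.mk, QuotientAddGroup.eq, AddSubgroup.mem_addSubgroupOf]
  have : ((-(⟨D, hD⟩ : Divisor.degZero (K := K) (F := F)) + ⟨D', hD'⟩ :
      Divisor.degZero (K := K) (F := F)) : Divisor K F) = D' - D := by
    show -D + D' = D' - D
    abel
  rw [this]
  rfl

theorem s27h_s3_mk_eq_zero_iff {D : Divisor K F} (hD : D ∈ Divisor.degZero (K := K) (F := F)) :
    Pic0.mk ⟨D, hD⟩ = 0 ↔ Divisor.IsPrincipal D := by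
  rw [Pic0.mk, QuotientAddGroup.eq_zero_iff, AddSubgroup.mem_addSubgroupOf]
  rfl

theorem s27h_s3_nsmul_mk (l : ℕ) {D : Divisor K F}
    (hD : D ∈ Divisor.degZero (K := K) (F := F)) :
    l • Pic0.mk ⟨D, hD⟩ =
      Pic0.mk ⟨l • D, (Divisor.degZero (K := K) (F := F)).nsmul_mem hD l⟩ := by
  induction l with
  | zero =>
    have h0 : (0 : ℕ) • Pic0.mk (⟨D, hD⟩ : Divisor.degZero (K := K) (F := F)) = 0 := zero_nsmul _
    rw [h0]
    symm
    rw [s27h_s3_mk_eq_zero_iff]
    have h1 : (0 : ℕ) • D = 0 := zero_nsmul _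
    rw [h1]
    exact (Divisor.principal (K := K) (F := F)).zero_mem
  | succ n ih =>
    rw [succ_nsmul, ih, ← Pic0.mk_add]
    congr 1
    exact Subtype.ext (succ_nsmul D n).symm

end Classes

variable [IsAlgClosed K] [IsAlgClosed k] (R : s27r_Red K F k Fb) {x : F} (h : s27r_Good R x)
  (red : Place K F → Place k Fb)
  (hdiv : ∀ (f : F) (hf : f ∈ R.V), R.r ⟨f, hf⟩ ≠ 0 →
      Finsupp.mapDomain red (rt_div h.sepK f) = rt_div h.sepk (R.r ⟨f, hf⟩))

/-! ### (3a) -/

include hdiv in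
/-- **(3a)**: a divisor `D` of degree `g` reducing to a non-special effective divisor `Eb0` has
`l(D) = 1`; the unique effective divisor linearly equivalent to `D` also reduces to `Eb0`. -/
theorem s27h_s3_unique (g : ℕ) (hgK : s27r_IsGenus K F g) (Eb0 : Divisor k Fb) (hEb0 : 0 ≤ Eb0)
    (hns : Module.finrank k ↥(riemannRochSpace Eb0) = 1) (D : Divisor K F)
    (hdeg : Divisor.degree D = g) (hred : Finsupp.mapDomain red D = Eb0) :
    Module.finrank K ↥(riemannRochSpace D) = 1 ∧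
      ∃ E : Divisor K F, 0 ≤ E ∧ Finsupp.mapDomain red E = Eb0 ∧ Divisor.IsPrincipal (E - D) ∧
        ∀ E'' : Divisor K F, 0 ≤ E'' → Divisor.IsPrincipal (E'' - D) → E'' = E := by
  haveI := rt_L_finite h.sepK D
  haveI := rt_L_finite h.sepk Eb0
  -- `l(D) = 1`
  have h1 : 1 ≤ Module.finrank K ↥(riemannRochSpace D) := by
    have := hgK.1 D
    rw [hdeg] at this
    omega
  have h2 : Module.finrank K ↥(riemannRochSpace D) ≤ 1 := by
    rw [← s27l_finrank_redSub R h (riemannRochSpace D), ← hns, ← hred]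
    exact s27r6_finrank_redSub_le R h red hdiv D
  have hfr : Module.finrank K ↥(riemannRochSpace D) = 1 := le_antisymm h2 h1
  refine ⟨hfr, ?_⟩
  -- a generator which is a unit of `V`
  obtain ⟨⟨f, hfL⟩, hf0⟩ : ∃ f : ↥(riemannRochSpace D), f ≠ 0 := by
    haveI : Nontrivial ↥(riemannRochSpace D) :=
      Module.nontrivial_of_finrank_pos (R := K) (by omega)
    exact exists_ne 0
  have hf0' : f ≠ 0 := fun h0 => hf0 (Subtype.ext h0)
  obtain ⟨c, hc0, u, hu, hru, hfcu⟩ := s27r_hcu R h f hf0'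
  have hu0 : u ≠ 0 := by
    rintro rfl
    exact hru (map_zero R.r)
  have huL : u ∈ riemannRochSpace D := by
    have : u = c⁻¹ • f := by
      rw [hfcu, Algebra.smul_def, ← mul_assoc, ← map_mul, inv_mul_cancel₀ hc0, map_one, one_mul]
    rw [this]
    exact (riemannRochSpace D).smul_mem _ hfL
  -- every element of `L(D)` is a multiple of `u`
  have hspan : ∀ w ∈ riemannRochSpace D, ∃ a : K, w = algebraMap K F a * u := by
    intro w hw
    have hu' : (⟨u, huL⟩ : ↥(riemannRochSpace D)) ≠ 0 := fun h0 => hu0 (congrArg Subtype.val h0)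
    obtain ⟨a, ha⟩ := (finrank_eq_one_iff_of_nonzero' (⟨u, huL⟩ : ↥(riemannRochSpace D)) hu').1
      hfr ⟨w, hw⟩
    refine ⟨a, ?_⟩
    have := congrArg Subtype.val ha
    rw [← Algebra.smul_def]
    exact this.symm
  -- `r u` is a nonzero constant
  have hruL : R.r ⟨u, hu⟩ ∈ riemannRochSpace Eb0 := by
    rw [← hred]
    exact s27r6_redSub_L_le R h red hdiv D ⟨u, hu, huL, rfl⟩
  have h1L : (1 : Fb) ∈ riemannRochSpace Eb0 := by
    rw [rt_mem_L_iff one_ne_zero]
    intro v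
    rw [Place.ord_one]
    have := Finsupp.le_def.mp hEb0 v
    rw [Finsupp.zero_apply] at this
    omega
  obtain ⟨cb, hcb⟩ : ∃ cb : k, R.r ⟨u, hu⟩ = algebraMap k Fb cb := by
    have h1' : (⟨1, h1L⟩ : ↥(riemannRochSpace Eb0)) ≠ 0 :=
      fun h0 => one_ne_zero (congrArg Subtype.val h0)
    obtain ⟨a, ha⟩ := (finrank_eq_one_iff_of_nonzero' (⟨1, h1L⟩ : ↥(riemannRochSpace Eb0)) h1').1
      hns ⟨R.r ⟨u, hu⟩, hruL⟩
    refine ⟨a, ?_⟩
    have := congrArg Subtype.val ha
    rw [Algebra.algebraMap_eq_smul_one]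
    exact this.symm
  have hdivu : Finsupp.mapDomain red (rt_div h.sepK u) = 0 := by
    rw [hdiv u hu hru, hcb, rt_div_algebraMap]
  -- the effective divisor
  refine ⟨D + rt_div h.sepK u, ?_, ?_, ?_, ?_⟩
  · rw [Finsupp.le_def]
    intro v
    rw [Finsupp.zero_apply, Finsupp.add_apply, rt_div_apply]
    have := (rt_mem_L_iff hu0).1 huL v
    omega
  · rw [Finsupp.mapDomain_add, hred, hdivu, add_zero]
  · rw [add_sub_cancel_left]
    exact rt_div_isPrincipal h.sepK hu0
  · intro E'' hE'' hpr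
    obtain ⟨w, hw0, hw⟩ := hpr
    have hwL : w ∈ riemannRochSpace D := by
      rw [rt_mem_L_iff hw0]
      intro v
      rw [← hw v, Finsupp.sub_apply]
      have := Finsupp.le_def.mp hE'' v
      rw [Finsupp.zero_apply] at this
      omega
    obtain ⟨a, ha⟩ := hspan w hwL
    have ha0 : algebraMap K F a ≠ 0 := by
      intro h0
      rw [h0, zero_mul] at ha
      exact hw0 ha
    ext v
    have h3 := hw v
    rw [Finsupp.sub_apply] at h3
    rw [Finsupp.add_apply, rt_div_apply]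
    have h4 : v.ord w = v.ord u := by
      rw [ha, v.ord_mul ha0 hu0, hw_ord_algebraMap, zero_add]
    omega

/-! ### The kernel of `φ` -/

variable (φ : Pic0 K F →+ Pic0 k Fb)
  (hφ : ∀ (D : Divisor K F) (hD : D ∈ Divisor.degZero (K := K) (F := F)),
    ∃ hD' : Finsupp.mapDomain red D ∈ Divisor.degZero (K := k) (F := Fb),
      φ (Pic0.mk ⟨D, hD⟩) = Pic0.mk ⟨Finsupp.mapDomain red D, hD'⟩)

include hdiv hφ in
/-- `φ` is the reduction homomorphism of `Red/Cor.lean`. -/
theorem s27h_s3_phi_eq (c : Pic0 K F) :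
    φ c = s27r6_pic0Hom R h red hdiv (s27r_hcu R h) c := by
  obtain ⟨⟨D, hD⟩, rfl⟩ := Pic0.mk_surjective c
  obtain ⟨hD', he⟩ := hφ D hD
  rw [he, s27r6_pic0Hom_mk]
  rfl

include hdiv hφ in
/-- classes of divisors with trivial reduction lie in the kernel. -/
theorem s27h_s3_mem_ker {D : Divisor K F} (hD : D ∈ Divisor.degZero (K := K) (F := F))
    (hred : Finsupp.mapDomain red D = 0) : Pic0.mk ⟨D, hD⟩ ∈ φ.ker := by
  rw [AddMonoidHom.mem_ker]
  obtain ⟨hD', he⟩ := hφ D hD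
  rw [he, s27h_s3_mk_eq_zero_iff, hred]
  exact (Divisor.principal (K := k) (F := Fb)).zero_mem

include hdiv hφ in
/-- **every class of the kernel of reduction is `[E - E0]`** with `E ≥ 0`, `red_* E = red_* E0`. -/
theorem s27h_s3_ker_repr (g : ℕ) (hgK : s27r_IsGenus K F g) (E0 : Divisor K F) (hE0 : 0 ≤ E0)
    (hdeg : Divisor.degree E0 = g)
    (hns : Module.finrank k ↥(riemannRochSpace (Finsupp.mapDomain red E0)) = 1)
    (c : Pic0 K F) (hc : c ∈ φ.ker) :
    ∃ (E : Divisor K F) (hE : E - E0 ∈ Divisor.degZero (K := K) (F := F)), 0 ≤ E ∧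
      Finsupp.mapDomain red E = Finsupp.mapDomain red E0 ∧ c = Pic0.mk ⟨E - E0, hE⟩ := by
  rw [AddMonoidHom.mem_ker, s27h_s3_phi_eq R h red hdiv φ hφ] at hc
  obtain ⟨D₀, hD₀, rfl, hred₀⟩ := s27r6_ker_repr R h red hdiv (s27r_hcu R h) c hc
  have hdegD : Divisor.degree (D₀ + E0) = g := by
    rw [map_add, hdeg, Divisor.mem_degZero.1 hD₀, zero_add]
  have hredD : Finsupp.mapDomain red (D₀ + E0) = Finsupp.mapDomain red E0 := by
    rw [Finsupp.mapDomain_add, hred₀, zero_add]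
  obtain ⟨-, E, hE, hredE, hpr, -⟩ := s27h_s3_unique R h red hdiv g hgK
    (Finsupp.mapDomain red E0) (s27r6_mapDomain_nonneg red hE0) hns (D₀ + E0) hdegD hredD
  have hEdeg : E - E0 ∈ Divisor.degZero (K := K) (F := F) := by
    rw [Divisor.mem_degZero, map_sub, hdeg,
      ← s27r6_degree_mapDomain red h.sepK h.sepk E, hredE,
      s27r6_degree_mapDomain red h.sepK h.sepk E0, hdeg, sub_self]
  refine ⟨E, hEdeg, hE, hredE, ?_⟩
  rw [s27h_s3_mk_eq_iff]
  have : E - E0 - D₀ = E - (D₀ + E0) := by abel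
  rw [this]
  exact hpr

/-! ### (3b) -/

include hdiv hφ in
/-- **(3b)**: multiplication by `l` is bijective on the kernel of reduction, given (INJ) and
(SURJ) on `U = {E ≥ 0 : red_* E = red_* E0}`. -/
theorem s27h_s3_bijective (g : ℕ) (hgK : s27r_IsGenus K F g) (E0 : Divisor K F) (hE0 : 0 ≤ E0)
    (hdeg : Divisor.degree E0 = g)
    (hns : Module.finrank k ↥(riemannRochSpace (Finsupp.mapDomain red E0)) = 1) (l : ℕ)
    (hINJ : ∀ E : Divisor K F, 0 ≤ E → Finsupp.mapDomain red E = Finsupp.mapDomain red E0 →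
      Divisor.IsPrincipal (l • E - l • E0) → E = E0)
    (hSURJ : ∀ E' : Divisor K F, 0 ≤ E' → Finsupp.mapDomain red E' = Finsupp.mapDomain red E0 →
      ∃ E : Divisor K F, 0 ≤ E ∧ Finsupp.mapDomain red E = Finsupp.mapDomain red E0 ∧
        Divisor.IsPrincipal (l • E - ((l : ℤ) - 1) • E0 - E')) :
    Function.Bijective (fun c : φ.ker => l • c) := by
  constructor
  · -- injectivity
    have hker : ∀ c : φ.ker, l • c = 0 → c = 0 := by
      rintro ⟨c, hc⟩ hlc
      obtain ⟨E, hEdeg, hE, hredE, rfl⟩ :=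
        s27h_s3_ker_repr R h red hdiv φ hφ g hgK E0 hE0 hdeg hns c hc
      have hlc' : l • Pic0.mk ⟨E - E0, hEdeg⟩ = 0 := by
        have := congrArg Subtype.val hlc
        simpa using this
      rw [s27h_s3_nsmul_mk, s27h_s3_mk_eq_zero_iff, smul_sub] at hlc'
      have hEE0 := hINJ E hE hredE hlc'
      apply Subtype.ext
      show Pic0.mk ⟨E - E0, hEdeg⟩ = 0
      rw [s27h_s3_mk_eq_zero_iff, hEE0, sub_self]
      exact (Divisor.principal (K := K) (F := F)).zero_mem
    intro c c' hcc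
    have h0 : l • (c - c') = 0 := by
      have h1 : l • (c - c') = l • c - l • c' := nsmul_sub c c' l
      rw [h1]
      exact sub_eq_zero.2 hcc
    exact sub_eq_zero.1 (hker _ h0)
  · -- surjectivity
    rintro ⟨c', hc'⟩
    obtain ⟨E', hE'deg, hE', hredE', rfl⟩ :=
      s27h_s3_ker_repr R h red hdiv φ hφ g hgK E0 hE0 hdeg hns c' hc'
    obtain ⟨E, hE, hredE, hpr⟩ := hSURJ E' hE' hredE'
    have hEdeg : E - E0 ∈ Divisor.degZero (K := K) (F := F) := by
      rw [Divisor.mem_degZero, map_sub, hdeg,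
        ← s27r6_degree_mapDomain red h.sepK h.sepk E, hredE,
        s27r6_degree_mapDomain red h.sepK h.sepk E0, hdeg, sub_self]
    have hmem : Pic0.mk ⟨E - E0, hEdeg⟩ ∈ φ.ker :=
      s27h_s3_mem_ker R h red hdiv φ hφ hEdeg (by
        rw [s27r6_mapDomain_sub, hredE, sub_self])
    refine ⟨⟨Pic0.mk ⟨E - E0, hEdeg⟩, hmem⟩, ?_⟩
    apply Subtype.ext
    show l • Pic0.mk ⟨E - E0, hEdeg⟩ = Pic0.mk ⟨E' - E0, hE'deg⟩
    rw [s27h_s3_nsmul_mk, s27h_s3_mk_eq_iff]
    obtain ⟨w, hw0, hw⟩ := hpr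
    refine ⟨w⁻¹, inv_ne_zero hw0, fun v => ?_⟩
    rw [Place.ord_inv, ← hw v]
    simp only [Finsupp.sub_apply, Finsupp.smul_apply, smul_eq_mul, nsmul_eq_mul]
    ring

end Fermat.Agent.S27
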