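import Fermat.Agent.S27.Hens.MvHensel

/-!
# S27 / (HENS): the Jacobian criterion through dual numbers

`s27h_isUnit_det_of_tangent`: for a square system `G` over a valuation subring `O` with residue
field `k`, the Jacobian determinant at `a` is a unit as soon as the only first-order deformation
`a + ε v` (`v ∈ k^N`, `ε² = 0`) which leaves all values `G_i` unchanged is `v = 0`.
-/

set_option autoImplicit false

namespace Fermat.Agent.S27

open IsLocalRing DualNumber

variable {K : Type*} [Field K] (O : ValuationSubring K)

/-- the map `O → k → k[ε]` -/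
noncomputable def s27h_phi : O →+* (ResidueField O)[ε] :=
  (algebraMap (ResidueField O) (ResidueField O)[ε]).comp (residue O)

theorem s27h_eps_mul_inl_eq_zero {k : Type*} [Field k] {y : k}
    (h : (ε : k[ε]) * algebraMap k k[ε] y = 0) : y = 0 := by
  have := congrArg TrivSqZeroExt.snd h
  simpa [DualNumber.snd_mul, TrivSqZeroExt.algebraMap_eq_inl] using this

theorem s27h_isUnit_det_of_tangent {N : ℕ} (G : Fin N → MvPolynomial (Fin N) O) (a : Fin N → O)
    (h : ∀ v : Fin N → ResidueField O,
      (∀ i, MvPolynomial.eval₂ (s27h_phi O)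
          (fun j => s27h_phi O (a j) + ε * algebraMap (ResidueField O) (ResidueField O)[ε] (v j))
          (G i) = s27h_phi O (MvPolynomial.eval a (G i))) → v = 0) :
    IsUnit (Matrix.det (Matrix.of fun i j =>
      MvPolynomial.eval a (MvPolynomial.pderiv j (G i)))) := by
  classical
  set J : Matrix (Fin N) (Fin N) O :=
    Matrix.of fun i j => MvPolynomial.eval a (MvPolynomial.pderiv j (G i)) with hJ
  by_contra hnu
  have hm : J.det ∈ maximalIdeal O := by rwa [mem_maximalIdeal, mem_nonunits_iff]
  have hdet : ((residue O).mapMatrix J).det = 0 := by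
    rw [← RingHom.map_det]
    exact (residue_eq_zero_iff _).mpr hm
  obtain ⟨v, hv0, hv⟩ := Matrix.exists_mulVec_eq_zero_iff.mpr hdet
  apply hv0
  apply h
  intro i
  set φ := s27h_phi O with hφ
  set ι := algebraMap (ResidueField O) (ResidueField O)[ε] with hι
  obtain ⟨w, hw⟩ := s27h_taylor (MvPolynomial.map φ (G i)) (fun j => φ (a j)) (fun j => ι (v j)) ε
  rw [MvPolynomial.eval_map, MvPolynomial.eval_map] at hw
  rw [hw]
  have hε2 : (ε : (ResidueField O)[ε]) ^ 2 = 0 := by rw [pow_two, DualNumber.eps_mul_eps]
  have h1 : MvPolynomial.eval₂ φ (fun j => φ (a j)) (G i) = φ (MvPolynomial.eval a (G i)) := by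
    have := MvPolynomial.eval₂_comp_left φ (RingHom.id O) a (G i)
    rw [RingHom.comp_id] at this
    exact this.symm
  have h2 : ∑ j, MvPolynomial.eval (fun j => φ (a j))
      (MvPolynomial.pderiv j (MvPolynomial.map φ (G i))) * ι (v j) = 0 := by
    have h3 : ∀ j, MvPolynomial.eval (fun j => φ (a j))
        (MvPolynomial.pderiv j (MvPolynomial.map φ (G i))) = ι (residue O (J i j)) := by
      intro j
      rw [MvPolynomial.pderiv_map, MvPolynomial.eval_map]
      have := MvPolynomial.eval₂_comp_left φ (RingHom.id O) a (MvPolynomial.pderiv j (G i))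
      rw [RingHom.comp_id] at this
      exact this.symm
    simp_rw [h3, ← map_mul, ← map_sum]
    have h4 := congrFun hv i
    simp only [Matrix.mulVec, dotProduct, RingHom.mapMatrix_apply, Matrix.map_apply,
      Pi.zero_apply] at h4
    rw [h4, map_zero]
  rw [h1, h2, mul_zero, add_zero, hε2, zero_mul, add_zero]

end Fermat.Agent.S27
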