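import Mathlib

/-!
# S27 / (HENS), cell H1a: first-order Taylor expansion of a multivariate polynomial

`s27h_taylor`: `p (b + d u) = p b + d * Σ_j (∂_j p)(b) u_j + d^2 * w` for some `w`.
-/

set_option autoImplicit false

namespace Fermat.Agent.S27

open MvPolynomial

variable {R : Type*} [CommRing R] {σ : Type*} [Fintype σ] [DecidableEq σ]

/-- First-order Taylor expansion with an explicit quadratic remainder. -/
theorem s27h_taylor (p : MvPolynomial σ R) (b u : σ → R) (d : R) :
    ∃ w : R, eval (fun j => b j + d * u j) p =
      eval b p + d * ∑ j, eval b (pderiv j p) * u j + d ^ 2 * w := by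
  induction p using MvPolynomial.induction_on with
  | C a => exact ⟨0, by simp⟩
  | add p q hp hq =>
    obtain ⟨w1, h1⟩ := hp
    obtain ⟨w2, h2⟩ := hq
    refine ⟨w1 + w2, ?_⟩
    simp only [map_add, h1, h2, add_mul, Finset.sum_add_distrib]
    ring
  | mul_X p i hp =>
    obtain ⟨w, h⟩ := hp
    refine ⟨w * b i + (∑ j, eval b (pderiv j p) * u j) * u i + d * w * u i, ?_⟩
    have hsum : ∑ j, eval b (pderiv j (p * X i)) * u j =
        (∑ j, eval b (pderiv j p) * u j) * b i + eval b p * u i := by
      have : ∀ j, eval b (pderiv j (p * X i)) * u j =
          (eval b (pderiv j p) * u j) * b i + (if j = i then eval b p * u i else 0) := by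
        intro j
        rw [Derivation.leibniz, pderiv_X]
        by_cases hji : j = i
        · subst hji
          simp
          ring
        · simp [hji, Pi.single_apply, Ne.symm hji]
          ring
      simp only [this, Finset.sum_add_distrib, Finset.sum_mul, Finset.sum_ite_eq', Finset.mem_univ,
        if_true]
    rw [hsum]
    simp only [map_mul, eval_X, h]
    ring

end Fermat.Agent.S27
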