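/-
S27 / (HENS), leaf H9-FF (helper20): **the trace detects the pole orders at the points `Pb_i`**.
Prefix `s27htp_`.

`Fb / k` a function field over an algebraically closed field (any characteristic), `xb` a separating
generator, `Pb_1, …, Pb_g` places at which `xb` is regular and unramified with pairwise distinct
values `a_i` (`ord_{Pb_i} (xb - a_i) = 1`), `Eb0 = ∑ Pb_i`, `eb0 = ∏ (X - a_i)`.
If `dh ∈ L(m · Eb0)` and `eb0(xb) · (Tr_{Fb/k(xb)} dh - c)` is a polynomial in `xb`, then
`dh ∈ L(Eb0)`: by the trace lemma (`s27h_trace_pole`, H7) a pole of order `j ≥ 2` of `dh` at `Pb_i`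
would give a pole of order `j` of `Tr dh` at `xb = a_i`, while `c + q(xb) / eb0(xb)` has at most a
simple pole there.  With non-speciality (`l(Eb0) = 1`) `dh` is a constant.

This is the function-field input of Step 5 (the Jacobian of the system is a unit).
-/
import Mathlib
import Fermat.Agent.S27.Hens.Trace
import Fermat.Agent.JT3.Riemann.Main

set_option autoImplicit false
set_option linter.unusedSectionVars false
set_option linter.unusedVariables false
set_option linter.style.haveILetI false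

namespace Fermat.Agent.S27

open AlgebraicCurve IntermediateField Polynomial
open Fermat.Agent.S24 Fermat.Agent.JT3

universe u v w

section PlaceLemmas

variable {K : Type u} {F : Type v} [Field K] [Field F] [Algebra K F]

/-- if `x - a` vanishes at `w` then `x - b` is a unit at `w` for every constant `b ≠ a`. -/
theorem s27htp_ord_sub_other (w : Place K F) {x : F} {a b : K} (hab : a ≠ b)
    (h : 0 < w.ord (x - algebraMap K F a)) :
    x - algebraMap K F b ≠ 0 ∧ w.ord (x - algebraMap K F b) = 0 := by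
  have hc : algebraMap K F (a - b) ≠ 0 := by
    rw [Ne, map_eq_zero]
    exact sub_ne_zero.2 hab
  have h0 : x - algebraMap K F a ≠ 0 := by
    intro h0
    rw [h0, Place.ord_zero] at h
    exact lt_irrefl _ h
  have hdec : x - algebraMap K F b = algebraMap K F (a - b) + (x - algebraMap K F a) := by
    rw [map_sub]
    ring
  have hlt : w.ord (algebraMap K F (a - b)) < w.ord (x - algebraMap K F a) := by
    rw [hw_ord_algebraMap]
    exact h
  have hord := hw_ord_add_eq_of_lt w hc h0 hlt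
  rw [← hdec, hw_ord_algebraMap] at hord
  refine ⟨?_, hord⟩
  intro hz
  rw [hdec] at hz
  have h1 : algebraMap K F (a - b) = -(x - algebraMap K F a) := eq_neg_of_add_eq_zero_left hz
  rw [h1, hw_ord_neg] at hlt
  exact lt_irrefl _ hlt

/-- `x` is regular wherever `x - a` vanishes. -/
theorem s27htp_mem_of_ord_sub_pos (w : Place K F) {x : F} {a : K}
    (h : 0 < w.ord (x - algebraMap K F a)) : x ∈ w.toValuationSubring := by
  have h1 := rt_mem_of_ord_pos w h
  have h2 : x = (x - algebraMap K F a) + algebraMap K F a := by ring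
  rw [h2]
  exact add_mem h1 (w.algebraMap_mem' a)

end PlaceLemmas

section Abstract

variable {k : Type u} {L : Type v} {Fb : Type w} [Field k] [Field L] [Field Fb]
  [Algebra k L] [Algebra k Fb] [Algebra L Fb] [IsScalarTower k L Fb]
variable [IsAlgClosed k]
variable [FiniteDimensional L Fb] [Algebra.IsSeparable L Fb] [HasPrincipalDivisors k Fb]

/-- **the core**: if `dh` is regular outside the `Pb_i` and `eb0(x) (Tr dh - c)` is a polynomial in
`x`, then `dh` has at most a simple pole at each `Pb_i`. -/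
theorem s27htp_ord_ge_of_trace (xL : L) [Algebra.IsAlgebraic k⟮xL⟯ L]
    (xb : Fb) [Algebra.IsAlgebraic k⟮xb⟯ Fb] (hxL : algebraMap L Fb xL = xb)
    {g : ℕ} (Pb : Fin g → Place k Fb) (a : Fin g → k) (ha : Function.Injective a)
    (hPa : ∀ i, (Pb i).ord (xb - algebraMap k Fb (a i)) = 1)
    (dh : Fb) (hreg : ∀ w : Place k Fb, (∀ i, w ≠ Pb i) → dh = 0 ∨ 0 ≤ w.ord dh)
    (c : k) (q : k[X])
    (heq : Algebra.trace L Fb dh * aeval xL (∏ i, (X - C (a i))) =
      algebraMap k L c * aeval xL (∏ i, (X - C (a i))) + aeval xL q) (i : Fin g) :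
    dh = 0 ∨ -1 ≤ (Pb i).ord dh := by
  classical
  by_cases hdh0 : dh = 0
  · exact Or.inl hdh0
  right
  by_contra hlt
  rw [not_le] at hlt
  -- the pole order `j ≥ 2`
  obtain ⟨j, hj⟩ : ∃ j : ℕ, (Pb i).ord dh = -(j : ℤ) := ⟨(-(Pb i).ord dh).toNat, by omega⟩
  have hj2 : 2 ≤ j := by omega
  set v : Place k L := (Pb i).restrict L with hv
  have hw : Pb i ∈ v.fiber Fb := Place.restrict_mem_fiber _
  have hxa : ∀ b : k, algebraMap L Fb (xL - algebraMap k L b) = xb - algebraMap k Fb b := by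
    intro b
    rw [map_sub, hxL, ← IsScalarTower.algebraMap_apply]
  -- `e = 1` and `ord_v (x - a_i) = 1`
  have hres := (Pb i).ord_restrict (F := L) (xL - algebraMap k L (a i))
  rw [hxa, hPa i] at hres
  have hepos : 0 < Place.ramificationIndex (F := L) (Pb i) := (Pb i).ramificationIndex_pos (F := L)
  have he : Place.ramificationIndex (F := L) (Pb i) = 1 := by
    have h1 : ((Place.ramificationIndex (F := L) (Pb i) : ℕ) : ℤ) = 1 :=
      Int.eq_one_of_mul_eq_one_right (by omega) hres.symm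
    exact_mod_cast h1
  have hn : v.ord (xL - algebraMap k L (a i)) = 1 := by
    rw [he] at hres
    simpa using hres.symm
  -- the other places over `v` are not among the `Pb_j`
  have hfib : ∀ w' ∈ v.fiber Fb, w' ≠ Pb i → 0 ≤ w'.ord dh := by
    intro w' hw' hne
    refine (hreg w' fun j' hj' => ?_).resolve_left hdh0
    have hji : j' ≠ i := by
      rintro rfl
      exact hne hj'
    have hw'v : w'.restrict L = v := Place.mem_fiber.mp hw'
    have h1 := w'.ord_restrict (F := L) (xL - algebraMap k L (a i))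
    rw [hxa, hw'v, hn, mul_one] at h1
    have h2 : 0 < w'.ord (xb - algebraMap k Fb (a i)) := by
      rw [h1]
      have := w'.ramificationIndex_pos (F := L)
      omega
    have h3 := (s27htp_ord_sub_other w' (fun h => hji (ha h).symm) h2 (b := a j')).2
    rw [hj', hPa j'] at h3
    exact one_ne_zero h3
  obtain ⟨hT0, hTord⟩ := s27h_trace_pole xL xb v hw he (j := j) (by omega) hj hfib
  -- the right-hand side is regular at `v`
  have hxmem : xL ∈ v.toValuationSubring :=
    s27htp_mem_of_ord_sub_pos v (a := a i) (by rw [hn]; exact one_pos)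
  have hRmem : algebraMap k L c * aeval xL (∏ i, (X - C (a i))) + aeval xL q ∈
      v.toValuationSubring :=
    add_mem (mul_mem (v.algebraMap_mem' c) (rt_aeval_mem v hxmem _)) (rt_aeval_mem v hxmem q)
  -- the order of `eb0(x)` at `v` is `1`
  have hE : aeval xL (∏ i, (X - C (a i))) = ∏ i', (xL - algebraMap k L (a i')) := by
    rw [map_prod]
    refine Finset.prod_congr rfl fun i' _ => ?_
    rw [map_sub, aeval_X, aeval_C]
  have hfac : ∀ i', xL - algebraMap k L (a i') ≠ 0 ∧
      v.ord (xL - algebraMap k L (a i')) = if i' = i then 1 else 0 := by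
    intro i'
    by_cases hi' : i' = i
    · rw [hi', if_pos rfl]
      refine ⟨?_, hn⟩
      intro h0
      rw [h0, Place.ord_zero] at hn
      exact zero_ne_one hn
    · rw [if_neg hi']
      exact s27htp_ord_sub_other v (fun h => hi' (ha h).symm) (by rw [hn]; exact one_pos)
  have hE0 : aeval xL (∏ i, (X - C (a i))) ≠ 0 := by
    rw [hE]
    exact Finset.prod_ne_zero_iff.mpr fun i' _ => (hfac i').1
  have hEord : v.ord (aeval xL (∏ i, (X - C (a i)))) = 1 := by
    rw [hE, ptw_ord_prod v _ _ fun i' _ => (hfac i').1, Finset.sum_congr rfl fun i' _ => (hfac i').2,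
      Finset.sum_ite_eq' Finset.univ i, if_pos (Finset.mem_univ _)]
  have hL0 : Algebra.trace L Fb dh * aeval xL (∏ i, (X - C (a i))) ≠ 0 := mul_ne_zero hT0 hE0
  have hLord : v.ord (Algebra.trace L Fb dh * aeval xL (∏ i, (X - C (a i)))) = -(j : ℤ) + 1 := by
    rw [v.ord_mul hT0 hE0, hTord, hEord]
  rw [← heq] at hRmem
  have := (hw_mem_iff_ord_nonneg v hL0).mp hRmem
  rw [hLord] at this
  omega

/-- **H9-FF (abstract base field)**: `dh ∈ L(m · Eb0)` and `eb0(x) (Tr dh - c) ∈ k[x]` imply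
`dh ∈ L(Eb0)`. -/
theorem s27htp_mem_L_of_trace (xL : L) [Algebra.IsAlgebraic k⟮xL⟯ L]
    (xb : Fb) [Algebra.IsAlgebraic k⟮xb⟯ Fb] (hxL : algebraMap L Fb xL = xb)
    {g : ℕ} (Pb : Fin g → Place k Fb) (a : Fin g → k) (ha : Function.Injective a)
    (hPa : ∀ i, (Pb i).ord (xb - algebraMap k Fb (a i)) = 1)
    (m : ℕ) (dh : Fb)
    (hdh : dh ∈ riemannRochSpace (m • ∑ i, Finsupp.single (Pb i) (1 : ℤ)))
    (c : k) (q : k[X])
    (heq : Algebra.trace L Fb dh * aeval xL (∏ i, (X - C (a i))) =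
      algebraMap k L c * aeval xL (∏ i, (X - C (a i))) + aeval xL q) :
    dh ∈ riemannRochSpace (∑ i, Finsupp.single (Pb i) (1 : ℤ)) := by
  classical
  rw [mem_riemannRochSpace_iff] at hdh ⊢
  have hEb : ∀ w : Place k Fb, (∀ i, w ≠ Pb i) →
      (∑ i, Finsupp.single (Pb i) (1 : ℤ)) w = 0 := by
    intro w hw
    rw [Finsupp.finsetSum_apply]
    refine Finset.sum_eq_zero fun i _ => ?_
    rw [Finsupp.single_apply, if_neg (fun h => hw i h.symm)]
  have hreg : ∀ w : Place k Fb, (∀ i, w ≠ Pb i) → dh = 0 ∨ 0 ≤ w.ord dh := by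
    intro w hw
    rcases hdh w with h | h
    · exact Or.inl h
    · right
      rw [Finsupp.smul_apply, hEb w hw, smul_zero, neg_zero] at h
      exact h
  intro w
  by_cases hw : ∀ i, w ≠ Pb i
  · rw [hEb w hw, neg_zero]
    exact hreg w hw
  · rw [not_forall] at hw
    obtain ⟨i, hi⟩ := hw
    rw [not_not] at hi
    subst hi
    rcases s27htp_ord_ge_of_trace xL xb hxL Pb a ha hPa dh hreg c q heq i with h | h
    · exact Or.inl h
    · right
      have h1 : (1 : ℤ) ≤ (∑ i', Finsupp.single (Pb i') (1 : ℤ)) (Pb i) := by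
        rw [Finsupp.finsetSum_apply]
        have h2 : (Finsupp.single (Pb i) (1 : ℤ)) (Pb i) ≤
            ∑ i', (Finsupp.single (Pb i') (1 : ℤ)) (Pb i) :=
          Finset.single_le_sum (f := fun i' => (Finsupp.single (Pb i') (1 : ℤ)) (Pb i))
            (fun i' _ => by
              show 0 ≤ (Finsupp.single (Pb i') (1 : ℤ)) (Pb i)
              rw [Finsupp.single_apply]
              split_ifs <;> norm_num) (Finset.mem_univ i)
        rwa [Finsupp.single_eq_same] at h2
      omega

end Abstract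

section Concrete

variable {k : Type u} {Fb : Type v} [Field k] [Field Fb] [Algebra k Fb] [IsAlgClosed k]

/-- the generator of `k(x)` generates it. -/
theorem s27htp_adjoin_gen_eq_top (xb : Fb) :
    IntermediateField.adjoin k {AdjoinSimple.gen k xb} = ⊤ := by
  apply IntermediateField.map_injective (k⟮xb⟯.val)
  rw [IntermediateField.adjoin_map, Set.image_singleton]
  have h1 : k⟮xb⟯.val (AdjoinSimple.gen k xb) = xb := rfl
  rw [h1]
  ext y
  constructor
  · intro hy
    exact ⟨⟨y, hy⟩, trivial, rfl⟩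
  · rintro ⟨z, _, rfl⟩
    exact z.2

theorem s27htp_isAlgebraic_gen (xb : Fb) :
    Algebra.IsAlgebraic ↥(k⟮AdjoinSimple.gen k xb⟯) ↥k⟮xb⟯ := by
  constructor
  intro y
  have hy : y ∈ k⟮AdjoinSimple.gen k xb⟯ := by
    rw [s27htp_adjoin_gen_eq_top]
    trivial
  exact isAlgebraic_algebraMap (⟨y, hy⟩ : ↥(k⟮AdjoinSimple.gen k xb⟯))

/-- **H9-FF**: `dh ∈ L(m · Eb0)` and `eb0(xb) (Tr_{Fb/k(xb)} dh - c) ∈ k[xb]` imply `dh ∈ L(Eb0)`. -/
theorem s27htp_mem_L_of_trace' {xb : Fb} (hx : rt_IsSepGen k xb)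
    {g : ℕ} (Pb : Fin g → Place k Fb) (a : Fin g → k) (ha : Function.Injective a)
    (hPa : ∀ i, (Pb i).ord (xb - algebraMap k Fb (a i)) = 1)
    (m : ℕ) (dh : Fb)
    (hdh : dh ∈ riemannRochSpace (m • ∑ i, Finsupp.single (Pb i) (1 : ℤ)))
    (c : k) (q : k[X])
    (heq : algebraMap ↥k⟮xb⟯ Fb (Algebra.trace ↥k⟮xb⟯ Fb dh) * aeval xb (∏ i, (X - C (a i))) =
      algebraMap k Fb c * aeval xb (∏ i, (X - C (a i))) + aeval xb q) :
    dh ∈ riemannRochSpace (∑ i, Finsupp.single (Pb i) (1 : ℤ)) := by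
  haveI : FiniteDimensional ↥k⟮xb⟯ Fb := hx.2.1
  haveI : Algebra.IsSeparable ↥k⟮xb⟯ Fb := hx.2.2
  haveI : HasPrincipalDivisors k Fb := rt_hasPrincipalDivisors hx
  haveI : Algebra.IsAlgebraic ↥(k⟮AdjoinSimple.gen k xb⟯) ↥k⟮xb⟯ := s27htp_isAlgebraic_gen xb
  haveI : Algebra.IsAlgebraic ↥k⟮xb⟯ Fb := Algebra.IsAlgebraic.of_finite _ _
  refine s27htp_mem_L_of_trace (AdjoinSimple.gen k xb) xb rfl Pb a ha hPa m dh hdh c q ?_
  apply (algebraMap ↥k⟮xb⟯ Fb).injective
  have hae : ∀ p : k[X], algebraMap ↥k⟮xb⟯ Fb (aeval (AdjoinSimple.gen k xb) p) = aeval xb p := by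
    intro p
    rw [← aeval_algebraMap_apply]
    rfl
  rw [map_add, map_mul, map_mul, hae, hae, ← IsScalarTower.algebraMap_apply]
  exact heq

/-- **H9-FF with non-speciality**: if moreover `l(Eb0) = 1`, then `dh` is a constant. -/
theorem s27htp_const_of_trace {xb : Fb} (hx : rt_IsSepGen k xb)
    {g : ℕ} (Pb : Fin g → Place k Fb) (a : Fin g → k) (ha : Function.Injective a)
    (hPa : ∀ i, (Pb i).ord (xb - algebraMap k Fb (a i)) = 1)
    (hns : Module.finrank k ↥(riemannRochSpace (∑ i, Finsupp.single (Pb i) (1 : ℤ))) = 1)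
    (m : ℕ) (dh : Fb)
    (hdh : dh ∈ riemannRochSpace (m • ∑ i, Finsupp.single (Pb i) (1 : ℤ)))
    (c : k) (q : k[X])
    (heq : algebraMap ↥k⟮xb⟯ Fb (Algebra.trace ↥k⟮xb⟯ Fb dh) * aeval xb (∏ i, (X - C (a i))) =
      algebraMap k Fb c * aeval xb (∏ i, (X - C (a i))) + aeval xb q) :
    ∃ c0 : k, dh = algebraMap k Fb c0 := by
  classical
  have hmem := s27htp_mem_L_of_trace' hx Pb a ha hPa m dh hdh c q heq
  have h1 : (1 : Fb) ∈ riemannRochSpace (∑ i, Finsupp.single (Pb i) (1 : ℤ)) := by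
    rw [mem_riemannRochSpace_iff]
    intro w
    right
    rw [Place.ord_one, Finsupp.finsetSum_apply]
    have : 0 ≤ ∑ i, (Finsupp.single (Pb i) (1 : ℤ)) w := Finset.sum_nonneg fun i _ => by
      rw [Finsupp.single_apply]
      split_ifs <;> norm_num
    omega
  have hne : (⟨1, h1⟩ : ↥(riemannRochSpace (∑ i, Finsupp.single (Pb i) (1 : ℤ)))) ≠ 0 := by
    intro h0
    exact one_ne_zero (congrArg Subtype.val h0)
  obtain ⟨c0, hc0⟩ := (finrank_eq_one_iff_of_nonzero' _ hne).mp hns ⟨dh, hmem⟩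
  refine ⟨c0, ?_⟩
  have h2 := congrArg Subtype.val hc0
  simp only [Submodule.coe_smul] at h2
  rw [← h2, Algebra.smul_def, mul_one]

end Concrete

end Fermat.Agent.S27
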