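/-
S27 / block (HENS), leaf (L-C) U-STRUCT (helper2).  Prefix `s27hu_`, namespace `Fermat.Agent.S27`.

An effective divisor `E` whose push-forward under `red` is the reduced divisor `Σ_i Pb_i`
(`Pb` injective) is itself reduced: `E = Σ_i Q_i` with `red (Q_i) = Pb_i`.
Purely combinatorial (`Finsupp`).
-/
import Mathlib
import Fermat.Prelude.Def_AlgebraicCurve_DivisorClassGroup

set_option autoImplicit false

namespace Fermat.Agent.S27

open Finset AlgebraicCurve
open scoped Classical

theorem s27hu_mapDomain_apply {α β : Type*} (f : α → β) (E : α →₀ ℤ) (b : β) :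
    Finsupp.mapDomain f E b = ∑ a ∈ E.support, if f a = b then E a else 0 := by
  classical
  rw [Finsupp.mapDomain, Finsupp.sum_apply, Finsupp.sum]
  refine Finset.sum_congr rfl fun a _ => ?_
  rw [Finsupp.single_apply]

theorem s27hu_sum_single_apply {β : Type*} {g : ℕ} (Pb : Fin g → β) (b : β) :
    (∑ i, Finsupp.single (Pb i) (1 : ℤ)) b = ∑ i, if Pb i = b then (1 : ℤ) else 0 := by
  classical
  rw [Finsupp.finsetSum_apply]
  refine Finset.sum_congr rfl fun i _ => ?_
  rw [Finsupp.single_apply]

theorem s27hu_sum_single_apply_self {β : Type*} {g : ℕ} (Pb : Fin g → β)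
    (hPb : Function.Injective Pb) (i : Fin g) :
    (∑ j, Finsupp.single (Pb j) (1 : ℤ)) (Pb i) = 1 := by
  classical
  rw [s27hu_sum_single_apply, Finset.sum_eq_single i]
  · rw [if_pos rfl]
  · intro j _ hji
    rw [if_neg (fun h => hji (hPb h))]
  · intro h
    exact absurd (Finset.mem_univ i) h

theorem s27hu_sum_single_apply_of_notMem {β : Type*} {g : ℕ} (Pb : Fin g → β) {b : β}
    (hb : ∀ i, Pb i ≠ b) : (∑ j, Finsupp.single (Pb j) (1 : ℤ)) b = 0 := by
  classical
  rw [s27hu_sum_single_apply]
  exact Finset.sum_eq_zero fun i _ => if_neg (hb i)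

/-- the abstract statement -/
theorem s27hu_struct_abs {α β : Type*} (red : α → β) {g : ℕ} (Pb : Fin g → β)
    (hPb : Function.Injective Pb) (E : α →₀ ℤ) (hE : 0 ≤ E)
    (hEr : Finsupp.mapDomain red E = ∑ i, Finsupp.single (Pb i) (1 : ℤ)) :
    ∃ Q : Fin g → α, (∀ i, red (Q i) = Pb i) ∧ E = ∑ i, Finsupp.single (Q i) (1 : ℤ) := by
  classical
  have hE0 : ∀ a, 0 ≤ E a := fun a => hE a
  have hpos : ∀ a ∈ E.support, 1 ≤ E a := by
    intro a ha
    have h1 := hE0 a
    have h2 : E a ≠ 0 := Finsupp.mem_support_iff.mp ha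
    omega
  have hterm : ∀ (b : β) (a : α), 0 ≤ (if red a = b then E a else 0) := by
    intro b a
    split_ifs
    · exact hE0 a
    · exact le_refl _
  -- the fibre sums
  have hfib : ∀ b, ∑ a ∈ E.support, (if red a = b then E a else 0)
      = (∑ i, Finsupp.single (Pb i) (1 : ℤ)) b := by
    intro b
    rw [← s27hu_mapDomain_apply, hEr]
  -- existence of a point of the support over each `Pb i`
  have hex : ∀ i, ∃ a ∈ E.support, red a = Pb i := by
    intro i
    by_contra hcon
    rw [not_exists] at hcon
    have h0 : ∑ a ∈ E.support, (if red a = Pb i then E a else 0) = 0 := by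
      refine Finset.sum_eq_zero fun a ha => ?_
      rw [if_neg]
      intro h
      exact hcon a ⟨ha, h⟩
    rw [hfib, s27hu_sum_single_apply_self Pb hPb] at h0
    exact one_ne_zero h0
  choose Q hQsupp hQred using hex
  -- uniqueness and multiplicity one
  have hone : ∀ i, E (Q i) = 1 ∧ ∀ a ∈ E.support, red a = Pb i → a = Q i := by
    intro i
    have hs := hfib (Pb i)
    rw [s27hu_sum_single_apply_self Pb hPb] at hs
    have hsplit := Finset.add_sum_erase E.support
      (fun a => if red a = Pb i then E a else 0) (hQsupp i)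
    simp only [if_pos (hQred i)] at hsplit
    have hrest : 0 ≤ ∑ a ∈ E.support.erase (Q i), (if red a = Pb i then E a else 0) :=
      Finset.sum_nonneg fun a _ => hterm _ a
    have hQ1 := hpos (Q i) (hQsupp i)
    have hEQ : E (Q i) = 1 := by omega
    refine ⟨hEQ, fun a ha hra => ?_⟩
    by_contra hne
    have hmem : a ∈ E.support.erase (Q i) := Finset.mem_erase.mpr ⟨hne, ha⟩
    have hle : (if red a = Pb i then E a else 0)
        ≤ ∑ a ∈ E.support.erase (Q i), (if red a = Pb i then E a else 0) :=
      Finset.single_le_sum (f := fun a => if red a = Pb i then E a else 0)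
        (fun a _ => hterm _ a) hmem
    rw [if_pos hra] at hle
    have := hpos a ha
    omega
  -- every point of the support is some `Q i`
  have hall : ∀ a ∈ E.support, ∃ i, a = Q i := by
    intro a ha
    by_contra hcon
    rw [not_exists] at hcon
    have hb : ∀ i, Pb i ≠ red a := by
      intro i h
      exact hcon i ((hone i).2 a ha h.symm)
    have hs := hfib (red a)
    rw [s27hu_sum_single_apply_of_notMem Pb hb] at hs
    have hle : (if red a = red a then E a else 0)
        ≤ ∑ a' ∈ E.support, (if red a' = red a then E a' else 0) :=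
      Finset.single_le_sum (f := fun a' => if red a' = red a then E a' else 0)
        (fun a' _ => hterm _ a') ha
    rw [if_pos rfl, hs] at hle
    have := hpos a ha
    omega
  have hQinj : Function.Injective Q := by
    intro i j hij
    apply hPb
    rw [← hQred i, ← hQred j, hij]
  refine ⟨Q, hQred, ?_⟩
  ext a
  by_cases ha : a ∈ E.support
  · obtain ⟨i, rfl⟩ := hall a ha
    rw [(hone i).1, s27hu_sum_single_apply_self Q hQinj]
  · rw [Finsupp.notMem_support_iff.mp ha, s27hu_sum_single_apply_of_notMem]
    rintro i rfl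
    exact ha (hQsupp i)

/-- **(HENS) leaf (L-C) U-STRUCT.** -/
theorem s27hu_struct {K F k Fb : Type*} [Field K] [Field F] [Algebra K F] [Field k] [Field Fb]
    [Algebra k Fb] (red : Place K F → Place k Fb) {g : ℕ} (Pb : Fin g → Place k Fb)
    (hPb : Function.Injective Pb) (E : Divisor K F) (hE : 0 ≤ E)
    (hEr : Finsupp.mapDomain red E = ∑ i, Finsupp.single (Pb i) (1 : ℤ)) :
    ∃ Q : Fin g → Place K F, (∀ i, red (Q i) = Pb i) ∧
      E = ∑ i, Finsupp.single (Q i) (1 : ℤ) :=
  s27hu_struct_abs red Pb hPb E hE hEr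

end Fermat.Agent.S27
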