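/-
S27 / (HENS), glue leaf H8-a, one-call version (helper28; prefix `s27hw_`): the `O`-basis of
`L(D) ∩ V` together with the (INJ) form of the expansion, in the exact shape of the first conjuncts
of `s27h_solve`.
-/
import Mathlib
import Fermat.Agent.S27.Hens.WBasis

set_option autoImplicit false
set_option linter.unusedSectionVars false
set_option linter.style.haveILetI false

noncomputable section

namespace Fermat.Agent.S27

open AlgebraicCurve IntermediateField Polynomial Fermat.Agent.JT3 Fermat.Agent.S24 Module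

universe u v u' v'
variable {K : Type u} {F : Type v} [Field K] [Field F] [Algebra K F]
variable {k : Type u'} {Fb : Type v'} [Field k] [Field Fb] [Algebra k Fb]
variable [IsAlgClosed K] [IsAlgClosed k] (R : s27r_Red K F k Fb) {x : F} (h : s27r_Good R x)
  (red : Place K F → Place k Fb)
  (hdiv : ∀ (f : F) (hf : f ∈ R.V), R.r ⟨f, hf⟩ ≠ 0 →
      Finsupp.mapDomain red (rt_div h.sepK f) = rt_div h.sepk (R.r ⟨f, hf⟩))

include hdiv in
/-- **Step 4, the `O`-basis of `L(D) ∩ V`, with the (INJ) form**: every `f ∈ L(D) ∩ V` with `f̄ = 1`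
is `c_0 (1 + ∑ c_j w_j)` with `c_0 ≠ 0` and `c_j ∈ 𝔪`. -/
theorem s27hw_exists_basis_inj (D : Divisor K F) (hD : 0 ≤ D) (M : ℕ)
    (hlK : M + 1 ≤ finrank K ↥(riemannRochSpace D))
    (hlk : finrank k ↥(riemannRochSpace (Finsupp.mapDomain red D)) = M + 1) :
    ∃ (w : Fin M → F) (hwV : ∀ j, w j ∈ R.V),
      (∀ j, w j ∈ riemannRochSpace D) ∧
      (∀ j, R.r ⟨w j, hwV j⟩ ∈ riemannRochSpace (Finsupp.mapDomain red D)) ∧
      (∀ (a : k) (dc : Fin M → k),
        ∑ j, dc j • R.r ⟨w j, hwV j⟩ = algebraMap k Fb a → dc = 0) ∧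
      (∀ f ∈ riemannRochSpace D, ∀ hfV : f ∈ R.V, R.r ⟨f, hfV⟩ = 1 →
        ∃ (c : Fin M → ↥R.O) (c0 : K), (∀ j, R.r0 (c j) = 0) ∧ c0 ≠ 0 ∧
          f = algebraMap K F c0 * (1 + ∑ j, ((c j : ↥R.O) : K) • w j)) := by
  obtain ⟨w, hwV, hwL, hwb, hind, -, -, hexp⟩ := s27hw_exists_basis R h red hdiv D hD M hlK hlk
  refine ⟨w, hwV, hwL, hwb, hind, ?_⟩
  intro f hfL hfV hf1
  obtain ⟨c0, c, hf, hO⟩ := hexp f hfL
  obtain ⟨hc0, hc⟩ := hO hfV
  obtain ⟨h1, -, c', hc', hf'⟩ := s27hw_unit_form R w hwV hind ⟨c0, hc0⟩ (fun j => ⟨c j, hc j⟩)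
    hf hfV hf1
  refine ⟨c', c0, hc', ?_, hf'⟩
  rintro rfl
  have : (⟨0, hc0⟩ : R.O) = 0 := rfl
  rw [this, map_zero] at h1
  exact zero_ne_one h1

end Fermat.Agent.S27
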